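import Fermat.Agent.OrdinaryT.Parts

/-!
# The ordinary identity at level `M p`

Both norms carry the kernel of reduction at level `M p` into the one at level `M`, so a vector of
the kernel fixed by an element of nontrivial character is killed by both norms, hence zero:
`ordinary_part_bad` gives `σ (τ x - x) = ε(σ) (τ x - x)` on inertia for all parts at level `M p`.
-/

noncomputable section

open IsLocalRing AlgebraicCurve ModularCurve
open Fermat.Agent.Reduction Fermat.Agent.SemistableRed Fermat.Agent.EigenRep Fermat.Agent.HeckeModule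

namespace Fermat.Agent.OrdinaryT

local notation "Ω" => AlgebraicClosure ℚ
local notation "GQ" => (AlgebraicClosure ℚ) ≃ₐ[ℚ] (AlgebraicClosure ℚ)

variable {p : ℕ} [Fact p.Prime] {T : Set ℕ}

section Maps

variable {K K' : ℕ} [NeZero K] [NeZero K'] {k : Type*} [Field k] {κ : AwayPoly ℤ T →+* k}

/-- The subgroup spanned by equivariant images of a part is a part. -/
theorem IsPart.iSup_map (hpT : p ∈ T) (hKT : ∀ r : ℕ, r.Prime → r ∣ K → r ∈ T)
    (hKT' : ∀ r : ℕ, r.Prime → r ∣ K' → r ∈ T) {n : ℕ} {tbar : GQ → k}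
    {V : AddSubgroup (JZero K)} [Finite V] (hV : IsPart p κ n tbar V) {J : Type}
    (f : J → JZero K →+ JZero K') (hf : ∀ j (g : GQ) x, f j (g • x) = g • f j x) :
    IsPart p κ n tbar (⨆ j, V.map (f j)) ∧ (⨆ j, V.map (f j)) ≤ OrdinaryT.tors K' p n := by
  set U := ⨆ j, V.map (f j) with hU
  have htors : U ≤ OrdinaryT.tors K' p n := iSup_le fun j => by
    rintro _ ⟨x, hx, rfl⟩
    exact mem_tors.mpr (by rw [← map_nsmul, hV.tors x hx, map_zero])
  have hgal : ∀ (g : GQ), ∀ y ∈ U, g • y ∈ U := fun g y hy => by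
    refine AddSubgroup.iSup_induction (C := fun y => g • y ∈ U) _ hy (fun j y hy => ?_)
      (by rw [galois_zero]; exact zero_mem _) (fun a b ha hb => by rw [smul_add]; exact add_mem ha hb)
    obtain ⟨x, hx, rfl⟩ := hy
    exact AddSubgroup.mem_iSup_of_mem j ⟨g • x, hV.gal g x hx, hf j g x⟩
  have hact : ∀ (a : AwayPoly ℤ T) j, ∀ x ∈ V, f j (act K T a x) = act K' T a (f j x) :=
    fun a j x hx => act_intertwine hpT hKT hKT' (f j) (hf j) a (hV.tors x hx)
  have hmem : ∀ (a : AwayPoly ℤ T), ∀ y ∈ U, act K' T a y ∈ U := fun a y hy =>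
    act_mem hpT hKT' U (fun z hz => mem_tors.mp (htors hz)) hgal a hy
  have : Finite U := Finite.of_injective (fun x : U => (⟨x, htors x.2⟩ : OrdinaryT.tors K' p n))
    fun a b h => Subtype.ext (congrArg (fun t : OrdinaryT.tors K' p n => (t : JZero K')) h)
  refine ⟨⟨fun y hy => mem_tors.mp (htors hy), hgal, fun b hb y hy h0 => ?_, hmem, fun g => ?_⟩,
    htors⟩
  · -- surjective, hence injective
    let e : U → U := fun z => ⟨act K' T b z, hmem b z z.2⟩
    have hsurjV : ∀ x ∈ V, ∃ x' ∈ V, act K T b x' = x := fun x hx => by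
      let d : V → V := fun z => ⟨act K T b z, hV.hecke b z z.2⟩
      have hd : Function.Injective d := fun a c h => Subtype.ext (sub_eq_zero.mp (hV.inj b hb _
        (sub_mem a.2 c.2) (by rw [map_sub]; exact sub_eq_zero.mpr (congrArg Subtype.val h))))
      obtain ⟨x', hx'⟩ := (Finite.injective_iff_surjective.mp hd) ⟨x, hx⟩
      exact ⟨x', x'.2, congrArg Subtype.val hx'⟩
    have he : Function.Surjective e := by
      rintro ⟨z, hz⟩
      suffices ∃ z' ∈ U, act K' T b z' = z by
        obtain ⟨z', hz', he⟩ := this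
        exact ⟨⟨z', hz'⟩, Subtype.ext he⟩
      refine AddSubgroup.iSup_induction (C := fun z => ∃ z' ∈ U, act K' T b z' = z) _ hz
        (fun j z hz => ?_) ⟨0, zero_mem _, map_zero _⟩ ?_
      · obtain ⟨x, hx, rfl⟩ := hz
        obtain ⟨x', hx', rfl⟩ := hsurjV x hx
        exact ⟨f j x', AddSubgroup.mem_iSup_of_mem j ⟨x', hx', rfl⟩, (hact b j x' hx').symm⟩
      · rintro _ _ ⟨a, ha, rfl⟩ ⟨c, hc, rfl⟩
        exact ⟨a + c, add_mem ha hc, map_add _ _ _⟩
    exact congrArg Subtype.val ((Finite.injective_iff_surjective.mpr he)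
      (a₁ := ⟨y, hy⟩) (a₂ := 0) (Subtype.ext (h0.trans (map_zero _).symm)))
  · obtain ⟨a, ha, h⟩ := hV.quad g
    refine ⟨a, ha, fun y hy => ?_⟩
    refine AddSubgroup.iSup_induction
      (C := fun y => g • g • y - act K' T a (g • y) + (epsilonNat p n g : ℤ) • y = 0) _ hy
      (fun j y hy => ?_)
      (by rw [galois_zero, galois_zero, map_zero, zsmul_zero, sub_zero, add_zero])
      (fun b c hb hc => by
        rw [smul_add, smul_add, map_add, zsmul_add]
        linear_combination (norm := abel) hb + hc)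
    obtain ⟨x, hx, rfl⟩ := hy
    rw [← hf, ← hf, ← hact a j _ (hV.gal g x hx), ← map_zsmul, ← map_sub, ← map_add, h x hx,
      map_zero]

end Maps

variable {A : ValuationSubring Ω} {M : ℕ} [NeZero M] [NeZero p]
  [CharP (ResidueField A) p] [IsAlgClosed (ResidueField A)] (S : Setting A M p)

theorem powRed_w {i : Fin 2} {n : ℕ} {u : modularFunctionFieldBar (M * p)}
    (h : PowRed S.splitModel (1 - i) n u) : PowRed S.splitModel i n (S.w u) := by
  obtain ⟨c, y, hy, hc⟩ := exists_srep_of_powRed S h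
  refine powRed_of_srep S ((map_ne_zero _).mpr h.1) (c := c) hy ?_
  rw [S.side_w]
  exact hc

/-- The first norm carries the kernel into the kernel. -/
theorem powRed_normAlpha {n : ℕ} {u : modularFunctionFieldBar (M * p)}
    (h : ∀ i, PowRed S.splitModel i n u) :
    PowRed S.splitModel 0 n
      (heckeAlphaBar Ω M p (normAlong (heckeAlphaBar Ω M p) u)) := by
  have := isFunctionField_level M
  have := isFunctionField_level (M * p)
  have := HeckeJ0.hasPrincipalDivisors_bar M
  have hA := isOver_of_setting S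
  choose c y hy hc using fun i => exists_srep_of_powRed S (h i)
  have hT0 := S.srep_norm (f := u) (c := c) (v := fun i => y i ^ n) fun i => by
    rw [S.side_smul]
    exact hc i
  set z := normAlong (heckeAlphaBar Ω M p) u with hz
  set b := c 0 * c 1 ^ p with hb
  obtain ⟨w, hw, hwe⟩ := (levelExp S).srep_of_qExpand hA (i := ()) (f := b • z) (m := p)
    (v' := qExpand (ResidueField A) p
      ((y 0 ^ n * frobG (ResidueField A) M p • (y 1 ^ n) : _) : LaurentSeries (ResidueField A))) (by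
      rw [algHom_smul, smul_eq_algebraMap_mul, map_mul, qExpand_algebraMap, ← smul_eq_algebraMap_mul]
      exact hT0)
  rw [qExpand_injective (R := ResidueField A) p hwe] at hw
  rw [algHom_smul, levelExp_side] at hw
  refine powRed_of_srep S ((map_ne_zero _).mpr
      (HeckeJ0.normAlong_ne_zero (HeckeJ0.alphaFinite M p) (h 0).1))
    (c := b) (y := y 0 * frobG (ResidueField A) M p • y 1)
    (mul_ne_zero (hy 0) ((smul_ne_zero_iff_ne _).mpr (hy 1))) ?_
  rw [(S.side_alpha _).1, ← SubmonoidClass.coe_pow, mul_pow, ← smul_pow']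
  exact hw

/-- Both norms carry the kernel at level `M p` into the kernel at level `M`. -/
theorem normMaps_mem_goodKilled {n : ℕ} {x : JZero (M * p)} (hx : x ∈ newKilled S n) (b : Bool) :
    normMaps M p b x ∈ goodKilled S n := by
  have := isFunctionField_level M
  have := isFunctionField_level (M * p)
  have := HeckeJ0.hasPrincipalDivisors_bar M
  obtain ⟨u, hu, hred⟩ := hx
  cases b
  · exact ⟨_, isFunctionOf_normMap (heckeAlphaBar Ω M p) hu, powRed_normAlpha S hred⟩
  · refine ⟨_, isFunctionOf_normMap (heckeBetaBar Ω M p) hu, ?_⟩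
    rw [normAlong_comp (heckeBetaBar Ω M p) S.w (φ := heckeAlphaBar Ω M p)
      (fun z => wq_heckeBetaBar _ _ z)]
    exact powRed_normAlpha S fun i => powRed_w S (hred (1 - i))

variable {k : Type*} [Field k] [CharP k p] {κ : AwayPoly ℤ T →+* k}

include S in
/-- A vector of the kernel fixed by an element of nontrivial character is killed by both norms. -/
theorem normMaps_eq_zero_of_fixed (hpT : p ∈ T) (hMT : ∀ r : ℕ, r.Prime → r ∣ M * p → r ∈ T)
    {n : ℕ} (hn : n ≠ 0) {tbar : GQ → k} {V : AddSubgroup (JZero (M * p))} [Finite V]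
    (hV : IsPart p κ n tbar V)
    (htI : ∀ g ∈ A.inertiaSubgroupIn ℚ, tbar g = 1 + ((epsilonNat p n g : ℤ) : k))
    {σ : GQ} (hσ : σ ∈ A.inertiaSubgroupIn ℚ) (hc : ¬ (p : ℤ) ∣ (epsilonNat p n σ : ℤ) - 1)
    {x : JZero (M * p)} (hxV : x ∈ V) (hx : x ∈ newKilled S (p ^ n)) (hfix : σ • x = x) (b : Bool) :
    normMaps M p b x = 0 := by
  set TP : Nat.Primes := ⟨p, Fact.out⟩
  have hMT' : ∀ r : ℕ, r.Prime → r ∣ M → r ∈ T := fun r hr h => hMT r hr (h.mul_right p)
  let Tp : JZero M →+ JZero M := (heckeOperatorBar M TP).toAddMonoidHom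
  let f : Bool × ℕ → JZero (M * p) →+ JZero M := fun i =>
    AddMonoidHom.comp ((Tp.comp ·)^[i.2] (AddMonoidHom.id _)) (normMaps M p i.1)
  have hf0 : ∀ c y, f (c, 0) y = normMaps M p c y := fun c y => rfl
  have hfs : ∀ c j y, f (c, j + 1) y = Tp (f (c, j) y) := fun c j y => by
    show ((Tp.comp ·)^[j + 1] (AddMonoidHom.id _)) (normMaps M p c y) = _
    rw [Function.iterate_succ_apply']
    rfl
  have hf : ∀ i (g : GQ) y, f i (g • y) = g • f i y := by
    rintro ⟨c, j⟩ g y
    induction j with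
    | zero => rw [hf0, hf0]; exact normMaps_equivariant M p c g y
    | succ j ih => rw [hfs, hfs, ih]; exact HeckeJ0.heckeGaloisEquivariant M g TP _
  obtain ⟨hU, hUt⟩ := hV.iSup_map hpT hMT hMT' f hf
  set U := ⨆ i, V.map (f i)
  have : Finite U := Finite.of_injective (fun x : U => (⟨x, hUt x.2⟩ : tors M p n))
    fun a c h => Subtype.ext (congrArg (fun t : tors M p n => (t : JZero M)) h)
  have hTU : ∀ v ∈ U, heckeOperatorAlong Ω M p v ∈ U := fun v hv => by
    show Tp v ∈ U
    refine AddSubgroup.iSup_induction (C := fun v => Tp v ∈ U) _ hv (fun i v hv => ?_)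
      (by rw [map_zero]; exact zero_mem _) (fun a c ha hc => by rw [map_add]; exact add_mem ha hc)
    obtain ⟨y, hy, rfl⟩ := hv
    exact AddSubgroup.mem_iSup_of_mem (i.1, i.2 + 1) ⟨y, hy, hfs i.1 i.2 y⟩
  exact core_good S U hTU (fun v hv h => hecke_injective S hn hU htI hv h) hσ
    (exists_moves_root hn hc) (AddSubgroup.mem_iSup_of_mem (b, 0) ⟨x, hxV, rfl⟩)
    (normMaps_mem_goodKilled S hx b) (by rw [← map_nsmul, hV.tors x hxV, map_zero])
    (by rw [← normMaps_equivariant M p b σ x, hfix])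

include S in
/-- **The ordinary identity on a part** at level `M p`. -/
theorem ordinary_part_bad (hp2 : p ≠ 2) (hpT : p ∈ T) (hMT : ∀ r : ℕ, r.Prime → r ∣ M * p → r ∈ T)
    {n : ℕ} (hn : n ≠ 0) {tbar : GQ → k} {V : AddSubgroup (JZero (M * p))} [Finite V]
    (hV : IsPart p κ n tbar V) (hno : ¬ HasResidualChar p n tbar) {l : AwayIndex T}
    (hl : κ (MvPolynomial.X l) ≠ ((l.1 : ℕ) : k) + 1)
    (htI : ∀ g ∈ A.inertiaSubgroupIn ℚ, tbar g = 1 + ((epsilonNat p n g : ℤ) : k))
    {σ τ : GQ} (hσ : σ ∈ A.inertiaSubgroupIn ℚ) (hτ : τ ∈ A.inertiaSubgroupIn ℚ)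
    {v : JZero (M * p)} (hv : v ∈ V) :
    σ • (τ • v - v) = (epsilonNat p n σ : ℤ) • (τ • v - v) := by
  have hID : ∀ {g : GQ}, g ∈ A.inertiaSubgroupIn ℚ → g ∈ A.decompositionSubgroup ℚ :=
    fun {g} hg => by obtain ⟨⟨s, hs⟩, -, rfl⟩ := hg; exact hs
  have : Fact (l.1 : ℕ).Prime := ⟨l.1.2⟩
  have hℓ : ¬ (l.1 : ℕ) ∣ M * p := fun h => l.2 (hMT _ l.1.2 h)
  obtain ⟨σ₀, hσ₀, hχ₀⟩ := hasTameGenerator (p := p) hp2 S.above hn
  set V₁ := V ⊓ newTors M p n
  have : Finite V₁ := Finite.of_injective (fun z : V₁ => (⟨z, z.2.1⟩ : V))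
    fun a b h => Subtype.ext (congrArg (fun t : V => (t : JZero (M * p))) h)
  have hV₁gal : ∀ (g : GQ), ∀ z ∈ V₁, g • z ∈ V₁ := fun g z hz =>
    ⟨hV.gal g z hz.1, galois_mem_newTors g hz.2⟩
  have hT₁ : ∀ z ∈ V₁, heckeOperatorAlong Ω (M * p) l.1 z ∈ V₁ := fun z hz => by
    have := act_mem hpT hMT V₁ (fun y hy => hV.tors y hy.1) hV₁gal (MvPolynomial.X l) hz
    rwa [act_X] at this
  have h := kernel_identity (Fact.out : p.Prime) V (V ⊓ newKilled S (p ^ n)) inf_le_left hV.tors
    (A.inertiaSubgroupIn ℚ) (A.inertiaSubgroupIn ℚ) le_rfl (fun g => (epsilonNat p n g : ℤ))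
    (fun _ => 1) (fun g _ h _ v hv => epsilonNat_mul_smul (hV.tors v hv) g h)
    (fun _ _ _ _ => rfl) (fun _ _ => rfl) (fun _ _ => one_mul 1)
    (fun g hg v hv => AddSubgroup.mem_inf.mpr
      ⟨hV.gal g v hv.1, smul_mem_newKilled S (hID hg) hv.2⟩)
    (fun g hg v hv => AddSubgroup.mem_inf.mpr
      ⟨sub_mem (hV.gal g v hv) (zsmul_mem hv _), by
        rw [one_zsmul]; exact smul_sub_mem_newKilled S hg (hV.tors v hv)⟩)
    (fun σ hσ hc x hx hfix => ?_) hV.gal
    (fun g _ => by
      obtain ⟨a, -, ha⟩ := hV.quad g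
      exact ⟨(act (M * p) T a).toAddMonoidHom, fun h x => act_galois (M * p) T h a x,
        fun x hx => hV.hecke a x hx, fun x hx => ha x hx⟩)
    (fun σ hσ hc W hWV hW hfree =>
      eq_bot_of_no_fixed hpT hMT hn hV hno hc (htI σ hσ) W hWV hW hfree)
    hσ₀ hχ₀ (epsilonNat_not_dvd hn σ₀) hσ hτ hv
  · simpa using h
  · have hx1 : x ∈ V₁ := ⟨hx.1, mem_newTors.mpr
      ⟨hV.tors x hx.1, normMaps_eq_zero_of_fixed S hpT hMT hn hV htI hσ hc hx.1 hx.2 hfix⟩⟩
    exact core_new S V₁ (fun y hy => (mem_newTors.mp hy.2).2) hℓ hT₁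
      (fun y hy hTy => hV.inj (MvPolynomial.X l - MvPolynomial.C (((l.1 : ℕ) : ℤ) + 1))
        (by rw [map_sub, residual_C, sub_ne_zero]; exact_mod_cast hl) y hy.1 (by
          rw [act_sub, act_X, act_C, sub_eq_zero]
          refine hTy.trans ?_
          rw [← natCast_zsmul]; push_cast; rfl))
      hσ (exists_moves_root hn hc) hx1 hx.2 (hV.tors x hx.1) hfix

end Fermat.Agent.OrdinaryT

end
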