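import Fermat.Agent.OrdinaryT.Irred
import Fermat.Agent.Engine.TRep.NonEis

/-!
# A spanning representation has no residual character

If `θ` is a multiplicative root of `X² - tr ρ(g) X + det ρ(g)`, linear relations between the
`ρ(g)` hold between the `θ(g)` once two roots differ somewhere, so `θ` extends to a unital
multiplicative functional on `M₂`, which does not exist.
-/

noncomputable section

open Fermat.Agent.EigenRep

namespace Fermat.Agent.OrdinaryT

local notation "Ω" => AlgebraicClosure ℚ
local notation "GQ" => (AlgebraicClosure ℚ) ≃ₐ[ℚ] (AlgebraicClosure ℚ)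

variable {p : ℕ} [Fact p.Prime] {k : Type*} [Field k] [CharP k p]

/-- **Irreducibility gives no residual character.** -/
theorem no_residual_char (ρ : GQ →* Matrix (Fin 2) (Fin 2) k)
    (hspan : Submodule.span k (Set.range ρ) = ⊤) {n : ℕ} {tbar : GQ → k}
    (htr : ∀ g, tbar g = (ρ g).trace) (hdet : ∀ g, (ρ g).det = ((epsilonNat p n g : ℤ) : k))
    {σ : GQ} (hc : ¬ (p : ℤ) ∣ (epsilonNat p n σ : ℤ) - 1)
    (htσ : tbar σ = 1 + ((epsilonNat p n σ : ℤ) : k)) : ¬ HasResidualChar p n tbar := by
  rintro ⟨θ, hθ, hroot⟩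
  set e : GQ → k := fun g => ((epsilonNat p n g : ℤ) : k) with hedef
  -- the two roots
  set θ' : GQ → k := fun g => e g / θ g with hθ'def
  have he : ∀ g h, e (g * h) = e g * e h := fun g h => by
    simp only [hedef]
    rw [← hdet, ← hdet, ← hdet, map_mul, Matrix.det_mul]
  have hθ'mul : ∀ g h, θ' (g * h) = θ' g * θ' h := fun g h => by
    simp only [hθ'def, he, hθ]
    rw [div_mul_div_comm]
  have hsum : ∀ g, (ρ g).trace = θ g + θ' g := fun g => by
    obtain ⟨h0, h⟩ := hroot g
    simp only [hθ'def, hedef, ← htr]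
    field_simp
    linear_combination -h
  have h1 : θ 1 = 1 := by
    have := hθ 1 1
    rw [mul_one] at this
    exact (mul_eq_left₀ (hroot 1).1).mp this.symm
  have hθ'1 : θ' 1 = 1 := by
    simp only [hθ'def, h1, div_one, hedef]
    rw [← hdet, map_one, Matrix.det_one]
  have hdist : θ σ ≠ θ' σ := by
    intro heq
    refine hc ?_
    have ht : 1 + e σ = θ σ + θ σ := by
      rw [show 1 + e σ = (ρ σ).trace by rw [← htr, htσ], hsum σ, ← heq]
    have hp : θ σ * θ σ = e σ := by
      nth_rw 2 [heq]
      simp only [hθ'def]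
      rw [mul_div_cancel₀ _ (hroot σ).1]
    have h2 : (1 - θ σ) * (1 - θ σ) = 0 := by linear_combination ht + hp
    have h3 : θ σ = 1 := (sub_eq_zero.mp (mul_self_eq_zero.mp h2)).symm
    rw [h3, one_mul] at hp
    rw [← CharP.intCast_eq_zero_iff k p, Int.cast_sub, Int.cast_one, sub_eq_zero]
    exact hp.symm
  -- relations between the matrices hold between the values
  let Φ : (GQ →₀ k) →ₗ[k] Matrix (Fin 2) (Fin 2) k := Finsupp.linearCombination k ρ
  let f : (GQ →₀ k) →ₗ[k] k := Finsupp.linearCombination k θ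
  let f' : (GQ →₀ k) →ₗ[k] k := Finsupp.linearCombination k θ'
  have hker : ∀ c, Φ c = 0 → f c = 0 := by
    intro c hc0
    have key : ∀ h : GQ, f c * θ h + f' c * θ' h = 0 := fun h => by
      have h0 : (Φ c * ρ h).trace = 0 := by rw [hc0, zero_mul, Matrix.trace_zero]
      simp only [Φ, f, f', Finsupp.linearCombination_apply, Finsupp.sum, Finset.sum_mul,
        Matrix.trace_sum, smul_mul_assoc, Matrix.trace_smul, ← map_mul, hsum, hθ, hθ'mul,
        smul_eq_mul] at h0 ⊢
      rw [← h0, ← Finset.sum_add_distrib]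
      exact Finset.sum_congr rfl fun g _ => by ring
    have ka := key 1
    have kb := key σ
    rw [h1, hθ'1, mul_one, mul_one] at ka
    have : f c * (θ σ - θ' σ) = 0 := by linear_combination kb - θ' σ * ka
    exact (mul_eq_zero.mp this).resolve_right (sub_ne_zero.mpr hdist)
  have hΦ : Function.Surjective Φ := by
    rw [← LinearMap.range_eq_top, Finsupp.range_linearCombination, hspan]
  obtain ⟨sec, hsec⟩ := Φ.exists_rightInverse_of_surjective (LinearMap.range_eq_top.mpr hΦ)
  set φ : Matrix (Fin 2) (Fin 2) k →ₗ[k] k := f.comp sec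
  have hφρ : ∀ g, φ (ρ g) = θ g := fun g => by
    have h0 : Φ (sec (ρ g) - Finsupp.single g 1) = 0 := by
      rw [map_sub, sub_eq_zero]
      exact (LinearMap.congr_fun hsec (ρ g)).trans (by simp [Φ])
    have h2 := hker _ h0
    rw [map_sub, sub_eq_zero] at h2
    exact h2.trans (by simp [f])
  have hmul : ∀ X Y, φ (X * Y) = φ X * φ Y := by
    intro X Y
    have hX : X ∈ Submodule.span k (Set.range ρ) := hspan ▸ Submodule.mem_top
    induction hX using Submodule.span_induction with
    | mem x hx =>
      obtain ⟨g, rfl⟩ := hx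
      have hY : Y ∈ Submodule.span k (Set.range ρ) := hspan ▸ Submodule.mem_top
      induction hY using Submodule.span_induction with
      | mem y hy =>
        obtain ⟨h, rfl⟩ := hy
        rw [← map_mul, hφρ, hφρ, hφρ, hθ]
      | zero => rw [mul_zero, map_zero, mul_zero]
      | add a b _ _ ha hb => rw [mul_add, map_add, map_add, ha, hb, mul_add]
      | smul c a _ ha => rw [Matrix.mul_smul, map_smul, map_smul, ha, smul_eq_mul, smul_eq_mul]; ring
    | zero => rw [zero_mul, map_zero, zero_mul]
    | add a b _ _ ha hb => rw [add_mul, map_add, map_add, ha, hb, add_mul]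
    | smul c a _ ha => rw [Matrix.smul_mul, map_smul, map_smul, ha, smul_eq_mul, smul_eq_mul]; ring
  have hone : φ 1 = 1 := by rw [← map_one ρ, hφρ, h1]
  set E : Fin 2 → Fin 2 → Matrix (Fin 2) (Fin 2) k := fun i j => Matrix.single i j 1
  have hsq : ∀ i j, i ≠ j → φ (E i j) = 0 := fun i j hij => by
    refine mul_self_eq_zero.mp ?_
    rw [← hmul]
    simp [E, hij.symm]
  have hdiag : ∀ i j, i ≠ j → φ (E i i) = 0 := fun i j hij => by
    rw [show E i i = E i j * E j i by simp [E], hmul, hsq i j hij, zero_mul]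
  refine one_ne_zero (α := k) ?_
  rw [← hone, show (1 : Matrix (Fin 2) (Fin 2) k) = E 0 0 + E 1 1 by
    ext i j; fin_cases i <;> fin_cases j <;> simp [E, Matrix.single],
    map_add, hdiag 0 1 (by decide), hdiag 1 0 (by decide), add_zero]

end Fermat.Agent.OrdinaryT

end
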