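import Fermat.Agent.OrdinaryT.Irred
import Fermat.Agent.Deform.TWInertia
import Fermat.Agent.Chebotarev.Trace

/-!
# The ordinary identities on parts

A core of a stable subgroup of `J₀(K)[pⁿ]` is a part as soon as every Galois element is
approximated by Frobenius elements with the prescribed residual trace. `ordinary_part` and
`steinberg_part` give `σ (τ x - x) = ε(σ) (τ x - x)` on inertia for parts at good level and for
`w_p`-stable parts of the norm kernel at level `M p`.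
-/

set_option linter.unusedSectionVars false

noncomputable section

open IsLocalRing AlgebraicCurve ModularCurve
open Fermat.Agent.Reduction Fermat.Agent.SemistableRed Fermat.Agent.EigenRep Fermat.Agent.HeckeModule

namespace Fermat.Agent.OrdinaryT

local notation "Ω" => AlgebraicClosure ℚ
local notation "GQ" => (AlgebraicClosure ℚ) ≃ₐ[ℚ] (AlgebraicClosure ℚ)

variable {p : ℕ} [Fact p.Prime]

/-- An inertia element of nontrivial character modulo `p`. -/
theorem hasTameGenerator (hp2 : p ≠ 2) {A : ValuationSubring Ω} (hA : A.LiesOverPrime p) {n : ℕ}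
    (hn : n ≠ 0) : HasTameGenerator (p := p) A n := by
  have hp := (Fact.out : p.Prime)
  have : NeZero p := ⟨hp.ne_zero⟩
  have : NeZero (p : Ω) := ⟨Nat.cast_ne_zero.mpr hp.ne_zero⟩
  obtain ⟨c, hc⟩ := Deform.exists_isCycloMod p
  obtain ⟨σ, hσ, hcσ⟩ := Deform.exists_inertia_cyclo_eq hp hc hA (-1)
  refine ⟨σ, hσ, fun hd => ?_⟩
  obtain ⟨ζ, hζ⟩ := exists_primitiveRoot (p := p) 1
  rw [pow_one] at hζ
  have hz : ζ ^ p ^ n = 1 := by
    obtain ⟨n', rfl⟩ : ∃ n', n = n' + 1 := ⟨n - 1, by omega⟩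
    rw [pow_succ', pow_mul, hζ.pow_eq_one, one_pow]
  have h1 : σ ζ = ζ := by
    rw [epsilon_spec σ hz, ← pow_mod_orderOf ζ, ← hζ.eq_orderOf]
    obtain ⟨d, hd⟩ := hd
    have : ((epsilonNat p n σ % p : ℕ) : ℤ) = 1 := by
      rw [Int.natCast_mod, show (epsilonNat p n σ : ℤ) = 1 + (p : ℤ) * d by linarith,
        Int.add_mul_emod_self_left, Int.emod_eq_of_lt zero_le_one (by exact_mod_cast hp.one_lt)]
    rw [show epsilonNat p n σ % p = 1 by exact_mod_cast this, pow_one]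
  have h2 : c σ = 1 := (hc.eq_one_iff hζ σ).mpr h1
  rw [hcσ] at h2
  have : Fact (2 < p) := ⟨lt_of_le_of_ne hp.two_le (Ne.symm hp2)⟩
  exact ZMod.neg_one_ne_one (n := p) (congrArg Units.val h2)

/-- A Frobenius close to a given element. -/
theorem exists_approximant {K K' : ℕ} [NeZero K] [NeZero K'] {T : Set ℕ} (hT : T.Finite)
    (hpT : p ∈ T) (hKT : ∀ r : ℕ, r.Prime → r ∣ K → r ∈ T)
    (hKT' : ∀ r : ℕ, r.Prime → r ∣ K' → r ∈ T) (g : GQ) (n : ℕ)
    (L : IntermediateField ℚ Ω) [FiniteDimensional ℚ L] :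
    ∃ (l : AwayIndex T) (P : ValuationSubring Ω) (φ : GQ), P.LiesOverPrime (l.1 : ℕ) ∧
      P.IsFrobeniusAt φ (l.1 : ℕ) ∧ (∀ a ∈ L, φ a = g a) ∧
      ((l.1 : ℕ) : ZMod (p ^ n)) = (epsilonNat p n g : ZMod (p ^ n)) ∧
      (∀ x : JZero K, p ^ n • x = 0 →
        g • g • x - heckeOperatorBar K l.1 (g • x) + (epsilonNat p n g : ℤ) • x = 0) ∧
      ∀ x : JZero K', p ^ n • x = 0 →
        g • g • x - heckeOperatorBar K' l.1 (g • x) + (epsilonNat p n g : ℤ) • x = 0 := by
  classical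
  have : NeZero (p ^ n) := ⟨pow_ne_zero _ (Fact.out : p.Prime).ne_zero⟩
  choose E hE hfix using fun x : tors K p n => jZeroSmooth K (x : JZero K)
  choose E' hE' hfix' using fun x : tors K' p n => jZeroSmooth K' (x : JZero K')
  obtain ⟨Le, hLe, hce⟩ := exists_level_epsilon (p := p) n
  have := hLe
  have : Finite (tors K p n) := finite_tors n
  have : Finite (tors K' p n) := finite_tors n
  have : ∀ x, FiniteDimensional ℚ (E x) := hE
  have : ∀ x, FiniteDimensional ℚ (E' x) := hE'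
  set F := L ⊔ Le ⊔ (⨆ x, E x) ⊔ (⨆ x, E' x) with hF
  obtain ⟨ℓ, hℓ, hℓT, P, hP, φ, hφ, hag⟩ := Chebotarev.exists_isFrobeniusAt_eqOn F g hT.toFinset
  rw [Set.Finite.mem_toFinset] at hℓT
  set l : AwayIndex T := ⟨⟨ℓ, hℓ⟩, hℓT⟩
  have hfixed : ∀ a ∈ F, (g⁻¹ * φ) a = a := fun a ha => by
    rw [AlgEquiv.mul_apply, hag a ha]
    exact g.symm_apply_apply a
  have hLF : L ≤ F := le_sup_left.trans (le_sup_left.trans le_sup_left)
  have hLeF : Le ≤ F := le_sup_right.trans (le_sup_left.trans le_sup_left)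
  have hEF : ∀ x, E x ≤ F := fun x => (le_iSup E x).trans (le_sup_right.trans le_sup_left)
  have hEF' : ∀ x, E' x ≤ F := fun x => (le_iSup E' x).trans le_sup_right
  have hℓp : ℓ ≠ p := fun h => hℓT (h ▸ hpT)
  have heps : (ℓ : ZMod (p ^ n)) = (epsilonNat p n g : ZMod (p ^ n)) := by
    rw [← toZModPow_epsilon_frobenius hℓ hℓp hP hφ n, epsilonNat, ZMod.natCast_zmod_val]
    conv_lhs => rw [show φ = g * (g⁻¹ * φ) by rw [mul_inv_cancel_left]]
    rw [map_mul, Units.val_mul, map_mul, hce _ fun a ha => hfixed a (hLeF ha), mul_one]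
  have hrel : ∀ {J : ℕ} [NeZero J], (∀ r : ℕ, r.Prime → r ∣ J → r ∈ T) →
      (∀ x : JZero J, p ^ n • x = 0 → φ • x = g • x) → ∀ x : JZero J, p ^ n • x = 0 →
        g • g • x - heckeOperatorBar J l.1 (g • x) + (epsilonNat p n g : ℤ) • x = 0 := by
    intro J _ hJT hφg x hx
    have hnd : ¬ ℓ ∣ J * p := fun h => by
      rcases hℓ.dvd_mul.mp h with h | h
      · exact hℓT (hJT _ hℓ h)
      · exact hℓp ((Nat.prime_dvd_prime_iff_eq hℓ Fact.out).mp h)
    have h := (allRelations J p).frobenius ℓ hℓ hnd P hP φ hφ x ⟨n, hx⟩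
    rw [hφg x hx, hφg _ (by rw [← galois_nsmul, hx, galois_zero])] at h
    have e : ((epsilonNat p n g : ℤ)) • x = ℓ • x := by
      obtain ⟨d, hd⟩ : ((p ^ n : ℕ) : ℤ) ∣ (epsilonNat p n g : ℤ) - ℓ := by
        rw [← ZMod.intCast_eq_intCast_iff_dvd_sub]
        push_cast; exact heps
      rw [show (epsilonNat p n g : ℤ) = d * ((p ^ n : ℕ) : ℤ) + (ℓ : ℤ) by linarith, add_zsmul,
        mul_zsmul, natCast_zsmul, natCast_zsmul, hx, zsmul_zero, zero_add]
    rw [e]
    exact h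
  refine ⟨l, P, φ, hP, hφ, fun a ha => hag a (hLF ha), heps, hrel hKT ?_, hrel hKT' ?_⟩
  · intro x hx
    conv_lhs => rw [show φ = g * (g⁻¹ * φ) by rw [mul_inv_cancel_left]]
    rw [mul_smul, hfix ⟨x, hx⟩ _ fun a ha => hfixed a (hEF ⟨x, hx⟩ ha)]
  · intro x hx
    conv_lhs => rw [show φ = g * (g⁻¹ * φ) by rw [mul_inv_cancel_left]]
    rw [mul_smul, hfix' ⟨x, hx⟩ _ fun a ha => hfixed a (hEF' ⟨x, hx⟩ ha)]

variable {K : ℕ} [NeZero K] {T : Set ℕ} {k : Type*} [Field k] {κ : AwayPoly ℤ T →+* k}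

/-- A core of a stable subgroup of torsion is a part. -/
theorem exists_isPart (hpT : p ∈ T) (hKT : ∀ r : ℕ, r.Prime → r ∣ K → r ∈ T) {n : ℕ}
    {tbar : GQ → k} (happ : ∀ g : GQ, ∃ l : AwayIndex T, κ (MvPolynomial.X l) = tbar g ∧
      ∀ x : JZero K, p ^ n • x = 0 →
        g • g • x - heckeOperatorBar K l.1 (g • x) + (epsilonNat p n g : ℤ) • x = 0)
    (U : AddSubgroup (JZero K)) (hU : U ≤ tors K p n) (hUgal : ∀ (g : GQ), ∀ x ∈ U, g • x ∈ U) :
    ∃ a, κ a ≠ 0 ∧ IsPart p κ n tbar (U.map (act K T a).toAddMonoidHom) ∧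
      U.map (act K T a).toAddMonoidHom ≤ U := by
  have : Finite U := Finite.of_injective (fun x : U => (⟨x, hU x.2⟩ : tors K p n))
    fun a b h => Subtype.ext (congrArg (fun t : tors K p n => (t : JZero K)) h)
  have := RingHom.ker_isPrime κ
  have hmem : ∀ (b : AwayPoly ℤ T), ∀ x ∈ U, act K T b x ∈ U := fun b x hx =>
    act_mem hpT hKT U (fun y hy => hU hy) hUgal b hx
  obtain ⟨a, ha, hinj⟩ := exists_core U (RingHom.ker κ)
  have hle : U.map (act K T a).toAddMonoidHom ≤ U := by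
    rintro _ ⟨x, hx, rfl⟩
    exact hmem a x hx
  refine ⟨a, ha, ⟨fun x hx => hU (hle hx), fun g x hx => ?_, fun b hb x hx h => hinj b hb x hx h,
    fun b x hx => ?_, fun g => ?_⟩, hle⟩
  · obtain ⟨y, hy, rfl⟩ := hx
    exact ⟨g • y, hUgal g y hy, act_galois K T g a y⟩
  · obtain ⟨y, hy, rfl⟩ := hx
    exact ⟨act K T b y, hmem b y hy, act_comm K T a b y⟩
  · obtain ⟨l, hl, hrel⟩ := happ g
    exact ⟨MvPolynomial.X l, hl, fun x hx => by rw [act_X]; exact hrel x (hU (hle hx))⟩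

variable [CharP k p] {A : ValuationSubring Ω} {M : ℕ} [NeZero M] [NeZero p]
  [CharP (ResidueField A) p] [IsAlgClosed (ResidueField A)] (S : Setting A M p)

include S in
/-- **The ordinary identity on a part** at good level. -/
theorem ordinary_part (hp2 : p ≠ 2) (hpT : p ∈ T) (hMT : ∀ r : ℕ, r.Prime → r ∣ M → r ∈ T) {n : ℕ}
    (hn : n ≠ 0) {tbar : GQ → k} {V : AddSubgroup (JZero M)} [Finite V]
    (hV : IsPart p κ n tbar V) (hno : ¬ HasResidualChar p n tbar)
    (htI : ∀ g ∈ A.inertiaSubgroupIn ℚ, tbar g = 1 + ((epsilonNat p n g : ℤ) : k))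
    (hTV : ∀ v ∈ V, heckeOperatorAlong Ω M p v ∈ V)
    {σ τ : GQ} (hσ : σ ∈ A.inertiaSubgroupIn ℚ) (hτ : τ ∈ A.inertiaSubgroupIn ℚ)
    {v : JZero M} (hv : v ∈ V) :
    σ • (τ • v - v) = (epsilonNat p n σ : ℤ) • (τ • v - v) := by
  refine ordinary_identity S hn V hV.tors hV.gal hTV
    (fun v hv h => hecke_injective S hn hV htI hv h) (fun g _ => ?_)
    (fun σ' hσ' hc W hWV hW hfree =>
      eq_bot_of_no_fixed hpT hMT hn hV hno hc (htI σ' hσ') W hWV hW hfree)
    (hasTameGenerator hp2 S.above hn) hσ hτ hv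
  obtain ⟨a, -, ha⟩ := hV.quad g
  exact ⟨(act M T a).toAddMonoidHom, fun h x => act_galois M T h a x, fun x hx => hV.hecke a x hx,
    fun x hx => ha x hx⟩

/-- `w_p` on the Jacobian. -/
def wMap : JZero (M * p) →+ JZero (M * p) :=
  DistribSMul.toAddMonoidHom _ (SemilinearAut.ofAlgAut S.w :
    SemilinearAut Ω (modularFunctionFieldBar (M * p)))

theorem wMap_galois (g : GQ) (x : JZero (M * p)) : wMap S (g • x) = g • wMap S x := by
  show SemilinearAut.ofAlgAut S.w • (arithmeticGalois (L := Ω) (modularFunctionFieldFull (M * p)) g • x) =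
    arithmeticGalois (L := Ω) (modularFunctionFieldFull (M * p)) g • (SemilinearAut.ofAlgAut S.w • x)
  rw [← mul_smul, ← mul_smul]
  congr 1
  refine Subtype.ext (Prod.ext (RingEquiv.ext fun z => ?_) ?_)
  · exact (galois_w S g z).symm
  · exact RingEquiv.ext fun z => rfl

theorem wMap_wMap (x : JZero (M * p)) : wMap S (wMap S x) = x := by
  show SemilinearAut.ofAlgAut S.w • (SemilinearAut.ofAlgAut S.w • x) = x
  rw [← mul_smul, ← map_mul, show S.w * S.w = 1 from AlgEquiv.ext S.w_w, map_one, one_smul]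

/-- Classes with the same function agree. -/
theorem IsFunctionOf.class_eq {F : Type*} [Field F] [Algebra Ω F] {n : ℕ} (hn : n ≠ 0)
    {x y : Pic0 Ω F} {u : F} (hx : IsFunctionOf n x u) (hy : IsFunctionOf n y u) : x = y := by
  obtain ⟨-, D, rfl, hD⟩ := hx
  obtain ⟨-, E, rfl, hE⟩ := hy
  refine congrArg Pic0.mk (Subtype.ext (Finsupp.ext fun P => ?_))
  exact mul_left_cancel₀ (by exact_mod_cast hn) ((hD P).symm.trans (hE P))

include S in
/-- `w_p` exchanges the two norms. -/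
theorem normMaps_wMap {n : ℕ} (hn : n ≠ 0) {x : JZero (M * p)} (hx : n • x = 0) (b : Bool) :
    normMaps M p b (wMap S x) = normMaps M p (!b) x := by
  have := isFunctionField_level M
  have := isFunctionField_level (M * p)
  have := HeckeJ0.hasPrincipalDivisors_bar M
  obtain ⟨u, hu⟩ := exists_isFunctionOf hx
  have hwu : IsFunctionOf n (wMap S x) (S.w u) := hu.smul
  cases b
  · refine IsFunctionOf.class_eq hn (isFunctionOf_normMap (heckeAlphaBar Ω M p) hwu) ?_
    rw [← normAlong_comp (heckeBetaBar Ω M p) S.w (φ := heckeAlphaBar Ω M p)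
      (fun z => wq_heckeBetaBar _ _ z)]
    exact isFunctionOf_normMap (heckeBetaBar Ω M p) hu
  · refine IsFunctionOf.class_eq hn (isFunctionOf_normMap (heckeBetaBar Ω M p) hwu) ?_
    rw [← normAlong_comp (heckeAlphaBar Ω M p) S.w (φ := heckeBetaBar Ω M p)
      (fun z => wq_heckeAlphaBar _ _ z)]
    exact isFunctionOf_normMap (heckeAlphaBar Ω M p) hu

/-- The norm kernel in the torsion. -/
def newTors (M p : ℕ) [NeZero M] [NeZero p] (n : ℕ) : AddSubgroup (JZero (M * p)) :=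
  tors (M * p) p n ⊓ (normMaps M p false).ker ⊓ (normMaps M p true).ker

theorem mem_newTors {n : ℕ} {x : JZero (M * p)} :
    x ∈ newTors M p n ↔ p ^ n • x = 0 ∧ ∀ b, normMaps M p b x = 0 :=
  ⟨fun h => ⟨h.1.1, fun b => by cases b; exact h.1.2; exact h.2⟩,
    fun h => ⟨⟨h.1, h.2 false⟩, h.2 true⟩⟩

theorem galois_mem_newTors {n : ℕ} (g : GQ) {x : JZero (M * p)} (hx : x ∈ newTors M p n) :
    g • x ∈ newTors M p n := by
  obtain ⟨h1, h2⟩ := mem_newTors.mp hx
  refine mem_newTors.mpr ⟨tors_smul_mem g h1, fun b => ?_⟩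
  rw [normMaps_equivariant M p b g x, h2 b, galois_zero]

include S in
theorem wMap_mem_newTors {n : ℕ} {x : JZero (M * p)} (hx : x ∈ newTors M p n) :
    wMap S x ∈ newTors M p n := by
  obtain ⟨h1, h2⟩ := mem_newTors.mp hx
  refine mem_newTors.mpr ⟨by rw [← map_nsmul, h1, map_zero], fun b => ?_⟩
  rw [normMaps_wMap S (pow_ne_zero _ (NeZero.ne p)) h1, h2]

/-- The sign of the action on an element. -/
def signAt (s : Ω) (g : GQ) : ℤ :=
  open scoped Classical in if g s = s then 1 else -1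

/-- A quadratic character of decomposition, trivial on inertia and `-1` at Frobenius. -/
theorem exists_unramified_sign (hp2 : p ≠ 2) {A : ValuationSubring Ω} (hA : A.LiesOverPrime p)
    {φ : GQ} (hφ : A.IsFrobeniusAt φ p) :
    ∃ γ : GQ → ℤ, (∀ g h, γ (g * h) = γ g * γ h) ∧ (∀ g ∈ A.inertiaSubgroupIn ℚ, γ g = 1) ∧
      (∀ g, γ g * γ g = 1) ∧ γ φ = -1 ∧
        ∃ L : IntermediateField ℚ Ω, FiniteDimensional ℚ L ∧ ∀ g, (∀ x ∈ L, g x = x) → γ g = 1 := by
  classical
  have hp := (Fact.out : p.Prime)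
  have := Frobenius.residueField_charP hp hA
  obtain ⟨u, hu⟩ := FiniteField.exists_nonsquare (F := ZMod p) (by rwa [ZMod.ringChar_zmod_n])
  obtain ⟨s, hs⟩ := IsAlgClosed.exists_pow_nat_eq ((u.val : ℕ) : Ω) zero_lt_two
  have hs0 : s ≠ 0 := fun h => hu ⟨0, by
    rw [h, zero_pow two_ne_zero, eq_comm, Nat.cast_eq_zero] at hs
    rw [← ZMod.natCast_zmod_val u, hs]; simp⟩
  have hconj : ∀ g : GQ, g s = s ∨ g s = -s := fun g => by
    rw [← sq_eq_sq_iff_eq_or_eq_neg, ← map_pow, hs, map_natCast]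
  have hneg : -s ≠ s := fun h => hs0 (by
    have h2 : (2 : Ω) * s = 0 := by rw [two_mul]; nth_rw 1 [← h]; exact neg_add_cancel s
    simpa using h2)
  have hsA : s ∈ A := Frobenius.mem_of_isIntegral A
    (IsIntegral.of_pow zero_lt_two (by
      rw [hs, ← map_natCast (algebraMap ℤ Ω)]; exact isIntegral_algebraMap))
  have hr2 : residue A ⟨s, hsA⟩ ^ 2 = ((u.val : ℕ) : ResidueField A) := by
    rw [← map_pow, ← map_natCast (residue A)]
    exact congrArg (residue A) (Subtype.ext (by push_cast; exact hs))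
  set r := residue A ⟨s, hsA⟩ with hr
  have hr0 : r ≠ 0 := fun h => hu ⟨0, by
    rw [h, zero_pow two_ne_zero, eq_comm, CharP.cast_eq_zero_iff (ResidueField A) p] at hr2
    rw [← ZMod.natCast_zmod_val u, (ZMod.natCast_eq_zero_iff _ _).mpr hr2]; simp⟩
  have hrp : r ^ p = -r := by
    obtain ⟨m, hm⟩ := hp.odd_of_ne_two hp2
    have hu0 : u ≠ 0 := fun h => hu (h ▸ ⟨0, by simp⟩)
    have he : u ^ m = -1 := by
      have h2 : p / 2 = m := by omega
      rcases ZMod.pow_div_two_eq_neg_one_or_one p hu0 with h | h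
      · exfalso
        exact hu ((ZMod.euler_criterion p hu0).mpr h)
      · rwa [h2] at h
    have he' : ((u.val : ℕ) : ResidueField A) ^ m = -1 := by
      have := congrArg (ZMod.castHom dvd_rfl (ResidueField A)) he
      rwa [map_pow, map_neg, map_one, ← ZMod.natCast_zmod_val u, map_natCast] at this
    rw [hm, pow_succ, pow_mul, hr2, he', neg_one_mul]
  refine ⟨signAt s, fun g h => ?_, fun g hg => ?_, fun g => ?_, ?_,
    IntermediateField.adjoin ℚ {s},
    IntermediateField.adjoin.finiteDimensional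
      ((AlgebraicClosure.isAlgebraic ℚ).isAlgebraic s).isIntegral,
    fun g hg => if_pos (hg s (IntermediateField.mem_adjoin_simple_self ℚ s))⟩
  · simp only [signAt]
    rcases hconj g with hg | hg <;> rcases hconj h with hh | hh <;>
      simp [AlgEquiv.mul_apply, hg, hh, hneg]
  · refine if_pos ((hconj g).resolve_right fun hcon => hr0 ?_)
    obtain ⟨⟨g', hg'⟩, hker, rfl⟩ := hg
    have h1 : residue A ((⟨g', hg'⟩ : A.decompositionSubgroup ℚ) • ⟨s, hsA⟩) = r := by
      rw [ResidueField.residue_smul]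
      exact RingEquiv.congr_fun (MonoidHom.mem_ker.1 hker) _
    rw [show (⟨g', hg'⟩ : A.decompositionSubgroup ℚ) • (⟨s, hsA⟩ : A) = -⟨s, hsA⟩ from
      Subtype.ext hcon, map_neg, ← hr] at h1
    have h2 : (2 : ResidueField A) * r = 0 := by linear_combination -h1
    refine (mul_eq_zero.mp h2).resolve_left fun h => ?_
    have h3 : ((2 : ℕ) : ResidueField A) = 0 := by exact_mod_cast h
    exact hp2 ((Nat.prime_dvd_prime_iff_eq hp Nat.prime_two).mp
      ((CharP.cast_eq_zero_iff (ResidueField A) p 2).mp h3))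
  · simp only [signAt]; split_ifs <;> simp
  · refine if_neg fun hcon => hr0 ?_
    obtain ⟨hd, hact⟩ := hφ
    have h1 := hact r
    rw [hr, ← ResidueField.residue_smul,
      show (⟨φ, hd⟩ : A.decompositionSubgroup ℚ) • (⟨s, hsA⟩ : A) = ⟨s, hsA⟩ from Subtype.ext hcon,
      ← hr, hrp] at h1
    have h2 : (2 : ResidueField A) * r = 0 := by linear_combination h1
    refine (mul_eq_zero.mp h2).resolve_left fun h => ?_
    have h3 : ((2 : ℕ) : ResidueField A) = 0 := by exact_mod_cast h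
    exact hp2 ((Nat.prime_dvd_prime_iff_eq hp Nat.prime_two).mp
      ((CharP.cast_eq_zero_iff (ResidueField A) p 2).mp h3))

include S in
/-- **The Steinberg identity on a part** of the norm kernel, stable under `w_p`. -/
theorem steinberg_part (hp2 : p ≠ 2) (hpT : p ∈ T)
    (hMT : ∀ r : ℕ, r.Prime → r ∣ M * p → r ∈ T) {n : ℕ} (hn : n ≠ 0) {tbar : GQ → k}
    {V : AddSubgroup (JZero (M * p))} [Finite V] (hV : IsPart p κ n tbar V)
    (hnew : ∀ v ∈ V, ∀ b, normMaps M p b v = 0) (hwV : ∀ v ∈ V, wMap S v ∈ V)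
    (hno : ¬ HasResidualChar p n tbar) {l : AwayIndex T}
    (hl : κ (MvPolynomial.X l) ≠ ((l.1 : ℕ) : k) + 1)
    (htI : ∀ g ∈ A.inertiaSubgroupIn ℚ, tbar g = 1 + ((epsilonNat p n g : ℤ) : k))
    {σ τ : GQ} (hσ : σ ∈ A.inertiaSubgroupIn ℚ) (hτ : τ ∈ A.inertiaSubgroupIn ℚ)
    {v : JZero (M * p)} (hv : v ∈ V) :
    σ • (τ • v - v) = (epsilonNat p n σ : ℤ) • (τ • v - v) := by
  have hp := (Fact.out : p.Prime)
  obtain ⟨φ, hφ⟩ := Frobenius.exists_isFrobeniusAt_qbar hp S.above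
  have : Fact (l.1 : ℕ).Prime := ⟨l.1.2⟩
  have hID : ∀ {g : GQ}, g ∈ A.inertiaSubgroupIn ℚ → g ∈ A.decompositionSubgroup ℚ :=
    fun {g} hg => by obtain ⟨⟨s, hs⟩, -, rfl⟩ := hg; exact hs
  have hℓ : ¬ (l.1 : ℕ) ∣ M * p := fun h => l.2 (hMT _ l.1.2 h)
  -- one sign
  have key : ∀ (e : ℤ) (γ : GQ → ℤ), (∀ g h, γ (g * h) = γ g * γ h) →
      (∀ g ∈ A.inertiaSubgroupIn ℚ, γ g = 1) → (∀ g, γ g * γ g = 1) →
      (∃ L : IntermediateField ℚ Ω, FiniteDimensional ℚ L ∧ ∀ g, (∀ x ∈ L, g x = x) → γ g = 1) →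
      γ φ = -e → ∀ x ∈ V, wMap S x = e • x →
        σ • (τ • x - x) = (epsilonNat p n σ : ℤ) • (τ • x - x) := by
    intro e γ hγ hγI hγ2 hγL hγφ x hx hwx
    let W : AddSubgroup (JZero (M * p)) :=
      { carrier := {z | z ∈ V ∧ wMap S z = e • z}
        zero_mem' := ⟨zero_mem _, by rw [map_zero, zsmul_zero]⟩
        add_mem' := fun {a b} ha hb => ⟨add_mem ha.1 hb.1, by rw [map_add, ha.2, hb.2, zsmul_add]⟩
        neg_mem' := fun {a} ha => ⟨neg_mem ha.1, by rw [map_neg, ha.2, zsmul_neg]⟩ }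
    have : Finite W := Finite.of_injective (fun z : W => (⟨z, z.2.1⟩ : V))
      fun a b h => Subtype.ext (congrArg (fun t : V => (t : JZero (M * p))) h)
    have hWgal : ∀ (g : GQ), ∀ z ∈ W, g • z ∈ W := fun g z hz => ⟨hV.gal g z hz.1, by
      rw [wMap_galois, hz.2, galois_zsmul]⟩
    have hWact : ∀ (a : AwayPoly ℤ T), ∀ z ∈ W, act (M * p) T a z ∈ W := fun a z hz =>
      act_mem hpT hMT W (fun y hy => hV.tors y hy.1) hWgal a hz
    have h := steinberg_identity S hn W (fun z hz => hV.tors z hz.1) hWgal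
      (fun z hz => hnew z hz.1) hℓ (fun z hz => by
        have := hWact (MvPolynomial.X l) z hz
        rwa [act_X] at this)
      (fun z hz hTz => hV.inj (MvPolynomial.X l - MvPolynomial.C (((l.1 : ℕ) : ℤ) + 1))
        (by rw [map_sub, residual_C, sub_ne_zero]; exact_mod_cast hl) z hz.1 (by
          rw [act_sub, act_X, act_C, sub_eq_zero]
          refine hTz.trans ?_
          rw [← natCast_zsmul]; push_cast; rfl))
      γ (fun g _ h _ => hγ g h) hγI (fun g _ => hγ2 g) hγL hφ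
      (fun z hz => by
        show wMap S z = _
        rw [hz.2, hγφ, neg_zsmul, neg_neg])
      (fun g _ => by
        obtain ⟨a, -, ha⟩ := hV.quad g
        exact ⟨(act (M * p) T a).toAddMonoidHom, fun h y => act_galois (M * p) T h a y,
          fun y hy => hWact a y hy, fun y hy => ha y hy.1⟩)
      (fun σ' hσ' hc W' hW'W hW' hfree =>
        eq_bot_of_no_fixed hpT hMT hn hV hno hc (htI σ' hσ') W' (fun y hy => (hW'W hy).1) hW' hfree)
      (hasTameGenerator hp2 S.above hn) (hID hσ) (hID hτ) (show x ∈ W from ⟨hx, hwx⟩)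
    rwa [hγI σ hσ, hγI τ hτ, one_zsmul, one_mul] at h
  obtain ⟨γ, hγ, hγI, hγ2, hγφ, hγL⟩ := exists_unramified_sign (p := p) hp2 S.above hφ
  have h1 := key 1 γ hγ hγI hγ2 hγL hγφ (v + wMap S v) (add_mem hv (hwV v hv))
    (by rw [map_add, wMap_wMap, one_zsmul, add_comm])
  have h2 := key (-1) (fun _ => 1) (fun _ _ => (one_mul 1).symm) (fun _ _ => rfl)
    (fun _ => one_mul 1) ⟨⊥, inferInstance, fun _ _ => rfl⟩ (neg_neg 1).symm (v - wMap S v)
    (sub_mem hv (hwV v hv)) (by rw [map_sub, wMap_wMap, neg_one_zsmul, neg_sub])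
  -- halve
  have h3 : (2 : ℤ) • (σ • (τ • v - v) - (epsilonNat p n σ : ℤ) • (τ • v - v)) = 0 := by
    rw [smul_add τ v, smul_sub] at h1
    rw [smul_sub τ v, smul_sub] at h2
    rw [smul_sub] 
    rw [smul_add] at h1
    rw [smul_sub σ (τ • v)] at h2
    simp only [smul_add, smul_sub] at h1 h2 ⊢
    generalize σ • τ • v = a at *
    generalize σ • τ • wMap S v = b at *
    generalize σ • v = c at *
    generalize σ • wMap S v = d at *
    generalize τ • v = e at *
    generalize τ • wMap S v = f at *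
    generalize wMap S v = w at *
    rw [← sub_eq_zero] at h1 h2
    linear_combination (norm := module) h1 + h2
  have hpz : ((p ^ n : ℕ) : ℤ) • (σ • (τ • v - v) - (epsilonNat p n σ : ℤ) • (τ • v - v)) = 0 := by
    rw [natCast_zsmul]
    exact hV.tors _ (sub_mem (hV.gal σ _ (sub_mem (hV.gal τ v hv) hv))
      (zsmul_mem (sub_mem (hV.gal τ v hv) hv) _))
  obtain ⟨r, t, hrt⟩ : IsCoprime (2 : ℤ) ((p ^ n : ℕ) : ℤ) := by
    rw [Int.isCoprime_iff_nat_coprime]
    exact (Nat.Coprime.pow_right n ((Nat.coprime_primes Nat.prime_two hp).mpr hp2.symm))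
  rw [← sub_eq_zero, ← one_zsmul (σ • (τ • v - v) - _), ← hrt, add_zsmul, mul_zsmul, mul_zsmul, h3,
    hpz, zsmul_zero, zsmul_zero, add_zero]

end Fermat.Agent.OrdinaryT

end
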