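import Mathlib

/-!
# From a kernel to the ordinary identity

A group acts on an abelian group `V`; `K` is a subgroup on whose quotient every `g ∈ D` acts by the
scalar `γ g`. If inertia elements with nontrivial character have no fixed vector in `K` and an
endomorphism commuting with the group killing all their fixed vectors vanishes, then
`(σ - γ σ χ σ) (τ - γ τ) = 0` on `V`.
-/

namespace Fermat.Agent.OrdinaryT

variable {G V : Type*} [Group G] [AddCommGroup V] [DistribMulAction G V]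

theorem smul_zsmul' (g : G) (c : ℤ) (v : V) : g • (c • v) = c • (g • v) :=
  map_zsmul (DistribSMul.toAddMonoidHom V g) c v

/-- An endomorphism commuting with the group and killing the fixed vectors of `σ` has an image
without fixed vectors; it vanishes if no nonzero stable subgroup is without them. -/
theorem eq_zero_of_kills_fixed (V₀ K : AddSubgroup V) [Finite V₀] (hKV : K ≤ V₀) {σ : G}
    (hV₀ : ∀ (g : G), ∀ v ∈ V₀, g • v ∈ V₀)
    (hK : ∀ v ∈ K, σ • v ∈ K) (hsub : ∀ v ∈ V₀, σ • v - v ∈ K)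
    (hfix : ∀ v ∈ K, σ • v = v → v = 0)
    (hirr : ∀ W : AddSubgroup V, W ≤ V₀ → (∀ (g : G), ∀ v ∈ W, g • v ∈ W) →
      (∀ v ∈ W, σ • v = v → v = 0) → W = ⊥)
    (s : V →+ V) (hs : ∀ (g : G) v, s (g • v) = g • s v) (hsV : ∀ v ∈ V₀, s v ∈ V₀)
    (hkill : ∀ v ∈ V₀, σ • v = v → s v = 0) {v : V} (hv : v ∈ V₀) : s v = 0 := by
  let d : V →+ V := DistribSMul.toAddMonoidHom V σ - AddMonoidHom.id V
  have hd : ∀ x, d x = σ • x - x := fun x => rfl
  have hsurj : ∀ H : AddSubgroup V, H ≤ K → (∀ x ∈ H, d x ∈ H) → ∀ y ∈ H, ∃ x ∈ H, d x = y := by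
    intro H hH hdH y hy
    have : Finite H := Finite.of_injective (Set.inclusion (hH.trans hKV))
      (Set.inclusion_injective (hH.trans hKV))
    let f : H → H := fun x => ⟨d x, hdH x x.2⟩
    have hf : Function.Injective f := fun a b hab => by
      have h1 : d ((a : V) - b) = 0 := by
        rw [map_sub, sub_eq_zero]; exact congrArg Subtype.val hab
      exact Subtype.ext (sub_eq_zero.mp (hfix _ (sub_mem (hH a.2) (hH b.2))
        (sub_eq_zero.mp ((hd _).symm.trans h1))))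
    obtain ⟨x, hx⟩ := (Finite.injective_iff_surjective.mp hf) ⟨y, hy⟩
    exact ⟨x, x.2, congrArg Subtype.val hx⟩
  have hW : (V₀.map s) = ⊥ := by
    refine hirr _ ?_ ?_ ?_
    · rintro _ ⟨x, hx, rfl⟩; exact hsV x hx
    · rintro g _ ⟨x, hx, rfl⟩; exact ⟨g • x, hV₀ g x hx, hs g x⟩
    · rintro _ ⟨x, hx, rfl⟩ hfx
      obtain ⟨k, hk, hkx⟩ := hsurj K le_rfl (fun y hy => sub_mem (hK y hy) hy) (σ • x - x) (hsub x hx)
      have hsx : s x = s k := by
        rw [← sub_eq_zero, ← map_sub]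
        refine hkill _ (sub_mem hx (hKV hk)) ?_
        rw [← sub_eq_zero, ← hd, map_sub, hkx, hd, sub_self]
      have hdk : d k ∈ K ⊓ AddMonoidHom.ker s := by
        refine AddSubgroup.mem_inf.mpr ⟨sub_mem (hK k hk) hk, ?_⟩
        show s (d k) = 0
        rw [hd, map_sub, hs, ← hsx, hfx, sub_self]
      obtain ⟨k', hk', hkk⟩ := hsurj (K ⊓ AddMonoidHom.ker s) inf_le_left (fun y hy =>
        AddSubgroup.mem_inf.mpr ⟨sub_mem (hK y hy.1) hy.1, by
          show s (d y) = 0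
          rw [hd, map_sub, hs, show s y = 0 from hy.2, smul_zero, sub_zero]⟩) _ hdk
      have : k - k' = 0 := hfix _ (sub_mem hk hk'.1) (sub_eq_zero.mp (by
        rw [← hd, map_sub, hkk, sub_self]))
      show s x = 0
      rw [hsx, sub_eq_zero.mp this]
      exact hk'.2
  exact (AddSubgroup.mem_bot).mp (hW ▸ AddSubgroup.mem_map_of_mem s hv)

/-- Elements of nontrivial character act on the kernel by the character. -/
theorem smul_eq_chi_of_kernel (V₀ K : AddSubgroup V) (hKV : K ≤ V₀) {σ : G} (c : ℤ)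
    (hK : ∀ v ∈ K, σ • v ∈ K) (hsub : ∀ v ∈ V₀, σ • v - v ∈ K)
    (hfix : ∀ v ∈ K, σ • v = v → v = 0)
    (hquad : ∃ t : V →+ V, (∀ (g : G) v, t (g • v) = g • t v) ∧ (∀ v ∈ V₀, t v ∈ V₀) ∧
      ∀ v ∈ V₀, σ • σ • v - t (σ • v) + c • v = 0)
    (hann : ∀ s : V →+ V, (∀ (g : G) v, s (g • v) = g • s v) → (∀ v ∈ V₀, s v ∈ V₀) →
      (∀ v ∈ V₀, σ • v = v → s v = 0) → ∀ v ∈ V₀, s v = 0)
    {v : V} (hv : v ∈ K) : σ • v = c • v := by
  obtain ⟨t, ht, htV, hq⟩ := hquad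
  let s : V →+ V := t - AddMonoidHom.id V - c • AddMonoidHom.id V
  have hs : ∀ x, s x = t x - x - c • x := fun x => rfl
  have hs0 : ∀ x ∈ V₀, s x = 0 := by
    refine hann s (fun g x => ?_) (fun x hx => ?_) fun x hx hxe => ?_
    · rw [hs, hs, ht, smul_sub, smul_sub, smul_zsmul' g]
    · exact sub_mem (sub_mem (htV x hx) hx) (zsmul_mem hx c)
    · have h := hq x hx
      rw [hxe, hxe] at h
      rw [hs, show t x - x - c • x = -(x - t x + c • x) by abel, h, neg_zero]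
  refine sub_eq_zero.mp (hfix _ (sub_mem (hK v hv) (zsmul_mem hv c)) ?_)
  have h1 := hq v (hKV hv)
  have h2 := hs0 (σ • v) (by
    have := add_mem (hKV (hsub v (hKV hv))) (hKV hv)
    rwa [sub_add_cancel] at this)
  rw [hs] at h2
  rw [smul_sub, smul_zsmul' σ, ← sub_eq_zero]
  calc σ • σ • v - c • σ • v - (σ • v - c • v)
      = (σ • σ • v - t (σ • v) + c • v) + (t (σ • v) - σ • v - c • σ • v) := by abel
    _ = 0 := by rw [h1, h2, add_zero]

/-- The identity `(σ - γ σ χ σ) (τ - γ τ) = 0`. -/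
theorem kernel_identity {p n : ℕ} (hp : p.Prime) (V₀ K : AddSubgroup V) [Finite V₀] (hKV : K ≤ V₀)
    (htors : ∀ v ∈ V₀, p ^ n • v = 0) (D I : Subgroup G) (hID : I ≤ D) (χ γ : G → ℤ)
    (hχ : ∀ g ∈ D, ∀ h ∈ I, ∀ v ∈ V₀, χ (g * h) • v = (χ g * χ h) • v)
    (hγ : ∀ g ∈ D, ∀ h ∈ I, γ (g * h) = γ g) (hγI : ∀ h ∈ I, γ h = 1)
    (hγ2 : ∀ g ∈ D, γ g * γ g = 1)
    (hK : ∀ g ∈ D, ∀ v ∈ K, g • v ∈ K) (hsub : ∀ g ∈ D, ∀ v ∈ V₀, g • v - γ g • v ∈ K)
    (hcore : ∀ σ ∈ I, ¬ (p : ℤ) ∣ χ σ - 1 → ∀ v ∈ K, σ • v = v → v = 0)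
    (hV₀ : ∀ (g : G), ∀ v ∈ V₀, g • v ∈ V₀)
    (hquad : ∀ g ∈ D, ∃ t : V →+ V, (∀ (h : G) v, t (h • v) = h • t v) ∧ (∀ v ∈ V₀, t v ∈ V₀) ∧
      ∀ v ∈ V₀, g • g • v - t (g • v) + χ g • v = 0)
    (hirr : ∀ σ ∈ I, ¬ (p : ℤ) ∣ χ σ - 1 → ∀ W : AddSubgroup V, W ≤ V₀ →
      (∀ (g : G), ∀ v ∈ W, g • v ∈ W) → (∀ v ∈ W, σ • v = v → v = 0) → W = ⊥)
    {σ₀ : G} (hσ₀ : σ₀ ∈ I) (hχ₀ : ¬ (p : ℤ) ∣ χ σ₀ - 1) (hχ₀' : ¬ (p : ℤ) ∣ χ σ₀)
    {σ τ : G} (hσ : σ ∈ D) (hτ : τ ∈ D) {v : V} (hv : v ∈ V₀) :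
    σ • (τ • v - γ τ • v) = (γ σ * χ σ) • (τ • v - γ τ • v) := by
  have hsub1 : ∀ g ∈ I, ∀ x ∈ V₀, g • x - x ∈ K := fun g hg x hx => by
    have := hsub g (hID hg) x hx
    rwa [hγI g hg, one_zsmul] at this
  -- multiplication by a unit is injective
  have hcancel : ∀ (a : ℤ), ¬ (p : ℤ) ∣ a → ∀ x ∈ V₀, a • x = 0 → x = 0 := by
    intro a ha x hx hax
    obtain ⟨u, w, huw⟩ : IsCoprime a ((p : ℤ) ^ n) :=
      ((Nat.prime_iff_prime_int.mp hp).coprime_iff_not_dvd.mpr ha).symm.pow_right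
    have hpx : ((p : ℤ) ^ n) • x = 0 := by
      rw [← Nat.cast_pow, natCast_zsmul]; exact htors x hx
    calc x = (u * a + w * (p : ℤ) ^ n) • x := by rw [huw, one_zsmul]
      _ = 0 := by rw [add_zsmul, mul_zsmul, mul_zsmul, hax, hpx, zsmul_zero, zsmul_zero, add_zero]
  have hinert : ∀ σ ∈ I, ¬ (p : ℤ) ∣ χ σ - 1 → ∀ x ∈ K, σ • x = χ σ • x := fun σ hσ hc x hx =>
    smul_eq_chi_of_kernel V₀ K hKV (χ σ) (hK σ (hID hσ)) (hsub1 σ hσ) (hcore σ hσ hc)
      (hquad σ (hID hσ)) (fun s hs hsV hk v hv => eq_zero_of_kills_fixed V₀ K hKV hV₀ (hK σ (hID hσ))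
      (hsub1 σ hσ) (hcore σ hσ hc) (hirr σ hσ hc) s hs hsV hk hv) hx
  -- the relation `(g - γ g) (g - γ g χ g) = 0`
  have hrel : ∀ g ∈ D, ∀ x ∈ K,
      g • g • x - (γ g * χ g) • g • x - γ g • g • x + χ g • x = 0 := by
    intro g hg x hx
    obtain ⟨t, ht, htV, hq⟩ := hquad g hg
    let s : V →+ V := γ g • t - AddMonoidHom.id V - χ g • AddMonoidHom.id V
    have hs : ∀ y, s y = γ g • t y - y - χ g • y := fun y => rfl
    have hscomm : ∀ (h : G) y, s (h • y) = h • s y := fun h y => by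
      rw [hs, hs, ht, smul_sub, smul_sub, smul_zsmul' h, smul_zsmul' h]
    have hs0 : ∀ y ∈ V₀, s y = 0 := by
      intro z hz
      refine eq_zero_of_kills_fixed V₀ K hKV hV₀ (hK σ₀ (hID hσ₀)) (hsub1 σ₀ hσ₀) (hcore σ₀ hσ₀ hχ₀)
        (hirr σ₀ hσ₀ hχ₀) s hscomm (fun y hy => sub_mem (sub_mem (zsmul_mem (htV y hy) _) hy)
          (zsmul_mem hy _)) (fun y hy hye => hcore σ₀ hσ₀ hχ₀ _ ?_ (by rw [← hscomm, hye])) hz
      obtain ⟨k, hk, hke⟩ : ∃ k ∈ K, g • y = γ g • y + k :=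
        ⟨_, hsub g hg y hy, by abel⟩
      have h := hq y hy
      rw [hke, smul_add, smul_zsmul' g, hke, map_add, map_zsmul, smul_add, smul_smul,
        hγ2 g hg, one_zsmul] at h
      have htk : γ g • k + g • k - t k ∈ K := by
        refine sub_mem (add_mem (zsmul_mem hk _) (hK g hg k hk)) ?_
        have h3 : g • t k ∈ K := by
          rw [← ht, show t (g • k) = g • g • k + χ g • k by
            rw [← sub_eq_zero, show t (g • k) - (g • g • k + χ g • k) =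
              -(g • g • k - t (g • k) + χ g • k) by abel, hq k (hKV hk), neg_zero]]
          exact add_mem (hK g hg _ (hK g hg k hk)) (zsmul_mem hk _)
        simpa using hK g⁻¹ (inv_mem hg) _ h3
      rw [hs, show γ g • t y - y - χ g • y = γ g • k + g • k - t k by
        rw [← sub_eq_zero]
        calc _ = -(y + γ g • k + g • k - (γ g • t y + t k) + χ g • y) := by abel
          _ = 0 := by rw [h, neg_zero]]
      exact htk
    have hgx : g • x ∈ V₀ := hKV (hK g hg x hx)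
    have h1 := hq x (hKV hx)
    have h2 := congrArg (γ g • ·) (hs0 (g • x) hgx)
    simp only [hs, zsmul_sub, smul_smul, hγ2 g hg, one_zsmul, zsmul_zero] at h2
    calc g • g • x - (γ g * χ g) • g • x - γ g • g • x + χ g • x
        = (g • g • x - t (g • x) + χ g • x) +
          (t (g • x) - γ g • g • x - (γ g * χ g) • g • x) := by abel
      _ = 0 := by rw [h1, h2, add_zero]
  -- every element of `D` acts on `K` by `γ χ`
  have hall : ∀ g ∈ D, ∀ x ∈ K, g • x = (γ g * χ g) • x := by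
    intro g hg x hx
    have hgσ : g * σ₀ ∈ D := mul_mem hg (hID hσ₀)
    have hσx : ∀ y ∈ K, (g * σ₀) • y = χ σ₀ • g • y := fun y hy => by
      rw [mul_smul, hinert σ₀ hσ₀ hχ₀ y hy, smul_zsmul' g]
    have h1 := hrel g hg x hx
    have h2 := hrel (g * σ₀) hgσ x hx
    rw [hσx x hx, smul_zsmul' (g * σ₀), hσx _ (hK g hg x hx), hγ g hg σ₀ hσ₀, hχ g hg σ₀ hσ₀ x
      (hKV hx)] at h2
    have h3 : (γ g * χ (g * σ₀)) • χ σ₀ • g • x = (γ g * χ g * χ σ₀) • χ σ₀ • g • x := by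
      rw [mul_smul (γ g), hχ g hg σ₀ hσ₀ _ (zsmul_mem (hKV (hK g hg x hx)) _), ← mul_smul,
        mul_assoc]
    rw [h3] at h2
    refine sub_eq_zero.mp (hcancel _ hχ₀' _ (sub_mem (hKV (hK g hg x hx)) (zsmul_mem (hKV hx) _)) ?_)
    refine hcancel _ hχ₀ _ (zsmul_mem (sub_mem (hKV (hK g hg x hx)) (zsmul_mem (hKV hx) _)) _) ?_
    refine hcancel (γ g) (fun hd => hp.not_dvd_one (Int.natCast_dvd_natCast.mp (by
      rw [Nat.cast_one, ← hγ2 g hg]; exact hd.mul_right _))) _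
      (zsmul_mem (zsmul_mem (sub_mem (hKV (hK g hg x hx)) (zsmul_mem (hKV hx) _)) _) _) ?_
    obtain ⟨A, hA⟩ : ∃ A, A = g • g • x := ⟨_, rfl⟩
    obtain ⟨B, hB⟩ : ∃ B, B = g • x := ⟨_, rfl⟩
    rw [← hA] at h1 h2
    rw [← hB] at h1 h2 ⊢
    calc γ g • (χ σ₀ - 1) • χ σ₀ • (B - (γ g * χ g) • x)
        = (χ σ₀ • χ σ₀ • A - (γ g * χ g * χ σ₀) • χ σ₀ • B - γ g • χ σ₀ • B +
            (χ g * χ σ₀) • x) -
          (χ σ₀ * χ σ₀) • (A - (γ g * χ g) • B - γ g • B + χ g • x) := by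
          match_scalars
          all_goals first
            | ring1
            | linear_combination ((χ σ₀ - 1) * χ σ₀ * χ g) * hγ2 g hg
            | linear_combination (-(χ σ₀ - 1) * χ σ₀ * χ g) * hγ2 g hg
      _ = 0 := by rw [h2, h1, zsmul_zero, sub_zero]
  exact hall σ hσ _ (hsub τ hτ v hv)

end Fermat.Agent.OrdinaryT
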