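import Fermat.Agent.OrdinaryT.Core
import Fermat.Agent.OrdinaryT.Identity
import Fermat.Agent.EigenRep.Cyclotomic
import Fermat.Agent.TameInertia.Frobenius

/-!
# The ordinary identities on torsion

`ordinary_identity`: on a finite stable subgroup of `J₀(M)[pᵏ]`, `p ∤ M`, where `T_p` is injective,
`σ (τ x - x) = ε(σ) (τ x - x)` on inertia. `steinberg_identity`: on one of `J₀(M p)[pᵏ]` killed by
both norms, with `w_p = - γ(φ)`, `σ (τ x - γ(τ) x) = γ(σ) ε(σ) (τ x - γ(τ) x)` on the decomposition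
group.
-/

noncomputable section

open IsLocalRing ModularCurve AlgebraicCurve
open Fermat.Agent.Reduction Fermat.Agent.SemistableRed Fermat.Agent.EigenRep

namespace Fermat.Agent.OrdinaryT

local notation "Ω" => AlgebraicClosure ℚ

variable {p : ℕ} [Fact p.Prime]

theorem epsilonNat_mul_smul {V : Type*} [AddCommGroup V] {k : ℕ} {v : V} (hv : p ^ k • v = 0)
    (g h : Ω ≃ₐ[ℚ] Ω) :
    (epsilonNat p k (g * h) : ℤ) • v =
      ((epsilonNat p k g : ℤ) * (epsilonNat p k h : ℤ)) • v := by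
  have : NeZero (p ^ k) := ⟨pow_ne_zero k (Fact.out : p.Prime).ne_zero⟩
  have h1 : ((epsilonNat p k (g * h) : ℤ) : ZMod (p ^ k)) =
      (((epsilonNat p k g : ℤ) * (epsilonNat p k h : ℤ) : ℤ) : ZMod (p ^ k)) := by
    push_cast [epsilonNat, ZMod.natCast_zmod_val]
    rw [map_mul, Units.val_mul, map_mul]
  rw [← sub_eq_zero, ← sub_smul]
  obtain ⟨c, hc⟩ := (ZMod.intCast_eq_intCast_iff_dvd_sub _ _ _).mp h1
  rw [show (epsilonNat p k (g * h) : ℤ) - (epsilonNat p k g : ℤ) * (epsilonNat p k h : ℤ) =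
      -c * ((p ^ k : ℕ) : ℤ) by rw [neg_mul, mul_comm c, ← hc]; ring, mul_zsmul, natCast_zsmul, hv,
    zsmul_zero]

theorem epsilonNat_not_dvd {k : ℕ} (hk : k ≠ 0) (g : Ω ≃ₐ[ℚ] Ω) :
    ¬ (p : ℤ) ∣ (epsilonNat p k g : ℤ) := by
  have : NeZero (p ^ k) := ⟨pow_ne_zero k (Fact.out : p.Prime).ne_zero⟩
  intro h
  have h1 := congrArg (ZMod.castHom (dvd_pow_self p hk) (ZMod p))
    (ZMod.natCast_zmod_val (PadicInt.toZModPow k (epsilonPadic p g : ℤ_[p])))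
  rw [map_natCast] at h1
  have h2 : IsUnit (ZMod.castHom (dvd_pow_self p hk) (ZMod p)
      (PadicInt.toZModPow k (epsilonPadic p g : ℤ_[p]))) :=
    ((epsilonPadic p g).isUnit.map _).map _
  rw [← h1] at h2
  change IsUnit ((epsilonNat p k g : ℕ) : ZMod p) at h2
  rw [(ZMod.natCast_eq_zero_iff _ _).mpr (Int.natCast_dvd_natCast.mp h)] at h2
  exact not_isUnit_zero h2

/-- An element of nontrivial character moves a `p`-th root of unity. -/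
theorem exists_moves_root {k : ℕ} (hk : k ≠ 0) {g : Ω ≃ₐ[ℚ] Ω}
    (hg : ¬ (p : ℤ) ∣ (epsilonNat p k g : ℤ) - 1) : ∃ ζ : Ω, ζ ^ p = 1 ∧ g ζ ≠ ζ := by
  have : NeZero (p ^ k) := ⟨pow_ne_zero k (Fact.out : p.Prime).ne_zero⟩
  obtain ⟨ζ, hζ⟩ := exists_primitiveRoot (p := p) 1
  rw [pow_one] at hζ
  refine ⟨ζ, hζ.pow_eq_one, fun hfix => hg ?_⟩
  obtain ⟨k', rfl⟩ : ∃ k', k = k' + 1 := ⟨k - 1, by omega⟩
  have h1 : ζ ^ p ^ (k' + 1) = 1 := by rw [pow_succ', pow_mul, hζ.pow_eq_one, one_pow]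
  have h2 := epsilon_spec g h1
  rw [hfix, ← pow_mod_orderOf ζ, ← hζ.eq_orderOf] at h2
  have h3 := hζ.pow_inj (Fact.out : p.Prime).one_lt (Nat.mod_lt _ (Fact.out : p.Prime).pos)
    ((pow_one ζ).trans h2)
  exact ⟨(epsilonNat p (k' + 1) g / p : ℕ), by
    have h4 := Nat.div_add_mod (epsilonNat p (k' + 1) g) p
    rw [← h3] at h4
    have h5 := congrArg (Nat.cast (R := ℤ)) h4
    rw [Nat.cast_add, Nat.cast_mul, Nat.cast_one] at h5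
    linarith⟩

/-- Some inertia element moves the `p`-th roots of unity. -/
def HasTameGenerator (A : ValuationSubring (AlgebraicClosure ℚ)) (k : ℕ) : Prop :=
  ∃ σ₀ ∈ A.inertiaSubgroupIn ℚ, ¬ (p : ℤ) ∣ (epsilonNat p k σ₀ : ℤ) - 1

variable {A : ValuationSubring Ω} {M : ℕ} [NeZero M] [NeZero p]
  [CharP (ResidueField A) p] [IsAlgClosed (ResidueField A)] (S : Setting A M p)

include S in
/-- **Ordinary identity** at good level. -/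
theorem ordinary_identity {k : ℕ} (hk : k ≠ 0) (V₀ : AddSubgroup (JZero M)) [Finite V₀]
    (htors : ∀ v ∈ V₀, p ^ k • v = 0) (hV₀ : ∀ (g : Ω ≃ₐ[ℚ] Ω), ∀ v ∈ V₀, g • v ∈ V₀)
    (hTV : ∀ v ∈ V₀, heckeOperatorAlong Ω M p v ∈ V₀)
    (hTinj : ∀ v ∈ V₀, heckeOperatorAlong Ω M p v = 0 → v = 0)
    (hquad : ∀ g ∈ A.inertiaSubgroupIn ℚ, ∃ t : JZero M →+ JZero M,
      (∀ (h : Ω ≃ₐ[ℚ] Ω) v, t (h • v) = h • t v) ∧ (∀ v ∈ V₀, t v ∈ V₀) ∧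
        ∀ v ∈ V₀, g • g • v - t (g • v) + (epsilonNat p k g : ℤ) • v = 0)
    (hirr : ∀ σ ∈ A.inertiaSubgroupIn ℚ, ¬ (p : ℤ) ∣ (epsilonNat p k σ : ℤ) - 1 →
      ∀ W : AddSubgroup (JZero M), W ≤ V₀ → (∀ (g : Ω ≃ₐ[ℚ] Ω), ∀ v ∈ W, g • v ∈ W) →
        (∀ v ∈ W, σ • v = v → v = 0) → W = ⊥)
    (hgen : HasTameGenerator (p := p) A k)
    {σ τ : Ω ≃ₐ[ℚ] Ω} (hσ : σ ∈ A.inertiaSubgroupIn ℚ) (hτ : τ ∈ A.inertiaSubgroupIn ℚ)
    {v : JZero M} (hv : v ∈ V₀) :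
    σ • (τ • v - v) = (epsilonNat p k σ : ℤ) • (τ • v - v) := by
  obtain ⟨σ₀, hσ₀, hχ₀⟩ := hgen
  have hID : ∀ {g : Ω ≃ₐ[ℚ] Ω}, g ∈ A.inertiaSubgroupIn ℚ → g ∈ A.decompositionSubgroup ℚ :=
    fun {g} hg => by obtain ⟨⟨s, hs⟩, -, rfl⟩ := hg; exact hs
  have h := kernel_identity (Fact.out : p.Prime) V₀ (V₀ ⊓ goodKilled S (p ^ k)) inf_le_left htors
    (A.inertiaSubgroupIn ℚ) (A.inertiaSubgroupIn ℚ) le_rfl (fun g => (epsilonNat p k g : ℤ))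
    (fun _ => 1) (fun g _ h _ v hv => epsilonNat_mul_smul (htors v hv) g h)
    (fun _ _ _ _ => rfl) (fun _ _ => rfl) (fun _ _ => one_mul 1)
    (fun g hg v hv => AddSubgroup.mem_inf.mpr
      ⟨hV₀ g v hv.1, smul_mem_goodKilled S (hID hg) hv.2⟩)
    (fun g hg v hv => AddSubgroup.mem_inf.mpr
      ⟨sub_mem (hV₀ g v hv) (zsmul_mem hv _), by
        rw [one_zsmul]; exact smul_sub_mem_goodKilled S hg (htors v hv)⟩)
    (fun σ hσ hc v hv hfix => core_good S V₀ hTV hTinj hσ (exists_moves_root hk hc) hv.1 hv.2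
      (htors v hv.1) hfix)
    hV₀ hquad hirr hσ₀ hχ₀ (epsilonNat_not_dvd hk σ₀) hσ hτ hv
  simpa using h

include S in
/-- **Steinberg identity** on the `p`-new part. -/
theorem steinberg_identity {k : ℕ} (hk : k ≠ 0) (V₀ : AddSubgroup (JZero (M * p))) [Finite V₀]
    (htors : ∀ v ∈ V₀, p ^ k • v = 0) (hV₀ : ∀ (g : Ω ≃ₐ[ℚ] Ω), ∀ v ∈ V₀, g • v ∈ V₀)
    (hnorm : ∀ v ∈ V₀, ∀ b, normMaps M p b v = 0) {ℓ : ℕ} [Fact ℓ.Prime] (hℓ : ¬ ℓ ∣ M * p)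
    (hTV : ∀ v ∈ V₀, heckeOperatorAlong Ω (M * p) ℓ v ∈ V₀)
    (hTinj : ∀ v ∈ V₀, heckeOperatorAlong Ω (M * p) ℓ v = (ℓ + 1) • v → v = 0)
    (γ : (Ω ≃ₐ[ℚ] Ω) → ℤ)
    (hγ : ∀ g ∈ A.decompositionSubgroup ℚ, ∀ h ∈ A.decompositionSubgroup ℚ, γ (g * h) = γ g * γ h)
    (hγI : ∀ g ∈ A.inertiaSubgroupIn ℚ, γ g = 1)
    (hγ2 : ∀ g ∈ A.decompositionSubgroup ℚ, γ g * γ g = 1)
    (hγL : ∃ L : IntermediateField ℚ Ω, FiniteDimensional ℚ L ∧ ∀ g, (∀ x ∈ L, g x = x) → γ g = 1)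
    {φ : Ω ≃ₐ[ℚ] Ω} (hφ : A.IsFrobeniusAt φ p)
    (hw : ∀ v ∈ V₀, SemilinearAut.ofAlgAut S.w • v = -(γ φ • v))
    (hquad : ∀ g ∈ A.decompositionSubgroup ℚ, ∃ t : JZero (M * p) →+ JZero (M * p),
      (∀ (h : Ω ≃ₐ[ℚ] Ω) v, t (h • v) = h • t v) ∧ (∀ v ∈ V₀, t v ∈ V₀) ∧
        ∀ v ∈ V₀, g • g • v - t (g • v) + (epsilonNat p k g : ℤ) • v = 0)
    (hirr : ∀ σ ∈ A.inertiaSubgroupIn ℚ, ¬ (p : ℤ) ∣ (epsilonNat p k σ : ℤ) - 1 →
      ∀ W : AddSubgroup (JZero (M * p)), W ≤ V₀ → (∀ (g : Ω ≃ₐ[ℚ] Ω), ∀ v ∈ W, g • v ∈ W) →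
        (∀ v ∈ W, σ • v = v → v = 0) → W = ⊥)
    (hgen : HasTameGenerator (p := p) A k)
    {σ τ : Ω ≃ₐ[ℚ] Ω} (hσ : σ ∈ A.decompositionSubgroup ℚ) (hτ : τ ∈ A.decompositionSubgroup ℚ)
    {v : JZero (M * p)} (hv : v ∈ V₀) :
    σ • (τ • v - γ τ • v) = (γ σ * (epsilonNat p k σ : ℤ)) • (τ • v - γ τ • v) := by
  classical
  obtain ⟨σ₀, hσ₀, hχ₀⟩ := hgen
  have hID : ∀ {g : Ω ≃ₐ[ℚ] Ω}, g ∈ A.inertiaSubgroupIn ℚ → g ∈ A.decompositionSubgroup ℚ :=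
    fun {g} hg => by obtain ⟨⟨s, hs⟩, -, rfl⟩ := hg; exact hs
  have hφD := hφ.mem_decompositionSubgroup
  set K := V₀ ⊓ newKilled S (p ^ k) with hK
  have hpk : p ^ k ≠ 0 := pow_ne_zero _ (NeZero.ne p)
  have hKD : ∀ g ∈ A.decompositionSubgroup ℚ, ∀ x ∈ K, g • x ∈ K := fun g hg x hx =>
    AddSubgroup.mem_inf.mpr ⟨hV₀ g x hx.1, smul_mem_newKilled S hg hx.2⟩
  have hφ1 : ∀ x ∈ V₀, φ • x - γ φ • x ∈ K := fun x hx => AddSubgroup.mem_inf.mpr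
    ⟨sub_mem (hV₀ φ x hx) (zsmul_mem hx _), by
      have h1 := frobenius_add_w_mem_newKilled S hφ hpk (htors x hx) (hnorm x hx)
      rwa [hw x hx, ← sub_eq_add_neg] at h1⟩
  have hI1 : ∀ g ∈ A.inertiaSubgroupIn ℚ, ∀ x ∈ V₀, g • x - γ g • x ∈ K := fun g hg x hx =>
    AddSubgroup.mem_inf.mpr ⟨sub_mem (hV₀ g x hx) (zsmul_mem hx _), by
      rw [hγI g hg, one_zsmul]; exact smul_sub_mem_newKilled S hg (htors x hx)⟩
  have hcomp : ∀ a ∈ A.decompositionSubgroup ℚ, ∀ b ∈ A.decompositionSubgroup ℚ,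
      (∀ x ∈ V₀, a • x - γ a • x ∈ K) → (∀ x ∈ V₀, b • x - γ b • x ∈ K) →
        ∀ x ∈ V₀, (a * b) • x - γ (a * b) • x ∈ K := fun a ha b hb h1 h2 x hx => by
    have e : (a * b) • x - γ (a * b) • x =
        a • (b • x - γ b • x) + γ b • (a • x - γ a • x) := by
      rw [mul_smul, hγ a ha b hb, smul_sub, smul_zsmul', zsmul_sub, mul_comm (γ a), mul_zsmul]
      abel
    rw [e]
    exact add_mem (hKD a ha _ (h2 x hx)) (zsmul_mem (h1 x hx) _)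
  have hsub : ∀ g ∈ A.decompositionSubgroup ℚ, ∀ x ∈ V₀, g • x - γ g • x ∈ K := by
    intro g hg x hx
    obtain ⟨L₁, hL₁, hγL⟩ := hγL
    obtain ⟨L₂, hL₂, hfix⟩ := EigenRep.jZeroSmooth (M * p) x
    have := hL₁
    have := hL₂
    obtain ⟨n, τ₀, hτ₀, hmem⟩ :=
      TameInertia.exists_eq_frobenius_pow_mul (Fact.out : p.Prime) S.above hφ hg (L₁ ⊔ L₂)
    have hfixed := (IntermediateField.mem_fixingSubgroup_iff _ _).mp hmem
    have hpow : ∀ j : ℕ, φ ^ j ∈ A.decompositionSubgroup ℚ ∧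
        ∀ x ∈ V₀, φ ^ j • x - γ (φ ^ j) • x ∈ K := by
      intro j
      induction j with
      | zero =>
        refine ⟨by rw [pow_zero]; exact one_mem _, fun x hx => ?_⟩
        rw [pow_zero]
        exact hI1 1 (one_mem _) x hx
      | succ j ih =>
        rw [pow_succ]
        exact ⟨mul_mem ih.1 hφD, hcomp _ ih.1 _ hφD ih.2 hφ1⟩
    set h := (φ ^ n * τ₀)⁻¹ * g with hh
    have h1 : φ ^ n * τ₀ ∈ A.decompositionSubgroup ℚ := mul_mem (hpow n).1 (hID hτ₀)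
    have hgx : g • x = (φ ^ n * τ₀) • x := by
      conv_lhs => rw [show g = (φ ^ n * τ₀) * h by rw [hh, mul_inv_cancel_left]]
      rw [mul_smul, hfix h fun a ha => hfixed a (le_sup_right (a := L₁) ha)]
    have hgγ : γ g = γ (φ ^ n * τ₀) := by
      conv_lhs => rw [show g = (φ ^ n * τ₀) * h by rw [hh, mul_inv_cancel_left]]
      rw [hγ _ h1 h (mul_mem (inv_mem h1) hg), hγL h fun a ha => hfixed a (le_sup_left (b := L₂) ha),
        mul_one]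
    rw [hgx, hgγ]
    exact hcomp _ (hpow n).1 _ (hID hτ₀) (hpow n).2 (hI1 τ₀ hτ₀) x hx
  exact kernel_identity (Fact.out : p.Prime) V₀ K inf_le_left htors
    (A.decompositionSubgroup ℚ) (A.inertiaSubgroupIn ℚ) (fun g hg => hID hg)
    (fun g => (epsilonNat p k g : ℤ)) γ (fun g _ h _ v hv => epsilonNat_mul_smul (htors v hv) g h)
    (fun g hg h hh => by rw [hγ g hg h (hID hh), hγI h hh, mul_one]) hγI hγ2 hKD hsub
    (fun σ hσ hc v hv hfix => core_new S V₀ hnorm hℓ hTV hTinj hσ (exists_moves_root hk hc) hv.1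
      hv.2 (htors v hv.1) hfix)
    hV₀ hquad hirr hσ₀ hχ₀ (epsilonNat_not_dvd hk σ₀) hσ hτ hv

end Fermat.Agent.OrdinaryT

end
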