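import Fermat.Agent.SemistableRed.Equivariance

/-!
# Classes whose functions reduce to powers

For an `n`-torsion class with function `u` (`div u = n D`), whether the reduction of `u` on one
component is a constant times an `n`-th power only depends on the class. The classes with this
property form the kernel of a map compatible with the decomposition group, on whose target inertia
is trivial.
-/

set_option linter.unusedSectionVars false

noncomputable section

open AlgebraicCurve Fermat.Agent.FunctionFieldRR Fermat.Agent.SemistableRed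

namespace Fermat.Agent.OrdinaryT

variable {L : Type*} [Field L] [IsAlgClosed L] {A : ValuationSubring L} {k : Type*} [Field k]
  [IsAlgClosed k] {π : A →+* k} {F : Type*} [Field F] [Algebra L F] [IsFunctionField L F]
  {G : Type*} [Field G] [Algebra k G] [IsFunctionField k G]
variable (S : SplitModel A π F G)

/-- The reduction of `u` on component `i` is a constant times an `n`-th power. -/
def PowRed (i : Fin 2) (n : ℕ) (u : F) : Prop :=
  u ≠ 0 ∧ ∃ (c : L) (y : G), y ≠ 0 ∧ S.Int i (c • u) ∧ S.red i (c • u) = y ^ n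

variable {S} {i : Fin 2} {n : ℕ}

theorem PowRed.mul {u v : F} (hu : PowRed S i n u) (hv : PowRed S i n v) :
    PowRed S i n (u * v) := by
  obtain ⟨hu0, c, y, hy, hci, hcr⟩ := hu
  obtain ⟨hv0, d, z, hz, hdi, hdr⟩ := hv
  refine ⟨mul_ne_zero hu0 hv0, c * d, y * z, mul_ne_zero hy hz, ?_⟩
  obtain ⟨h1, h2⟩ := S.mul_int_smul hci hdi
  exact ⟨h1, by rw [h2, hcr, hdr, mul_pow]⟩

theorem powRed_one : PowRed S i n (1 : F) :=
  ⟨one_ne_zero, 1, 1, one_ne_zero, by simpa using S.int_one i, by simpa using S.red_one i⟩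

theorem PowRed.inv {u : F} (hu : PowRed S i n u) : PowRed S i n u⁻¹ := by
  obtain ⟨hu0, c, y, hy, hci, hcr⟩ := hu
  obtain ⟨h1, h2⟩ := S.int_inv hci (by rw [hcr]; exact pow_ne_zero _ hy)
  refine ⟨inv_ne_zero hu0, c⁻¹, y⁻¹, inv_ne_zero hy, ?_⟩
  have he : (c • u)⁻¹ = c⁻¹ • u⁻¹ := by
    rw [Algebra.smul_def, Algebra.smul_def, mul_inv, map_inv₀]
  rw [← he]
  exact ⟨h1, by rw [h2, hcr, inv_pow]⟩

theorem powRed_const {a : L} (ha : a ≠ 0) : PowRed S i n (algebraMap L F a) := by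
  refine ⟨(map_ne_zero _).mpr ha, a⁻¹, 1, one_ne_zero, ?_⟩
  have he : a⁻¹ • algebraMap L F a = 1 := by
    rw [Algebra.smul_def, ← map_mul, inv_mul_cancel₀ ha, map_one]
  rw [he]
  exact ⟨S.int_one i, by rw [S.red_one, one_pow]⟩

theorem powRed_pow {g : F} (hg : g ≠ 0) : PowRed S i n (g ^ n) := by
  obtain ⟨d, hd, hdr⟩ := S.normalise i g hg
  refine ⟨pow_ne_zero _ hg, d ^ n, S.red i (d • g), hdr, ?_⟩
  rw [← smul_pow]
  exact ⟨S.int_pow hd n, S.red_pow hd n⟩

theorem powRed_iff_of_eq {u u' g : F} {a : L} (ha : a ≠ 0) (hg : g ≠ 0)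
    (h : u' = algebraMap L F a * g ^ n * u) : PowRed S i n u' ↔ PowRed S i n u := by
  refine ⟨fun h' => ?_, fun h' => h ▸ ((powRed_const ha).mul (powRed_pow hg)).mul h'⟩
  have := (((powRed_const (S := S) (i := i) (n := n) ha).mul (powRed_pow hg)).inv).mul h'
  rwa [h, inv_mul_cancel_left₀ (mul_ne_zero ((map_ne_zero _).mpr ha) (pow_ne_zero _ hg))] at this

/-- Any normalisation of such a function reduces to an `n`-th power. -/
theorem PowRed.exists_red_eq (hn : n ≠ 0) {u : F} (hu : PowRed S i n u) {c : L}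
    (hc : S.Int i (c • u)) (hcr : S.red i (c • u) ≠ 0) :
    ∃ y : G, y ≠ 0 ∧ S.red i (c • u) = y ^ n := by
  obtain ⟨hu0, d, y, hy, hdi, hdr⟩ := hu
  have hd0 : d ≠ 0 := fun h => pow_ne_zero n hy (by rw [← hdr, h, zero_smul, S.red_zero])
  by_cases hcd : c / d ∈ A
  · have h := S.red_smul i (c / d) _ hcd hdi
    rw [smul_smul, div_mul_cancel₀ _ hd0, hdr] at h
    obtain ⟨r, hr⟩ := IsAlgClosed.exists_pow_nat_eq (π ⟨_, hcd⟩) (Nat.pos_of_ne_zero hn)
    refine ⟨r • y, smul_ne_zero (fun h0 => hcr ?_) hy, by rw [h, smul_pow, hr]⟩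
    rw [h, ← hr, h0, zero_pow hn, zero_smul]
  · exfalso
    obtain ⟨h1, h2⟩ := S.inv_mem_max hcd
    have h := S.smul_mem_zero h1 h2 hc
    rw [smul_smul, inv_div, div_mul_cancel₀ _ (fun h0 => hcr (by rw [h0, zero_smul, S.red_zero]))]
      at h
    exact pow_ne_zero n hy (hdr.symm.trans h)

/-- A power of order `n * m` which is an `m`-th power of `u` gives back `n`. -/
theorem powRed_pow_mul_iff {m : ℕ} (hm : m ≠ 0) (hn : n ≠ 0) {u : F} (hu : u ≠ 0)
    (hinj : ∀ y z : G, y ^ m = z ^ m → y = z) :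
    PowRed S i (n * m) (u ^ m) ↔ PowRed S i n u := by
  obtain ⟨c, hc, hcr⟩ := S.normalise i u hu
  have hcm : S.Int i (c ^ m • u ^ m) ∧ S.red i (c ^ m • u ^ m) = S.red i (c • u) ^ m := by
    rw [← smul_pow]; exact ⟨S.int_pow hc m, S.red_pow hc m⟩
  refine ⟨fun h => ?_, fun h => ?_⟩
  · obtain ⟨y, hy, hye⟩ := h.exists_red_eq (mul_ne_zero hn hm) hcm.1
      (by rw [hcm.2]; exact pow_ne_zero _ hcr)
    rw [hcm.2, pow_mul] at hye
    exact ⟨hu, c, y, hy, hc, hinj _ _ hye⟩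
  · obtain ⟨y, hy, hye⟩ := h.exists_red_eq hn hc hcr
    exact ⟨pow_ne_zero _ hu, c ^ m, y, hy, hcm.1, by rw [hcm.2, hye, ← pow_mul]⟩

variable (S)

/-- `u` is a function of the `n`-torsion class `x`. -/
def IsFunctionOf (n : ℕ) (x : Pic0 L F) (u : F) : Prop :=
  u ≠ 0 ∧ ∃ D : Divisor.degZero (K := L) (F := F), Pic0.mk D = x ∧
    ∀ P, P.ord u = (n : ℤ) * (D : Divisor L F) P

theorem IsFunctionOf.mul {x y : Pic0 L F} {u v : F} (hu : IsFunctionOf n x u)
    (hv : IsFunctionOf n y v) : IsFunctionOf n (x + y) (u * v) := by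
  obtain ⟨hu0, D, rfl, hD⟩ := hu
  obtain ⟨hv0, E, rfl, hE⟩ := hv
  refine ⟨mul_ne_zero hu0 hv0, D + E, rfl, fun P => ?_⟩
  rw [P.ord_mul hu0 hv0, hD, hE, AddSubgroup.coe_add, Finsupp.add_apply]
  ring

theorem IsFunctionOf.inv {x : Pic0 L F} {u : F} (hu : IsFunctionOf n x u) :
    IsFunctionOf n (-x) u⁻¹ := by
  obtain ⟨hu0, D, rfl, hD⟩ := hu
  refine ⟨inv_ne_zero hu0, -D, rfl, fun P => ?_⟩
  rw [P.ord_inv, hD, NegMemClass.coe_neg, Finsupp.neg_apply]
  ring

theorem isFunctionOf_one : IsFunctionOf n (0 : Pic0 L F) (1 : F) :=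
  ⟨one_ne_zero, 0, rfl, fun P => by simp⟩

theorem exists_isFunctionOf {x : Pic0 L F} (hx : n • x = 0) : ∃ u, IsFunctionOf n x u := by
  obtain ⟨D, rfl⟩ := Pic0.mk_surjective x
  have hp : n • D ∈ (Divisor.principal (K := L) (F := F)).addSubgroupOf _ :=
    (QuotientAddGroup.eq_zero_iff (n • D)).mp hx
  obtain ⟨u, hu, hu'⟩ := hp
  exact ⟨u, hu, D, rfl, fun P => by rw [← hu' P]; simp⟩

/-- Two functions of one class differ by a constant and an `n`-th power. -/
theorem IsFunctionOf.exists_eq {x : Pic0 L F} {u u' : F} (hu : IsFunctionOf n x u)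
    (hu' : IsFunctionOf n x u') :
    ∃ (a : L) (g : F), a ≠ 0 ∧ g ≠ 0 ∧ u' = algebraMap L F a * g ^ n * u := by
  obtain ⟨hu0, D, rfl, hD⟩ := hu
  obtain ⟨hu0', E, hE, hE'⟩ := hu'
  have hp := (QuotientAddGroup.eq).mp hE.symm
  simp only [AddSubgroup.mem_addSubgroupOf] at hp
  obtain ⟨g, hg, hg'⟩ := hp
  have hne : u' / (g ^ n * u) ≠ 0 := div_ne_zero hu0' (mul_ne_zero (pow_ne_zero _ hg) hu0)
  obtain ⟨a, ha⟩ := exists_algebraMap_eq_of_forall_ord_nonneg (K := L)
    (f := u' / (g ^ n * u)) fun P => by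
    rw [ord_div P hu0' (mul_ne_zero (pow_ne_zero _ hg) hu0),
      P.ord_mul (pow_ne_zero _ hg) hu0, ord_pow, hE', hD, ← hg']
    simp only [AddSubgroup.coe_add, NegMemClass.coe_neg, Finsupp.add_apply, Finsupp.neg_apply]
    ring_nf
    exact le_rfl
  refine ⟨a, g, fun h0 => hne (by rw [ha, h0, map_zero]), hg, ?_⟩
  rw [← ha, mul_assoc, div_mul_cancel₀ _ (mul_ne_zero (pow_ne_zero _ hg) hu0)]

/-- The classes whose functions reduce to `n`-th powers on component `i`. -/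
def killed (i : Fin 2) (n : ℕ) : AddSubgroup (Pic0 L F) where
  carrier := {x | ∃ u, IsFunctionOf n x u ∧ PowRed S i n u}
  zero_mem' := ⟨1, isFunctionOf_one, powRed_one⟩
  add_mem' := fun ⟨u, hu, hu'⟩ ⟨v, hv, hv'⟩ => ⟨u * v, hu.mul hv, hu'.mul hv'⟩
  neg_mem' := fun ⟨u, hu, hu'⟩ => ⟨u⁻¹, hu.inv, hu'.inv⟩

variable {S}

theorem mem_killed_iff {x : Pic0 L F} {u : F} (hu : IsFunctionOf n x u) :
    x ∈ killed S i n ↔ PowRed S i n u := by
  refine ⟨fun ⟨v, hv, hv'⟩ => ?_, fun h => ⟨u, hu, h⟩⟩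
  obtain ⟨a, g, ha, hg, he⟩ := hu.exists_eq hv
  exact (powRed_iff_of_eq ha hg he).mp hv'

variable {s : SemilinearAut L F} {t : SemilinearAut k G} {e : ℕ}

theorem IsFunctionOf.smul {x : Pic0 L F} {u : F} (hu : IsFunctionOf n x u) :
    IsFunctionOf n (s • x) (s • u) := by
  obtain ⟨hu0, D, rfl, hD⟩ := hu
  refine ⟨(smul_ne_zero_iff_ne s).mpr hu0, SemilinearAut.degZeroSMulHom s D,
    (SemilinearAut.pic0_smul_mk s D).symm, fun P => ?_⟩
  have := SemilinearAut.ord_smul s (s⁻¹ • P) u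
  rw [smul_inv_smul] at this
  rw [this, hD, SemilinearAut.coe_degZeroSMulHom, SemilinearAut.divisor_smul_apply]

theorem smul_red (hs : S.Compatible s t e) {u : F} {c : L} (hc : S.Int i (c • u)) :
    S.Int i (SemilinearAut.baseAut s c • (s • u)) ∧
      S.red i (SemilinearAut.baseAut s c • (s • u)) = t • S.red i (c • u) := by
  rw [← SplitModel.smul_scalar]
  exact ⟨hs.int i _ hc, hs.red i _ hc⟩

/-- An automorphism trivial on the reductions moves every class inside the kernel. -/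
theorem smul_sub_mem_killed (hs : S.Compatible s t e) (ht : ∀ g : G, t • g = g) {x : Pic0 L F}
    (hx : n • x = 0) : s • x - x ∈ killed S i n := by
  obtain ⟨u, hu⟩ := exists_isFunctionOf hx
  obtain ⟨c, hc, hcr⟩ := S.normalise i u hu.1
  obtain ⟨h1, h2⟩ := smul_red hs hc
  obtain ⟨h3, h4⟩ := S.int_inv hc hcr
  refine ⟨(s • u) * u⁻¹, by simpa [sub_eq_add_neg] using hu.smul.mul hu.inv,
    mul_ne_zero ((smul_ne_zero_iff_ne s).mpr hu.1) (inv_ne_zero hu.1),
    SemilinearAut.baseAut s c * c⁻¹, 1, one_ne_zero, ?_⟩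
  have he : (c • u)⁻¹ = c⁻¹ • u⁻¹ := by
    rw [Algebra.smul_def, Algebra.smul_def, mul_inv, map_inv₀]
  rw [he] at h3 h4
  obtain ⟨h5, h6⟩ := S.mul_int_smul h1 h3
  exact ⟨h5, by rw [h6, h2, h4, ht, mul_inv_cancel₀ hcr, one_pow]⟩

end Fermat.Agent.OrdinaryT

end
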