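import Fermat.Agent.OrdinaryT.Expansion
import Fermat.Agent.OrdinaryT.PowRed
import Fermat.Agent.FlatJ0.Residual
import Fermat.Agent.Reduction.ModularModel
import Fermat.Agent.Reduction.Facts
import Fermat.Agent.Congruence.CurveFacts
import Fermat.Agent.HeckeJ0.Inputs

/-!
# Fixed functions of fixed torsion classes

The cusp `∞` is fixed by the coefficient action. The least `n` with `L(D + n ∞) ≠ 0` gives a
unique effective member, hence a fixed divisor, and leading coefficient `1` fixes the function.
-/

noncomputable section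

open IsLocalRing ModularCurve AlgebraicCurve HahnSeries
open Fermat.Agent.Reduction Fermat.Agent.SemistableRed Fermat.Agent.FunctionFieldRR

namespace Fermat.Agent.OrdinaryT

open FlatJ0

local notation "Ω" => AlgebraicClosure ℚ

variable {A : ValuationSubring Ω} {N : ℕ} [NeZero N] (Φ : Fixer A)

/-- Dividing by the leading coefficient makes a function with fixed divisor fixed. -/
theorem exists_const_fixed {f : modularFunctionFieldBar N} (hf : f ≠ 0)
    (h : ∀ σ ∈ Φ.H, ∀ P : Place Ω (modularFunctionFieldBar N),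
      P.ord (arithmeticGalois (L := Ω) (modularFunctionFieldFull N) σ • f) = P.ord f) :
    ∃ c : Ω, c ≠ 0 ∧ Φ.FFixed (c • f) := by
  have := HeckeJ0.isFunctionField_bar N
  have hfc : ((f : modularFunctionFieldBar N) : LaurentSeries Ω) ≠ 0 := fun e => hf (Subtype.ext e)
  set n := (f : LaurentSeries Ω).order
  have hn : (f : LaurentSeries Ω).coeff n ≠ 0 := HahnSeries.coeff_order_eq_zero.not.mpr hfc
  refine ⟨((f : LaurentSeries Ω).coeff n)⁻¹, inv_ne_zero hn, fun σ hσ => ?_⟩
  have hσf : arithmeticGalois (L := Ω) (modularFunctionFieldFull N) σ • f ≠ 0 :=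
    (smul_ne_zero_iff_ne _).mpr hf
  obtain ⟨a, ha⟩ := exists_algebraMap_eq_of_forall_ord_nonneg (K := Ω)
    (f := arithmeticGalois (L := Ω) (modularFunctionFieldFull N) σ • f / f) fun P => by
      rw [ord_div P hσf hf, h σ hσ P, sub_self]
  rw [div_eq_iff hf] at ha
  have hs : coeffMap (σ : Ω →+* Ω) (f : LaurentSeries Ω) =
      algebraMap Ω (LaurentSeries Ω) a * (f : LaurentSeries Ω) := by
    rw [← coe_arithmeticGalois_smul (L := Ω), ha, MulMemClass.coe_mul,
      IntermediateField.coe_algebraMap_apply]
  have hc := congrArg (fun t => t.coeff n) hs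
  simp only [coeffMap_coeff, algebraMap_laurentSeries_eq_single,
    Reduction.coeff_single_zero_mul, RingHom.coe_coe] at hc
  rw [galois_smul_smul, map_inv₀, hc, ha, Algebra.smul_def, ← mul_assoc, ← map_mul, Algebra.smul_def]
  congr 2
  have ha0 : a ≠ 0 := fun h0 => hn ((map_eq_zero σ).mp (by rw [hc, h0, zero_mul]))
  field_simp

/-- A fixed torsion class has a fixed function. -/
theorem exists_fixed_function {n : ℕ} (hn : n ≠ 0) (x : JZero N) (hx : n • x = 0)
    (hfix : ∀ σ ∈ Φ.H, σ • x = x) :
    ∃ u, Φ.FFixed u ∧ IsFunctionOf n x u := by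
  classical
  have := HeckeJ0.isFunctionField_bar N
  have := HeckeJ0.hasPrincipalDivisors_bar N
  obtain ⟨D, rfl⟩ := Pic0.mk_surjective x
  set u₀ := (modularSeriesModel A N).uF
  set P₀ := qPlace (modularFunctionFieldBar N) u₀ (modularSeriesModel A N).order_uF
  have hP₀ : ∀ σ : Ω ≃ₐ[ℚ] Ω, arithmeticGalois (L := Ω) (modularFunctionFieldFull N) σ • P₀ = P₀ := by
    intro σ
    suffices h : (arithmeticGalois (L := Ω) (modularFunctionFieldFull N) σ • P₀).toValuationSubring =
        P₀.toValuationSubring by
      revert h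
      generalize arithmeticGalois (L := Ω) (modularFunctionFieldFull N) σ • P₀ = Q
      generalize P₀ = R
      intro h
      cases Q; cases R; simp_all
    refine SetLike.ext fun f => ?_
    rw [← ord_nonneg_iff, ← ord_nonneg_iff]
    obtain ⟨g, rfl⟩ := MulAction.surjective (arithmeticGalois (L := Ω) (modularFunctionFieldFull N) σ) f
    rw [SemilinearAut.ord_smul, ord_qPlace, ord_qPlace, coe_arithmeticGalois_smul]
    have : (coeffMap (σ : Ω →+* Ω) (g : LaurentSeries Ω)).order =
        (g : LaurentSeries Ω).order := by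
      rcases eq_or_ne (g : LaurentSeries Ω) 0 with h | h
      · rw [h, map_zero]
      refine le_antisymm (HahnSeries.order_le_of_coeff_ne_zero ?_)
        (HahnSeries.order_le_of_coeff_ne_zero ?_)
      · rw [coeffMap_coeff]
        exact (map_ne_zero _).mpr (HahnSeries.coeff_order_eq_zero.not.mpr h)
      · intro h0
        have h1 := HahnSeries.coeff_order_eq_zero.not.mpr
          ((map_ne_zero (coeffMap (σ : Ω →+* Ω))).mpr h)
        rw [coeffMap_coeff, h0, map_zero] at h1
        exact h1 rfl
    rw [this]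
  have hpos : ∃ m : ℕ, 0 < Module.finrank Ω
      (riemannRochSpace ((D : Divisor Ω (modularFunctionFieldBar N)) + Finsupp.single P₀ (m : ℤ))) := by
    have := finiteDimensional_jBar N
    have := isSeparable_jBar N
    set g := genusOf (transcendental_jBar N)
    refine ⟨g, ?_⟩
    have h := riemann_inequality (transcendental_jBar N)
      ((D : Divisor Ω (modularFunctionFieldBar N)) + Finsupp.single P₀ (g : ℤ))
    rw [map_add, Divisor.mem_degZero.mp D.2, Divisor.degree_single, deg_eq_one P₀] at h
    omega
  set m := Nat.find hpos with hm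
  have hmpos := Nat.find_spec hpos
  have hmle : Module.finrank Ω (riemannRochSpace
      ((D : Divisor Ω (modularFunctionFieldBar N)) + Finsupp.single P₀ (m : ℤ))) ≤ 1 := by
    rcases Nat.eq_zero_or_pos m with h0 | h0
    · have h := finrank_le_add_single
        ((D : Divisor Ω (modularFunctionFieldBar N)) - Finsupp.single P₀ 1) P₀
      rw [sub_add_cancel, finrank_riemannRochSpace_eq_zero (D := (D : Divisor Ω
        (modularFunctionFieldBar N)) - Finsupp.single P₀ 1) (by
          rw [map_sub, Divisor.mem_degZero.mp D.2, Divisor.degree_single, deg_eq_one P₀]; norm_num)]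
        at h
      rwa [h0, Nat.cast_zero, Finsupp.single_zero, add_zero]
    · obtain ⟨j, hj⟩ : ∃ j, m = j + 1 := ⟨m - 1, by omega⟩
      have hj0 := Nat.find_min hpos (show j < m by omega)
      have h := finrank_le_add_single
        ((D : Divisor Ω (modularFunctionFieldBar N)) + Finsupp.single P₀ (j : ℤ)) P₀
      rw [add_assoc, ← Finsupp.single_add] at h
      rw [hj, Nat.cast_succ]
      omega
  obtain ⟨X, -, -, hXprin, -, hXfix⟩ := exists_member (g := m) (Divisor.mem_degZero.mp D.2)
    (by rw [Divisor.degree_single, deg_eq_one P₀]; simp) (hm ▸ hmpos) hmle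
  -- the fixed divisor of degree zero
  set D' : Divisor Ω (modularFunctionFieldBar N) := X - Finsupp.single P₀ (m : ℤ)
  obtain ⟨g, hg, hgD⟩ := hXprin
  have hdeg : D' ∈ Divisor.degZero (K := Ω) (F := modularFunctionFieldBar N) := by
    have h1 : Divisor.degree (D' - (D : Divisor Ω (modularFunctionFieldBar N))) = 0 := by
      rw [show D' - (D : Divisor Ω (modularFunctionFieldBar N)) = dvs g from eq_dvs hgD, degree_dvs]
    rw [map_sub, Divisor.mem_degZero.mp D.2, sub_zero] at h1
    exact Divisor.mem_degZero.mpr h1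
  have hmk : Pic0.mk ⟨D', hdeg⟩ = Pic0.mk D := by
    refine ((QuotientAddGroup.eq).mpr ?_).symm
    simp only [AddSubgroup.mem_addSubgroupOf]
    exact ⟨g, hg, fun P => by rw [← hgD P]; simp [D']; ring⟩
  have hp : n • (⟨D', hdeg⟩ : Divisor.degZero (K := Ω) (F := modularFunctionFieldBar N)) ∈
      (Divisor.principal (K := Ω) (F := modularFunctionFieldBar N)).addSubgroupOf _ :=
    (QuotientAddGroup.eq_zero_iff _).mp (by rw [← hmk] at hx; exact hx)
  obtain ⟨u, hu, hu'⟩ := hp
  have hord : ∀ P, P.ord u = (n : ℤ) * D' P := fun P => by rw [← hu' P]; simp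
  obtain ⟨c, hc0, hcfix⟩ := exists_const_fixed Φ hu fun σ hσ P => by
    obtain ⟨Q, rfl⟩ := MulAction.surjective (arithmeticGalois (L := Ω) (modularFunctionFieldFull N) σ) P
    rw [SemilinearAut.ord_smul, hord, hord]
    have hXσ : arithmeticGalois (L := Ω) (modularFunctionFieldFull N) σ • X = X := hXfix _ (by
      rw [SemilinearAut.divisor_smul_def, Finsupp.mapDomain_single, hP₀]) (by
        have h1 := hfix σ hσ
        rw [galois_smul_pic0_def, SemilinearAut.pic0_smul_mk] at h1
        have h2 := (QuotientAddGroup.eq).mp h1.symm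
        simp only [AddSubgroup.mem_addSubgroupOf] at h2
        obtain ⟨e, he, he'⟩ := h2
        exact ⟨e, he, fun P => by rw [← he' P]; simp [neg_add_eq_sub]⟩)
    have h1 : arithmeticGalois (L := Ω) (modularFunctionFieldFull N) σ • D' = D' := by
      show arithmeticGalois _ σ • (X - Finsupp.single P₀ (m : ℤ)) = _
      rw [smul_sub, hXσ, SemilinearAut.divisor_smul_def, Finsupp.mapDomain_single, hP₀]
    conv_rhs => rw [← h1, SemilinearAut.divisor_smul_apply_smul]
  refine ⟨c • u, hcfix, (smul_ne_zero hc0 hu), ⟨D', hdeg⟩, hmk, fun P => ?_⟩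
  rw [Algebra.smul_def, P.ord_mul ((map_ne_zero _).mpr hc0) hu, FunctionFieldRR.ord_algebraMap,
    zero_add, hord]

end Fermat.Agent.OrdinaryT

end
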