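import Fermat.Agent.OrdinaryT.PowRed
import Fermat.Agent.OrdinaryT.RatRep
import Fermat.Agent.SemistableRed.NormMaps
import Fermat.Agent.SemistableRed.Toric
import Fermat.Agent.HeckeJ0.Inputs
import Fermat.Agent.Congruence.LevelData

/-!
# Norms as functions of images of classes

`normAlong α u` is a function of the norm of a class and `heckeFun N ℓ u` one of its image under
`T_ℓ`; both commute with Galois.
-/

noncomputable section

open IsLocalRing ModularCurve AlgebraicCurve HahnSeries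
open Fermat.Agent.Reduction Fermat.Agent.FunctionFieldRR Fermat.Agent.SemistableRed

namespace Fermat.Agent.OrdinaryT

open FlatJ0

local notation "Ω" => AlgebraicClosure ℚ

section Generic

variable {K F F' : Type*} [Field K] [Field F] [Field F'] [Algebra K F] [Algebra K F']

/-- A norm commutes with a pair of automorphisms intertwined by the embedding. -/
theorem normAlong_equiv (ψ : F →ₐ[K] F') (e₁ : F ≃+* F) (e₂ : F' ≃+* F')
    (h : ∀ x, ψ (e₁ x) = e₂ (ψ x)) (z : F') :
    normAlong ψ (e₂ z) = e₁ (normAlong ψ z) := by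
  let := algebraAlong ψ
  have := Algebra.norm_eq_of_equiv_equiv (A₁ := F) (A₂ := F) e₁ e₂ (RingHom.ext h) z
  show Algebra.norm F (e₂ z) = e₁ (Algebra.norm F z)
  rw [this, RingEquiv.apply_symm_apply]

end Generic

variable {N ℓ : ℕ} [NeZero N] [NeZero ℓ]

/-- The function of the image under `T_ℓ`. -/
def heckeFun (N ℓ : ℕ) [NeZero N] [NeZero ℓ] (u : modularFunctionFieldBar N) :
    modularFunctionFieldBar N :=
  normAlong (heckeAlphaBar Ω N ℓ) (heckeBetaBar Ω N ℓ u)

theorem normAlong_galois_alpha (σ : Ω ≃ₐ[ℚ] Ω) (z : modularFunctionFieldBar (N * ℓ)) :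
    normAlong (heckeAlphaBar Ω N ℓ) (arithmeticGalois (L := Ω) (modularFunctionFieldFull (N * ℓ)) σ • z) =
      arithmeticGalois (L := Ω) (modularFunctionFieldFull N) σ • normAlong (heckeAlphaBar Ω N ℓ) z :=
  normAlong_equiv _
    (MulSemiringAction.toRingEquiv _ _ (arithmeticGalois (L := Ω) (modularFunctionFieldFull N) σ))
    (MulSemiringAction.toRingEquiv _ _ (arithmeticGalois (L := Ω) (modularFunctionFieldFull (N * ℓ)) σ))
    (fun x => Subtype.ext (by
      show ((heckeAlphaBar Ω N ℓ (arithmeticGalois (L := Ω) (modularFunctionFieldFull N) σ • x) : modularFunctionFieldBar (N * ℓ)) :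
        LaurentSeries Ω) = ((arithmeticGalois (L := Ω) (modularFunctionFieldFull (N * ℓ)) σ •
          heckeAlphaBar Ω N ℓ x : modularFunctionFieldBar (N * ℓ)) : LaurentSeries Ω)
      rw [coe_heckeAlphaBar, coe_arithmeticGalois_smul, coe_arithmeticGalois_smul,
        coe_heckeAlphaBar])) z

theorem heckeFun_galois (σ : Ω ≃ₐ[ℚ] Ω) (u : modularFunctionFieldBar N) :
    heckeFun N ℓ (arithmeticGalois (L := Ω) (modularFunctionFieldFull N) σ • u) =
      arithmeticGalois (L := Ω) (modularFunctionFieldFull N) σ • heckeFun N ℓ u := by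
  rw [heckeFun, show heckeBetaBar Ω N ℓ (arithmeticGalois (L := Ω) (modularFunctionFieldFull N) σ • u) =
    arithmeticGalois (L := Ω) (modularFunctionFieldFull (N * ℓ)) σ • heckeBetaBar Ω N ℓ u from
      Subtype.ext (by rw [coe_heckeBetaBar, coe_arithmeticGalois_smul, coe_arithmeticGalois_smul,
        coe_heckeBetaBar, coeffMap_qExpand]), normAlong_galois_alpha]
  rfl

/-- The image under `T_ℓ`. -/
theorem isFunctionOf_heckeFun {n : ℕ} {x : JZero N} {u : modularFunctionFieldBar N}
    (hu : IsFunctionOf n x u) :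
    IsFunctionOf n (heckeOperatorAlong Ω N ℓ x) (heckeFun N ℓ u) := by
  have := HeckeJ0.hasPrincipalDivisors_bar (N * ℓ)
  have := HeckeJ0.hasPrincipalDivisors_bar N
  obtain ⟨hu0, D, rfl, hD⟩ := hu
  refine ⟨HeckeJ0.normAlong_ne_zero (HeckeJ0.alphaFinite N ℓ) ((map_ne_zero _).mpr hu0),
    Pic0.degZeroCorrespondence (heckeBetaBar Ω N ℓ) (heckeAlphaBar Ω N ℓ)
      (HeckeJ0.betaIntegral N ℓ) (HeckeJ0.alphaIntegral N ℓ) (HeckeJ0.betaFundamental N ℓ) D,
    ?_, fun P => ?_⟩
  · rw [HeckeJ0.heckeOperatorAlong_bar_eq]; rfl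
  · have h := HeckeJ0.correspondence_apply_eq_ord (heckeBetaBar Ω N ℓ) (heckeAlphaBar Ω N ℓ)
      (HeckeJ0.betaIntegral N ℓ) (HeckeJ0.alphaIntegral N ℓ) (HeckeJ0.alphaFinite N ℓ)
      (HeckeJ0.alphaNormFormula N ℓ) hu0
      (D := (n : ℤ) • (D : Divisor Ω (modularFunctionFieldBar N)))
      (fun v => by rw [Finsupp.smul_apply, smul_eq_mul, hD]) P
    rw [map_zsmul, Finsupp.smul_apply, smul_eq_mul] at h
    exact h.symm

/-- The image under a norm map. -/
theorem isFunctionOf_normMap {M q : ℕ} [NeZero M] [NeZero q]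
    (ψ : ↥(modularFunctionFieldBar M) →ₐ[Ω] ↥(modularFunctionFieldBar (M * q))) {n : ℕ}
    {x : JZero (M * q)} {u : modularFunctionFieldBar (M * q)} (hu : IsFunctionOf n x u) :
    IsFunctionOf n (normMap M q ψ x) (normAlong ψ u) := by
  have := SemistableRed.isFunctionField_bar M
  have := SemistableRed.isFunctionField_bar (M * q)
  obtain ⟨hu0, D, rfl, hD⟩ := hu
  have hψ := HeckeJ0.isIntegral_of_isFunctionField ψ
  have hfin := FunctionFieldRR.finiteAlong ψ
  refine ⟨HeckeJ0.normAlong_ne_zero hfin hu0, pushDegZero ψ hψ D, rfl, fun P => ?_⟩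
  have h := Congruence.pushforwardAlong_eq_ord ψ hψ hfin
    (FunctionFieldRR.normFormulaAlong ψ _) hu0
    (E := (n : ℤ) • (D : Divisor Ω (modularFunctionFieldBar (M * q))))
    (fun w => by rw [Finsupp.smul_apply, smul_eq_mul, hD]) P
  rw [map_zsmul, Finsupp.smul_apply, smul_eq_mul] at h
  exact h.symm

/-- A fixed function which is a constant times an `n`-th power is one with a fixed root. -/
theorem exists_fixed_root {A : ValuationSubring Ω} (Φ : Fixer A) {n : ℕ} (hn : n ≠ 0)
    {f : modularFunctionFieldBar N} (hf : Φ.FFixed f) (hf0 : f ≠ 0)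
    (h : ∃ (a : Ω) (g : modularFunctionFieldBar N), g ≠ 0 ∧
      f = algebraMap Ω (modularFunctionFieldBar N) a * g ^ n) :
    ∃ (a : Ω) (g : modularFunctionFieldBar N), Φ.FFixed g ∧ g ≠ 0 ∧ f = a • g ^ n := by
  have := HeckeJ0.isFunctionField_bar N
  obtain ⟨a, g, hg, he⟩ := h
  have ha : a ≠ 0 := fun h0 => hf0 (by rw [he, h0, map_zero, zero_mul])
  obtain ⟨c, hc0, hcfix⟩ := exists_const_fixed Φ hg fun σ hσ P => by
    have hord : ∀ Q : Place Ω (modularFunctionFieldBar N), Q.ord f = (n : ℤ) * Q.ord g := fun Q => by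
      rw [he, Q.ord_mul ((map_ne_zero _).mpr ha) (pow_ne_zero _ hg), FunctionFieldRR.ord_algebraMap,
        zero_add, ord_pow]
    obtain ⟨Q, rfl⟩ := MulAction.surjective (arithmeticGalois (L := Ω) (modularFunctionFieldFull N) σ) P
    rw [SemilinearAut.ord_smul]
    refine mul_left_cancel₀ (Nat.cast_ne_zero.mpr hn : (n : ℤ) ≠ 0) ?_
    rw [← hord, ← hord]
    conv_rhs => rw [← hf σ hσ, SemilinearAut.ord_smul]
  refine ⟨a / c ^ n, c • g, hcfix, smul_ne_zero hc0 hg, ?_⟩
  rw [Algebra.smul_def, Algebra.smul_def, mul_pow, ← map_pow, ← mul_assoc, ← map_mul,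
    div_mul_cancel₀ _ (pow_ne_zero _ hc0), he]

end Fermat.Agent.OrdinaryT

end
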