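import Fermat.Agent.OrdinaryT.Instances
import Fermat.Agent.OrdinaryT.Norms

/-!
# The norm from level `M p` to level `M` to first order

`N_α(1 + c H) ≡ 1 + c H₀`; in particular `T_p` replaces a first-order term `v` by `v(q ^ p)`.
-/

noncomputable section

open IsLocalRing ModularCurve AlgebraicCurve HahnSeries
open Fermat.Agent.Reduction Fermat.Agent.SemistableRed

namespace Fermat.Agent.OrdinaryT

open FlatJ0

local notation "Ω" => AlgebraicClosure ℚ

variable {A : ValuationSubring Ω}

/-- A congruence descends along `qExpand`. -/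
theorem Expansion.cong_of_qExpand {N p : ℕ} {ι : Type} (E : Expansion A N ι) (hA : IsOver A p)
    {m : ℕ} [NeZero m] {f : modularFunctionFieldBar N} {i : ι} {c : Ω}
    {v' : LaurentSeries (ResidueField A)} (h : Cong c (qExpand Ω m (E.side i f)) v') :
    ∃ w, Cong c (E.side i f) w ∧ qExpand (ResidueField A) m w = v' := by
  have h' : SRep (qExpand Ω m (E.side i (c⁻¹ • (f - 1)))) v' := by
    rw [algHom_smul, map_sub, map_one, smul_eq_algebraMap_mul, map_mul, map_sub, map_one,
      algebraMap_laurentSeries_eq_single, qExpand_single, mul_zero,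
      ← algebraMap_laurentSeries_eq_single, ← smul_eq_algebraMap_mul]
    exact h
  obtain ⟨w, hw, hw'⟩ := E.srep_of_qExpand hA h'
  exact ⟨w, by rw [algHom_smul, map_sub, map_one] at hw; exact hw, hw'⟩

/-- Roots of unity as units of the valuation ring. -/
theorem exists_unit_root (A : ValuationSubring (AlgebraicClosure ℚ)) (n : ℕ) [NeZero n] :
    ∃ ζ : Aˣ, IsPrimitiveRoot
      ((Units.map (A.subtype : A →* AlgebraicClosure ℚ) ζ : (AlgebraicClosure ℚ)ˣ) :
        AlgebraicClosure ℚ) n := by
  obtain ⟨z, hz⟩ := HasEnoughRootsOfUnity.prim (M := Ω) (n := n)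
  have hzA : z ∈ A := FreyReducible.mem_of_isIntegral_int A (hz.isIntegral (NeZero.pos n))
  refine ⟨(IsUnit.of_pow_eq_one (a := (⟨z, hzA⟩ : A))
    (Subtype.ext (by simpa using hz.pow_eq_one)) (NeZero.ne n)).unit, ?_⟩
  simpa using hz

variable {M p : ℕ} [NeZero M] [NeZero p] [Fact p.Prime]
  [CharP (ResidueField A) p] [IsAlgClosed (ResidueField A)] (S : Setting A M p)

include S in
/-- The norm to level `M` keeps the first-order term of the first side. -/
theorem cong_normAlpha {c : Ω} (hcA : c ∈ A) (hcr : residue A ⟨c, hcA⟩ = 0) (hc0 : c ≠ 0)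
    {f : modularFunctionFieldBar (M * p)} {v : Fin 2 → LaurentSeries (ResidueField A)}
    (h : ∀ i, Cong c (S.side i f) (v i)) :
    Cong c ((normAlong (heckeAlphaBar Ω M p) f : modularFunctionFieldBar M) : LaurentSeries Ω)
      (v 0) := by
  obtain ⟨ζ, hζ⟩ := exists_unit_root A p
  have hres : ∀ b : ℕ, Units.map (residue A : A →* ResidueField A) (ζ ^ b) = 1 := by
    have h1 : residue A (ζ : A) = 1 := by
      have h2 : (residue A (ζ : A) - 1) ^ p = 0 := by
        rw [sub_pow_char, one_pow, ← map_pow, show (ζ : A) ^ p = 1 from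
          Subtype.ext (by simpa using hζ.pow_eq_one), map_one, sub_self]
      simpa [sub_eq_zero] using pow_eq_zero_iff (NeZero.ne p) |>.mp h2
    intro b
    ext
    simp [h1]
  have hp := Cong.mul hcA hcr hc0 ((h 0).qExpand p) (Cong.prod hcA hcr hc0 (A := A)
    Finset.univ fun (b : Fin p) _ => Cong.twist (ζ ^ (b : ℕ)) (h 1))
  simp only [hres, Congruence.twist_one, Finset.sum_const, Finset.card_univ, Fintype.card_fin,
    map_pow] at hp
  rw [← S.qExpand_norm _ hζ f] at hp
  have := charP_of_injective_algebraMap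
    (algebraMap (ResidueField A) (LaurentSeries (ResidueField A))).injective p
  rw [nsmul_eq_mul, CharP.cast_eq_zero, zero_mul, add_zero] at hp
  obtain ⟨w, hw, hw'⟩ := (levelExp S).cong_of_qExpand (p := p) (isOver_of_setting S) (i := ()) hp
  rw [qExpand_injective (R := ResidueField A) p hw'] at hw
  exact hw

include S in
/-- `T_p` at level `M` replaces a first-order term `v` by `v(q ^ p)`. -/
theorem cong_heckeFun_self {c : Ω} (hcA : c ∈ A) (hcr : residue A ⟨c, hcA⟩ = 0) (hc0 : c ≠ 0)
    {y : modularFunctionFieldBar M} {v : LaurentSeries (ResidueField A)}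
    (h : Cong c (y : LaurentSeries Ω) v) :
    Cong c ((heckeFun M p y : modularFunctionFieldBar M) : LaurentSeries Ω)
      (qExpand (ResidueField A) p v) := by
  have hi : ∀ i, Cong c (S.side i (heckeBetaBar Ω M p y))
      ((![qExpand (ResidueField A) p v, v] : Fin 2 → LaurentSeries (ResidueField A)) i) := fun i => by
    obtain rfl | rfl : i = 0 ∨ i = 1 := by omega
    · rw [(S.side_beta y).1]; exact h.qExpand p
    · rw [(S.side_beta y).2]; exact h
  exact cong_normAlpha S hcA hcr hc0 hi

end Fermat.Agent.OrdinaryT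

end
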