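import Fermat.Agent.OrdinaryT.CoreTools
import Fermat.Agent.OrdinaryT.NormCong

/-!
# The kernel of reduction at good level, and its core

`goodKilled S n` consists of the classes of `J₀(M)` whose functions reduce to constants times
`n`-th powers. A `p`-torsion class in it which is fixed by an inertia element moving `p`-th roots of
unity and periodic under `T_p` vanishes.
-/

noncomputable section

open IsLocalRing ModularCurve AlgebraicCurve HahnSeries
open Fermat.Agent.Reduction Fermat.Agent.FunctionFieldRR Fermat.Agent.SemistableRed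

namespace Fermat.Agent.OrdinaryT

open FlatJ0

local notation "Ω" => AlgebraicClosure ℚ

/-- `qExpand` fixes only constants up to constants. -/
theorem const_of_qExpand_sub {k : Type*} [Field k] {q m : ℕ} [NeZero q] (hq : 1 < q) (hm : m ≠ 0)
    {v : LaurentSeries k} {r : k}
    (h : (qExpand k q : LaurentSeries k → LaurentSeries k)^[m] v - v =
      algebraMap k (LaurentSeries k) r) : ∃ s, v = algebraMap k (LaurentSeries k) s := by
  have hit : ∀ (j : ℕ) (n : ℤ), (¬ ((q : ℤ) ^ j ∣ n) →
      ((qExpand k q : LaurentSeries k → LaurentSeries k)^[j] v).coeff n = 0) ∧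
      ∀ e, n = (q : ℤ) ^ j * e →
        ((qExpand k q : LaurentSeries k → LaurentSeries k)^[j] v).coeff n = v.coeff e := by
    intro j
    induction j with
    | zero => exact fun n => ⟨fun h => absurd (one_dvd n) (by simp at h),
        fun e he => by simp [he]⟩
    | succ j ih =>
      intro n
      rw [Function.iterate_succ_apply']
      by_cases hd : (q : ℤ) ∣ n
      · obtain ⟨n', rfl⟩ := hd
        rw [qExpand_coeff_mul]
        refine ⟨fun hn => (ih n').1 fun hn' => hn ?_, fun e he => (ih n').2 e ?_⟩
        · rw [pow_succ']; exact mul_dvd_mul_left _ hn'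
        · rw [pow_succ', mul_assoc] at he
          exact mul_left_cancel₀ (by exact_mod_cast NeZero.ne q) he
      · refine ⟨fun _ => qExpand_coeff_of_not_dvd q _ hd, fun e he => absurd ?_ hd⟩
        rw [he, pow_succ', mul_assoc]; exact dvd_mul_right _ _
  have hc : ∀ (N : ℕ) (n : ℤ), n.natAbs = N → n ≠ 0 → v.coeff n = 0 := by
    intro N
    induction N using Nat.strong_induction_on with
    | _ N ih =>
      intro n hN hn
      have h1 := congrArg (fun t : LaurentSeries k => t.coeff n) h
      simp only [HahnSeries.coeff_sub, algebraMap_laurentSeries_eq_single,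
        HahnSeries.coeff_single_of_ne hn, sub_eq_zero] at h1
      by_cases hd : (q : ℤ) ^ m ∣ n
      · obtain ⟨e, he⟩ := hd
        rw [← h1, (hit m n).2 e he]
        have he0 : e ≠ 0 := fun h0 => hn (by rw [he, h0, mul_zero])
        have hlt : e.natAbs < N := by
          rw [← hN, he, Int.natAbs_mul, Int.natAbs_pow, Int.natAbs_natCast]
          exact lt_mul_left (Int.natAbs_pos.mpr he0) (Nat.one_lt_pow hm hq)
        exact ih _ hlt e rfl he0
      · rw [← h1, (hit m n).1 hd]
  refine ⟨v.coeff 0, HahnSeries.ext (funext fun n => ?_)⟩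
  rw [algebraMap_laurentSeries_eq_single]
  rcases eq_or_ne n 0 with rfl | hn
  · rw [HahnSeries.coeff_single_same]
  · rw [HahnSeries.coeff_single_of_ne hn, hc _ n rfl hn]

variable {A : ValuationSubring Ω} {M p : ℕ} [NeZero M] [NeZero p] [Fact p.Prime]
  [CharP (ResidueField A) p] [IsAlgClosed (ResidueField A)] (S : Setting A M p)

/-- The classes whose functions reduce to a constant times an `n`-th power. -/
def goodKilled (n : ℕ) : AddSubgroup (JZero M) where
  carrier := {x | ∃ u, IsFunctionOf n x u ∧
    PowRed S.splitModel 0 n (heckeAlphaBar Ω M p u)}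
  zero_mem' := by
    have := isFunctionField_level M
    have := isFunctionField_level (M * p)
    have := S.isFunctionField_C
    exact ⟨1, isFunctionOf_one, by rw [map_one]; exact powRed_one⟩
  add_mem' := by
    have := isFunctionField_level M
    have := isFunctionField_level (M * p)
    have := S.isFunctionField_C
    rintro x y ⟨u, hu, hu'⟩ ⟨v, hv, hv'⟩
    exact ⟨u * v, hu.mul hv, by rw [map_mul]; exact hu'.mul hv'⟩
  neg_mem' := by
    have := isFunctionField_level M
    have := isFunctionField_level (M * p)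
    have := S.isFunctionField_C
    rintro x ⟨u, hu, hu'⟩
    exact ⟨u⁻¹, hu.inv, by rw [map_inv₀]; exact hu'.inv⟩

theorem mem_goodKilled_iff {n : ℕ} {x : JZero M} {u : modularFunctionFieldBar M}
    (hu : IsFunctionOf n x u) :
    x ∈ goodKilled S n ↔ PowRed S.splitModel 0 n (heckeAlphaBar Ω M p u) := by
  have := isFunctionField_level M
  have := isFunctionField_level (M * p)
  have := S.isFunctionField_C
  refine ⟨fun ⟨v, hv, hv'⟩ => ?_, fun h => ⟨u, hu, h⟩⟩
  obtain ⟨a, g, ha, hg, he⟩ := hu.exists_eq hv
  refine (powRed_iff_of_eq (S := S.splitModel) ha ((map_ne_zero (heckeAlphaBar Ω M p)).mpr hg) ?_).mp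
    hv'
  rw [he, map_mul, map_mul, map_pow, AlgHom.commutes]

/-- The core at good level. -/
theorem eq_zero_of_mem_goodKilled {x : JZero M} (hx : x ∈ goodKilled S p) {σ₀ : Ω ≃ₐ[ℚ] Ω}
    (hσ₀ : σ₀ ∈ A.inertiaSubgroupIn ℚ) (hfix : σ₀ • x = x)
    (hω : ∃ ζ : Ω, ζ ^ p = 1 ∧ σ₀ ζ ≠ ζ) {m : ℕ} (hm : m ≠ 0)
    (hT : (fun y => heckeOperatorAlong Ω M p y)^[m] x = x) : x = 0 := by
  have hA := isOver_of_setting S
  have hp := hA.prime
  have := isFunctionField_level M
  have := isFunctionField_level (M * p)
  have := HeckeJ0.hasPrincipalDivisors_bar M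
  have := S.isFunctionField_C
  obtain ⟨ζ, hζ1, hσζ⟩ := hω
  have hζ := isPrimitiveRoot_of_ne hp hζ1 hσζ
  set Φ := stabFixer A x
  have hσH : σ₀ ∈ Φ.H := ⟨hσ₀, MulAction.mem_stabilizer_iff.mpr hfix⟩
  have hpx : p • x = 0 := by
    obtain ⟨w, ⟨hw0, D, rfl, hD⟩, -⟩ := hx
    refine (QuotientAddGroup.eq_zero_iff (p • D)).mpr ?_
    rw [AddSubgroup.mem_addSubgroupOf]
    exact ⟨w, hw0, fun P => by rw [hD]; simp⟩
  obtain ⟨u₀, hu₀f, hu₀⟩ := exists_fixed_function Φ hp.ne_zero x hpx fun σ hσ =>
    MulAction.mem_stabilizer_iff.mp hσ.2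
  set E := levelExp S
  -- a representative congruent to one
  obtain ⟨a, ha, ha0, v, hv, hv0, hva⟩ := E.exists_scale Φ hA hu₀f hu₀.1 ()
  have hu₁ : InClass Φ p x (a • u₀) := (InClass.smul_const ⟨hu₀f, hu₀⟩ ha ha0)
  obtain ⟨hint, hred⟩ := S.red_eq (i := 0) (f := a • heckeAlphaBar Ω M p u₀)
    (v := ⟨v, hv⟩) (by rw [S.side_smul, (S.side_alpha u₀).1]; exact hva)
  obtain ⟨y, hy0, hy⟩ := ((mem_goodKilled_iff S hu₀).mp hx).exists_red_eq hp.ne_zero (c := a)
    hint (fun h0 => hv0 (congrArg Subtype.val (hred.symm.trans h0)))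
  have hvy : v = (y : LaurentSeries (ResidueField A)) ^ p :=
    congrArg Subtype.val (hred.symm.trans hy)
  obtain ⟨u₂, hu₂, hu₂1⟩ := exists_srep_one E Φ hu₁ (fun _ => y) (fun _ => hy0) fun _ => by
    rw [← hvy, algHom_smul]; exact hva
  -- climbing
  obtain ⟨u, c, w, hu, hc0, hc, hw⟩ := exists_beyond E Φ hA
    (fun c hc hc0 => ord_ne_critical hA hσ₀ hζ hσζ hc0 (hc σ₀ hσH))
    (fun u c v hu hcF hc0 hc hcrit hv => by
      have hcA := mem_of_ord hA (Or.inr hc.le)
      have hcr := residue_eq_zero_of_pos hA hcA (Or.inr hc)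
      set G := modularFunctionFieldFullC (ResidueField A) M
      have hit : ∀ j : ℕ, InClass Φ p ((fun y => heckeOperatorAlong Ω M p y)^[j] x)
          ((heckeFun M p)^[j] u) ∧
          Cong c ((((heckeFun M p)^[j] u : modularFunctionFieldBar M)) : LaurentSeries Ω)
            (((piG (ResidueField A) M p : G → G)^[j] (v ()) : G) :
              LaurentSeries (ResidueField A)) := by
        intro j
        induction j with
        | zero => exact ⟨hu, hv ()⟩
        | succ j ih =>
          simp only [Function.iterate_succ_apply']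
          refine ⟨⟨fun σ hσ => ?_, isFunctionOf_heckeFun ih.1.2⟩, ?_⟩
          · rw [← heckeFun_galois, ih.1.1 σ hσ]
          · rw [coe_piG]; exact cong_heckeFun_self S hcA hcr hc0 ih.2
      obtain ⟨hu', hv'⟩ := hit m
      rw [hT] at hu'
      set u' := (heckeFun M p)^[m] u
      set v' := (piG (ResidueField A) M p : G → G)^[m] (v ())
      -- the ratio
      obtain ⟨a, g, -, hg, he⟩ := hu.2.exists_eq hu'.2
      have hrf : Φ.FFixed (u' * u⁻¹) := hu'.1.mul Φ (hu.1.inv Φ)
      have hr : u' * u⁻¹ = algebraMap Ω (modularFunctionFieldBar M) a * g ^ p := by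
        rw [he, mul_inv_cancel_right₀ hu.ne_zero]
      obtain ⟨a', g', hg', hg'0, hr'⟩ := exists_fixed_root Φ hp.ne_zero hrf
        (mul_ne_zero hu'.ne_zero (inv_ne_zero hu.ne_zero)) ⟨a, g, hg, hr⟩
      have hrc : Cong c (E.side () (a' • g' ^ p))
          ((v' : LaurentSeries (ResidueField A)) - (v () : LaurentSeries (ResidueField A))) := by
        rw [← hr', map_mul, map_inv₀, sub_eq_add_neg]
        exact Cong.mul hcA hcr hc0 hv' (Cong.inv hcA hcr hc0 (hv ()))
      rcases shape_of_const_mul_pow E Φ hA hg' hg'0 hc0 hc hcrit hrc with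
        ⟨r, hr⟩ | ⟨⟨b, hb, hb0, hbc⟩, z, hz, hze⟩
      · have hco : ∀ j, ((((piG (ResidueField A) M p : G → G)^[j] (v ()) : G)) :
            LaurentSeries (ResidueField A)) =
            (qExpand (ResidueField A) p : LaurentSeries (ResidueField A) →
              LaurentSeries (ResidueField A))^[j] (v () : LaurentSeries (ResidueField A)) := by
          intro j
          induction j with
          | zero => rfl
          | succ j ih =>
            rw [Function.iterate_succ_apply'
              (qExpand (ResidueField A) p : LaurentSeries _ → LaurentSeries _), ← ih]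
            exact (congrArg Subtype.val (Function.iterate_succ_apply' _ j (v ()))).trans
              (coe_piG _ _ _ _)
        obtain ⟨s, hs⟩ := const_of_qExpand_sub hp.one_lt hm (show
          (qExpand (ResidueField A) p : LaurentSeries (ResidueField A) →
            LaurentSeries (ResidueField A))^[m] (v () : LaurentSeries (ResidueField A)) - _ = _ by
          rw [← hco m]; exact hr)
        exact absorb_const E Φ hA hu hcF hc0 hc (r := s) fun i => by rw [← hs]; exact hv i
      · obtain ⟨j, rfl⟩ : ∃ j, m = j + 1 := ⟨m - 1, by omega⟩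
        have hv'p : (v' : LaurentSeries (ResidueField A)) =
            ((frobFull (ResidueField A) M p).symm
              ((piG (ResidueField A) M p : G → G)^[j] (v ())) : LaurentSeries (ResidueField A)) ^ p := by
          rw [← SubmonoidClass.coe_pow, ← piG_eq_pow]
          exact congrArg Subtype.val (Function.iterate_succ_apply' _ j (v ()))
        have := charP_of_injective_algebraMap
          (algebraMap (ResidueField A) (LaurentSeries (ResidueField A))).injective p
        refine absorb_pow E Φ hA hu hb hb0 hbc hc0 hc hcrit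
          (fun _ => ((frobFull (ResidueField A) M p).symm
              ((piG (ResidueField A) M p : G → G)^[j] (v ())) - ⟨z, hz⟩ : G)) fun i => ?_
        rw [AddSubgroupClass.coe_sub, sub_pow_char, ← hv'p, ← hze, sub_sub_cancel]
        exact hv i)
    hu₂ hu₂1
  -- Newton on the split model
  obtain ⟨huf, hu0, D, hD, hD'⟩ := hu
  have := HeckeJ0.hasPrincipalDivisors_bar (M * p)
  obtain ⟨cst, f, hf0, hf⟩ := eq_const_mul_pow_of_beyond S hσ₀ hζ hσζ
    (F := heckeAlphaBar Ω M p u) (by
      rw [galois_alpha]
      exact congrArg _ (huf σ₀ hσH))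
    ((map_ne_zero _).mpr hu0)
    (D := Divisor.pullbackAlong (heckeAlphaBar Ω M p) (HeckeJ0.alphaIntegral M p)
      (D : Divisor Ω (modularFunctionFieldBar M)))
    (fun P => by
      have h1 := Congruence.pullbackAlong_eq_ord (heckeAlphaBar Ω M p) (HeckeJ0.alphaIntegral M p)
        (D := (p : ℤ) • (D : Divisor Ω (modularFunctionFieldBar M)))
        (fun v => by rw [Finsupp.smul_apply, smul_eq_mul, hD']) P
      rw [map_zsmul, Finsupp.smul_apply, smul_eq_mul] at h1
      exact h1.symm)
    hc0 hc (v := ![w (), qExpand (ResidueField A) p (w ())]) (fun i => by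
      obtain rfl | rfl : i = 0 ∨ i = 1 := by omega
      · rw [(S.side_alpha u).1]; exact hw ()
      · rw [(S.side_alpha u).2]; exact (hw ()).qExpand p)
  -- back to level `M`
  have hN : u ^ (p + 1) = normAlong (heckeAlphaBar Ω M p)
      (algebraMap Ω (modularFunctionFieldBar (M * p)) cst) *
        normAlong (heckeAlphaBar Ω M p) f ^ p := by
    have hdeg := Congruence.finrankAlong_heckeAlphaBar (N := M) qbarToComplex S.prime S.not_dvd
    let := algebraAlong (heckeAlphaBar Ω M p)
    have h1 : Algebra.norm (modularFunctionFieldBar M) (heckeAlphaBar Ω M p u) = u ^ (p + 1) := by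
      rw [← hdeg]; exact Algebra.norm_algebraMap u
    show u ^ (p + 1) = Algebra.norm (modularFunctionFieldBar M) _ *
      Algebra.norm (modularFunctionFieldBar M) f ^ p
    rw [← map_pow, ← map_mul, ← hf, h1]
  have hC : normAlong (heckeAlphaBar Ω M p)
      (algebraMap Ω (modularFunctionFieldBar (M * p)) cst) =
      algebraMap Ω (modularFunctionFieldBar M) (cst ^ (p + 1)) := by
    have hdeg := Congruence.finrankAlong_heckeAlphaBar (N := M) qbarToComplex S.prime S.not_dvd
    let := algebraAlong (heckeAlphaBar Ω M p)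
    rw [map_pow, ← hdeg, ← (heckeAlphaBar Ω M p).commutes cst]
    exact Algebra.norm_algebraMap _
  refine eq_zero_of_const_mul_pow hp.ne_zero (g := normAlong (heckeAlphaBar Ω M p) f * u⁻¹)
    (a := cst ^ (p + 1)) (⟨hu0, D, hD, hD'⟩ : IsFunctionOf p x u)
    (mul_ne_zero (HeckeJ0.normAlong_ne_zero (HeckeJ0.alphaFinite M p) hf0) (inv_ne_zero hu0)) ?_
  rw [mul_pow, ← mul_assoc, ← hC, ← hN, inv_pow, pow_succ', mul_inv_cancel_right₀ (pow_ne_zero _ hu0)]

end Fermat.Agent.OrdinaryT

end
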