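import Fermat.Agent.OrdinaryT.NormCong

/-!
# `T_ℓ` on the two expansions of level `M p`

For a prime `ℓ ∤ M p` the swap `w_p` extends to level `M p ℓ` compatibly with both degeneracy
maps, so `T_ℓ` commutes with `w_p` on functions and acts on both expansions by the same formula.
-/

noncomputable section

open IsLocalRing ModularCurve AlgebraicCurve HahnSeries
open Fermat.Agent.Reduction Fermat.Agent.SemistableRed

namespace Fermat.Agent.OrdinaryT

open FlatJ0 Fermat.Agent.X0Analytic Fermat.Agent.Congruence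

local notation "Ω" => AlgebraicClosure ℚ

/-- A homomorphism on level `M p` is determined on the two images of level `M`. -/
theorem ringHom_ext_level {M p : ℕ} [NeZero M] [NeZero p] (hp : p.Prime) {K : Type*} [Field K]
    {f g : modularFunctionFieldBar (M * p) →+* K}
    (ha : ∀ y, f (heckeAlphaBar Ω M p y) = g (heckeAlphaBar Ω M p y))
    (hb : ∀ y, f (heckeBetaBar Ω M p y) = g (heckeBetaBar Ω M p y)) : f = g := by
  refine hom_ext (fun c => ?_) fun d hd0 hd => ?_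
  · rw [← (heckeAlphaBar Ω M p).commutes c]
    exact ha _
  · by_cases hdM : d ∣ M
    · have e : algToField Ω (M * p) ⟨jL Ω d, Algebra.subset_adjoin ⟨d, inferInstance, hd, rfl⟩⟩ =
          heckeAlphaBar Ω M p (algToField Ω M
            ⟨jL Ω d, Algebra.subset_adjoin ⟨d, inferInstance, hdM, rfl⟩⟩) :=
        Subtype.ext (by rw [coe_heckeAlphaBar, coe_algToField, coe_algToField])
      rw [e]
      exact ha _
    · obtain ⟨a, b, ha', hb', rfl⟩ := (Nat.dvd_mul (k := d)).mp hd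
      rcases (Nat.dvd_prime hp).mp hb' with rfl | rfl
      · exact absurd (by rwa [mul_one]) hdM
      · have : NeZero a := ⟨fun h => NeZero.ne M (Nat.eq_zero_of_zero_dvd (h ▸ ha'))⟩
        have e : algToField Ω (M * b) ⟨jL Ω (a * b),
            Algebra.subset_adjoin ⟨a * b, inferInstance, hd, rfl⟩⟩ =
            heckeBetaBar Ω M b (algToField Ω M
              ⟨jL Ω a, Algebra.subset_adjoin ⟨a, inferInstance, ha', rfl⟩⟩) :=
          Subtype.ext (by
            rw [coe_heckeBetaBar, coe_algToField, coe_algToField]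
            exact jL_mul a)
        rw [e]
        exact hb _

/-- Two degeneracy maps in either order. -/
theorem qExpand_comm (m n : ℕ) [NeZero m] [NeZero n] (x : LaurentSeries Ω) :
    qExpand Ω m (qExpand Ω n x) = qExpand Ω n (qExpand Ω m x) := by
  rw [qExpand_qExpand, qExpand_qExpand]
  exact qExpand_congr (mul_comm m n) x

/-- Conjugating `w'` by an identification of the two orders of the level. -/
theorem conj_apply {M p ℓ : ℕ} [NeZero M] [NeZero p] [NeZero ℓ] (hp : p.Prime) (hpM : ¬ p ∣ M)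
    (e : modularFunctionFieldBar (M * p * ℓ) ≃ₐ[Ω] modularFunctionFieldBar (M * ℓ * p))
    (hce : ∀ x, ((e x : modularFunctionFieldBar (M * ℓ * p)) : LaurentSeries Ω) = x)
    (w' : modularFunctionFieldBar (M * ℓ * p) ≃ₐ[Ω] modularFunctionFieldBar (M * ℓ * p))
    (hα : ∀ y, w' (heckeAlphaBar Ω (M * ℓ) p y) = heckeBetaBar Ω (M * ℓ) p y)
    (hβ : ∀ y, w' (heckeBetaBar Ω (M * ℓ) p y) = heckeAlphaBar Ω (M * ℓ) p y)
    (ψ : modularFunctionFieldBar (M * p) →ₐ[Ω] modularFunctionFieldBar (M * p * ℓ))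
    (ψ₀ : modularFunctionFieldBar M →ₐ[Ω] modularFunctionFieldBar (M * ℓ))
    (h₁ : ∀ y, ((ψ (heckeAlphaBar Ω M p y) : modularFunctionFieldBar (M * p * ℓ)) : LaurentSeries Ω) =
      (ψ₀ y : LaurentSeries Ω))
    (h₂ : ∀ y, ((ψ (heckeBetaBar Ω M p y) : modularFunctionFieldBar (M * p * ℓ)) : LaurentSeries Ω) =
      qExpand Ω p (ψ₀ y : LaurentSeries Ω))
    (x : modularFunctionFieldBar (M * p)) :
    e.symm (w' (e (ψ x))) = ψ (wq hp hpM x) := by
  have ha : ∀ y, e (ψ (heckeAlphaBar Ω M p y)) = heckeAlphaBar Ω (M * ℓ) p (ψ₀ y) := fun y =>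
    Subtype.ext (by rw [hce, h₁, coe_heckeAlphaBar])
  have hb : ∀ y, e (ψ (heckeBetaBar Ω M p y)) = heckeBetaBar Ω (M * ℓ) p (ψ₀ y) := fun y =>
    Subtype.ext (by rw [hce, h₂, coe_heckeBetaBar])
  refine DFunLike.congr_fun (ringHom_ext_level hp
    (f := (e.symm.toAlgHom.comp (w'.toAlgHom.comp (e.toAlgHom.comp ψ))).toRingHom)
    (g := (ψ.comp (wq hp hpM).toAlgHom).toRingHom) (fun y => ?_) fun y => ?_) x
  · show e.symm (w' (e (ψ (heckeAlphaBar Ω M p y)))) = ψ (wq hp hpM (heckeAlphaBar Ω M p y))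
    rw [ha, hα, wq_heckeAlphaBar, ← hb, AlgEquiv.symm_apply_apply]
  · show e.symm (w' (e (ψ (heckeBetaBar Ω M p y)))) = ψ (wq hp hpM (heckeBetaBar Ω M p y))
    rw [hb, hβ, wq_heckeBetaBar, ← ha, AlgEquiv.symm_apply_apply]

/-- Equal levels have the same expansions. -/
theorem exists_equiv_of_eq {n m : ℕ} [NeZero n] [NeZero m] (h : n = m) :
    ∃ e : modularFunctionFieldBar n ≃ₐ[Ω] modularFunctionFieldBar m,
      ∀ x, ((e x : modularFunctionFieldBar m) : LaurentSeries Ω) = x := by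
  subst h
  exact ⟨AlgEquiv.refl, fun _ => rfl⟩

/-- `w_p` lifts to level `M p ℓ`. -/
theorem exists_w_lift {M p ℓ : ℕ} [NeZero M] [NeZero p] [NeZero ℓ] (hp : p.Prime) (hpM : ¬ p ∣ M)
    (hpℓ : ¬ p ∣ ℓ) :
    ∃ W : modularFunctionFieldBar (M * p * ℓ) ≃ₐ[Ω] modularFunctionFieldBar (M * p * ℓ),
      (∀ x, W (heckeAlphaBar Ω (M * p) ℓ x) = heckeAlphaBar Ω (M * p) ℓ (wq hp hpM x)) ∧
        ∀ x, W (heckeBetaBar Ω (M * p) ℓ x) = heckeBetaBar Ω (M * p) ℓ (wq hp hpM x) := by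
  have hdvd : ¬ p ∣ M * ℓ := fun h => ((Nat.Prime.dvd_mul hp).mp h).elim hpM hpℓ
  obtain ⟨e, hce⟩ := exists_equiv_of_eq (mul_right_comm M p ℓ)
  refine ⟨(e.trans (wq hp hdvd)).trans e.symm, fun x => ?_, fun x => ?_⟩
  · rw [AlgEquiv.trans_apply, AlgEquiv.trans_apply]
    exact conj_apply hp hpM e hce _ (wq_heckeAlphaBar hp hdvd) (wq_heckeBetaBar hp hdvd)
      (heckeAlphaBar Ω (M * p) ℓ) (heckeAlphaBar Ω M ℓ)
      (fun y => by rw [coe_heckeAlphaBar, coe_heckeAlphaBar, coe_heckeAlphaBar])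
      (fun y => by rw [coe_heckeAlphaBar, coe_heckeBetaBar, coe_heckeAlphaBar]) x
  · rw [AlgEquiv.trans_apply, AlgEquiv.trans_apply]
    exact conj_apply hp hpM e hce _ (wq_heckeAlphaBar hp hdvd) (wq_heckeBetaBar hp hdvd)
      (heckeBetaBar Ω (M * p) ℓ) (heckeBetaBar Ω M ℓ)
      (fun y => by rw [coe_heckeBetaBar, coe_heckeAlphaBar, coe_heckeBetaBar])
      (fun y => by rw [coe_heckeBetaBar, coe_heckeBetaBar, coe_heckeBetaBar, qExpand_comm]) x

variable {A : ValuationSubring Ω} {M p : ℕ} [NeZero M] [NeZero p] [Fact p.Prime]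
  [CharP (ResidueField A) p] [IsAlgClosed (ResidueField A)] (S : Setting A M p)
variable {ℓ : ℕ} [Fact ℓ.Prime]

/-- `T_ℓ` commutes with `w_p` on functions. -/
theorem w_heckeFun (hℓ : ¬ ℓ ∣ M * p) (u : modularFunctionFieldBar (M * p)) :
    S.w (heckeFun (M * p) ℓ u) = heckeFun (M * p) ℓ (S.w u) := by
  have hpℓ : ¬ p ∣ ℓ := fun h => hℓ (by
    rw [← (Nat.prime_dvd_prime_iff_eq S.prime Fact.out).mp h]; exact dvd_mul_left p M)
  obtain ⟨W, hWα, hWβ⟩ := exists_w_lift (M := M) (ℓ := ℓ) S.prime S.not_dvd hpℓ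
  have h := normAlong_equiv (heckeAlphaBar Ω (M * p) ℓ) S.w.toRingEquiv W.toRingEquiv
    (fun x => (hWα x).symm) (heckeBetaBar Ω (M * p) ℓ u)
  exact (h.symm.trans (congrArg (normAlong (heckeAlphaBar Ω (M * p) ℓ)) (hWβ u)))

/-- The expansions of `T_ℓ u`. -/
theorem qExpand_side_heckeFun (hℓ : ¬ ℓ ∣ M * p) (ζ : Ωˣ) (hζ : IsPrimitiveRoot (ζ : Ω) ℓ)
    (u : modularFunctionFieldBar (M * p)) (i : Fin 2) :
    qExpand Ω ℓ (S.side i (heckeFun (M * p) ℓ u)) =
      qExpand Ω ℓ (qExpand Ω ℓ (S.side i u)) *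
        ∏ b : Fin ℓ, Congruence.twist (ζ ^ (b : ℕ)) (S.side i u) := by
  have key : ∀ z : modularFunctionFieldBar (M * p),
      qExpand Ω ℓ ((heckeFun (M * p) ℓ z : modularFunctionFieldBar (M * p)) : LaurentSeries Ω) =
        qExpand Ω ℓ (qExpand Ω ℓ (z : LaurentSeries Ω)) *
          ∏ b : Fin ℓ, Congruence.twist (ζ ^ (b : ℕ)) (z : LaurentSeries Ω) := fun z =>
    Congruence.qExpand_normAlpha Ω (M * p) ℓ
      (Congruence.swapEmbedding qbarToComplex Fact.out hℓ) (Fact.out : ℓ.Prime).one_lt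
      (HeckeJ0.alphaFinite (M * p) ℓ)
      (Congruence.finrankAlong_heckeAlphaBar qbarToComplex Fact.out hℓ) ζ hζ z
  obtain rfl | rfl : i = 0 ∨ i = 1 := by omega
  · exact key u
  · rw [S.side_one, S.side_one, w_heckeFun S hℓ]
    exact key _

/-- The function of the image under `T_ℓ - (ℓ + 1)`. -/
def heckeNorm (N ℓ : ℕ) [NeZero N] [NeZero ℓ] (u : modularFunctionFieldBar N) :
    modularFunctionFieldBar N :=
  heckeFun N ℓ u * (u ^ (ℓ + 1))⁻¹

theorem heckeNorm_galois {N : ℕ} [NeZero N] (σ : Ω ≃ₐ[ℚ] Ω) (u : modularFunctionFieldBar N) :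
    arithmeticGalois (L := Ω) (modularFunctionFieldFull N) σ • heckeNorm N ℓ u =
      heckeNorm N ℓ (arithmeticGalois (L := Ω) (modularFunctionFieldFull N) σ • u) := by
  rw [heckeNorm, heckeNorm, smul_mul', smul_inv'', smul_pow', heckeFun_galois]

theorem isFunctionOf_pow {N n : ℕ} [NeZero N] {x : JZero N} {u : modularFunctionFieldBar N}
    (hu : IsFunctionOf n x u) : ∀ k : ℕ, IsFunctionOf n (k • x) (u ^ k)
  | 0 => by
    have := HeckeJ0.isFunctionField_bar N
    rw [zero_nsmul, pow_zero]; exact isFunctionOf_one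
  | k + 1 => by
    have := HeckeJ0.isFunctionField_bar N
    rw [succ_nsmul, pow_succ]; exact (isFunctionOf_pow hu k).mul hu

/-- The class of `heckeNorm`. -/
theorem isFunctionOf_heckeNorm {N n : ℕ} [NeZero N] {x : JZero N} {u : modularFunctionFieldBar N}
    (hu : IsFunctionOf n x u) :
    IsFunctionOf n (heckeOperatorAlong Ω N ℓ x - (ℓ + 1) • x) (heckeNorm N ℓ u) := by
  have := HeckeJ0.isFunctionField_bar N
  rw [sub_eq_add_neg]
  exact (isFunctionOf_heckeFun hu).mul (isFunctionOf_pow hu (ℓ + 1)).inv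

theorem qExpand_side_heckeNorm (hℓ : ¬ ℓ ∣ M * p) (ζ : Ωˣ) (hζ : IsPrimitiveRoot (ζ : Ω) ℓ)
    (u : modularFunctionFieldBar (M * p)) (i : Fin 2) :
    qExpand Ω ℓ (S.side i (heckeNorm (M * p) ℓ u)) =
      qExpand Ω ℓ (qExpand Ω ℓ (S.side i u)) *
        (∏ b : Fin ℓ, Congruence.twist (ζ ^ (b : ℕ)) (S.side i u)) *
          ((qExpand Ω ℓ (S.side i u)) ^ (ℓ + 1))⁻¹ := by
  rw [heckeNorm, map_mul, map_mul, qExpand_side_heckeFun S hℓ ζ hζ, map_inv₀, map_inv₀, map_pow,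
    map_pow]

theorem qExpand_algebraMap {R : Type*} [Field R] (n : ℕ) [NeZero n] (a : R) :
    qExpand R n (algebraMap R (LaurentSeries R) a) = algebraMap R (LaurentSeries R) a := by
  rw [algebraMap_laurentSeries_eq_single, qExpand_single, mul_zero]

theorem twist_algebraMap {R : Type*} [Field R] (z : Rˣ) (a : R) :
    Congruence.twist z (algebraMap R (LaurentSeries R) a) = algebraMap R (LaurentSeries R) a := by
  rw [algebraMap_laurentSeries_eq_single, Congruence.twist_single_zero]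

/-- A side reducing to `1` after scaling reduces to `1` after `T_ℓ - (ℓ + 1)`. -/
theorem srep_one_heckeNorm (hℓ : ¬ ℓ ∣ M * p) {u : modularFunctionFieldBar (M * p)} {i : Fin 2}
    {a : Ω} (ha : a ≠ 0) (h : SRep (A := A) (a • S.side i u) 1) :
    SRep (A := A) (S.side i (heckeNorm (M * p) ℓ u)) 1 := by
  obtain ⟨ζ, hζ⟩ := exists_unit_root A ℓ
  set ζ' := Units.map (A.subtype : A →* Ω) ζ with hζ'
  set z := a • S.side i u with hz
  set K := algebraMap Ω (LaurentSeries Ω) a with hK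
  have hK0 : K ≠ 0 := (map_ne_zero _).mpr ha
  have he : qExpand Ω ℓ (S.side i (heckeNorm (M * p) ℓ u)) =
      qExpand Ω ℓ (qExpand Ω ℓ z) * (∏ b : Fin ℓ, Congruence.twist (ζ' ^ (b : ℕ)) z) *
        ((qExpand Ω ℓ z) ^ (ℓ + 1))⁻¹ := by
    have hside : S.side i u = K⁻¹ * z := by
      rw [hz, smul_eq_algebraMap_mul, ← hK, inv_mul_cancel_left₀ hK0]
    rw [qExpand_side_heckeNorm S hℓ ζ' hζ, hside]
    simp only [map_mul, map_inv₀, hK, qExpand_algebraMap, twist_algebraMap, Finset.prod_mul_distrib,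
      Finset.prod_const, Finset.card_univ, Fintype.card_fin]
    rw [← hK]
    have key : ∀ X P Y : LaurentSeries Ω, K⁻¹ * X * (K⁻¹ ^ ℓ * P) * ((K⁻¹ * Y) ^ (ℓ + 1))⁻¹ =
        X * P * (Y ^ (ℓ + 1))⁻¹ := fun X P Y => by
      rw [mul_pow, mul_inv]
      calc K⁻¹ * X * (K⁻¹ ^ ℓ * P) * ((K⁻¹ ^ (ℓ + 1))⁻¹ * (Y ^ (ℓ + 1))⁻¹)
          = (K⁻¹ ^ (ℓ + 1) * (K⁻¹ ^ (ℓ + 1))⁻¹) * (X * P * (Y ^ (ℓ + 1))⁻¹) := by
            rw [pow_succ]; ring
        _ = _ := by rw [mul_inv_cancel₀ (pow_ne_zero _ (inv_ne_zero hK0)), one_mul]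
    exact key _ _ _
  have h1 : SRep (A := A) (qExpand Ω ℓ (S.side i (heckeNorm (M * p) ℓ u))) 1 := by
    rw [he]
    have h2 := ((h.qExpand ℓ).qExpand ℓ).mul (SRep.prod (A := A) Finset.univ
      (f := fun b : Fin ℓ => Congruence.twist (ζ' ^ (b : ℕ)) z) (g := fun _ => 1) fun b _ => by
        have h3 := srep_twist (ζ ^ (b : ℕ)) h
        rwa [map_one, map_pow] at h3)
    have h4 := h2.mul (((h.qExpand ℓ).pow (ℓ + 1)).inv (by simp))
    simpa using h4
  obtain ⟨w, hw, hw'⟩ := (pairExp S).srep_of_qExpand (isOver_of_setting S) (i := i) h1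
  rw [← map_one (qExpand (ResidueField A) ℓ)] at hw'
  rw [qExpand_injective (R := ResidueField A) ℓ hw'] at hw
  exact hw

/-- `T_ℓ - (ℓ + 1)` kills constant first-order terms. -/
theorem cong_heckeNorm_const (hℓ : ¬ ℓ ∣ M * p) {u : modularFunctionFieldBar (M * p)} {i : Fin 2}
    {c : Ω} (hcA : c ∈ A) (hcr : residue A ⟨c, hcA⟩ = 0) (hc0 : c ≠ 0) {r : ResidueField A}
    (h : Cong c (S.side i u) (algebraMap (ResidueField A) (LaurentSeries (ResidueField A)) r)) :
    Cong (A := A) c (S.side i (heckeNorm (M * p) ℓ u)) 0 := by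
  obtain ⟨ζ, hζ⟩ := exists_unit_root A ℓ
  have h2 := Cong.mul hcA hcr hc0 ((h.qExpand ℓ).qExpand ℓ)
    (Cong.prod hcA hcr hc0 (A := A) Finset.univ fun (b : Fin ℓ) _ => Cong.twist (ζ ^ (b : ℕ)) h)
  have h4 := Cong.mul hcA hcr hc0 h2
    (Cong.inv hcA hcr hc0 (Cong.pow hcA hcr hc0 (h.qExpand ℓ) (ℓ + 1)))
  simp only [map_pow, qExpand_algebraMap, twist_algebraMap, Finset.sum_const, Finset.card_univ,
    Fintype.card_fin] at h4
  rw [← qExpand_side_heckeNorm S hℓ _ hζ u i, show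
    algebraMap (ResidueField A) (LaurentSeries (ResidueField A)) r +
      ℓ • algebraMap (ResidueField A) (LaurentSeries (ResidueField A)) r +
      -((ℓ + 1) • algebraMap (ResidueField A) (LaurentSeries (ResidueField A)) r) = 0 by
        rw [succ_nsmul]; abel] at h4
  obtain ⟨w, hw, hw'⟩ := (pairExp S).cong_of_qExpand (isOver_of_setting S) (i := i) h4
  rw [← map_zero (qExpand (ResidueField A) ℓ)] at hw'
  rw [qExpand_injective (R := ResidueField A) ℓ hw'] at hw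
  exact hw

end Fermat.Agent.OrdinaryT

end
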