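import Fermat.Agent.OrdinaryT.NewtonAlpha
import Fermat.Agent.OrdinaryT.GoodCore
import Fermat.Agent.OrdinaryT.HeckeSide

/-!
# No class killed by `T_p` in the kernel of reduction is fixed by the cyclotomic part of inertia

A `p`-torsion class in the kernel of reduction at level `M` which is killed by `T_p` and fixed by
the inertia elements fixing the `p`-th roots of unity vanishes. Below `p / (p - 1)` the fixed
values are not `p`-divisible; at it the first-order term is `z ^ p + ε z` up to a constant.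
-/

set_option linter.unusedSectionVars false

noncomputable section

open IsLocalRing ModularCurve AlgebraicCurve HahnSeries
open Fermat.Agent.Reduction Fermat.Agent.FunctionFieldRR Fermat.Agent.SemistableRed

namespace Fermat.Agent.OrdinaryT

open FlatJ0

local notation "Ω" => AlgebraicClosure ℚ

/-- The inertia elements fixing a given element. -/
def pointFixer (A : ValuationSubring (AlgebraicClosure ℚ)) (ζ : AlgebraicClosure ℚ) : Fixer A where
  H := A.inertiaSubgroupIn ℚ ⊓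
    MulAction.stabilizer (AlgebraicClosure ℚ ≃ₐ[ℚ] AlgebraicClosure ℚ) ζ
  le_inertia := inf_le_left
  exists_level := by
    refine ⟨IntermediateField.adjoin ℚ {ζ}, ?_, fun σ hσ h => ⟨hσ, MulAction.mem_stabilizer_iff.mpr
      (h ζ (IntermediateField.mem_adjoin_simple_self ℚ ζ))⟩⟩
    exact IntermediateField.adjoin.finiteDimensional
      ((AlgebraicClosure.isAlgebraic ℚ).isAlgebraic ζ).isIntegral

variable {A : ValuationSubring Ω} {p : ℕ}

theorem mem_pointFixer {ζ : Ω} {σ : Ω ≃ₐ[ℚ] Ω} :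
    σ ∈ (pointFixer A ζ).H ↔ σ ∈ A.inertiaSubgroupIn ℚ ∧ σ ζ = ζ :=
  Iff.rfl

/-- The fixed values lie in `ℤ / (p - 1)`: none is strictly between `0` and `1 / (p - 1)`. -/
theorem pointFixer_ord_not_small (hA : IsOver A p) {ζ : Ω} (hζ : IsPrimitiveRoot ζ p) {b : Ω}
    (hb : b ∈ (pointFixer A ζ).field) (hb0 : b ≠ 0) (hpos : 0 < ord A p b) :
    1 ≤ ((p : ℚ) - 1) * ord A p b := by
  classical
  have hp := hA.prime
  have : NeZero p := ⟨hp.ne_zero⟩
  set O : Set Ω := {y | ∃ σ ∈ A.inertiaSubgroupIn ℚ, σ b = y}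
  choose g hg hgb using fun y : O => y.2
  have hroot : ∀ y : O, g y ζ ∈ primitiveRoots p Ω := fun y =>
    (mem_primitiveRoots hp.pos).mpr (hζ.map_of_injective (g y).injective)
  have hinj : Function.Injective fun y : O => (⟨g y ζ, hroot y⟩ : primitiveRoots p Ω) := by
    intro y y' h
    have h1 : g y ζ = g y' ζ := congrArg Subtype.val h
    have h2 : ((g y')⁻¹ * g y) ζ = ζ := by
      rw [AlgEquiv.mul_apply, h1, ← AlgEquiv.mul_apply, inv_mul_cancel, AlgEquiv.one_apply]
    have h3 := hb _ (mem_pointFixer.mpr ⟨mul_mem (inv_mem (hg y')) (hg y), h2⟩)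
    apply Subtype.ext
    rw [← hgb y, ← hgb y']
    exact (g y').symm.injective (by rw [AlgEquiv.symm_apply_apply]; exact h3)
  have : Finite O := Finite.of_injective _ hinj
  have : Fintype O := Fintype.ofFinite O
  set s : Finset Ω := O.toFinset
  have hs : ∀ {y}, y ∈ s ↔ ∃ σ ∈ A.inertiaSubgroupIn ℚ, σ b = y := fun {y} => Set.mem_toFinset
  have hfix : ∀ τ ∈ A.inertiaSubgroupIn ℚ, τ (∏ y ∈ s, y) = ∏ y ∈ s, y := by
    intro τ hτ
    rw [map_prod]
    refine Finset.prod_bij (fun y _ => τ y) ?_ (fun a _ c _ e => τ.injective e) ?_ fun _ _ => rfl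
    · intro y hy
      obtain ⟨σ, hσ, rfl⟩ := hs.mp hy
      exact hs.mpr ⟨τ * σ, mul_mem hτ hσ, rfl⟩
    · intro y hy
      obtain ⟨σ, hσ, rfl⟩ := hs.mp hy
      refine ⟨τ⁻¹ (σ b), hs.mpr ⟨τ⁻¹ * σ, mul_mem (inv_mem hτ) hσ, rfl⟩, ?_⟩
      rw [← AlgEquiv.mul_apply, mul_inv_cancel, AlgEquiv.one_apply]
  obtain ⟨z, hz⟩ := hA.exists_ord_eq_int hfix
  have hne : ∀ y ∈ s, y ≠ 0 := fun y hy => by
    obtain ⟨σ, -, rfl⟩ := hs.mp hy; simpa using hb0
  have hsum : ord A p (∏ y ∈ s, y) = s.card * ord A p b := by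
    rw [hA.ord_prod s _ hne, Finset.sum_congr rfl (g := fun _ => ord A p b), Finset.sum_const,
      nsmul_eq_mul]
    intro y hy
    obtain ⟨σ, hσ, rfl⟩ := hs.mp hy
    exact hA.ord_apply (MultRed.inertia_mem_decomposition hσ) b
  have hcard : s.card ≤ p - 1 := by
    rw [Set.toFinset_card]
    refine (Fintype.card_le_of_injective _ hinj).trans ?_
    rw [Fintype.card_coe, IsPrimitiveRoot.card_primitiveRoots hζ, Nat.totient_prime hp]
  have hpos' : 0 < s.card := Finset.card_pos.mpr ⟨b, hs.mpr ⟨1, one_mem _, rfl⟩⟩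
  have h1 : (s.card : ℚ) ≤ (p : ℚ) - 1 := by
    rw [← Nat.cast_one, ← Nat.cast_sub hp.one_le]; exact_mod_cast hcard
  have hz' : (z : ℚ) = s.card * ord A p b := hz ▸ hsum
  have hz0 : (0 : ℚ) < z := by rw [hz']; exact mul_pos (by exact_mod_cast hpos') hpos
  have hz1 : (1 : ℚ) ≤ z := by exact_mod_cast (show (0 : ℤ) < z by exact_mod_cast hz0)
  calc (1 : ℚ) ≤ z := hz1
    _ = s.card * ord A p b := hz'
    _ ≤ ((p : ℚ) - 1) * ord A p b := mul_le_mul_of_nonneg_right h1 hpos.le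

/-- Raising a congruence to the `p`-th power at the value `p / (p - 1)`. -/
theorem Cong.pow_prime_critical (hA : IsOver A p) {b : Ω} (hord : ((p : ℚ) - 1) * ord A p b = 1)
    (hb0 : b ≠ 0) {x : LaurentSeries Ω} {w : LaurentSeries (ResidueField A)} (h : Cong b x w) :
    ∃ hε : (p : Ω) * b / b ^ p ∈ A, residue A ⟨_, hε⟩ ≠ 0 ∧
      Cong (b ^ p) (x ^ p) (w ^ p + residue A ⟨_, hε⟩ • w) := by
  have hp := hA.prime
  have hp1 : (1 : ℚ) < p := by exact_mod_cast hp.one_lt
  have hb : 0 < ord A p b := by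
    by_contra hcon
    nlinarith [not_lt.mp hcon]
  have hc0 : b ^ p ≠ 0 := pow_ne_zero _ hb0
  have hq0 : (p : Ω) * b / b ^ p ≠ 0 := div_ne_zero (mul_ne_zero hA.natCast_ne_zero hb0) hc0
  have hq : ord A p ((p : Ω) * b / b ^ p) = 0 := by
    rw [hA.ord_div (mul_ne_zero hA.natCast_ne_zero hb0) hc0,
      hA.ord_mul hA.natCast_ne_zero hb0, hA.ord_p, hA.ord_pow hb0]
    linarith
  have hε : (p : Ω) * b / b ^ p ∈ A := mem_of_ord hA (Or.inr hq.ge)
  refine ⟨hε, fun h0 => ?_, ?_⟩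
  · rw [residue_eq_zero_iff, ← ValuationSubring.coe_mem_nonunits_iff, hA.nonunit_iff hq0, hq] at h0
    exact lt_irrefl _ h0
  obtain ⟨r, hr⟩ := exists_one_add_pow_prime (R := Polynomial A) hp
    (Polynomial.C (⟨b, mem_of_ord hA (Or.inr hb.le)⟩ : A) * Polynomial.X)
  set X : LaurentSeries Ω := b⁻¹ • (x - 1) with hX
  have hev : ∀ q : Polynomial A, ∃ v : LaurentSeries (ResidueField A), SRep
      (q.eval₂ ((algebraMap Ω (LaurentSeries Ω)).comp A.subtype) X) v := by
    intro q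
    induction q using Polynomial.induction_on' with
    | add q₁ q₂ h₁ h₂ =>
      obtain ⟨v₁, h₁⟩ := h₁
      obtain ⟨v₂, h₂⟩ := h₂
      exact ⟨_, by rw [Polynomial.eval₂_add]; exact h₁.add h₂⟩
    | monomial m a =>
      exact ⟨_, by rw [Polynomial.eval₂_monomial]; exact (SRep.const a).mul (SRep.pow h m)⟩
  obtain ⟨vr, hvr⟩ := hev r
  have hXw : SRep X w := h
  have hb' : SRep (algebraMap Ω (LaurentSeries Ω) b * X * X *
      r.eval₂ ((algebraMap Ω (LaurentSeries Ω)).comp A.subtype) X + X)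
      (algebraMap (ResidueField A) _ (residue A ⟨b, mem_of_ord hA (Or.inr hb.le)⟩) * w * w * vr + w) :=
    (((SRep.const ⟨b, mem_of_ord hA (Or.inr hb.le)⟩).mul hXw).mul hXw |>.mul hvr).add hXw
  have hsum := (hXw.pow p).add (SRep.smul hε hb')
  rw [residue_eq_zero_of_pos hA _ (Or.inr hb), map_zero, zero_mul, zero_mul, zero_mul, zero_add]
    at hsum
  have hx : x = 1 + algebraMap Ω (LaurentSeries Ω) b * X := by
    rw [hX, smul_eq_algebraMap_mul, map_inv₀, ← mul_assoc,
      mul_inv_cancel₀ ((map_ne_zero _).mpr hb0), one_mul, add_sub_cancel]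
  have hr' := congrArg (Polynomial.eval₂ ((algebraMap Ω (LaurentSeries Ω)).comp A.subtype) X) hr
  simp only [Polynomial.eval₂_add, Polynomial.eval₂_mul, Polynomial.eval₂_pow, Polynomial.eval₂_one,
    Polynomial.eval₂_C, Polynomial.eval₂_X, Polynomial.eval₂_natCast, RingHom.comp_apply,
    ValuationSubring.subtype_apply] at hr'
  rw [Cong]
  convert hsum using 1
  clear_value X
  rw [hx, hr']
  simp only [smul_eq_algebraMap_mul, map_mul, map_div₀, map_pow, map_natCast, map_inv₀]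
  have hbb : algebraMap Ω (LaurentSeries Ω) b ^ p * (algebraMap Ω (LaurentSeries Ω) b)⁻¹ ^ p = 1 := by
    rw [← mul_pow, mul_inv_cancel₀ ((map_ne_zero _).mpr hb0), one_pow]
  show _ = _
  field_simp
  linear_combination X ^ p * hbb

variable {N : ℕ} [NeZero N] (E : Expansion A N Unit) (Φ : Fixer A)

/-- The first-order term at `p / (p - 1)` of a constant times a `p`-th power. -/
theorem shape_critical (hA : IsOver A p) [IsAlgClosed (ResidueField A)] {z : Ω}
    (hz : ((p : ℚ) - 1) * ord A p z = 1) (hz0 : z ≠ 0) (hε : (p : Ω) * z / z ^ p ∈ A)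
    {g : modularFunctionFieldBar N} (hg : Φ.FFixed g) (hg0 : g ≠ 0) {a : Ω}
    {v : LaurentSeries (ResidueField A)} (h : Cong (z ^ p) (E.side () (a • g ^ p)) v) :
    ∃ (r : ResidueField A) (w : LaurentSeries (ResidueField A)), w ∈ E.G ∧
      v = algebraMap (ResidueField A) _ r + (w ^ p + residue A ⟨_, hε⟩ • w) := by
  have hp := hA.prime
  have : Fact p.Prime := ⟨hp⟩
  have := Frobenius.residueField_charP hp hA.liesOver
  have hp1 : (1 : ℚ) < p := by exact_mod_cast hp.one_lt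
  have hzpos : 0 < ord A p z := by
    by_contra hcon
    nlinarith [not_lt.mp hcon]
  have hc0 : z ^ p ≠ 0 := pow_ne_zero _ hz0
  have hordc : ord A p (z ^ p) = p * ord A p z := hA.ord_pow hz0 p
  have hcA : z ^ p ∈ A := mem_of_ord hA (Or.inr (by rw [hordc]; positivity))
  have hcr := residue_eq_zero_of_pos hA hcA (Or.inr (by rw [hordc]; positivity))
  have hx1 := h.srep_one hcA hcr hc0
  obtain ⟨a₀, -, ha₀0, hcases⟩ := exists_nonconst E Φ hA hg hg0 (B := ord A p z)
  set a' := a / a₀ ^ p with ha'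
  have he : E.side () (a • g ^ p) =
      algebraMap Ω (LaurentSeries Ω) a' * (E.side () (a₀ • g)) ^ p := by
    rw [algHom_smul, algHom_smul, map_pow (E.side ()), smul_eq_algebraMap_mul, smul_eq_algebraMap_mul,
      mul_pow, ← mul_assoc, ← map_pow (algebraMap Ω (LaurentSeries Ω)), ← map_mul, ha',
      div_mul_cancel₀ _ (pow_ne_zero _ ha₀0)]
  rcases hcases with ⟨w, hw, hnc, hwr⟩ | ⟨b, hb, hb0, hbpos, hbB, w, hwG, hnc, hw⟩ |
      ⟨b, hb0, hbB, w, hw⟩
  · exfalso
    rw [← algHom_smul] at hwr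
    have hw0 : w ≠ 0 := fun h0 => hnc 0 (by rw [h0, map_zero])
    have h1 := hx1.mul ((hwr.pow p).inv (pow_ne_zero _ hw0))
    have hne : E.side () (a₀ • g) ≠ 0 := fun h0 => by
      rw [h0] at hwr
      exact hw0 (hwr.unique SRep.zero)
    rw [he, mul_assoc, mul_inv_cancel₀ (pow_ne_zero _ hne), mul_one, one_mul] at h1
    obtain ⟨hmem, hconst⟩ := srep_const_iff h1
    obtain ⟨s, hs⟩ := const_of_pow_const (p := p)
      (show (w⁻¹) ^ p = _ from (inv_pow w p).trans hconst)
    exact hnc s⁻¹ (by rw [map_inv₀, ← hs, inv_inv])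
  · exfalso
    have hbp0 : b ^ p ≠ 0 := pow_ne_zero _ hb0
    have hbb : ((p : ℚ) - 1) * ord A p b < 1 := by
      linarith [mul_lt_mul_of_pos_left hbB (sub_pos.mpr hp1)]
    have hbpA : b ^ p ∈ A := mem_of_ord hA (Or.inr (by rw [hA.ord_pow hb0]; positivity))
    have hbpr := residue_eq_zero_of_pos hA hbpA (Or.inr (by rw [hA.ord_pow hb0]; positivity))
    obtain ⟨hη, hy⟩ := hw.pow_prime hA hb0 hbp0 hbpos (by
      rw [hA.ord_pow hb0]; linarith) (by rw [hA.ord_pow hb0])
    have hlt : ord A p (b ^ p) < ord A p (z ^ p) := by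
      rw [hA.ord_pow hb0, hordc]; exact mul_lt_mul_of_pos_left hbB (by linarith)
    have hcb : z ^ p / b ^ p ∈ A := mem_of_ord hA (Or.inr (by
      rw [hA.ord_div hc0 hbp0]; linarith))
    have hcbr := residue_eq_zero_of_pos hA hcb (Or.inr (by
      rw [hA.ord_div hc0 hbp0]; linarith))
    have hx := Cong.rescale (A := A) hc0 hcb h
    rw [hcbr, zero_smul] at hx
    have h1 := Cong.mul hbpA hbpr hbp0 hx (Cong.inv hbpA hbpr hbp0 hy)
    have hne : (E.side () (a₀ • g)) ^ p ≠ 0 := fun h0 =>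
      one_ne_zero ((hy.srep_one hbpA hbpr hbp0).unique (h0 ▸ SRep.zero))
    rw [he, mul_assoc, mul_inv_cancel₀ hne, mul_one, Cong, smul_eq_algebraMap_mul,
      ← map_one (algebraMap Ω (LaurentSeries Ω)), ← map_sub, ← map_mul, zero_add] at h1
    obtain ⟨hr, hr'⟩ := srep_const_iff h1
    rw [show (⟨_, hη⟩ : A) = 1 from Subtype.ext (div_self hbp0), map_one, one_smul,
      neg_eq_iff_eq_neg, ← map_neg] at hr'
    obtain ⟨s, hs⟩ := const_of_pow_const hr'
    exact hnc s hs
  · have hbz : b / z ∈ A := mem_of_ord hA (Or.inr (by rw [hA.ord_div hb0 hz0]; linarith))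
    have hw2 : Cong z (E.side () (a₀ • g)) (residue A ⟨_, hbz⟩ • w) := hw.rescale hb0 hbz
    have hwG : residue A ⟨_, hbz⟩ • w ∈ E.G :=
      E.srep_mem () (z⁻¹ • (a₀ • g - 1)) _ (by rw [algHom_smul, map_sub, map_one]; exact hw2)
    obtain ⟨_, -, hsq⟩ := hw2.pow_prime_critical hA hz hz0
    have h1 := h.mul hcA hcr hc0 (Cong.inv hcA hcr hc0 hsq)
    have hne : (E.side () (a₀ • g)) ^ p ≠ 0 := fun h0 =>
      one_ne_zero ((hsq.srep_one hcA hcr hc0).unique (h0 ▸ SRep.zero))
    rw [he, mul_assoc, mul_inv_cancel₀ hne, mul_one, Cong, smul_eq_algebraMap_mul,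
      ← map_one (algebraMap Ω (LaurentSeries Ω)), ← map_sub, ← map_mul] at h1
    obtain ⟨hr, hr'⟩ := srep_const_iff h1
    exact ⟨residue A ⟨_, hr⟩, _, hwG, by rw [← hr']; abel⟩

variable {M : ℕ} [NeZero M] [NeZero p] [Fact p.Prime] [CharP (ResidueField A) p]
  [IsAlgClosed (ResidueField A)] (S : Setting A M p)

include S in
/-- **No fixed class killed by `T_p` in the kernel of reduction.** -/
theorem eq_zero_of_hecke_eq_zero {x : JZero M} (hx : x ∈ goodKilled S p)
    (hT : heckeOperatorAlong Ω M p x = 0) {ζ : Ω} (hζ : IsPrimitiveRoot ζ p)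
    (hI : ∀ σ ∈ A.inertiaSubgroupIn ℚ, σ ζ = ζ → σ • x = x) : x = 0 := by
  have hA := isOver_of_setting S
  have hp := hA.prime
  have := isFunctionField_level M
  have := isFunctionField_level (M * p)
  have := HeckeJ0.hasPrincipalDivisors_bar M
  have := HeckeJ0.hasPrincipalDivisors_bar (M * p)
  have := S.isFunctionField_C
  have := charP_of_injective_algebraMap
    (algebraMap (ResidueField A) (LaurentSeries (ResidueField A))).injective p
  have hp2 : (2 : ℚ) ≤ p := by exact_mod_cast hp.two_le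
  set Φ := pointFixer A ζ
  obtain ⟨hzord, -⟩ := exists_zeta hA hζ
  set z := ζ - 1 with hzdef
  have hz0 : z ≠ 0 := sub_ne_zero.mpr (hζ.ne_one hp.one_lt)
  have hzF : z ∈ Φ.field := fun σ hσ => by rw [hzdef, map_sub, map_one, (mem_pointFixer.mp hσ).2]
  have hzpos : 0 < ord A p z := by
    by_contra hcon
    nlinarith [not_lt.mp hcon]
  have hzA : z ∈ A := mem_of_ord hA (Or.inr hzpos.le)
  have hzr := residue_eq_zero_of_pos hA hzA (Or.inr hzpos)
  have hzp0 : z ^ p ≠ 0 := pow_ne_zero _ hz0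
  have hzpord : ord A p (z ^ p) = p * ord A p z := hA.ord_pow hz0 p
  have hzpA : z ^ p ∈ A := pow_mem hzA p
  have hzpr := residue_eq_zero_of_pos hA hzpA (Or.inr (by rw [hzpord]; positivity))
  have hpx : p • x = 0 := by
    obtain ⟨w, ⟨hw0, D, rfl, hD⟩, -⟩ := hx
    refine (QuotientAddGroup.eq_zero_iff (p • D)).mpr ?_
    rw [AddSubgroup.mem_addSubgroupOf]
    exact ⟨w, hw0, fun P => by rw [hD]; simp⟩
  obtain ⟨u₀, hu₀f, hu₀⟩ := exists_fixed_function Φ hp.ne_zero x hpx fun σ hσ =>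
    hI σ (mem_pointFixer.mp hσ).1 (mem_pointFixer.mp hσ).2
  set E := levelExp S
  set G := modularFunctionFieldFullC (ResidueField A) M
  obtain ⟨a, ha, ha0, v, hv, hv0, hva⟩ := E.exists_scale Φ hA hu₀f hu₀.1 ()
  obtain ⟨hint, hred⟩ := S.red_eq (i := 0) (f := a • heckeAlphaBar Ω M p u₀)
    (v := ⟨v, hv⟩) (by rw [S.side_smul, (S.side_alpha u₀).1]; exact hva)
  obtain ⟨y, hy0, hy⟩ := ((mem_goodKilled_iff S hu₀).mp hx).exists_red_eq hp.ne_zero (c := a)
    hint (fun h0 => hv0 (congrArg Subtype.val (hred.symm.trans h0)))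
  have hvy : v = (y : LaurentSeries (ResidueField A)) ^ p :=
    congrArg Subtype.val (hred.symm.trans hy)
  obtain ⟨u₂, hu₂, hu₂1⟩ := exists_srep_one E Φ (InClass.smul_const ⟨hu₀f, hu₀⟩ ha ha0)
    (fun _ => y) (fun _ => hy0) fun _ => by rw [← hvy, algHom_smul]; exact hva
  -- the image under `T_p` is a constant times a power
  have hTu : ∀ u, InClass Φ p x u → ∃ (a : Ω) (g : modularFunctionFieldBar M),
      Φ.FFixed g ∧ g ≠ 0 ∧ heckeFun M p u = a • g ^ p := by
    intro u hu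
    have h' := isFunctionOf_heckeFun (ℓ := p) hu.2
    rw [hT] at h'
    obtain ⟨a, g, -, hg, he⟩ := (isFunctionOf_one : IsFunctionOf p (0 : JZero M) (1 : modularFunctionFieldBar M)).exists_eq h'
    exact exists_fixed_root Φ hp.ne_zero
      (fun σ hσ => by rw [← heckeFun_galois, hu.1 σ hσ]) h'.1 ⟨a, g, hg, by rw [he, mul_one]⟩
  have hcongT : ∀ {c : Ω} (hcA : c ∈ A) (hcr : residue A ⟨c, hcA⟩ = 0) (hc0 : c ≠ 0)
      {u : modularFunctionFieldBar M} {w : LaurentSeries (ResidueField A)},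
      Cong c (u : LaurentSeries Ω) w → ∀ {a : Ω} {g : modularFunctionFieldBar M},
      heckeFun M p u = a • g ^ p →
      Cong c (E.side () (a • g ^ p)) (qExpand (ResidueField A) p w) := by
    intro c hcA hcr hc0 u w hw a g he
    rw [← he]
    exact cong_heckeFun_self S hcA hcr hc0 hw
  -- climbing up to `p / (p - 1)`
  obtain ⟨u, c, w, hu, hcF, hc0, hc, hw⟩ := exists_atLeast E Φ hA
    (fun u c v hu hcF hc0 hc hcrit hv => by
      have hcA := mem_of_ord hA (Or.inr hc.le)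
      have hcr := residue_eq_zero_of_pos hA hcA (Or.inr hc)
      obtain ⟨a, g, hg, hg0, he⟩ := hTu u hu
      rcases shape_of_const_mul_pow E Φ hA hg hg0 hc0 hc hcrit
          (hcongT hcA hcr hc0 (hv ()) he) with ⟨r, hr⟩ | ⟨⟨b, hb, hb0, hbc⟩, -⟩
      · refine absorb_const E Φ hA hu hcF hc0 hc (r := r) fun i => ?_
        have hs : ((v ()) : LaurentSeries (ResidueField A)) = algebraMap (ResidueField A) _ r :=
          (qExpand (ResidueField A) p).injective (by rw [hr, qExpand_algebraMap])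
        rw [← hs]
        exact hv i
      · exfalso
        have hbpos : 0 < ord A p b := by
          by_contra hcon
          nlinarith [not_lt.mp hcon]
        nlinarith [pointFixer_ord_not_small hA hζ hb hb0 hbpos])
    hu₂ hu₂1
  have hcz : c / z ^ p ∈ A := mem_of_ord hA (Or.inr (by
    rw [hA.ord_div hc0 hzp0, hzpord]
    nlinarith))
  have hzu := Cong.rescale (A := A) hc0 hcz (hw ())
  set h := residue A ⟨_, hcz⟩ • w () with hh
  have hhG : h ∈ E.G := E.srep_mem () ((z ^ p)⁻¹ • (u - 1)) h (by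
    rw [algHom_smul, map_sub, map_one]; exact hzu)
  obtain ⟨a₁, g₁, hg₁, hg₁0, he₁⟩ := hTu u hu
  have hεA : (p : Ω) * z / z ^ p ∈ A := mem_of_ord hA (Or.inr (by
    rw [hA.ord_div (mul_ne_zero hA.natCast_ne_zero hz0) hzp0, hA.ord_mul hA.natCast_ne_zero hz0,
      hA.ord_p, hzpord]
    linarith))
  obtain ⟨r, w₁, hw₁, hrw⟩ := shape_critical E Φ hA hzord hz0 hεA hg₁ hg₁0
    (hcongT hzpA hzpr hzp0 hzu he₁)
  set ε := residue A ⟨_, hεA⟩ with hεdef
  have hε0 : ε ≠ 0 := by
    obtain ⟨_, h0, -⟩ := Cong.pow_prime_critical hA hzord hz0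
      (Cong.one (A := A) (c := z) (L := Ω))
    exact h0
  -- the first-order term is `y ^ p + ε y` up to a constant
  obtain ⟨r₁, hr₁⟩ := IsAlgClosed.exists_pow_nat_eq r hp.pos
  set h' : G := (frobFull (ResidueField A) M p).symm ⟨h, hhG⟩
  set T : LaurentSeries (ResidueField A) :=
    (h' : LaurentSeries (ResidueField A)) - algebraMap (ResidueField A) _ r₁ - w₁ with hTdef
  have hTG : T ∈ E.G := sub_mem (sub_mem h'.2 (E.G.algebraMap_mem _)) hw₁
  set F := coeffMap (frobenius (ResidueField A) p) with hF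
  set y₁ : LaurentSeries (ResidueField A) := ε⁻¹ • F T with hy₁
  have hyG : y₁ ∈ E.G := by
    rw [hy₁, hF, smul_eq_algebraMap_mul]
    exact mul_mem (E.G.algebraMap_mem _) (Congruence.coeffMap_mem_fullC _ hTG)
  have hTp : T ^ p = algebraMap (ResidueField A) _ ε * w₁ := by
    have h2 : (h' : LaurentSeries (ResidueField A)) ^ p = qExpand (ResidueField A) p h := by
      rw [← SubmonoidClass.coe_pow, ← piG_eq_pow, coe_piG]
    rw [hTdef, sub_pow_char, sub_pow_char, h2, hrw, ← map_pow, hr₁, smul_eq_algebraMap_mul]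
    ring
  have hhy : h = algebraMap (ResidueField A) _ r + (y₁ ^ p + ε • y₁) := by
    have h3 : F (h' : LaurentSeries (ResidueField A)) = h :=
      congrArg Subtype.val ((frobFull (ResidueField A) M p).apply_symm_apply ⟨h, hhG⟩)
    have h4 : (h' : LaurentSeries (ResidueField A)) =
        algebraMap (ResidueField A) _ r₁ + algebraMap (ResidueField A) _ ε⁻¹ * T ^ p + T := by
      rw [hTp, ← mul_assoc, ← map_mul, inv_mul_cancel₀ hε0, map_one, one_mul, hTdef]
      abel
    rw [← h3, h4, map_add, map_add, map_mul, map_pow, hF, coeffMap_algebraMap, coeffMap_algebraMap,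
      frobenius_def, frobenius_def, hr₁, ← hF, hy₁, smul_eq_algebraMap_mul,
      smul_eq_algebraMap_mul, mul_pow, ← map_pow, ← mul_assoc, ← map_mul, mul_inv_cancel₀ hε0,
      map_one, one_mul, add_assoc]
    simp only [map_pow]
  -- absorb
  obtain ⟨f, hf, hfr⟩ := E.lift fun _ => (⟨_, hyG⟩ : E.G)
  obtain ⟨s, hsr, hsfix⟩ := exists_lift_fixed hA r
  set d := 1 + z ^ p * (s : Ω) with hd
  set g := 1 + z • f with hgdef
  have hg2 : Cong (z ^ p) (E.side () (g ^ p)) (y₁ ^ p + ε • y₁) := by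
    rw [map_pow]
    obtain ⟨_, -, h5⟩ := Cong.pow_prime_critical hA hzord hz0
      (x := E.side () g) (w := y₁) (by
        rw [Cong, hgdef, map_add, map_one, add_sub_cancel_left, algHom_smul,
          inv_smul_smul₀ hz0]
        exact hfr ())
    exact h5
  have hdmem : (z ^ p)⁻¹ * (d - 1) ∈ A := by
    rw [hd, add_sub_cancel_left, inv_mul_cancel_left₀ hzp0]; exact s.2
  have hdc := Cong.const (A := A) (c := z ^ p) hdmem
  rw [show (⟨_, hdmem⟩ : A) = s from Subtype.ext (by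
    show (z ^ p)⁻¹ * (d - 1) = (s : Ω)
    rw [hd, add_sub_cancel_left, inv_mul_cancel_left₀ hzp0]), hsr] at hdc
  have hd0 : d ≠ 0 := fun h0 => by
    have h1 := hdc.srep_one hzpA hzpr hzp0
    rw [h0, map_zero] at h1
    exact one_ne_zero (h1.unique SRep.zero)
  have hg0 : g ≠ 0 := fun h0 => by
    have h1 := hg2.srep_one hzpA hzpr hzp0
    rw [h0, zero_pow hp.ne_zero, map_zero] at h1
    exact one_ne_zero (h1.unique SRep.zero)
  have hgf : Φ.FFixed g := Fixer.FFixed.add Φ (Fixer.ffixed_one Φ)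
    (Fixer.FFixed.smul Φ hzF fun σ hσ => hf σ (Φ.le_inertia hσ))
  set u₃ := d⁻¹ • (u * g⁻¹ ^ p) with hu₃
  have hu₃c : InClass Φ p x u₃ :=
    (hu.mul_pow (hgf.inv Φ) (inv_ne_zero hg0)).smul_const
      (inv_mem (add_mem (one_mem _) (mul_mem (pow_mem hzF p)
        fun σ hσ => hsfix σ (Φ.le_inertia hσ)))) (inv_ne_zero hd0)
  have hu₃0 : Cong (A := A) (z ^ p) (E.side () u₃) 0 := by
    have h1 := Cong.mul hzpA hzpr hzp0 (Cong.inv hzpA hzpr hzp0 hdc)
      (Cong.mul hzpA hzpr hzp0 hzu (Cong.inv hzpA hzpr hzp0 hg2))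
    rw [hu₃, algHom_smul, smul_eq_algebraMap_mul, map_mul, map_pow, map_inv₀, map_inv₀, inv_pow]
    rw [map_pow] at h1
    rwa [hhy, show ∀ p q : LaurentSeries (ResidueField A), -p + (p + q + -q) = 0 from
      fun p q => by abel] at h1
  by_cases h31 : u₃ = 1
  · exact eq_zero_of_const_mul_pow hp.ne_zero hu₃c.2 (g := 1) (a := 1) one_ne_zero (by simp [h31])
  obtain ⟨c', -, hc'0, hlt, v', hv', -, -⟩ := E.exists_deeper Φ hA hu₃c.1 h31 hzp0 fun _ => hu₃0
  obtain ⟨-, hu30, D, hD, hD'⟩ := hu₃c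
  obtain ⟨cst, f', hf'0, hf'⟩ := exists_alpha_eq_const_mul_pow S hu30
    (D := (D : Divisor Ω (modularFunctionFieldBar M))) hD' hc'0 (by
      rw [hzpord] at hlt
      calc (p : ℚ) = ((p : ℚ) - 1) * (p * ord A p z) := by
            rw [show ((p : ℚ) - 1) * (p * ord A p z) = p * (((p : ℚ) - 1) * ord A p z) by ring,
              hzord, mul_one]
        _ < ((p : ℚ) - 1) * ord A p c' := mul_lt_mul_of_pos_left hlt (by linarith)) (hv' ())
  have hdeg := Congruence.finrankAlong_heckeAlphaBar (N := M) qbarToComplex S.prime S.not_dvd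
  have hN : u₃ ^ (p + 1) = algebraMap Ω (modularFunctionFieldBar M) (cst ^ (p + 1)) *
      normAlong (heckeAlphaBar Ω M p) f' ^ p := by
    let := algebraAlong (heckeAlphaBar Ω M p)
    have h1 : Algebra.norm (modularFunctionFieldBar M) (heckeAlphaBar Ω M p u₃) = u₃ ^ (p + 1) := by
      rw [← hdeg]; exact Algebra.norm_algebraMap u₃
    have h2 : Algebra.norm (modularFunctionFieldBar M)
        (algebraMap Ω (modularFunctionFieldBar (M * p)) cst) =
          algebraMap Ω (modularFunctionFieldBar M) (cst ^ (p + 1)) := by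
      rw [map_pow, ← hdeg, ← (heckeAlphaBar Ω M p).commutes cst]
      exact Algebra.norm_algebraMap _
    rw [← h1, hf', map_mul, map_pow, h2]
    rfl
  refine eq_zero_of_const_mul_pow hp.ne_zero (g := normAlong (heckeAlphaBar Ω M p) f' * u₃⁻¹)
    (a := cst ^ (p + 1)) (⟨hu30, D, hD, hD'⟩ : IsFunctionOf p x u₃)
    (mul_ne_zero (HeckeJ0.normAlong_ne_zero (HeckeJ0.alphaFinite M p) hf'0) (inv_ne_zero hu30)) ?_
  rw [mul_pow, ← mul_assoc, ← hN, inv_pow, pow_succ', mul_inv_cancel_right₀ (pow_ne_zero _ hu30)]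

end Fermat.Agent.OrdinaryT

end
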