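import Fermat.Agent.OrdinaryT.Expansion
import Fermat.Agent.SemistableRed.GaloisCompat

/-!
# The expansions of `X₀(M)` and `X₀(M p)` at a place over `p`
-/

set_option linter.unusedSectionVars false

noncomputable section

open IsLocalRing ModularCurve AlgebraicCurve HahnSeries
open Fermat.Agent.Reduction Fermat.Agent.SemistableRed

namespace Fermat.Agent.OrdinaryT

open FlatJ0

local notation "Ω" => AlgebraicClosure ℚ

variable {A : ValuationSubring Ω} {M p : ℕ} [NeZero M] [NeZero p] [Fact p.Prime]
  [CharP (ResidueField A) p] [IsAlgClosed (ResidueField A)] (S : Setting A M p)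

theorem isOver_of_setting {A : ValuationSubring Ω} {M p : ℕ} [Fact p.Prime] (S : Setting A M p) :
    IsOver A p := ⟨Fact.out, S.above⟩

theorem galois_alpha (σ : Ω ≃ₐ[ℚ] Ω) (x : modularFunctionFieldBar M) :
    arithmeticGalois (L := Ω) (modularFunctionFieldFull (M * p)) σ • heckeAlphaBar Ω M p x =
      heckeAlphaBar Ω M p (arithmeticGalois (L := Ω) (modularFunctionFieldFull M) σ • x) :=
  Subtype.ext (by
    rw [coe_heckeAlphaBar, coe_arithmeticGalois_smul, coe_arithmeticGalois_smul, coe_heckeAlphaBar])

theorem galois_beta (σ : Ω ≃ₐ[ℚ] Ω) (x : modularFunctionFieldBar M) :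
    arithmeticGalois (L := Ω) (modularFunctionFieldFull (M * p)) σ • heckeBetaBar Ω M p x =
      heckeBetaBar Ω M p (arithmeticGalois (L := Ω) (modularFunctionFieldFull M) σ • x) :=
  Subtype.ext (by
    rw [coe_heckeBetaBar, coe_arithmeticGalois_smul, coe_arithmeticGalois_smul, coe_heckeBetaBar,
      coeffMap_qExpand])

include S in
theorem srep_mem_level {f : modularFunctionFieldBar M} {v : LaurentSeries (ResidueField A)}
    (h : SRep (f : LaurentSeries Ω) v) : v ∈ modularFunctionFieldFullC (ResidueField A) M := by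
  have h0 := S.srep_mem (i := 0) (f := heckeAlphaBar Ω M p f) (v := v) (by
    rw [(S.side_alpha f).1]; exact h)
  exact h0

include S in
/-- A fixed lift of every element of the reduced field of level `M`. -/
theorem exists_fixed_lift {v : LaurentSeries (ResidueField A)}
    (hv : v ∈ modularFunctionFieldFullC (ResidueField A) M) :
    ∃ f : modularFunctionFieldBar M, (∀ σ ∈ A.inertiaSubgroupIn ℚ,
      arithmeticGalois (L := Ω) (modularFunctionFieldFull M) σ • f = f) ∧
        SRep (f : LaurentSeries Ω) v := by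
  have hA := isOver_of_setting S
  rw [modularFunctionFieldFullC] at hv
  induction hv using IntermediateField.adjoin_induction with
  | mem s hs =>
    obtain ⟨d, hd0, hd, rfl⟩ := hs
    refine ⟨⟨ιS A (qExpand A d (jqModC A)), ?_⟩, fun σ _ => Subtype.ext ?_, ?_⟩
    · exact S.model.ι_gens_mem ⟨d, hd0, hd, rfl⟩
    · rw [coe_arithmeticGalois_smul]
      show coeffMap (σ : Ω →+* Ω) (coeffMap A.subtype (qExpand A d (jqModC A))) =
        coeffMap A.subtype (qExpand A d (jqModC A))
      rw [coeffMap_qExpand_jq, coeffMap_qExpand_jq]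
    · have h := SRep.series (A := A) (qExpand A d (jqModC A))
      rwa [show redS A (qExpand A d (jqModC A)) = qExpand (ResidueField A) d
        (jqModC (ResidueField A)) from coeffMap_qExpand_jq (residue A) d] at h
  | algebraMap a =>
    obtain ⟨b, hb, hbfix⟩ := exists_lift_fixed hA a
    refine ⟨algebraMap Ω _ (b : Ω), fun σ hσ => Subtype.ext ?_, ?_⟩
    · rw [coe_arithmeticGalois_smul, IntermediateField.coe_algebraMap_apply, coeffMap_algebraMap]
      exact congrArg _ (hbfix σ hσ)
    · rw [IntermediateField.coe_algebraMap_apply, ← hb]; exact SRep.const b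
  | add s t _ _ hs ht =>
    obtain ⟨x, hx, hxr⟩ := hs
    obtain ⟨y, hy, hyr⟩ := ht
    exact ⟨x + y, fun σ hσ => by rw [smul_add, hx σ hσ, hy σ hσ],
      by rw [AddMemClass.coe_add]; exact hxr.add hyr⟩
  | mul s t _ _ hs ht =>
    obtain ⟨x, hx, hxr⟩ := hs
    obtain ⟨y, hy, hyr⟩ := ht
    exact ⟨x * y, fun σ hσ => by rw [smul_mul', hx σ hσ, hy σ hσ],
      by rw [MulMemClass.coe_mul]; exact hxr.mul hyr⟩
  | inv s _ hs =>
    obtain ⟨x, hx, hxr⟩ := hs
    rcases eq_or_ne s 0 with rfl | h0
    · exact ⟨0, fun σ _ => smul_zero _, by rw [ZeroMemClass.coe_zero, inv_zero]; exact SRep.zero⟩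
    · exact ⟨x⁻¹, fun σ hσ => by rw [smul_inv'', hx σ hσ],
        by rw [IntermediateField.coe_inv]; exact hxr.inv h0⟩

/-- The expansion at `∞` at level `M`. -/
def levelExp : Expansion A M Unit where
  side _ := (modularFunctionFieldBar M).val
  G := modularFunctionFieldFullC (ResidueField A) M
  side_galois σ _ f := coe_arithmeticGalois_smul _ σ f
  srep_mem _ _ _ h := srep_mem_level S h
  denom _ f := by
    obtain ⟨Q, hQ, hQF, hb⟩ := S.model.exists_common_denom fun _ : Unit => f
    refine ⟨⟨ιS A Q, hQF⟩, Bdd.of_range ⟨Q, rfl⟩, ?_, _, hQ, SRep.series Q⟩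
    exact hb ()
  lift z := by
    obtain ⟨f, hf, hfr⟩ := exists_fixed_lift S (z ()).2
    exact ⟨f, hf, fun _ => hfr⟩

theorem levelExp_side (f : modularFunctionFieldBar M) :
    (levelExp S).side () f = (f : LaurentSeries Ω) := rfl

theorem galois_hFun (σ : Ω ≃ₐ[ℚ] Ω) :
    arithmeticGalois (L := Ω) (modularFunctionFieldFull (M * p)) σ • S.hFun = S.hFun := by
  rw [Setting.hFun, smul_sub, smul_pow', (S.galois_jF σ).1, (S.galois_jF σ).2]

theorem galois_w (σ : Ω ≃ₐ[ℚ] Ω) (x : modularFunctionFieldBar (M * p)) :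
    arithmeticGalois (L := Ω) (modularFunctionFieldFull (M * p)) σ • S.w x =
      S.w (arithmeticGalois (L := Ω) (modularFunctionFieldFull (M * p)) σ • x) :=
  (wq_galois_smul S.prime S.not_dvd σ x).symm

/-- The two expansions at level `M p`. -/
def pairExp : Expansion A (M * p) (Fin 2) where
  side := S.side
  G := modularFunctionFieldFullC (ResidueField A) M
  side_galois σ i f := S.side_galois σ i f
  srep_mem _ _ _ h := S.srep_mem h
  denom i f := by
    obtain ⟨u, hu, hb⟩ := S.exists_common_denominator ![f, 1]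
    refine ⟨u, ?_, hb i 0, _, fun h => (hu i).2 (Subtype.ext h), S.srep_red (hu i).1⟩
    simpa using hb i 1
  lift z := by
    obtain ⟨s, hs, hsr⟩ := exists_fixed_lift S (z 0 / S.hb).2
    obtain ⟨t, ht, htr⟩ := exists_fixed_lift S (z 1 / S.hb).2
    refine ⟨heckeAlphaBar Ω M p s * S.hFun + heckeBetaBar Ω M p t * S.w S.hFun,
      fun σ hσ => ?_, fun i => ?_⟩
    · rw [smul_add, smul_mul', smul_mul', galois_alpha, galois_beta, galois_hFun S,
        galois_w S, galois_hFun S, hs σ hσ, ht σ hσ]
    · have ha : ∀ i, SRep (S.side i (heckeAlphaBar Ω M p s))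
          ((Setting.alphaVal (z 0 / S.hb) i : modularFunctionFieldFullC (ResidueField A) M) :
            LaurentSeries (ResidueField A)) := fun i => by
        obtain rfl | rfl : i = 0 ∨ i = 1 := by omega
        · rw [(S.side_alpha s).1]; exact hsr
        · rw [(S.side_alpha s).2]; exact hsr.qExpand p
      have hb : ∀ i, SRep (S.side i (heckeBetaBar Ω M p t))
          ((Setting.alphaVal (z 1 / S.hb) (1 - i) : modularFunctionFieldFullC (ResidueField A) M) :
            LaurentSeries (ResidueField A)) := fun i => by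
        obtain rfl | rfl : i = 0 ∨ i = 1 := by omega
        · rw [(S.side_beta t).1]; exact htr.qExpand p
        · rw [(S.side_beta t).2]; exact htr
      have h1 := ((ha i).mul (S.srep_hFun i)).add
        ((hb i).mul ((S.side_w i S.hFun).symm ▸ S.srep_hFun (1 - i)))
      rw [← map_mul, ← map_mul, ← map_add, ← MulMemClass.coe_mul, ← MulMemClass.coe_mul,
        ← AddMemClass.coe_add] at h1
      have e : Setting.alphaVal (z 0 / S.hb) i * ![S.hb, 0] i +
          Setting.alphaVal (z 1 / S.hb) (1 - i) * ![S.hb, 0] (1 - i) = z i := by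
        fin_cases i
        · simp [Setting.alphaVal, div_mul_cancel₀ _ S.hb_ne]
        · simp [Setting.alphaVal, div_mul_cancel₀ _ S.hb_ne]
      rw [e] at h1
      exact h1

end Fermat.Agent.OrdinaryT

end
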