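import Fermat.Agent.OrdinaryT.NewtonRoots
import Fermat.Agent.SemistableRed.Equivariance

/-!
# Vanishing of classes congruent to `1` beyond `p / (p - 1)`

`eq_const_mul_pow_of_approx` needs one deep approximate root in `L(D + MH)`;
`eq_const_mul_pow_of_fixed` produces it for a representative fixed by an inertia automorphism
moving `p`-th roots of unity.
-/

set_option linter.unusedSectionVars false

noncomputable section

open AlgebraicCurve Fermat.Agent.FunctionFieldRR Fermat.Agent.SemistableRed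

namespace Fermat.Agent.OrdinaryT

variable {L : Type*} [Field L] [IsAlgClosed L] {A : ValuationSubring L} {k : Type*} [Field k]
  [IsAlgClosed k] {π : A →+* k} {F : Type*} [Field F] [Algebra L F] [IsFunctionField L F]
  {G : Type*} [Field G] [Algebra k G] [IsFunctionField k G]
variable (S : SplitModel A π F G)

/-- Roots on the two charts force `L(D) ≠ 0`. -/
theorem exists_mem_twist_zero_of_roots {n : ℕ} (R : S.Rep n) (hζ : S.HasZeta R 1)
    (hroots : ∃ g : A, (g : L) ≠ 0 ∧ π g = 0 ∧ ∀ l : ℕ, ∃ (N : ℕ) (f h : F), S.evalLevel ≤ N ∧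
      f ∈ S.twist R N ∧ h ∈ S.twist R N ∧ S.Int2 f ∧ S.Int2 h ∧ (∀ i, S.red i f = 1) ∧
        S.DivBy ((g : L) ^ (l + 1)) (S.T ^ N * f - h)) :
    ∃ f ∈ S.twist R 0, f ≠ 0 := by
  by_contra hzero
  push Not at hzero
  obtain ⟨b, hb0, hbπ, hroots⟩ := hroots
  set M := S.evalLevel with hM
  have hΦ := S.shiftDiff_injective R M hzero
  have := (S.finrank_twist R S.baseLevel_le_evalLevel).1
  obtain ⟨e, hespan, heint, heind⟩ :=
    S.reduced_basis _ (LinearMap.range (S.shiftDiff R M)) inferInstance rfl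
  have hpre : ∀ j, ∃ x, S.shiftDiff R M x = e j := fun j =>
    LinearMap.mem_range.mp (hespan ▸ Submodule.subset_span ⟨j, rfl⟩)
  choose pre hpre using hpre
  obtain ⟨c, hc0, hcint⟩ := S.exists_clearing fun j => ((pre j).1 : F)
  obtain ⟨l, hl⟩ := S.rankOne (c : L) hc0 b hbπ
  obtain ⟨N, f, g, hN, hf, hg, hfi, hgi, hfr, hfg⟩ := hroots l
  have hbl0 : ((b ^ (l + 1) : A) : L) ≠ 0 := by
    rw [SubmonoidClass.coe_pow]; exact pow_ne_zero _ hb0
  have hblπ : π (b ^ (l + 1) : A) = 0 := by rw [map_pow, hbπ, zero_pow (Nat.succ_ne_zero l)]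
  obtain ⟨fM, gM, hfMmem, hgMmem, hfMr, -, hydiv⟩ := S.exists_small_roots R hζ hN hf hg hfi hgi
    hbl0 hblπ (by rw [SubmonoidClass.coe_pow]; exact hfg)
  set bl : L := ((b ^ (l + 1) : A) : L) with hbl
  have hyrange : S.T ^ M * fM - gM ∈ LinearMap.range (S.shiftDiff R M) :=
    ⟨(⟨fM, hfMmem⟩, ⟨gM, hgMmem⟩), rfl⟩
  rw [← hespan, Submodule.mem_span_range_iff_exists_fun] at hyrange
  obtain ⟨s, hs⟩ := hyrange
  have hsA := S.coeff_mem heint heind (c := fun j => bl⁻¹ * s j) (by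
    simp only [mul_smul, ← Finset.smul_sum, hs]; exact hydiv)
  have hpreeq : fM = ∑ j, s j • ((pre j).1 : F) := by
    have h1 : S.shiftDiff R M (⟨fM, hfMmem⟩, ⟨gM, hgMmem⟩) =
        S.shiftDiff R M (∑ j, s j • pre j) := by
      rw [map_sum]
      simp only [map_smul, hpre]
      exact hs.symm
    have h2 := congrArg (fun x => ((x.1 : S.twist R M) : F)) (hΦ h1)
    simpa [Prod.fst_sum] using h2
  have hq : (b : L) ^ (l + 1) / (c : L) ∈ A := by
    rw [pow_succ, mul_comm, mul_div_assoc]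
    exact A.mul_mem _ _ b.2 hl
  have hqπ : π ⟨_, hq⟩ = 0 := by
    have he : (⟨_, hq⟩ : A) = b * ⟨_, hl⟩ := Subtype.ext (by
      show (b : L) ^ (l + 1) / (c : L) = (b : L) * ((b : L) ^ l / (c : L))
      rw [pow_succ]; ring)
    rw [he, map_mul, hbπ, zero_mul]
  have hlast : S.red 0 fM = 0 := by
    have hterm : ∀ j, s j • ((pre j).1 : F) = ((b : L) ^ (l + 1) / (c : L)) •
        ((bl⁻¹ * s j) • ((c : L) • ((pre j).1 : F))) := fun j => by
      rw [smul_smul, smul_smul]; congr 1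
      rw [hbl, SubmonoidClass.coe_pow]
      field_simp
    rw [hpreeq, Finset.sum_congr rfl fun j _ => hterm j, ← Finset.smul_sum]
    exact S.smul_mem_zero hq hqπ
      (S.int_sum _ fun j _ => S.int_smul 0 _ _ (hsA j) (hcint j 0)).1
  have h3 := congrFun hfMr 0
  simp only [SplitModel.red2, hlast, hfr 0] at h3
  exact one_ne_zero h3.symm

/-- One deep approximate root in `L(D + MH)` makes `u` a constant times a `p`-th power. -/
theorem eq_const_mul_pow_of_approx {p : ℕ} (hp : p.Prime) [CharP k p] (hpL : (p : L) ≠ 0)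
    (R : S.Rep p) {c : L} (hc : Deep π p c) (hu : S.DivBy ((p : L) * c) (R.u - 1)) {M : ℕ}
    (hM : S.evalLevel ≤ M) {φ : F} (hφ : φ ∈ S.twist R M) (hφi : S.Int2 φ)
    (hφr : ∀ i, S.red i φ = 1) {b : L} (hb : Deep π p b) (hφ1 : S.DivBy b (φ - 1))
    (hφd : S.DivBy ((p : L) * b) (φ ^ p * R.u - 1)) :
    ∃ (cst : L) (f : F), f ≠ 0 ∧ R.u = algebraMap L F cst * f ^ p := by
  have hTi : ∀ i, S.Int i (S.T ^ M) := fun i => S.int_pow (S.int_T i) M
  have hTr : ∀ i, S.red i (S.T ^ M) = S.Tbar ^ M := fun i => by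
    rw [S.red_pow (S.int_T i), S.red_T]
  have hTM : S.T ^ M ∈ riemannRochSpace ((M : ℤ) • S.H) := by
    refine mem_rrs_iff.mpr (Or.inr fun P => ?_)
    rw [ord_pow, Finsupp.smul_apply, smul_eq_mul]
    rcases (S.H_nonneg P).lt_or_eq with h | h
    · rw [S.ord_T P h]; simp
    · rw [← h, mul_zero, neg_zero]
      exact mul_nonneg (Nat.cast_nonneg M) (S.ord_T_nonneg P h.symm)
  have h2M : S.evalLevel ≤ M + M := le_trans hM (Nat.le_add_right M M)
  -- the second chart
  obtain ⟨g, hg, b2, hb2, hgi, hgr, hg1, hgd⟩ := exists_deep_approx S hp hpL R hM hTi hTM hc hu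
    (by
      intro a E hr ha hr0 hE hmem hEp
      obtain ⟨hba, hba0⟩ := Deep.div_mem S hp hb hr
      obtain ⟨w, hw, hwe⟩ := exists_of_divBy hb.ne_zero hφ1
      have hTw : S.Int2 (S.T ^ M * w) := fun i => S.int_mul i _ _ (hTi i) (hw i)
      have hEg : S.red2 (-E) ∈ S.imgSpace (S.twist R (M + M)) := by
        refine ⟨(a : L)⁻¹ • (S.T ^ M * φ - (S.T ^ M + (a : L) • E)),
          Submodule.smul_mem _ _ (sub_mem (S.mul_T_mem_twist hφ M)
            (S.twist_mono R (Nat.le_add_right M M) hmem)), ?_, ?_⟩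
        all_goals
          have he : (a : L)⁻¹ • (S.T ^ M * φ - (S.T ^ M + (a : L) • E)) =
              (b / (a : L)) • (S.T ^ M * w) - E := by
            rw [inv_smul_eq_iff₀ ha, smul_sub, smul_smul, mul_div_cancel₀ _ ha, ← mul_smul_comm,
              ← hwe]
            ring
          rw [he]
        · exact fun i => S.int_sub (S.int_smul i _ _ hba (hTw i)) (hE i)
        · funext i
          show S.red i _ = S.red i (-E)
          rw [S.red_sub (S.int_smul i _ _ hba (hTw i)) (hE i), S.smul_mem_zero hba hba0 (hTw i),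
            zero_sub, S.red_neg (hE i)]
      rw [imgSpace_twist_eq_glue S hp R h2M] at hEg
      rw [imgSpace_twist_eq_glue S hp R hM]
      refine ⟨hEp, fun x hx => ?_⟩
      have h := (neg_mem hEg : -S.red2 (-E) ∈ S.glueSpace (M + M)).2 x hx
      rwa [show -S.red2 (-E) = S.red2 E from funext fun i => by
        show -S.red i (-E) = S.red i E
        rw [S.red_neg (hE i), neg_neg]] at h)
  set ψ := g / S.T ^ M with hψ
  have hT0 := pow_ne_zero M S.T_ne
  have hTinv : ∀ i, S.Int i (S.T ^ M)⁻¹ ∧ S.red i (S.T ^ M)⁻¹ = (S.Tbar ^ M)⁻¹ := fun i => by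
    have h := S.int_inv (hTi i) (by rw [hTr]; exact pow_ne_zero _ S.Tbar_ne)
    exact ⟨h.1, by rw [h.2, hTr]⟩
  have hψi : S.Int2 ψ := fun i => by
    rw [hψ, div_eq_mul_inv]; exact S.int_mul i _ _ (hgi i) (hTinv i).1
  have hψr : ∀ i, S.red i ψ = 1 := fun i => by
    rw [hψ, div_eq_mul_inv, S.red_mul i _ _ (hgi i) (hTinv i).1, (hTinv i).2,
      show S.red i g = S.Tbar ^ M from (congrFun hgr i).trans (hTr i),
      mul_inv_cancel₀ (pow_ne_zero _ S.Tbar_ne)]
  -- a common bound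
  obtain ⟨β, hβ, hbβ, hb2β⟩ := Deep.exists_common S hb hb2
  have hpβ : ∀ {x : L}, x / β ∈ A → (p : L) * x / ((p : L) * β) ∈ A := fun {x} h => by
    rwa [mul_div_mul_left _ _ hpL]
  refine ?_
  have hroots := exists_roots_p S hp hpL R hM hφ (ψ0 := ψ)
    (by rwa [hψ, mul_div_cancel₀ _ hT0]) hφi hψi hβ
    (divBy_of_mul_dvd hb.ne_zero hβ.ne_zero hbβ hφ1)
    (divBy_of_mul_dvd hb2.ne_zero hβ.ne_zero hb2β (by
      rw [hψ, show g / S.T ^ M - 1 = (g - S.T ^ M) * (S.T ^ M)⁻¹ by field_simp]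
      exact hg1.mul_int fun i => (hTinv i).1))
    (divBy_of_mul_dvd (mul_ne_zero hpL hb.ne_zero) (mul_ne_zero hpL hβ.ne_zero) (hpβ hbβ) hφd)
    (divBy_of_mul_dvd (mul_ne_zero hpL hb2.ne_zero) (mul_ne_zero hpL hβ.ne_zero) (hpβ hb2β) (by
      rw [hψ, show (g / S.T ^ M) ^ p * R.u - 1 =
        (g ^ p * R.u - (S.T ^ M) ^ p) * ((S.T ^ M)⁻¹) ^ p by
          rw [sub_mul, inv_pow, mul_inv_cancel₀ (pow_ne_zero _ hT0), div_pow]; ring]
      exact hgd.mul_int fun i => S.int_pow (hTinv i).1 p))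
  obtain ⟨f, hf, hf0⟩ := exists_mem_twist_zero_of_roots S R (hasZeta_one_of_charP S hp R) hroots
  have hnn : ∀ P : Place L F, 0 ≤ P.ord (f ^ p * R.u) := fun P => by
    have h := (mem_rrs_iff.mp hf).resolve_left hf0 P
    simp only [Nat.cast_zero, zero_smul, add_zero] at h
    rw [P.ord_mul (pow_ne_zero _ hf0) R.u_ne, ord_pow, R.ord_u]
    nlinarith
  obtain ⟨cst, hcst⟩ := exists_algebraMap_eq_of_forall_ord_nonneg hnn
  refine ⟨cst, f⁻¹, inv_ne_zero hf0, ?_⟩
  rw [← hcst, inv_pow, mul_comm _ R.u, mul_assoc, mul_inv_cancel₀ (pow_ne_zero _ hf0), mul_one]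

/-- A representative congruent to `1` beyond `p / (p - 1)` and fixed by an inertia automorphism
that does not fix the residues of the quotients `s a / a` at exponent `1 / (p - 1)` is principal. -/
theorem eq_const_mul_pow_of_fixed {p : ℕ} (hp : p.Prime) [CharP k p] (hpL : (p : L) ≠ 0)
    (R : S.Rep p) {c : L} (hc : Deep π p c) (hu : S.DivBy ((p : L) * c) (R.u - 1))
    {s : SemilinearAut L F} {t : SemilinearAut k G} {e : ℕ} (hs : S.Compatible s t e)
    (ht : ∀ g : G, t • g = g) (hD : ∀ P, R.D (s • P) = R.D P)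
    (hω : ∀ (a : L) (hr : (p : L) / a ^ (p - 1) ∈ A), a ≠ 0 → π ⟨_, hr⟩ ≠ 0 →
      ∃ h : SemilinearAut.baseAut s a / a ∈ A, π ⟨_, h⟩ ≠ 1) :
    ∃ (cst : L) (f : F), f ≠ 0 ∧ R.u = algebraMap L F cst * f ^ p := by
  have hM := le_refl S.evalLevel
  have hone : (1 : F) ∈ riemannRochSpace ((S.evalLevel : ℤ) • S.H) :=
    mem_rrs_iff.mpr (Or.inr fun P => by
      simpa using mul_nonneg (Nat.cast_nonneg S.evalLevel) (S.H_nonneg P))
  have hstable : ∀ {f : F}, f ∈ S.twist R S.evalLevel → s • f ∈ S.twist R S.evalLevel := by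
    intro f hf
    rcases eq_or_ne f 0 with rfl | h0
    · rw [smul_zero]; exact Submodule.zero_mem _
    refine mem_rrs_iff.mpr (Or.inr fun P => ?_)
    have h1 := (mem_rrs_iff.mp hf).resolve_left h0 (s⁻¹ • P)
    have h2 := SemilinearAut.ord_smul s (s⁻¹ • P) f
    have h3 := hs.H_inv (s⁻¹ • P)
    have h4 := hD (s⁻¹ • P)
    rw [smul_inv_smul] at h2 h3 h4
    simp only [Finsupp.add_apply, Finsupp.smul_apply, smul_eq_mul] at h1 ⊢
    rw [h3, h4, h2]
    exact h1
  obtain ⟨φ, hφ, b, hb, hφi, hφr, hφ1, hφd⟩ := exists_deep_approx S hp hpL R hM S.int_one hone hc hu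
    (by
      intro a E hr ha hr0 hE hmem hEp
      obtain ⟨hsa, hsa1⟩ := hω a hr ha hr0
      set w : A := ⟨_, hsa⟩
      have hsE : S.Int2 (s • E) := fun i => hs.int i E (hE i)
      have hz : (π w - 1) • S.red2 E ∈ S.imgSpace (S.twist R S.evalLevel) := by
        refine ⟨(a : L)⁻¹ • (s • (1 + (a : L) • E) - (1 + (a : L) • E)),
          Submodule.smul_mem _ _ (sub_mem (hstable hmem) hmem), ?_, ?_⟩
        all_goals
          have he : (a : L)⁻¹ • (s • (1 + (a : L) • E) - (1 + (a : L) • E)) =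
              (w : L) • (s • E) - E := by
            rw [inv_smul_eq_iff₀ ha, smul_add, smul_one, SplitModel.smul_scalar, smul_sub,
              smul_smul, mul_div_cancel₀ _ ha, add_sub_add_left_eq_sub]
          rw [he]
        · exact fun i => S.int_sub (S.int_smul i _ _ hsa (hsE i)) (hE i)
        · funext i
          show S.red i _ = (π w - 1) • S.red i E
          rw [S.red_sub (S.int_smul i _ _ hsa (hsE i)) (hE i),
            S.red_smul i _ _ hsa (hsE i), hs.red i E (hE i), ht, sub_smul, one_smul]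
      have := Submodule.smul_mem _ (π w - 1)⁻¹ hz
      rwa [inv_smul_smul₀ (sub_ne_zero.mpr hsa1)] at this)
  refine eq_const_mul_pow_of_approx S hp hpL R hc hu hM hφ hφi (fun i => ?_) hb hφ1 ?_
  · exact (congrFun hφr i).trans (S.red_one i)
  · simpa using hφd

end Fermat.Agent.OrdinaryT

end
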