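import Fermat.Agent.OrdinaryT.Climb
import Fermat.Agent.OrdinaryT.Instances
import Fermat.Agent.OrdinaryT.NewtonMain

/-!
# Stabilisers, excluded values and the Newton step on the split model
-/

noncomputable section

open IsLocalRing ModularCurve AlgebraicCurve HahnSeries
open Fermat.Agent.Reduction Fermat.Agent.FunctionFieldRR Fermat.Agent.SemistableRed

namespace Fermat.Agent.OrdinaryT

open FlatJ0

local notation "Ω" => AlgebraicClosure ℚ

/-- The stabiliser of a point of `J₀(N)` in inertia. -/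
def stabFixer (A : ValuationSubring (AlgebraicClosure ℚ)) {N : ℕ} [NeZero N] (x : JZero N) :
    Fixer A where
  H := A.inertiaSubgroupIn ℚ ⊓
    MulAction.stabilizer (AlgebraicClosure ℚ ≃ₐ[ℚ] AlgebraicClosure ℚ) x
  le_inertia := inf_le_left
  exists_level := by
    obtain ⟨E, hE, hfix⟩ := EigenRep.jZeroSmooth N x
    exact ⟨E, hE, fun σ hσ h => ⟨hσ, MulAction.mem_stabilizer_iff.mpr (hfix σ h)⟩⟩

variable {A : ValuationSubring Ω} {p : ℕ}

/-- No constant fixed by an inertia element moving `p`-th roots of unity has value `p / (p - 1)`. -/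
theorem ord_ne_critical (hA : IsOver A p) {σ : Ω ≃ₐ[ℚ] Ω} (hσ : σ ∈ A.inertiaSubgroupIn ℚ) {ζ : Ω}
    (hζ : IsPrimitiveRoot ζ p) (hσζ : σ ζ ≠ ζ) {c : Ω} (hc0 : c ≠ 0) (hc : σ c = c) :
    ((p : ℚ) - 1) * ord A p c ≠ p := by
  intro h
  have ha : c / p ≠ 0 := div_ne_zero hc0 hA.natCast_ne_zero
  obtain ⟨hmem, hne⟩ := ratio_ne_one hA hσ hζ hσζ ha (by
    rw [hA.ord_div hc0 hA.natCast_ne_zero, hA.ord_p]; linarith)
  have hfix : σ (c / p) / (c / p) = 1 := by rw [map_div₀, hc, map_natCast, div_self ha]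
  rw [show (⟨_, hmem⟩ : A) = 1 from Subtype.ext hfix, map_one] at hne
  exact hne rfl

theorem isPrimitiveRoot_of_ne {ζ : Ω} (hp : p.Prime) (hζ : ζ ^ p = 1) {σ : Ω ≃ₐ[ℚ] Ω}
    (hσζ : σ ζ ≠ ζ) : IsPrimitiveRoot ζ p := by
  refine IsPrimitiveRoot.iff_def _ _ |>.mpr ⟨hζ, fun l hl => ?_⟩
  have hne : ζ ≠ 1 := fun h => hσζ (by rw [h, map_one])
  rw [← orderOf_eq_prime (hp := ⟨hp⟩) hζ hne]
  exact orderOf_dvd_of_pow_eq_one hl

theorem eq_zero_of_const_mul_pow {N : ℕ} [NeZero N] {n : ℕ} (hn : n ≠ 0) {x : JZero N}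
    {u g : modularFunctionFieldBar N} (hu : IsFunctionOf n x u) {a : Ω} (hg : g ≠ 0)
    (h : u = algebraMap Ω (modularFunctionFieldBar N) a * g ^ n) : x = 0 := by
  obtain ⟨hu0, D, rfl, hD⟩ := hu
  have ha : a ≠ 0 := fun h0 => hu0 (by rw [h, h0, map_zero, zero_mul])
  refine (QuotientAddGroup.eq_zero_iff _).mpr ?_
  simp only [AddSubgroup.mem_addSubgroupOf]
  refine ⟨g, hg, fun P => ?_⟩
  have h1 := hD P
  rw [h, P.ord_mul ((map_ne_zero _).mpr ha) (pow_ne_zero _ hg), FunctionFieldRR.ord_algebraMap,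
    zero_add, FunctionFieldRR.ord_pow] at h1
  exact (mul_left_cancel₀ (by exact_mod_cast hn) h1).symm

variable {M : ℕ} [NeZero M] [NeZero p] [Fact p.Prime]
  [CharP (ResidueField A) p] [IsAlgClosed (ResidueField A)] (S : Setting A M p)

include S in
/-- A fixed function at level `M p` congruent to `1` beyond `p / (p - 1)` on both sides is a
constant times a `p`-th power. -/
theorem eq_const_mul_pow_of_beyond {σ : Ω ≃ₐ[ℚ] Ω} (hσ : σ ∈ A.inertiaSubgroupIn ℚ) {ζ : Ω}
    (hζ : IsPrimitiveRoot ζ p) (hσζ : σ ζ ≠ ζ) {F : modularFunctionFieldBar (M * p)}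
    (hfix : arithmeticGalois (L := Ω) (modularFunctionFieldFull (M * p)) σ • F = F) (hF0 : F ≠ 0)
    {D : Divisor Ω (modularFunctionFieldBar (M * p))}
    (hD : ∀ P, P.ord F = (p : ℤ) * D P) {c : Ω} (hc0 : c ≠ 0)
    (hc : (p : ℚ) < ((p : ℚ) - 1) * ord A p c) {v : Fin 2 → LaurentSeries (ResidueField A)}
    (h : ∀ i, Cong c (S.side i F) (v i)) :
    ∃ (cst : Ω) (f : modularFunctionFieldBar (M * p)), f ≠ 0 ∧
      F = algebraMap Ω (modularFunctionFieldBar (M * p)) cst * f ^ p := by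
  have hA := isOver_of_setting S
  have := isFunctionField_level (M * p)
  have := HeckeJ0.hasPrincipalDivisors_bar (M * p)
  have := S.isFunctionField_C
  have hp := hA.prime
  have hp1 : (2 : ℚ) ≤ p := by exact_mod_cast hp.two_le
  have hcpos : 0 < ord A p c := by
    by_contra hcon
    rw [not_lt] at hcon
    nlinarith
  have hcA := mem_of_ord hA (Or.inr hcpos.le)
  have hcr := residue_eq_zero_of_pos hA hcA (Or.inr hcpos)
  have h1 : ∀ i, S.gauss.Int i F ∧ S.gauss.red i F = 1 := fun i => S.red_eq (by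
    rw [OneMemClass.coe_one]; exact (h i).srep_one hcA hcr hc0)
  have hdeg : Divisor.degree D = 0 := by
    have hz : Divisor.degree ((p : ℤ) • D) = 0 := by
      rw [show (p : ℤ) • D = dvs (K := Ω) F from eq_dvs fun P => by
        rw [Finsupp.smul_apply, smul_eq_mul, hD], degree_dvs]
    rw [map_zsmul, smul_eq_mul] at hz
    exact (mul_eq_zero.mp hz).resolve_left (by exact_mod_cast hp.ne_zero)
  let R : S.splitModel.Rep p :=
    ⟨F, D, hF0, hD, hdeg, fun i => (h1 i).1, fun i => (h1 i).2⟩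
  have hu : S.splitModel.DivBy ((p : Ω) * (c / p)) (R.u - 1) := fun i => by
    show ∃ w : LaurentSeries (ResidueField A), SRep (S.side i (((p : Ω) * (c / p))⁻¹ • (F - 1))) w
    refine ⟨v i, ?_⟩
    rw [mul_div_cancel₀ _ hA.natCast_ne_zero, S.side_smul, map_sub, map_one]
    exact h i
  obtain ⟨⟨s, hs⟩, hker, rfl⟩ := hσ
  have hcomp := S.compatible (σ := s) hs (RingHom.id _)
    (fun a => (ResidueField.residue_smul _ (⟨s, hs⟩ : A.decompositionSubgroup ℚ) a).trans
      (RingEquiv.congr_fun (MonoidHom.mem_ker.1 hker) _))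
    1 (fun z => by rw [one_smul, coeffMap_id]) (e := 1)
    (fun c => by rw [SemilinearAut.baseAut_one, pow_one]; rfl)
  refine eq_const_mul_pow_of_fixed S.splitModel hp hA.natCast_ne_zero R (deep_div_p hA hc0 hc) hu
    hcomp (fun z => one_smul _ z) (fun P => ?_) fun a hr ha hr0 => ?_
  · refine mul_left_cancel₀ (by exact_mod_cast hp.ne_zero : (p : ℤ) ≠ 0) ?_
    show (p : ℤ) * D _ = (p : ℤ) * D P
    rw [← hD, ← hD, show (arithmeticGalois (L := Ω) (modularFunctionFieldFull (M * p)) s • P).ord F =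
      (arithmeticGalois (L := Ω) (modularFunctionFieldFull (M * p)) s • P).ord
        (arithmeticGalois (L := Ω) (modularFunctionFieldFull (M * p)) s • F) from
          congrArg _ hfix.symm,
      SemilinearAut.ord_smul]
  · have hI : s ∈ A.inertiaSubgroupIn ℚ := ⟨⟨s, hs⟩, hker, rfl⟩
    refine ratio_ne_one hA hI hζ hσζ ha ?_
    have hne : (p : Ω) / a ^ (p - 1) ≠ 0 := div_ne_zero hA.natCast_ne_zero (pow_ne_zero _ ha)
    have h0 : ord A p ((p : Ω) / a ^ (p - 1)) = 0 := by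
      refine le_antisymm (not_lt.mp fun hpos => hr0 ?_) ((hA.mem_iff hne).mp hr)
      exact residue_eq_zero_of_pos hA hr (Or.inr hpos)
    rw [hA.ord_div hA.natCast_ne_zero (pow_ne_zero _ ha), hA.ord_pow ha, hA.ord_p,
      Nat.cast_sub hp.one_le, Nat.cast_one] at h0
    linarith

end Fermat.Agent.OrdinaryT

end
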