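import Fermat.Agent.OrdinaryT.Parts
import Fermat.Agent.HeckeUnramified.Basic
import Fermat.Agent.SemistableRed.GlueS34
import Fermat.Agent.HeckeSemisimple.Cohomology
import Fermat.Agent.HeckeSemisimple.Reduced
import Fermat.Agent.EigenRep.Main

/-!
# From the action on torsion to the Hecke ring of a representation

A polynomial in the `T_ℓ` killing `J₀(N)[p^m]` for large `m` has small image in the Hecke ring,
and traces and determinants are approximated by images of single operators.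
-/

set_option linter.unusedSectionVars false

noncomputable section

open IsLocalRing AlgebraicCurve ModularCurve Polynomial
open Fermat.Agent.EigenRep Fermat.Agent.HeckeModule

namespace Fermat.Agent.OrdinaryT

local notation "Ω" => AlgebraicClosure ℚ
local notation "GQ" => (AlgebraicClosure ℚ) ≃ₐ[ℚ] (AlgebraicClosure ℚ)

variable {p : ℕ} [Fact p.Prime] {N : ℕ} [NeZero N] {S : Set ℕ}
  {T : Type} [CommRing T]

theorem not_dvd_of_away (hNS : ∀ q : ℕ, q.Prime → q ∣ N → q ∈ S) (l : AwayIndex S) :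
    ¬ (l.1 : ℕ) ∣ N := fun h => l.2 (hNS _ l.1.2 h)

/-- Hecke polynomials in the Hecke ring. -/
def chi (hNS : ∀ q : ℕ, q.Prime → q ∣ N → q ∈ S)
    (π : CuspForm.heckeAlgebra N 2 S →+* T) : AwayPoly ℤ S →+* T :=
  MvPolynomial.eval₂Hom (Int.castRingHom T)
    (fun l => π (CuspForm.heckeAlgebra.T l.1.2 (not_dvd_of_away hNS l) l.2))

theorem chi_X (hNS : ∀ q : ℕ, q.Prime → q ∣ N → q ∈ S)
    (π : CuspForm.heckeAlgebra N 2 S →+* T) (l : AwayIndex S) :
    chi hNS π (MvPolynomial.X l) = π (CuspForm.heckeAlgebra.T l.1.2 (not_dvd_of_away hNS l) l.2) :=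
  MvPolynomial.eval₂Hom_X' _ _ l

theorem chi_C (hNS : ∀ q : ℕ, q.Prime → q ∣ N → q ∈ S)
    (π : CuspForm.heckeAlgebra N 2 S →+* T) (m : ℤ) :
    chi hNS π (MvPolynomial.C m) = (m : T) :=
  MvPolynomial.eval₂Hom_C _ _ m

/-- **Killing deep torsion makes the image small.** -/
theorem exists_chi_mem_pow [IsLocalRing T] (R : RepInputs N p)
    (hNS : ∀ q : ℕ, q.Prime → q ∣ N → q ∈ S) (hpT : (p : T) ∈ maximalIdeal T)
    (π : CuspForm.heckeAlgebra N 2 S →+* T) (n : ℕ) :
    ∃ M : ℕ, ∀ (a : AwayPoly ℤ S) (m : ℕ), M ≤ m →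
      (∀ x : JZero N, p ^ m • x = 0 → act N S a x = 0) → chi hNS π a ∈ maximalIdeal T ^ n := by
  classical
  set fam := matFamily R.model S
  let : CommRing (matAlg fam) := matAlgCommRing fun i j => R.model.comm _ _
  let ev : AwayPoly ℤ S →+* matAlg fam :=
    MvPolynomial.eval₂Hom (Int.castRingHom (matAlg fam)) fun l => matGen fam l
  have hchi : chi hNS π = (π.comp (toForms R.model S)).comp ev := by
    refine MvPolynomial.ringHom_ext (fun m => ?_) fun l => ?_
    · simp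
    · rw [chi_X, RingHom.comp_apply, RingHom.comp_apply, MvPolynomial.eval₂Hom_X']
      exact congrArg π (toForms_T R.model l.1.2 (not_dvd_of_away hNS l) l.2).symm
  obtain ⟨M, hM⟩ :=
    HeckeUnramified.exists_pow_smul_submodule p (Subalgebra.toSubmodule (matAlg fam)) n
  refine ⟨M, fun a m hm hkill => ?_⟩
  -- the matrix of `a` on `p ^ M`-torsion
  have key : ∀ (b : AwayPoly ℤ S)
      (x y : Pic0.torsion Ω (modularFunctionFieldBar N) (p ^ M)),
      (y : JZero N) = act N S b x →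
      ((ev b : Matrix (Fin R.model.d) (Fin R.model.d) ℤ).map
        (Int.cast : ℤ → ZMod (p ^ M))).mulVec (R.model.e M x) = R.model.e M y := by
    intro b
    induction b using MvPolynomial.induction_on with
    | C c =>
      intro x y hy
      rw [act_C] at hy
      rw [show y = c • x from Subtype.ext (by rw [hy]; rfl), map_zsmul, MvPolynomial.eval₂Hom_C,
        eq_intCast,
        show (((c : matAlg fam)) : Matrix (Fin R.model.d) (Fin R.model.d) ℤ) =
            (c : Matrix (Fin R.model.d) (Fin R.model.d) ℤ) from map_intCast (matAlg fam).val c,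
        show ((c : Matrix (Fin R.model.d) (Fin R.model.d) ℤ)).map (Int.cast : ℤ → ZMod (p ^ M)) =
            (c : Matrix (Fin R.model.d) (Fin R.model.d) (ZMod (p ^ M))) from
          map_intCast (Int.castRingHom (ZMod (p ^ M))).mapMatrix c,
        Matrix.intCast_mulVec, Int.cast_smul_eq_zsmul]
    | add b b' hb hb' =>
      intro x y hy
      have hmem : ∀ (b : AwayPoly ℤ S) , act N S b x ∈ Pic0.torsion Ω
          (modularFunctionFieldBar N) (p ^ M) := fun b => by
        rw [Pic0.mem_torsion, ← map_zsmul, Pic0.mem_torsion.mp x.2, map_zero]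
      rw [act_add] at hy
      rw [show y = (⟨_, hmem b⟩ + ⟨_, hmem b'⟩ :
          Pic0.torsion Ω (modularFunctionFieldBar N) (p ^ M)) from Subtype.ext hy,
        map_add ev, Subalgebra.coe_add, Matrix.map_add _ Int.cast_add, Matrix.add_mulVec,
        hb x ⟨_, hmem b⟩ rfl, hb' x ⟨_, hmem b'⟩ rfl, map_add]
    | mul_X b l hb =>
      intro x y hy
      rw [act_mul, act_X] at hy
      rw [map_mul ev, MvPolynomial.eval₂Hom_X']
      show (((ev b : Matrix (Fin R.model.d) (Fin R.model.d) ℤ) * R.model.T l.1).map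
        (Int.cast : ℤ → ZMod (p ^ M))).mulVec (R.model.e M x) = R.model.e M y
      rw [Matrix.map_mul_intCast, ← Matrix.mulVec_mulVec,
        ← R.model.e_hecke M l.1 x (heckeTors (p ^ M) l.1 x) rfl]
      exact hb _ y hy
  have hmat : (ev a : Matrix (Fin R.model.d) (Fin R.model.d) ℤ).map
      (Int.cast : ℤ → ZMod (p ^ M)) = 0 := by
    refine mat_ext R.model fun x => ?_
    rw [key a x 0 ?_, map_zero, Matrix.zero_mulVec]
    have hx := Pic0.mem_torsion.mp x.2
    rw [natCast_zsmul] at hx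
    refine (hkill x ?_).symm
    rw [show p ^ m = p ^ (m - M) * p ^ M by rw [← pow_add, Nat.sub_add_cancel hm], mul_nsmul', hx,
      nsmul_zero]
  obtain ⟨y, hy, hay⟩ := hM _ (ev a).2 fun i j => by
    have h : (((ev a : Matrix (Fin R.model.d) (Fin R.model.d) ℤ) i j : ℤ) : ZMod (p ^ M)) = 0 :=
      congrFun (congrFun hmat i) j
    exact_mod_cast (ZMod.intCast_zmod_eq_zero_iff_dvd _ _).mp h
  have hay' : ev a = ((p : ℤ) ^ n) • (⟨y, hy⟩ : matAlg fam) := Subtype.ext hay
  rw [hchi, RingHom.comp_apply, hay', map_zsmul, zsmul_eq_mul]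
  refine Ideal.mul_mem_right _ _ ?_
  push_cast
  exact Ideal.pow_mem_pow hpT n

/-- **Traces and determinants by single operators.** -/
theorem exists_operator_near [IsLocalRing T] [IsNoetherianRing T] {M : ℕ} [NeZero M]
    (hS : S.Finite) (hpS : p ∈ S) (hNS : ∀ q : ℕ, q.Prime → q ∣ N → q ∈ S)
    (hMS : ∀ q : ℕ, q.Prime → q ∣ M → q ∈ S) (hpT : (p : T) ∈ maximalIdeal T)
    (π : CuspForm.heckeAlgebra N 2 S →+* T) (ρ : GaloisRepAdic T)
    (hfrob : ∀ (ℓ : ℕ) (hℓ : ℓ.Prime) (hℓN : ¬ ℓ ∣ N) (hℓS : ℓ ∉ S),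
      ∀ A : ValuationSubring Ω, A.LiesOverPrime ℓ → ∀ σ, A.IsFrobeniusAt σ ℓ →
        LinearMap.charpoly (ρ.ρ σ) =
          X ^ 2 - C (π (CuspForm.heckeAlgebra.T hℓ hℓN hℓS)) * X + C ((ℓ : T)))
    (g : GQ) (n m : ℕ) :
    ∃ l : AwayIndex S,
      chi hNS π (MvPolynomial.X l) - ρ.trace g ∈ maximalIdeal T ^ n ∧
      (n ≤ m → ((epsilonNat p m g : ℤ) : T) - LinearMap.det (ρ.ρ g) ∈ maximalIdeal T ^ n) ∧
      (∀ x : JZero N, p ^ m • x = 0 →
        g • g • x - heckeOperatorBar N l.1 (g • x) + (epsilonNat p m g : ℤ) • x = 0) ∧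
      ∀ x : JZero M, p ^ m • x = 0 →
        g • g • x - heckeOperatorBar M l.1 (g • x) + (epsilonNat p m g : ℤ) • x = 0 := by
  obtain ⟨L₁, hL₁, hc₁⟩ := Chebotarev.exists_level_trace_congr ρ n
  obtain ⟨L₂, hL₂, hc₂⟩ := SemistableRed.exists_level_det_congr ρ n
  have := hL₁
  have := hL₂
  obtain ⟨l, P, φ, hP, hφ, hag, heps, hN, hM⟩ :=
    exists_approximant (p := p) hS hpS hNS hMS g m (L₁ ⊔ L₂)
  have hcp := hfrob l.1 l.1.2 (not_dvd_of_away hNS l) l.2 P hP φ hφ
  refine ⟨l, ?_, fun hnm => ?_, hN, hM⟩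
  · have htr := Chebotarev.trace_eq_of_charpoly ρ.finrank_eq hcp
    rw [chi_X, ← htr]
    exact hc₁ g φ fun x hx => hag x ((le_sup_left : L₁ ≤ L₁ ⊔ L₂) hx)
  · have hdet : LinearMap.det (ρ.ρ φ) = ((l.1 : ℕ) : T) := by
      rw [LinearMap.det_eq_sign_charpoly_coeff, ρ.finrank_eq, hcp]
      simp
    have h1 := hc₂ g φ fun x hx => hag x ((le_sup_right : L₂ ≤ L₁ ⊔ L₂) hx)
    rw [hdet] at h1
    obtain ⟨d, hd⟩ : ((p ^ m : ℕ) : ℤ) ∣ (epsilonNat p m g : ℤ) - (l.1 : ℕ) := by
      rw [← ZMod.intCast_eq_intCast_iff_dvd_sub]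
      push_cast
      exact heps
    have h2 : ((epsilonNat p m g : ℤ) : T) - ((l.1 : ℕ) : T) ∈ maximalIdeal T ^ n := by
      have := congrArg (Int.cast : ℤ → T) hd
      push_cast at this ⊢
      rw [this]
      exact Ideal.mul_mem_right _ _ (Ideal.pow_le_pow_right hnm (Ideal.pow_mem_pow hpT m))
    have := Ideal.add_mem _ h2 h1
    rwa [sub_add_sub_cancel] at this

/-- **The Hecke ring of a representation is reduced.** -/
theorem isReduced_of_away {O : Type} [CommRing O] [IsDomain O] [CharZero O] [Algebra O T]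
    [Module.Finite O T] [Module.Free O T] (hNS : ∀ q : ℕ, q.Prime → q ∣ N → q ∈ S)
    (π : CuspForm.heckeAlgebra N 2 S →+* T) (hπ : Algebra.adjoin O (Set.range π) = ⊤) :
    IsReduced T := by
  refine HeckeSemisimple.isReduced_of_adjoin_int_squarefree (O := O)
    (s := Set.range fun l : AwayIndex S =>
      π (CuspForm.heckeAlgebra.T l.1.2 (not_dvd_of_away hNS l) l.2)) (top_unique ?_) ?_
  · rw [← hπ, Algebra.adjoin_le_iff]
    rintro _ ⟨⟨t, ht⟩, rfl⟩
    induction ht using Algebra.adjoin_induction with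
    | mem x hx =>
      rcases hx with ⟨ℓ, hℓ, hℓN, hℓS, rfl⟩ | ⟨q, hqN, hq, hqS, rfl⟩
      · exact Algebra.subset_adjoin ⟨⟨⟨ℓ, hℓ⟩, hℓS⟩, rfl⟩
      · exact absurd (hNS q hq hqN) hqS
    | algebraMap r =>
      rw [show (⟨algebraMap ℤ _ r, _⟩ : CuspForm.heckeAlgebra N 2 S) = algebraMap ℤ _ r from rfl,
        eq_intCast, map_intCast]
      exact intCast_mem _ r
    | add x y hx hy hx' hy' =>
      rw [show (⟨x + y, _⟩ : CuspForm.heckeAlgebra N 2 S) = ⟨x, hx⟩ + ⟨y, hy⟩ from rfl, map_add]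
      exact add_mem hx' hy'
    | mul x y hx hy hx' hy' =>
      rw [show (⟨x * y, _⟩ : CuspForm.heckeAlgebra N 2 S) = ⟨x, hx⟩ * ⟨y, hy⟩ from rfl, map_mul]
      exact mul_mem hx' hy'
  · rintro _ ⟨l, rfl⟩
    obtain ⟨q, -, hsq, hq⟩ :=
      HeckeSemisimple.exists_squarefree_int (N := N) l.1.2 (not_dvd_of_away hNS l)
    refine ⟨q, hsq, ?_⟩
    have h0 : aeval (CuspForm.heckeAlgebra.T l.1.2 (not_dvd_of_away hNS l) l.2 :
        CuspForm.heckeAlgebra N 2 S) q = 0 :=
      Subtype.ext ((aeval_algHom_apply (CuspForm.heckeAlgebra N 2 S).val _ q).symm.trans hq)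
    exact (aeval_algHom_apply π.toIntAlgHom _ q).trans (by rw [h0, map_zero])

end Fermat.Agent.OrdinaryT

end
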