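import Fermat.Agent.OrdinaryT.Ratio
import Fermat.Agent.HeckeJ0.Inputs
import Fermat.Agent.OrdinaryT.PowRed

/-!
# Climbing beyond `p / (p - 1)`

The functions of a class form a coset modulo constants and `p`-th powers. If the first-order term
can always be removed inside the coset, one of them is congruent to `1` beyond `p / (p - 1)`.
-/

set_option linter.unusedSectionVars false

noncomputable section

open IsLocalRing ModularCurve AlgebraicCurve HahnSeries
open Fermat.Agent.Reduction Fermat.Agent.SemistableRed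

namespace Fermat.Agent.OrdinaryT

open FlatJ0

local notation "Ω" => AlgebraicClosure ℚ

variable {A : ValuationSubring Ω} {p N : ℕ} [NeZero N] {ι : Type}

/-- A fixed function of the class `x`. -/
def InClass (Φ : Fixer A) (n : ℕ) (x : JZero N) (u : modularFunctionFieldBar N) : Prop :=
  Φ.FFixed u ∧ IsFunctionOf n x u

theorem InClass.ne_zero {Φ : Fixer A} {n : ℕ} {x : JZero N} {u : modularFunctionFieldBar N}
    (hu : InClass Φ n x u) : u ≠ 0 := hu.2.1

theorem InClass.smul_const {Φ : Fixer A} {n : ℕ} {x : JZero N} {u : modularFunctionFieldBar N}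
    (hu : InClass Φ n x u) {a : Ω} (ha : a ∈ Φ.field) (ha0 : a ≠ 0) :
    InClass Φ n x (a • u) := by
  obtain ⟨hf, hu0, D, hD, hD'⟩ := hu
  refine ⟨hf.smul Φ ha, smul_ne_zero ha0 hu0, D, hD, fun P => ?_⟩
  rw [Algebra.smul_def, P.ord_mul ((map_ne_zero _).mpr ha0) hu0, FunctionFieldRR.ord_algebraMap,
    zero_add, hD']

theorem InClass.mul_pow {Φ : Fixer A} {n : ℕ} {x : JZero N} {u g : modularFunctionFieldBar N}
    (hu : InClass Φ n x u) (hg : Φ.FFixed g) (hg0 : g ≠ 0) : InClass Φ n x (u * g ^ n) := by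
  have := HeckeJ0.isFunctionField_bar N
  have := HeckeJ0.hasPrincipalDivisors_bar N
  refine ⟨hu.1.mul Φ (hg.pow Φ n), ?_⟩
  have hdeg : dvs (K := Ω) g ∈ Divisor.degZero (K := Ω) (F := modularFunctionFieldBar N) :=
    Divisor.mem_degZero.mpr (degree_dvs g)
  have h0 : Pic0.mk (⟨dvs (K := Ω) g, hdeg⟩ : Divisor.degZero) = 0 := by
    refine (QuotientAddGroup.eq_zero_iff _).mpr ?_
    simp only [AddSubgroup.mem_addSubgroupOf]
    exact ⟨g, hg0, fun v => dvs_apply g v⟩
  have h : IsFunctionOf n (0 : JZero N) (g ^ n) := ⟨pow_ne_zero _ hg0, _, h0, fun P => by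
    rw [FunctionFieldRR.ord_pow, dvs_apply]⟩
  simpa using hu.2.mul h

variable (E : Expansion A N ι) (Φ : Fixer A) {x : JZero N} {u : modularFunctionFieldBar N}

/-- Dividing by the power of a lift when the reductions are powers. -/
theorem exists_srep_one (hu : InClass Φ p x u) (y : ι → E.G)
    (hy : ∀ i, y i ≠ 0) (h : ∀ i, SRep (E.side i u) ((y i : LaurentSeries (ResidueField A)) ^ p))
    [Nonempty ι] :
    ∃ u', InClass Φ p x u' ∧ ∀ i, SRep (A := A) (E.side i u') 1 := by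
  obtain ⟨f, hf, hfr⟩ := E.lift y
  have hy' : ∀ i, (y i : LaurentSeries (ResidueField A)) ≠ 0 := fun i h0 => hy i (Subtype.ext h0)
  have hf0 : f ≠ 0 := fun h0 => by
    obtain ⟨i⟩ := ‹Nonempty ι›
    have h1 := hfr i
    rw [h0, map_zero] at h1
    exact hy' i (h1.unique SRep.zero)
  refine ⟨u * f⁻¹ ^ p, hu.mul_pow (Fixer.FFixed.inv Φ fun σ hσ => hf σ (Φ.le_inertia hσ))
    (inv_ne_zero hf0), fun i => ?_⟩
  have h1 := (h i).mul (((hfr i).inv (hy' i)).pow p)
  rw [← map_inv₀, ← map_pow, ← map_mul, inv_pow (y i : LaurentSeries (ResidueField A)),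
    mul_inv_cancel₀ (pow_ne_zero _ (hy' i))] at h1
  exact h1

/-- Removing first-order terms which are `p`-th powers at a `p`-divisible scale. -/
theorem absorb_pow (hA : IsOver A p) [Nonempty ι] (hu : InClass Φ p x u) {b c : Ω} (hb : b ∈ Φ.field)
    (hb0 : b ≠ 0) (hbc : (p : ℚ) * ord A p b = ord A p c) (hc0 : c ≠ 0) (hc : 0 < ord A p c)
    (hcrit : ((p : ℚ) - 1) * ord A p c < p) [IsAlgClosed (ResidueField A)] (y : ι → E.G)
    (h : ∀ i, Cong c (E.side i u) ((y i : LaurentSeries (ResidueField A)) ^ p)) :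
    ∃ u', InClass Φ p x u' ∧ ∀ i, Cong (A := A) c (E.side i u') 0 := by
  have hp := hA.prime
  have hp0 : (0 : ℚ) < p := by exact_mod_cast hp.pos
  have hbpos : 0 < ord A p b := by
    by_contra hcon
    rw [not_lt] at hcon
    nlinarith
  have hb1 : ord A p c < 1 + ord A p b := by nlinarith
  have hη : b ^ p / c ∈ A := mem_of_ord hA (Or.inr (by
    rw [hA.ord_div (pow_ne_zero _ hb0) hc0, hA.ord_pow hb0]; linarith))
  have hη0 : residue A ⟨_, hη⟩ ≠ 0 := by
    have hne : b ^ p / c ≠ 0 := div_ne_zero (pow_ne_zero _ hb0) hc0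
    intro h0
    rw [residue_eq_zero_iff, ← ValuationSubring.coe_mem_nonunits_iff, hA.nonunit_iff hne,
      hA.ord_div (pow_ne_zero _ hb0) hc0, hA.ord_pow hb0, hbc, sub_self] at h0
    exact lt_irrefl _ h0
  obtain ⟨r, hr⟩ := IsAlgClosed.exists_pow_nat_eq (residue A ⟨_, hη⟩)⁻¹ hp.pos
  obtain ⟨f, hf, hfr⟩ := E.lift fun i => r • y i
  set g := 1 + b • f with hg
  have hgc : ∀ i, Cong b (E.side i g) ((r • y i : E.G) : LaurentSeries (ResidueField A)) := fun i => by
    rw [Cong, hg, map_add, map_one, add_sub_cancel_left, algHom_smul, smul_smul,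
      inv_mul_cancel₀ hb0, one_smul]
    exact hfr i
  have hgfix : Φ.FFixed g :=
    Fixer.FFixed.add Φ (Fixer.ffixed_one Φ)
      (Fixer.FFixed.smul Φ hb fun σ hσ => hf σ (Φ.le_inertia hσ))
  have hbA : b ∈ A := mem_of_ord hA (Or.inr hbpos.le)
  have hbr := residue_eq_zero_of_pos hA hbA (Or.inr hbpos)
  have hg0 : g ≠ 0 := fun h0 => by
    obtain ⟨i⟩ := ‹Nonempty ι›
    have h1 := (hgc i).srep_one hbA hbr hb0
    rw [h0, map_zero] at h1
    exact one_ne_zero (h1.unique SRep.zero)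
  have hcA : c ∈ A := mem_of_ord hA (Or.inr hc.le)
  have hcr := residue_eq_zero_of_pos hA hcA (Or.inr hc)
  refine ⟨u * g⁻¹ ^ p, hu.mul_pow (hgfix.inv Φ) (inv_ne_zero hg0), fun i => ?_⟩
  obtain ⟨_, hpow⟩ := (hgc i).pow_prime hA hb0 hc0 hbpos hb1 hbc.ge
  have he : residue A ⟨_, hη⟩ • ((r • y i : E.G) : LaurentSeries (ResidueField A)) ^ p =
      (y i : LaurentSeries (ResidueField A)) ^ p := by
    rw [Algebra.smul_def r, MulMemClass.coe_mul, IntermediateField.coe_algebraMap_apply,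
      mul_pow, ← map_pow, hr, smul_eq_algebraMap_mul, ← mul_assoc, ← map_mul,
      mul_inv_cancel₀ hη0, map_one, one_mul]
  rw [he] at hpow
  have h1 := Cong.mul hcA hcr hc0 (h i) (Cong.inv hcA hcr hc0 hpow)
  rw [add_neg_cancel] at h1
  rwa [map_mul, map_pow, map_inv₀, inv_pow]

/-- Removing a common constant first-order term. -/
theorem absorb_const (hA : IsOver A p) (hu : InClass Φ p x u) {c : Ω} (hc' : c ∈ Φ.field)
    (hc0 : c ≠ 0) (hc : 0 < ord A p c) {r : ResidueField A}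
    (h : ∀ i, Cong c (E.side i u)
      (algebraMap (ResidueField A) (LaurentSeries (ResidueField A)) r)) :
    ∃ u', InClass Φ p x u' ∧ ∀ i, Cong (A := A) c (E.side i u') 0 := by
  obtain ⟨s, hs, hsfix⟩ := exists_lift_fixed hA r
  have hcA : c ∈ A := mem_of_ord hA (Or.inr hc.le)
  have hcr := residue_eq_zero_of_pos hA hcA (Or.inr hc)
  set d := 1 + c * (s : Ω) with hd
  have he : c⁻¹ * (d - 1) = (s : Ω) := by
    rw [hd, add_sub_cancel_left, ← mul_assoc, inv_mul_cancel₀ hc0, one_mul]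
  have hdmem : c⁻¹ * (d - 1) ∈ A := he ▸ s.2
  have hdc : Cong c (algebraMap Ω (LaurentSeries Ω) d) (algebraMap (ResidueField A) (LaurentSeries (ResidueField A)) r) := by
    have h1 := Cong.const (A := A) (c := c) hdmem
    rwa [show (⟨_, hdmem⟩ : A) = s from Subtype.ext he, hs] at h1
  have hd0 : d ≠ 0 := fun h0 => by
    have h1 := hdc.srep_one hcA hcr hc0
    rw [h0, map_zero] at h1
    exact one_ne_zero (h1.unique SRep.zero)
  refine ⟨d⁻¹ • u, hu.smul_const (inv_mem (add_mem (one_mem _)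
    (mul_mem hc' fun σ hσ => hsfix σ (Φ.le_inertia hσ)))) (inv_ne_zero hd0), fun i => ?_⟩
  have h1 := Cong.mul hcA hcr hc0 (h i) (Cong.inv hcA hcr hc0 hdc)
  rw [add_neg_cancel] at h1
  rwa [algHom_smul, smul_eq_algebraMap_mul, map_inv₀, mul_comm]

/-- If first-order terms below `p / (p - 1)` can be removed, some function of the class is
congruent to `1` at or beyond it. -/
theorem exists_atLeast (hA : IsOver A p) [Fintype ι] [Nonempty ι]
    (step : ∀ (u : modularFunctionFieldBar N) (c : Ω) (v : ι → E.G), InClass Φ p x u → c ∈ Φ.field →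
      c ≠ 0 → 0 < ord A p c → ((p : ℚ) - 1) * ord A p c < p →
      (∀ i, Cong c (E.side i u) (v i : LaurentSeries (ResidueField A))) →
      ∃ u', InClass Φ p x u' ∧ ∀ i, Cong (A := A) c (E.side i u') 0)
    (hu : InClass Φ p x u) (hu1 : ∀ i, SRep (A := A) (E.side i u) 1) :
    ∃ (u' : modularFunctionFieldBar N) (c : Ω) (v : ι → LaurentSeries (ResidueField A)),
      InClass Φ p x u' ∧ c ∈ Φ.field ∧ c ≠ 0 ∧ (p : ℚ) ≤ ((p : ℚ) - 1) * ord A p c ∧
      ∀ i, Cong c (E.side i u') (v i) := by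
  classical
  have hp1 : (0 : ℚ) < (p : ℚ) - 1 := by
    have : (2 : ℚ) ≤ p := by exact_mod_cast hA.prime.two_le
    linarith
  set B : ℚ := (p : ℚ) / ((p : ℚ) - 1) with hB
  have hB0 : 0 < B := div_pos (by exact_mod_cast hA.prime.pos) hp1
  let P : Ω → Prop := fun c => 0 ≤ ord A p c ∧ ∃ (u : modularFunctionFieldBar N)
    (v : ι → LaurentSeries (ResidueField A)), InClass Φ p x u ∧
      (∀ i, Cong c (E.side i u) (v i)) ∧ (ord A p c < B → ∀ i, v i = 0)
  have hstart : P 1 := ⟨by rw [hA.ord_one], u, 0, hu, fun i => by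
    rw [Cong, inv_one, one_smul]
    simpa using (hu1 i).sub SRep.one, fun _ _ => rfl⟩
  obtain ⟨c, hc, hc0, ⟨-, u', v, hu', hv, -⟩, hBc⟩ := Φ.climb hA P B (fun c hc hc0 hP hcB => by
    obtain ⟨hc1, u, v, hu, hv, hv0⟩ := hP
    have hv' : ∀ i, Cong (A := A) c (E.side i u) 0 := fun i => by
      have := hv i; rwa [hv0 hcB i] at this
    have hup : ord A p c < ord A p (c * p) := by
      rw [hA.ord_mul hc0 hA.natCast_ne_zero, hA.ord_p]; linarith
    by_cases hu1 : u = 1
    · refine ⟨c * p, mul_mem hc (natCast_mem _ p), mul_ne_zero hc0 hA.natCast_ne_zero,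
        ⟨by linarith, u, 0, hu, fun i => ?_, fun _ _ => rfl⟩, hup⟩
      rw [hu1, map_one]; exact Cong.one
    obtain ⟨c', hc', hc'0, hlt, w, hw, -, -⟩ := E.exists_deeper Φ hA hu.1 hu1 hc0 hv'
    by_cases hB' : ord A p c' < B
    · obtain ⟨u'', hu'', hw'⟩ := step u c' w hu hc' hc'0 (lt_of_le_of_lt hc1 hlt) (by
        rwa [hB, lt_div_iff₀ hp1, mul_comm] at hB') hw
      exact ⟨c', hc', hc'0, ⟨hc1.trans hlt.le, u'', 0, hu'', hw', fun _ _ => rfl⟩, hlt⟩
    · exact ⟨c', hc', hc'0, ⟨hc1.trans hlt.le, u, fun i => w i, hu, hw,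
        fun h => absurd h hB'⟩, hlt⟩) (one_mem _) one_ne_zero hstart
  refine ⟨u', c, v, hu', hc, hc0, ?_, hv⟩
  rw [hB, div_le_iff₀ hp1] at hBc
  linarith

/-- If first-order terms below `p / (p - 1)` can be removed and no fixed value equals it, some
function of the class is congruent to `1` beyond it. -/
theorem exists_beyond (hA : IsOver A p) [Fintype ι] [Nonempty ι]
    (hexcl : ∀ c ∈ Φ.field, c ≠ 0 → ((p : ℚ) - 1) * ord A p c ≠ p)
    (step : ∀ (u : modularFunctionFieldBar N) (c : Ω) (v : ι → E.G), InClass Φ p x u → c ∈ Φ.field →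
      c ≠ 0 → 0 < ord A p c → ((p : ℚ) - 1) * ord A p c < p →
      (∀ i, Cong c (E.side i u) (v i : LaurentSeries (ResidueField A))) →
      ∃ u', InClass Φ p x u' ∧ ∀ i, Cong (A := A) c (E.side i u') 0)
    (hu : InClass Φ p x u) (hu1 : ∀ i, SRep (A := A) (E.side i u) 1) :
    ∃ (u' : modularFunctionFieldBar N) (c : Ω) (v : ι → LaurentSeries (ResidueField A)),
      InClass Φ p x u' ∧ c ≠ 0 ∧ (p : ℚ) < ((p : ℚ) - 1) * ord A p c ∧
      ∀ i, Cong c (E.side i u') (v i) := by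
  obtain ⟨u', c, v, hu', hc, hc0, hle, hv⟩ := exists_atLeast E Φ hA step hu hu1
  exact ⟨u', c, v, hu', hc0, lt_of_le_of_ne hle (Ne.symm (hexcl c hc hc0)), hv⟩

/-- The scale beyond `p / (p - 1)` is `p` times a deep element. -/
theorem deep_div_p (hA : IsOver A p) {c : Ω} (hc0 : c ≠ 0)
    (hc : (p : ℚ) < ((p : ℚ) - 1) * ord A p c) : Deep (residue A) p (c / p) := by
  have hp1 : (1 : ℕ) ≤ p := hA.prime.one_le
  have hc1 : 1 < ord A p c := by
    by_contra hcon
    rw [not_lt] at hcon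
    have : (2 : ℚ) ≤ p := by exact_mod_cast hA.prime.two_le
    nlinarith
  have hd0 : c / p ≠ 0 := div_ne_zero hc0 hA.natCast_ne_zero
  have hd : (c / p) ^ (p - 1) / p ∈ A := mem_of_ord hA (Or.inr (by
    rw [hA.ord_div (pow_ne_zero _ hd0) hA.natCast_ne_zero, hA.ord_pow hd0,
      hA.ord_div hc0 hA.natCast_ne_zero, hA.ord_p, Nat.cast_sub hp1, Nat.cast_one]
    nlinarith))
  refine ⟨hd0, mem_of_ord hA (Or.inr (by
    rw [hA.ord_div hc0 hA.natCast_ne_zero, hA.ord_p]; linarith)), ⟨_, hd⟩, ?_, ?_⟩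
  · exact residue_eq_zero_of_pos hA hd (Or.inr (by
      rw [hA.ord_div (pow_ne_zero _ hd0) hA.natCast_ne_zero, hA.ord_pow hd0,
        hA.ord_div hc0 hA.natCast_ne_zero, hA.ord_p, Nat.cast_sub hp1, Nat.cast_one]
      nlinarith))
  · rw [mul_div_cancel₀ _ hA.natCast_ne_zero]

end Fermat.Agent.OrdinaryT

end
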