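import Fermat.Agent.SemistableRed.SeriesRep
import Fermat.Agent.Congruence.Laurent

/-!
# First-order congruences of series

`Cong c x v` says that `(x - 1) / c` reduces to `v`. The predicate is multiplicative up to first
order, and turns products into sums.
-/

noncomputable section

open IsLocalRing ModularCurve HahnSeries Fermat.Agent.Reduction Fermat.Agent.SemistableRed

namespace Fermat.Agent.OrdinaryT

variable {L : Type*} [Field L] {A : ValuationSubring L}

/-- Rotation of the variable by any unit. -/
theorem srep_twist {x : LaurentSeries L} {v : LaurentSeries (ResidueField A)} (ζ : Aˣ) (h : SRep x v) :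
    SRep (Congruence.twist (Units.map (A.subtype : A →* L) ζ) x)
      (Congruence.twist (Units.map (residue A : A →* (ResidueField A)) ζ) v) := by
  obtain ⟨P, Q, hP, hQ, rfl⟩ := h
  have hι : ∀ z : LaurentSeries A, ιS A (Congruence.twist ζ z) =
      Congruence.twist (Units.map (A.subtype : A →* L) ζ) (ιS A z) := fun z =>
    Congruence.coeffMap_twist A.subtype ζ z
  have hr : ∀ z : LaurentSeries A, redS A (Congruence.twist ζ z) =
      Congruence.twist (Units.map (residue A : A →* (ResidueField A)) ζ) (redS A z) := fun z =>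
    Congruence.coeffMap_twist (residue A) ζ z
  refine ⟨Congruence.twist ζ P, Congruence.twist ζ Q, ?_, ?_, by rw [map_div₀, hr, hr]⟩
  · rw [hι, hι, ← map_mul, hP]
  · rw [hr]; exact (map_ne_zero _).mpr hQ

/-- A constant with a reduction is integral, and its reduction is constant. -/
theorem srep_const_iff {a : L} {v : LaurentSeries (ResidueField A)}
    (h : SRep (algebraMap L (LaurentSeries L) a) v) :
    ∃ ha : a ∈ A, v = algebraMap (ResidueField A) (LaurentSeries (ResidueField A)) (residue A ⟨a, ha⟩) := by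
  have ha : a ∈ A := by
    by_contra hcon
    have h1 : SRep ((a⁻¹ * a) • (1 : LaurentSeries L))
        (residue A ⟨a⁻¹, (A.mem_or_inv_mem a).resolve_left hcon⟩ • v) := by
      rw [mul_smul, smul_eq_algebraMap_mul a, mul_one]
      exact h.smul ((A.mem_or_inv_mem a).resolve_left hcon)
    rw [inv_mul_cancel₀ fun h0 : a = 0 => hcon (h0 ▸ A.zero_mem), one_smul] at h1
    refine one_ne_zero (SRep.one.unique h1 |>.trans ?_)
    have hr : residue A ⟨a⁻¹, (A.mem_or_inv_mem a).resolve_left hcon⟩ = 0 := by
      rw [residue_eq_zero_iff, IsLocalRing.mem_maximalIdeal, mem_nonunits_iff]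
      rintro ⟨u, hu⟩
      refine hcon ?_
      have h2 : ((u : A) : L) * ((↑u⁻¹ : A) : L) = 1 := congrArg Subtype.val u.mul_inv
      rw [hu] at h2
      rw [← inv_inv a, ← eq_inv_of_mul_eq_one_right h2]
      exact SetLike.coe_mem _
    rw [hr, zero_smul]
  exact ⟨ha, h.unique (SRep.const ⟨a, ha⟩)⟩

/-- `(x - 1) / c` reduces to `v`. -/
def Cong (c : L) (x : LaurentSeries L) (v : LaurentSeries (ResidueField A)) : Prop := SRep (c⁻¹ • (x - 1)) v

namespace Cong

variable {c : L} {x y : LaurentSeries L} {v w : LaurentSeries (ResidueField A)}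

theorem srep_one (hc : c ∈ A) (hc' : residue A ⟨c, hc⟩ = 0) (hc0 : c ≠ 0) (h : Cong c x v) :
    SRep (A := A) x 1 := by
  have h1 := (SRep.smul hc h).add (SRep.one (A := A))
  rwa [smul_smul, mul_inv_cancel₀ hc0, one_smul, sub_add_cancel, hc', zero_smul, zero_add] at h1

theorem one : Cong (A := A) c (1 : LaurentSeries L) 0 := by
  rw [Cong, sub_self, smul_zero]; exact SRep.zero

theorem mul (hc : c ∈ A) (hc' : residue A ⟨c, hc⟩ = 0) (hc0 : c ≠ 0) (hx : Cong c x v)
    (hy : Cong c y w) : Cong c (x * y) (v + w) := by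
  have h := (SRep.add hx hy).add (SRep.smul hc (SRep.mul hx hy))
  rw [hc', zero_smul, add_zero] at h
  rw [Cong]
  convert h using 1
  simp only [smul_eq_algebraMap_mul, map_inv₀]
  field_simp
  ring

theorem inv (hc : c ∈ A) (hc' : residue A ⟨c, hc⟩ = 0) (hc0 : c ≠ 0) (hx : Cong c x v) :
    Cong c x⁻¹ (-v) := by
  have h1 := hx.srep_one hc hc' hc0
  have hx0 : x ≠ 0 := fun h0 => one_ne_zero (h1.unique (h0 ▸ SRep.zero))
  have h := (SRep.mul hx (h1.inv one_ne_zero)).neg
  rw [inv_one, mul_one] at h
  rw [Cong]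
  convert h using 1
  simp only [smul_eq_algebraMap_mul, map_inv₀]
  field_simp
  ring

theorem pow (hc : c ∈ A) (hc' : residue A ⟨c, hc⟩ = 0) (hc0 : c ≠ 0) (hx : Cong c x v) :
    ∀ m : ℕ, Cong c (x ^ m) (m • v)
  | 0 => by rw [pow_zero, zero_nsmul]; exact one
  | m + 1 => by rw [pow_succ, succ_nsmul]; exact Cong.mul hc hc' hc0 (Cong.pow hc hc' hc0 hx m) hx

theorem prod (hc : c ∈ A) (hc' : residue A ⟨c, hc⟩ = 0) (hc0 : c ≠ 0) {J : Type*} (s : Finset J)
    {f : J → LaurentSeries L} {g : J → LaurentSeries (ResidueField A)} (h : ∀ j ∈ s, Cong c (f j) (g j)) :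
    Cong c (∏ j ∈ s, f j) (∑ j ∈ s, g j) := by
  classical
  induction s using Finset.induction with
  | empty => simpa using one
  | insert j t hj ih =>
    rw [Finset.prod_insert hj, Finset.sum_insert hj]
    exact Cong.mul hc hc' hc0 (h j (Finset.mem_insert_self j t))
      (ih fun a ha => h a (Finset.mem_insert_of_mem ha))

/-- Passing to a coarser scale. -/
theorem rescale {c' : L} (hc0 : c ≠ 0) (hcc : c / c' ∈ A) (hx : Cong c x v) :
    Cong c' x (residue A ⟨_, hcc⟩ • v) := by
  have h := SRep.smul hcc hx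
  rwa [smul_smul, div_mul_eq_mul_div, mul_inv_cancel₀ hc0, one_div] at h

theorem qExpand (n : ℕ) [NeZero n] (hx : Cong c x v) :
    Cong c (ModularCurve.qExpand L n x) (ModularCurve.qExpand (ResidueField A) n v) := by
  have h := SRep.qExpand n hx
  rw [smul_eq_algebraMap_mul, map_mul, algebraMap_laurentSeries_eq_single, qExpand_single,
    mul_zero, map_sub, map_one, ← algebraMap_laurentSeries_eq_single,
    ← smul_eq_algebraMap_mul] at h
  exact h

theorem twist (ζ : Aˣ) (hx : Cong c x v) :
    Cong c (Congruence.twist (Units.map (A.subtype : A →* L) ζ) x)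
      (Congruence.twist (Units.map (residue A : A →* (ResidueField A)) ζ) v) := by
  have h := srep_twist ζ hx
  rw [smul_eq_algebraMap_mul, map_mul, algebraMap_laurentSeries_eq_single,
    Congruence.twist_single_zero, map_sub, map_one, ← algebraMap_laurentSeries_eq_single,
    ← smul_eq_algebraMap_mul] at h
  exact h

/-- The constants. -/
theorem const {a : L} (ha : c⁻¹ * (a - 1) ∈ A) :
    Cong c (algebraMap L (LaurentSeries L) a)
      (algebraMap (ResidueField A) (LaurentSeries (ResidueField A)) (residue A ⟨_, ha⟩)) := by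
  have h := SRep.const (A := A) ⟨_, ha⟩
  rw [Cong, smul_eq_algebraMap_mul, ← map_one (algebraMap L (LaurentSeries L)), ← map_sub,
    ← map_mul]
  exact h

end Cong

end Fermat.Agent.OrdinaryT

end
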