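import Fermat.Agent.OrdinaryT.Kernel

/-!
# The cores for classes of `p`-power order

Inside a finite stable subgroup on which the Hecke operator is injective it is periodic, so the
cores apply to the multiple of exact order `p`.
-/

noncomputable section

open IsLocalRing ModularCurve AlgebraicCurve HahnSeries
open Fermat.Agent.Reduction Fermat.Agent.FunctionFieldRR Fermat.Agent.SemistableRed

namespace Fermat.Agent.OrdinaryT

open FlatJ0

local notation "Ω" => AlgebraicClosure ℚ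

/-- An injective endomorphism of a finite set is periodic at every point. -/
theorem exists_iterate_eq {V : Type*} (V₀ : Set V) [Finite V₀] (f : V → V)
    (hf : ∀ v ∈ V₀, f v ∈ V₀) (hinj : Set.InjOn f V₀) {v : V} (hv : v ∈ V₀) :
    ∃ m, m ≠ 0 ∧ f^[m] v = v := by
  let g : V₀ → V₀ := fun x => ⟨f x, hf x x.2⟩
  have hg : Function.Injective g := fun a b h =>
    Subtype.ext (hinj a.2 b.2 (congrArg Subtype.val h))
  obtain ⟨m, hm, hper⟩ := hg.mem_periodicPts ⟨v, hv⟩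
  refine ⟨m, by omega, ?_⟩
  have hcoe : ∀ (j : ℕ) (x : V₀), ((g^[j] x : V₀) : V) = f^[j] (x : V) := by
    intro j
    induction j with
    | zero => exact fun x => rfl
    | succ j ih =>
      intro x
      rw [Function.iterate_succ_apply, Function.iterate_succ_apply, ih]
  exact (hcoe m ⟨v, hv⟩).symm.trans (congrArg Subtype.val hper)

/-- A nonzero element of `p`-power order has a multiple of exact order `p`. -/
theorem exists_multiple_order {V : Type*} [AddCommGroup V] {p : ℕ} {v : V} (hv : v ≠ 0) :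
    ∀ k : ℕ, p ^ k • v = 0 → ∃ j, j < k ∧ p ^ j • v ≠ 0 ∧ p • (p ^ j • v) = 0
  | 0, h => absurd (by rwa [pow_zero, one_smul] at h) hv
  | k + 1, h => by
    by_cases hk : p ^ k • v = 0
    · obtain ⟨j, hj, h'⟩ := exists_multiple_order hv k hk
      exact ⟨j, by omega, h'⟩
    · exact ⟨k, k.lt_succ_self, hk, by rwa [smul_smul, ← pow_succ']⟩

variable {A : ValuationSubring Ω} {M p : ℕ} [NeZero M] [NeZero p] [Fact p.Prime]
  [CharP (ResidueField A) p] [IsAlgClosed (ResidueField A)] (S : Setting A M p)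

/-- The core at level `M` for `p`-power order. -/
theorem core_good (V₀ : AddSubgroup (JZero M)) [Finite V₀]
    (hTV : ∀ v ∈ V₀, heckeOperatorAlong Ω M p v ∈ V₀)
    (hTinj : ∀ v ∈ V₀, heckeOperatorAlong Ω M p v = 0 → v = 0)
    {σ : Ω ≃ₐ[ℚ] Ω} (hσ : σ ∈ A.inertiaSubgroupIn ℚ) (hω : ∃ ζ : Ω, ζ ^ p = 1 ∧ σ ζ ≠ ζ)
    {k : ℕ} {x : JZero M} (hxV : x ∈ V₀) (hx : x ∈ goodKilled S (p ^ k)) (hk : p ^ k • x = 0)
    (hfix : σ • x = x) : x = 0 := by
  by_contra hne
  obtain ⟨j, hj, hy0, hpy⟩ := exists_multiple_order hne k hk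
  set y := p ^ j • x with hy
  obtain ⟨r, rfl⟩ : ∃ r, k = 1 + r := ⟨k - 1, by omega⟩
  have hyK : y ∈ goodKilled S (p * p ^ r) := by
    rw [← pow_succ', Nat.add_comm, hy]; exact nsmul_mem hx _
  have hyK' := (mem_goodKilled_mul_iff S (NeZero.ne p) r hpy).mp hyK
  obtain ⟨m, hm, hT⟩ := exists_iterate_eq (V₀ : Set (JZero M))
    (fun v => heckeOperatorAlong Ω M p v) hTV
    (fun a ha b hb h => sub_eq_zero.mp (hTinj _ (sub_mem ha hb) (by rw [map_sub]; exact sub_eq_zero.mpr h)))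
    (show y ∈ (V₀ : Set (JZero M)) from nsmul_mem hxV _)
  exact hy0 (eq_zero_of_mem_goodKilled S hyK' hσ (by show DistribSMul.toAddMonoidHom _ σ (p ^ j • x) = p ^ j • x; rw [map_nsmul]; exact congrArg _ hfix) hω hm hT)

/-- The core at level `M p` for `p`-power order. -/
theorem core_new (V₀ : AddSubgroup (JZero (M * p))) [Finite V₀]
    (hnorm : ∀ v ∈ V₀, ∀ b, normMaps M p b v = 0) {ℓ : ℕ} [Fact ℓ.Prime] (hℓ : ¬ ℓ ∣ M * p)
    (hTV : ∀ v ∈ V₀, heckeOperatorAlong Ω (M * p) ℓ v ∈ V₀)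
    (hTinj : ∀ v ∈ V₀, heckeOperatorAlong Ω (M * p) ℓ v = (ℓ + 1) • v → v = 0)
    {σ : Ω ≃ₐ[ℚ] Ω} (hσ : σ ∈ A.inertiaSubgroupIn ℚ) (hω : ∃ ζ : Ω, ζ ^ p = 1 ∧ σ ζ ≠ ζ)
    {k : ℕ} {x : JZero (M * p)} (hxV : x ∈ V₀) (hx : x ∈ newKilled S (p ^ k))
    (hk : p ^ k • x = 0) (hfix : σ • x = x) : x = 0 := by
  by_contra hne
  obtain ⟨j, hj, hy0, hpy⟩ := exists_multiple_order hne k hk
  set y := p ^ j • x with hy
  obtain ⟨r, rfl⟩ : ∃ r, k = 1 + r := ⟨k - 1, by omega⟩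
  have hyK : y ∈ newKilled S (p * p ^ r) := by
    rw [← pow_succ', Nat.add_comm, hy]; exact nsmul_mem hx _
  have hyK' := (mem_newKilled_mul_iff S (NeZero.ne p) r hpy).mp hyK
  have hyV : y ∈ V₀ := nsmul_mem hxV _
  obtain ⟨m, hm, hT⟩ := exists_iterate_eq (V₀ : Set (JZero (M * p)))
    (fun z => heckeOperatorAlong Ω (M * p) ℓ z - (ℓ + 1) • z)
    (fun v hv => sub_mem (hTV v hv) (nsmul_mem hv _))
    (fun a ha b hb h => sub_eq_zero.mp (hTinj _ (sub_mem ha hb) (by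
      rw [map_sub, nsmul_sub]
      exact sub_eq_sub_iff_sub_eq_sub.mp h)))
    hyV
  exact hy0 (eq_zero_of_mem_newKilled S hyK' hσ (by show DistribSMul.toAddMonoidHom _ σ (p ^ j • x) = p ^ j • x; rw [map_nsmul]; exact congrArg _ hfix) hω
    (hnorm y hyV) hℓ hm hT)

end Fermat.Agent.OrdinaryT

end
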