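import Fermat.Agent.OrdinaryT.Core
import Fermat.Agent.TameInertia.Frobenius

/-!
# The core at `2`, good level

A `2`-torsion class in the kernel of reduction at level `M`, fixed by inertia and by `T₂`, is fixed
by a Frobenius: at the critical value the first-order term `h` satisfies `h(q²) ≡ h` modulo
`z + z²` and constants, so `φ x - x` has a representative congruent to one beyond it.
-/

set_option linter.unusedSectionVars false

noncomputable section

open IsLocalRing ModularCurve AlgebraicCurve HahnSeries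
open Fermat.Agent.Reduction Fermat.Agent.FunctionFieldRR Fermat.Agent.SemistableRed

namespace Fermat.Agent.OrdinaryT

open FlatJ0

local notation "Ω" => AlgebraicClosure ℚ

variable {A : ValuationSubring Ω}

theorem ord_four (hA : IsOver A 2) : ord A 2 (4 : Ω) = 2 := by
  rw [show (4 : Ω) = ((2 : ℕ) : Ω) ^ 2 by norm_num, hA.ord_pow hA.natCast_ne_zero, hA.ord_p]
  norm_num

theorem four_props (hA : IsOver A 2) : ∃ h4 : (4 : Ω) ∈ A, residue A ⟨_, h4⟩ = 0 :=
  have h := mem_of_ord hA (Or.inr (by rw [ord_four hA]; norm_num : (0 : ℚ) ≤ ord A 2 (4 : Ω)))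
  ⟨h, residue_eq_zero_of_pos hA h (Or.inr (by rw [ord_four hA]; norm_num))⟩

/-- Squaring a congruence to `1` modulo `2`. -/
theorem cong_four_sq {x : LaurentSeries Ω} {w : LaurentSeries (ResidueField A)}
    (h : Cong (2 : Ω) x w) : Cong (4 : Ω) (x ^ 2) (w + w ^ 2) := by
  have h1 := SRep.add h (SRep.pow h 2)
  have h2 : ((4 : Ω))⁻¹ • (x ^ 2 - 1) = (2 : Ω)⁻¹ • (x - 1) + ((2 : Ω)⁻¹ • (x - 1)) ^ 2 := by
    rw [show (4 : Ω) = 2 * 2 by norm_num, mul_inv,
      smul_eq_algebraMap_mul, smul_eq_algebraMap_mul, map_mul, mul_pow]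
    have h3 : algebraMap Ω (LaurentSeries Ω) (2 : Ω)⁻¹ * 2 = 1 := by
      rw [show (2 : LaurentSeries Ω) = algebraMap Ω (LaurentSeries Ω) 2 from (map_ofNat _ 2).symm,
        ← map_mul, inv_mul_cancel₀ (by norm_num : (2 : Ω) ≠ 0), map_one]
    linear_combination (algebraMap Ω (LaurentSeries Ω) (2 : Ω)⁻¹) * (x - 1) * h3
  rw [Cong, h2]
  exact h1

variable {N : ℕ} [NeZero N] (E : Expansion A N Unit) (Φ : Fixer A)

/-- The first-order term modulo `4` of a constant times a square. -/
theorem shape_critical_two (hA : IsOver A 2) [IsAlgClosed (ResidueField A)]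
    {g : modularFunctionFieldBar N} (hg : Φ.FFixed g) (hg0 : g ≠ 0) {a : Ω}
    {v : LaurentSeries (ResidueField A)} (h : Cong (4 : Ω) (E.side () (a • g ^ 2)) v) :
    ∃ (r : ResidueField A) (w : LaurentSeries (ResidueField A)), w ∈ E.G ∧
      v = algebraMap (ResidueField A) _ r + (w + w ^ 2) := by
  have : Fact (2 : ℕ).Prime := ⟨Nat.prime_two⟩
  have := Frobenius.residueField_charP Nat.prime_two hA.liesOver
  obtain ⟨hcA, hcr⟩ := four_props hA
  have hc0 : (4 : Ω) ≠ 0 := by norm_num
  have hx1 := h.srep_one hcA hcr hc0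
  obtain ⟨a₀, -, ha₀0, hcases⟩ := exists_nonconst E Φ hA hg hg0 (B := 1)
  set a' := a / a₀ ^ 2 with ha'
  have he : E.side () (a • g ^ 2) =
      algebraMap Ω (LaurentSeries Ω) a' * (E.side () (a₀ • g)) ^ 2 := by
    rw [algHom_smul, algHom_smul, map_pow (E.side ()), smul_eq_algebraMap_mul, smul_eq_algebraMap_mul,
      mul_pow, ← mul_assoc, ← map_pow (algebraMap Ω (LaurentSeries Ω)), ← map_mul, ha',
      div_mul_cancel₀ _ (pow_ne_zero _ ha₀0)]
  rcases hcases with ⟨w, hw, hnc, hwr⟩ | ⟨b, hb, hb0, hbpos, hbB, w, hwG, hnc, hw⟩ |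
      ⟨b, hb0, hbB, w, hw⟩
  · exfalso
    rw [← algHom_smul] at hwr
    have hw0 : w ≠ 0 := fun h0 => hnc 0 (by rw [h0, map_zero])
    have h1 := hx1.mul ((hwr.pow 2).inv (pow_ne_zero _ hw0))
    have hne : E.side () (a₀ • g) ≠ 0 := fun h0 => by
      rw [h0] at hwr
      exact hw0 (hwr.unique SRep.zero)
    rw [he, mul_assoc, mul_inv_cancel₀ (pow_ne_zero _ hne), mul_one, one_mul] at h1
    obtain ⟨hmem, hconst⟩ := srep_const_iff h1
    obtain ⟨s, hs⟩ := const_of_pow_const (p := 2)
      (show (w⁻¹) ^ 2 = _ from (inv_pow w 2).trans hconst)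
    exact hnc s⁻¹ (by rw [map_inv₀, ← hs, inv_inv])
  · exfalso
    have hbp0 : b ^ 2 ≠ 0 := pow_ne_zero _ hb0
    have hbpA : b ^ 2 ∈ A := mem_of_ord hA (Or.inr (by rw [hA.ord_pow hb0]; positivity))
    have hbpr := residue_eq_zero_of_pos hA hbpA (Or.inr (by rw [hA.ord_pow hb0]; positivity))
    obtain ⟨hη, hy⟩ := hw.pow_prime hA hb0 hbp0 hbpos (by
      rw [hA.ord_pow hb0]; push_cast; linarith) (by rw [hA.ord_pow hb0])
    have hcb : (4 : Ω) / b ^ 2 ∈ A := mem_of_ord hA (Or.inr (by
      rw [hA.ord_div hc0 hbp0, hA.ord_pow hb0, ord_four hA]; push_cast; linarith))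
    have hcbr := residue_eq_zero_of_pos hA hcb (Or.inr (by
      rw [hA.ord_div hc0 hbp0, hA.ord_pow hb0, ord_four hA]; push_cast; linarith))
    have hx := Cong.rescale (A := A) hc0 hcb h
    rw [hcbr, zero_smul] at hx
    have h1 := Cong.mul hbpA hbpr hbp0 hx (Cong.inv hbpA hbpr hbp0 hy)
    have hne : (E.side () (a₀ • g)) ^ 2 ≠ 0 := fun h0 =>
      one_ne_zero ((hy.srep_one hbpA hbpr hbp0).unique (h0 ▸ SRep.zero))
    rw [he, mul_assoc, mul_inv_cancel₀ hne, mul_one, Cong, smul_eq_algebraMap_mul,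
      ← map_one (algebraMap Ω (LaurentSeries Ω)), ← map_sub, ← map_mul, zero_add] at h1
    obtain ⟨hr, hr'⟩ := srep_const_iff h1
    rw [show (⟨_, hη⟩ : A) = 1 from Subtype.ext (div_self hbp0), map_one, one_smul,
      neg_eq_iff_eq_neg, ← map_neg] at hr'
    obtain ⟨s, hs⟩ := const_of_pow_const hr'
    exact hnc s hs
  · have hb2 : b / 2 ∈ A := mem_of_ord hA (Or.inr (by
      rw [show (2 : Ω) = ((2 : ℕ) : Ω) by norm_num, hA.ord_div hb0 hA.natCast_ne_zero, hA.ord_p]
      linarith))
    have hw2 : Cong (2 : Ω) (E.side () (a₀ • g)) (residue A ⟨_, hb2⟩ • w) := hw.rescale hb0 hb2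
    have hwG : residue A ⟨_, hb2⟩ • w ∈ E.G :=
      E.srep_mem () ((2 : Ω)⁻¹ • (a₀ • g - 1)) _ (by rw [algHom_smul, map_sub, map_one]; exact hw2)
    have hsq := cong_four_sq hw2
    have h1 := h.mul hcA hcr hc0 (Cong.inv hcA hcr hc0 hsq)
    have hne : (E.side () (a₀ • g)) ^ 2 ≠ 0 := fun h0 =>
      one_ne_zero ((hsq.srep_one hcA hcr hc0).unique (h0 ▸ SRep.zero))
    rw [he, mul_assoc, mul_inv_cancel₀ hne, mul_one, Cong, smul_eq_algebraMap_mul,
      ← map_one (algebraMap Ω (LaurentSeries Ω)), ← map_sub, ← map_mul] at h1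
    obtain ⟨hr, hr'⟩ := srep_const_iff h1
    exact ⟨residue A ⟨_, hr⟩, _, hwG, by rw [← hr']; abel⟩

variable {M : ℕ} [NeZero M] [Fact (2 : ℕ).Prime] [CharP (ResidueField A) 2]
  [IsAlgClosed (ResidueField A)] (S : Setting A M 2)

include S in
/-- A norm of a function regular over the finite part is regular there. -/
theorem ord_alpha_norm_nonneg {z : modularFunctionFieldBar (M * 2)} (hz : z ≠ 0)
    (hreg : ∀ Q, S.polesH Q = 0 → 0 ≤ Q.ord z)
    {P : Place Ω (modularFunctionFieldBar (M * 2))} (hP : S.polesH P = 0) :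
    0 ≤ P.ord (heckeAlphaBar Ω M 2 (normAlong (heckeAlphaBar Ω M 2) z)) := by
  classical
  have := isFunctionField_level M
  have := isFunctionField_level (M * 2)
  have := HeckeJ0.hasPrincipalDivisors_bar (M * 2)
  set α := heckeAlphaBar Ω M 2
  have hint := HeckeJ0.isIntegral_of_isFunctionField α
  rw [Place.ord_restrictAlong α hint P]
  refine mul_nonneg (Int.natCast_nonneg _) ?_
  have h := Congruence.pushforwardAlong_eq_ord α hint (FunctionFieldRR.finiteAlong α)
    (FunctionFieldRR.normFormulaAlong α _) hz (E := dvs (K := Ω) z) (fun w => dvs_apply z w)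
    (P.restrictAlong α hint)
  rw [show normAlong α z = (letI := algebraAlong α; Algebra.norm _ z) from rfl, ← h]
  let := algebraAlong α
  have := isScalarTower_along α
  have := isIntegral_along α hint
  show 0 ≤ Divisor.pushforward (modularFunctionFieldBar M) (dvs (K := Ω) z) _
  rw [Divisor.pushforward_apply]
  refine Finset.sum_nonneg fun Q _ => ?_
  split_ifs with hQ
  · refine mul_nonneg ?_ (Int.natCast_nonneg _)
    rw [dvs_apply]
    refine hreg Q ((S.polesH_eq_zero_iff Q).mpr ?_)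
    have hj : 0 ≤ Q.ord S.jF := by
      have h0 := ((S.polesH_eq_zero_iff P).mp hP).1
      rw [Setting.jF, Place.ord_restrictAlong α hint] at h0 ⊢
      rw [show Q.restrictAlong α hint = P.restrictAlong α hint from hQ]
      refine mul_nonneg (Int.natCast_nonneg _) ?_
      by_contra hneg
      have hpos : (0 : ℤ) < (Place.ramificationIndexAlong α P : ℤ) := by
        have := P.ramificationIndex_pos (F := modularFunctionFieldBar M)
        exact Int.natCast_pos.mpr this
      nlinarith
    exact ⟨hj, by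
      by_contra hneg
      exact absurd ((S.ord_jF_neg_iff Q).mpr (not_le.mp hneg)) (not_lt.mpr hj)⟩
  · exact le_rfl

include S in
/-- A class of level `M` pulled back, congruent to `1` beyond `4`, is trivial. -/
theorem exists_alpha_eq_const_mul_sq {u : modularFunctionFieldBar M} (hu0 : u ≠ 0)
    {D : Divisor Ω (modularFunctionFieldBar M)} (hD : ∀ v, v.ord u = (2 : ℤ) * D v)
    {c : Ω} (hc0 : c ≠ 0) (hc : (2 : ℚ) < ord A 2 c) {v : LaurentSeries (ResidueField A)}
    (h : Cong c (u : LaurentSeries Ω) v) :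
    ∃ (cst : Ω) (f : modularFunctionFieldBar (M * 2)), f ≠ 0 ∧
      heckeAlphaBar Ω M 2 u = algebraMap Ω (modularFunctionFieldBar (M * 2)) cst * f ^ 2 := by
  have hA := isOver_of_setting S
  have := isFunctionField_level M
  have := isFunctionField_level (M * 2)
  have := HeckeJ0.hasPrincipalDivisors_bar (M * 2)
  have := S.isFunctionField_C
  set α := heckeAlphaBar Ω M 2
  set F := α u with hF
  have hF0 : F ≠ 0 := (map_ne_zero α).mpr hu0
  set D' := Divisor.pullbackAlong α (HeckeJ0.alphaIntegral M 2) D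
  have hD' : ∀ P, P.ord F = (2 : ℤ) * D' P := fun P => by
    have h1 := Congruence.pullbackAlong_eq_ord α (HeckeJ0.alphaIntegral M 2)
      (D := (2 : ℤ) • D) (fun v => by rw [Finsupp.smul_apply, smul_eq_mul, hD]) P
    rw [map_zsmul, Finsupp.smul_apply, smul_eq_mul] at h1
    exact h1.symm
  have hcA := mem_of_ord hA (Or.inr (le_of_lt (lt_trans two_pos hc)) : c = 0 ∨ 0 ≤ ord A 2 c)
  have hcr := residue_eq_zero_of_pos hA hcA (Or.inr (lt_trans two_pos hc))
  have hside : ∀ i, Cong c (S.side i F)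
      ((![v, qExpand (ResidueField A) 2 v] : Fin 2 → LaurentSeries (ResidueField A)) i) := fun i => by
    obtain rfl | rfl : i = 0 ∨ i = 1 := by omega
    · rw [(S.side_alpha u).1]; exact h
    · rw [(S.side_alpha u).2]; exact h.qExpand 2
  have h1 : ∀ i, S.gauss.Int i F ∧ S.gauss.red i F = 1 := fun i => S.red_eq (by
    rw [OneMemClass.coe_one]; exact (hside i).srep_one hcA hcr hc0)
  have hdeg : Divisor.degree D' = 0 := by
    have hz : Divisor.degree ((2 : ℤ) • D') = 0 := by
      rw [show (2 : ℤ) • D' = dvs (K := Ω) F from eq_dvs fun P => by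
        rw [Finsupp.smul_apply, smul_eq_mul, hD'], degree_dvs]
    rw [map_zsmul, smul_eq_mul] at hz
    exact (mul_eq_zero.mp hz).resolve_left two_ne_zero
  let R : S.splitModel.Rep 2 :=
    ⟨F, D', hF0, hD', hdeg, fun i => (h1 i).1, fun i => (h1 i).2⟩
  have h2L : ((2 : ℕ) : Ω) ≠ 0 := by norm_num
  have hdu : S.splitModel.DivBy (((2 : ℕ) : Ω) * (c / (2 : ℕ))) (R.u - 1) := fun i => by
    show ∃ w : LaurentSeries (ResidueField A),
      SRep (S.side i ((((2 : ℕ) : Ω) * (c / (2 : ℕ)))⁻¹ • (F - 1))) w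
    refine ⟨(![v, qExpand (ResidueField A) 2 v] : Fin 2 → LaurentSeries (ResidueField A)) i, ?_⟩
    rw [mul_div_cancel₀ _ h2L, S.side_smul, map_sub, map_one]
    exact hside i
  have hdeep : Deep (residue A) 2 (c / (2 : ℕ)) := deep_div_p hA hc0 (by push_cast; linarith)
  have hM := le_refl S.splitModel.evalLevel
  have hone : (1 : modularFunctionFieldBar (M * 2)) ∈
      riemannRochSpace ((S.splitModel.evalLevel : ℤ) • S.splitModel.H) :=
    mem_rrs_iff.mpr (Or.inr fun P => by
      simpa using mul_nonneg (Nat.cast_nonneg S.splitModel.evalLevel) (S.splitModel.H_nonneg P))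
  obtain ⟨φ, hφ, b, hb, hφi, hφr, hφ1, hφd⟩ := exists_deep_approx S.splitModel Nat.prime_two h2L R
    hM S.splitModel.int_one hone hdeep hdu (by
    intro a E hr ha hr0 hE hmem hEp
    rw [imgSpace_twist_eq_glue S.splitModel Nat.prime_two R hM]
    refine ⟨hEp, fun x hx => ?_⟩
    set ψ₀ := normAlong α (1 + (a : Ω) • E) with hψ₀
    set ψ := α ψ₀ with hψ
    have hord : ord A 2 (a : Ω) = 1 := by
      have hne : ((2 : ℕ) : Ω) / (a : Ω) ^ (2 - 1) ≠ 0 := div_ne_zero h2L (pow_ne_zero _ ha)
      have h0 : ord A 2 (((2 : ℕ) : Ω) / (a : Ω) ^ (2 - 1)) = 0 :=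
        le_antisymm (not_lt.mp fun hpos => hr0 (residue_eq_zero_of_pos hA hr (Or.inr hpos)))
          ((hA.mem_iff hne).mp hr)
      rw [hA.ord_div h2L (pow_ne_zero _ ha), hA.ord_pow ha, hA.ord_p] at h0
      norm_num at h0
      linarith
    have har := residue_eq_zero_of_pos hA a.2 (Or.inr (by rw [hord]; norm_num))
    -- reductions of `E`
    have hEs : ∀ i, Cong (a : Ω) (S.side i (1 + (a : Ω) • E))
        ((S.gauss.red i E : modularFunctionFieldFullC (ResidueField A) M) :
          LaurentSeries (ResidueField A)) := fun i => by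
      rw [Cong, map_add, map_one, add_sub_cancel_left, S.side_smul, inv_smul_smul₀ ha]
      exact S.srep_red (hE i)
    set E0 : modularFunctionFieldFullC (ResidueField A) M := S.gauss.red 0 E
    have hψ0 := cong_normAlpha S a.2 har ha hEs
    have hψs : ∀ i, Cong (a : Ω) (S.side i ψ)
        ((Setting.alphaVal E0 i : modularFunctionFieldFullC (ResidueField A) M) :
          LaurentSeries (ResidueField A)) := fun i => by
      obtain rfl | rfl : i = 0 ∨ i = 1 := by omega
      · rw [(S.side_alpha ψ₀).1]; exact hψ0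
      · rw [(S.side_alpha ψ₀).2]; exact hψ0.qExpand 2
    -- the difference in the cube of the twist
    set φ := 1 + (a : Ω) • E
    set δ := (a : Ω)⁻¹ • (φ ^ 3 - ψ) with hδ
    have hδr : ∀ i, S.gauss.Int i δ ∧ S.gauss.red i δ =
        3 • S.gauss.red i E - Setting.alphaVal E0 i := fun i => S.red_eq (by
      rw [hδ, S.side_smul, map_sub, map_pow, AddSubgroupClass.coe_sub, AddSubmonoidClass.coe_nsmul,
        show S.side i φ ^ 3 - S.side i ψ = (S.side i φ ^ 3 - 1) - (S.side i ψ - 1) by abel, smul_sub]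
      exact (Cong.pow a.2 har ha (hEs i) 3).sub (hψs i))
    have hz0 : φ ≠ 0 := fun h0 => by
      have := (hEs 0).srep_one a.2 har ha
      rw [h0, map_zero] at this
      exact one_ne_zero (this.unique SRep.zero)
    have hψ00 : ψ₀ ≠ 0 := HeckeJ0.normAlong_ne_zero (HeckeJ0.alphaFinite M 2) hz0
    have hψne : ψ ≠ 0 := (map_ne_zero α).mpr hψ00
    let R3 := (R.mul R).mul R
    set K := 3 * S.splitModel.evalLevel +
      ((dvs (K := Ω) ψ + R3.D).support.sum fun P => ((dvs (K := Ω) ψ + R3.D) P).natAbs) with hK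
    have hφ3 : φ ^ 3 ∈ S.splitModel.twist R3 K := by
      rw [pow_succ, pow_two]
      exact S.splitModel.twist_mono R3 (by omega)
        (S.splitModel.mul_mem_twist (S.splitModel.mul_mem_twist hmem hmem) hmem)
    have hψK : ψ ∈ S.splitModel.twist R3 K := by
      refine mem_rrs_iff.mpr (Or.inr fun P => ?_)
      simp only [Finsupp.add_apply, Finsupp.smul_apply, smul_eq_mul]
      rcases (S.splitModel.H_nonneg P).eq_or_lt with h0 | hpos
      · rw [← h0, mul_zero, add_zero]
        have hzreg : ∀ Q, S.polesH Q = 0 → 0 ≤ Q.ord (φ ^ 2 * F) := fun Q hQ => by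
          have h3 := (mem_rrs_iff.mp hmem).resolve_left hz0 Q
          simp only [Finsupp.add_apply, Finsupp.smul_apply, smul_eq_mul] at h3
          rw [show S.splitModel.H Q = 0 from hQ, mul_zero, add_zero] at h3
          rw [Q.ord_mul (pow_ne_zero _ hz0) hF0, ord_pow, hD']
          change 0 ≤ (2 : ℕ) * Q.ord φ + 2 * R.D Q
          push_cast; linarith
        have hN := ord_alpha_norm_nonneg S (mul_ne_zero (pow_ne_zero 2 hz0) hF0) hzreg
          (P := P) h0.symm
        have hNF : normAlong α (φ ^ 2 * F) = ψ₀ ^ 2 * u ^ 3 := by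
          have hdeg' := Congruence.finrankAlong_heckeAlphaBar (N := M) qbarToComplex S.prime S.not_dvd
          let := algebraAlong α
          show Algebra.norm _ (φ ^ 2 * α u) = _
          rw [map_mul, map_pow,
            show Algebra.norm (modularFunctionFieldBar M) (α u) = u ^ 3 by
              rw [show (3 : ℕ) = 2 + 1 from rfl, ← hdeg']; exact Algebra.norm_algebraMap u]
          rfl
        rw [hNF, map_mul, map_pow, map_pow, ← hF, ← hψ,
          P.ord_mul (pow_ne_zero _ hψne) (pow_ne_zero _ hF0), ord_pow, ord_pow, hD'] at hN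
        have hR3 : R3.D P = D' P + D' P + D' P := rfl
        rw [hR3]
        push_cast at hN
        linarith
      · set G := dvs (K := Ω) ψ + R3.D with hG
        have hle : -(G P) ≤ (K : ℤ) := by
          by_cases hP : P ∈ G.support
          · have h4 := Finset.single_le_sum (f := fun P => (G P).natAbs)
              (fun _ _ => Nat.zero_le _) hP
            have h4' : (G P).natAbs ≤ K := le_trans h4 (by rw [hK]; exact Nat.le_add_left _ _)
            omega
          · rw [Finsupp.notMem_support_iff.mp hP, neg_zero]; exact Int.natCast_nonneg _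
        have h5 : (K : ℤ) ≤ (K : ℤ) * S.splitModel.H P :=
          le_mul_of_one_le_right (Int.natCast_nonneg _) (by omega)
        rw [hG, Finsupp.add_apply, dvs_apply] at hle
        linarith
    have himg : S.splitModel.red2 δ ∈ S.splitModel.imgSpace (S.splitModel.twist R3 K) :=
      ⟨δ, Submodule.smul_mem _ _ (sub_mem hφ3 hψK), fun i => (hδr i).1, rfl⟩
    rw [imgSpace_twist_eq_glue S.splitModel Nat.prime_two R3 (by omega)] at himg
    -- the graph of `piG` is glued
    obtain ⟨m, hm⟩ := Submodule.mem_pi.mp hEp 0 trivial |> fun h => (⟨_, h⟩ :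
      ∃ m : ℕ, E0 ∈ riemannRochSpace ((m : ℤ) • S.splitModel.C))
    have hgr := (S.splitModel.mem_pairs.mp hx).2.2 _ (S.splitModel.reach_graph hm 0)
    have hpair : (fun j : Fin 2 => if j = 0 then E0 else S.splitModel.pf E0) =
        fun j => Setting.alphaVal E0 j := funext fun j => by
      obtain rfl | rfl : j = 0 ∨ j = 1 := by omega
      · simp [Setting.alphaVal]
      · simp [Setting.alphaVal]; rfl
    rw [hpair] at hgr
    have hδe : S.splitModel.red2 δ = S.splitModel.red2 E - fun j => Setting.alphaVal E0 j := by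
      have := charP_of_injective_algebraMap (algebraMap (ResidueField A)
        (modularFunctionFieldFullC (ResidueField A) M)).injective 2
      funext i
      refine (hδr i).2.trans ?_
      rw [show (3 : ℕ) • S.gauss.red i E = S.gauss.red i E by
        rw [nsmul_eq_mul, show ((3 : ℕ) : modularFunctionFieldFullC (ResidueField A) M) = 1 by
          rw [show (3 : ℕ) = 2 + 1 from rfl, Nat.cast_add, CharP.cast_eq_zero, zero_add, Nat.cast_one],
          one_mul]]
      rfl
    have hreach : ∀ z : Fin 2 → modularFunctionFieldFullC (ResidueField A) M,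
        z ∈ S.splitModel.pairSpace K → ∀ i : Fin 2, VanishesTo (![x.1, x.2] i) 0 (z i) := fun z hz i => by
      obtain rfl | rfl : i = 0 ∨ i = 1 := by omega
      · exact S.splitModel.regular_of_mem_pairSpace hz 0 (S.splitModel.mem_pairs.mp hx).1
      · exact S.splitModel.regular_of_mem_pairSpace hz 1 (S.splitModel.mem_pairs.mp hx).2.1
    have hev := himg.2 x hx
    simp only [SplitModel.ev, hδe, Pi.sub_apply] at hev hgr ⊢
    have hsub : ∀ (P : Place (ResidueField A) (modularFunctionFieldFullC (ResidueField A) M))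
        (f g : modularFunctionFieldFullC (ResidueField A) M), VanishesTo P 0 f → VanishesTo P 0 g →
          residueConst P (f - g) = residueConst P f - residueConst P g := fun P f g hf hg => by
      have h6 := residueConst_add (hf.sub hg) hg
      rw [sub_add_cancel] at h6
      exact eq_sub_of_add_eq h6.symm
    have hgl : (fun j => Setting.alphaVal E0 j) ∈ S.splitModel.pairSpace K := by
      have h7 : S.splitModel.red2 E - S.splitModel.red2 δ ∈
          S.splitModel.pairSpace K := sub_mem (S.splitModel.pairSpace_mono (by omega) hEp) himg.1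
      rwa [hδe, sub_sub_cancel] at h7
    have hEK := S.splitModel.pairSpace_mono (show S.splitModel.evalLevel ≤ K by omega) hEp
    rw [hsub x.1 _ _ (hreach _ hEK 0) (hreach _ hgl 0), hsub x.2 _ _ (hreach _ hEK 1) (hreach _ hgl 1),
      hgr, sub_left_inj] at hev
    exact hev)
  refine eq_const_mul_pow_of_approx S.splitModel Nat.prime_two h2L R hdeep hdu hM hφ hφi
    (fun i => (congrFun hφr i).trans (S.splitModel.red_one i)) hb hφ1 ?_
  simpa using hφd

include S in
/-- **The core at `2`, good level.** -/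
theorem frobenius_smul_eq_of_mem_goodKilled {x : JZero M} (hx : x ∈ goodKilled S 2)
    (hI : ∀ σ ∈ A.inertiaSubgroupIn ℚ, σ • x = x) (hT : heckeOperatorAlong Ω M 2 x = x)
    {φ : Ω ≃ₐ[ℚ] Ω} (hφ : A.IsFrobeniusAt φ 2) : φ • x = x := by
  have hA := isOver_of_setting S
  have hp := hA.prime
  have := isFunctionField_level M
  have := isFunctionField_level (M * 2)
  have := HeckeJ0.hasPrincipalDivisors_bar M
  have := S.isFunctionField_C
  have := charP_of_injective_algebraMap
    (algebraMap (ResidueField A) (LaurentSeries (ResidueField A))).injective 2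
  obtain ⟨hcA, hcr⟩ := four_props hA
  have h40 : (4 : Ω) ≠ 0 := by norm_num
  set Φ := stabFixer A x
  have hpx : 2 • x = 0 := by
    obtain ⟨w, ⟨hw0, D, rfl, hD⟩, -⟩ := hx
    refine (QuotientAddGroup.eq_zero_iff (2 • D)).mpr ?_
    rw [AddSubgroup.mem_addSubgroupOf]
    exact ⟨w, hw0, fun P => by rw [hD]; simp⟩
  obtain ⟨u₀, hu₀f, hu₀⟩ := exists_fixed_function Φ two_ne_zero x hpx fun σ hσ =>
    MulAction.mem_stabilizer_iff.mp hσ.2
  set E := levelExp S
  set G := modularFunctionFieldFullC (ResidueField A) M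
  obtain ⟨a, ha, ha0, v, hv, hv0, hva⟩ := E.exists_scale Φ hA hu₀f hu₀.1 ()
  obtain ⟨hint, hred⟩ := S.red_eq (i := 0) (f := a • heckeAlphaBar Ω M 2 u₀)
    (v := ⟨v, hv⟩) (by rw [S.side_smul, (S.side_alpha u₀).1]; exact hva)
  obtain ⟨y, hy0, hy⟩ := ((mem_goodKilled_iff S hu₀).mp hx).exists_red_eq two_ne_zero (c := a)
    hint (fun h0 => hv0 (congrArg Subtype.val (hred.symm.trans h0)))
  have hvy : v = (y : LaurentSeries (ResidueField A)) ^ 2 :=
    congrArg Subtype.val (hred.symm.trans hy)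
  obtain ⟨u₂, hu₂, hu₂1⟩ := exists_srep_one E Φ (InClass.smul_const ⟨hu₀f, hu₀⟩ ha ha0)
    (fun _ => y) (fun _ => hy0) fun _ => by rw [← hvy, algHom_smul]; exact hva
  -- the ratio `T u / u`
  have hratio : ∀ u, InClass Φ 2 x u → ∃ (a : Ω) (g : modularFunctionFieldBar M),
      Φ.FFixed g ∧ g ≠ 0 ∧ heckeFun M 2 u * u⁻¹ = a • g ^ 2 := by
    intro u hu
    have h' := isFunctionOf_heckeFun (ℓ := 2) hu.2
    rw [hT] at h'
    obtain ⟨a, g, -, hg, he⟩ := hu.2.exists_eq h'
    have hf : Φ.FFixed (heckeFun M 2 u * u⁻¹) := Fixer.FFixed.mul Φ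
      (fun σ hσ => by rw [← heckeFun_galois, hu.1 σ hσ]) (hu.1.inv Φ)
    exact exists_fixed_root Φ two_ne_zero hf (mul_ne_zero h'.1 (inv_ne_zero hu.ne_zero))
      ⟨a, g, hg, by rw [he, mul_inv_cancel_right₀ hu.ne_zero]⟩
  have hcongT : ∀ {c : Ω} (hcA : c ∈ A) (hcr : residue A ⟨c, hcA⟩ = 0) (hc0 : c ≠ 0)
      {u : modularFunctionFieldBar M} {w : LaurentSeries (ResidueField A)},
      Cong c (u : LaurentSeries Ω) w → ∀ {a : Ω} {g : modularFunctionFieldBar M},
      heckeFun M 2 u * u⁻¹ = a • g ^ 2 →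
      Cong c (E.side () (a • g ^ 2)) (qExpand (ResidueField A) 2 w - w) := by
    intro c hcA hcr hc0 u w hw a g he
    rw [← he, map_mul, map_inv₀, sub_eq_add_neg]
    exact Cong.mul hcA hcr hc0 (cong_heckeFun_self S hcA hcr hc0 hw) (Cong.inv hcA hcr hc0 hw)
  -- climbing up to `4`
  obtain ⟨u, c, w, hu, hcF, hc0, hc, hw⟩ := exists_atLeast E Φ hA
    (fun u c v hu hcF hc0 hc hcrit hv => by
      have hcA := mem_of_ord hA (Or.inr hc.le)
      have hcr := residue_eq_zero_of_pos hA hcA (Or.inr hc)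
      obtain ⟨a, g, hg, hg0, he⟩ := hratio u hu
      rcases shape_of_const_mul_pow E Φ hA hg hg0 hc0 hc hcrit
          (hcongT hcA hcr hc0 (hv ()) he) with ⟨r, hr⟩ | ⟨⟨b, hb, hb0, hbc⟩, z, hz, hze⟩
      · obtain ⟨s, hs⟩ := const_of_qExpand_sub (q := 2) one_lt_two (m := 1) one_ne_zero
          (by rw [Function.iterate_one]; exact hr)
        exact absorb_const E Φ hA hu hcF hc0 hc (r := s) fun i => by rw [← hs]; exact hv i
      · refine absorb_pow E Φ hA hu hb hb0 hbc hc0 hc hcrit
          (fun _ => ((frobFull (ResidueField A) M 2).symm (v ()) - ⟨z, hz⟩ : G)) fun i => ?_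
        have hvp : qExpand (ResidueField A) 2 (v () : LaurentSeries (ResidueField A)) =
            ((frobFull (ResidueField A) M 2).symm (v ()) : LaurentSeries (ResidueField A)) ^ 2 := by
          rw [← SubmonoidClass.coe_pow, ← piG_eq_pow, coe_piG]
        rw [AddSubgroupClass.coe_sub, sub_pow_char, ← hvp, ← hze, sub_sub_cancel]
        exact hv i)
    hu₂ hu₂1
  push_cast at hc
  have hc4 : c / 4 ∈ A := mem_of_ord hA (Or.inr (by
    rw [hA.ord_div hc0 h40, ord_four hA]; linarith))
  have h4u := Cong.rescale (A := A) hc0 hc4 (hw ())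
  set h := residue A ⟨_, hc4⟩ • w () with hh
  have hhG : h ∈ E.G := E.srep_mem () ((4 : Ω)⁻¹ • (u - 1)) h (by
    rw [algHom_smul, map_sub, map_one]; exact h4u)
  obtain ⟨a₁, g₁, hg₁, hg₁0, he₁⟩ := hratio u hu
  obtain ⟨r, z, hz, hrz⟩ := shape_critical_two E Φ hA hg₁ hg₁0 (hcongT hcA hcr h40 h4u he₁)
  -- `φ x - x`
  obtain ⟨hs, hact⟩ := hφ
  set F := coeffMap (frobenius (ResidueField A) 2) with hF
  set uy := arithmeticGalois (L := Ω) (modularFunctionFieldFull M) φ • u * u⁻¹ with huy
  have huyc : InClass Φ 2 (φ • x - x) uy := by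
    refine And.intro (Fixer.FFixed.mul Φ (fun σ hσ => ?_) (hu.1.inv Φ))
      (by rw [sub_eq_add_neg]; exact hu.2.smul.mul hu.2.inv)
    have hσ' : φ⁻¹ * σ * φ ∈ Φ.H := by
      have hconj := TameInertia.inertia_normal_in_decomposition (inv_mem hs) hσ.1
      rw [inv_inv] at hconj
      exact ⟨hconj, MulAction.mem_stabilizer_iff.mpr (hI _ hconj)⟩
    rw [← mul_smul, ← map_mul, show σ * φ = φ * (φ⁻¹ * σ * φ) by group, map_mul, mul_smul,
      hu.1 _ hσ']
  have hgu : Cong (4 : Ω) (E.side () (arithmeticGalois (L := Ω) (modularFunctionFieldFull M) φ • u)) (F h) := by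
    have hm := SRep.map (φ : Ω →+* Ω) (Congruence.actRingHom A hs) (fun a => rfl)
      (frobenius (ResidueField A) 2)
      (fun a => (ResidueField.residue_smul _ (⟨φ, hs⟩ : A.decompositionSubgroup ℚ) a).trans (hact _))
      h4u
    rw [smul_eq_algebraMap_mul, map_mul, coeffMap_algebraMap, map_sub, map_one, RingHom.coe_coe,
      map_inv₀, map_ofNat, ← E.side_galois, ← smul_eq_algebraMap_mul] at hm
    exact hm
  have huy4 : Cong (4 : Ω) (E.side () uy) (F h + -h) := by
    rw [huy, map_mul, map_inv₀]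
    exact Cong.mul hcA hcr h40 hgu (Cong.inv hcA hcr h40 h4u)
  -- the first-order term is `z + z ^ 2` up to a constant
  set r' := frobenius (ResidueField A) 2 r with hr'
  have hzG : h + F z ∈ E.G := add_mem hhG (Congruence.coeffMap_mem_fullC _ hz)
  have hFh : F h + -h = algebraMap (ResidueField A) _ r' + ((h + F z) + (h + F z) ^ 2) := by
    have h2 := congrArg F hrz
    rw [map_sub, map_add, map_add, map_pow, hF, coeffMap_algebraMap, ← hr', coeffMap_qExpand,
      ← Congruence.laurent_pow_char, ← hF] at h2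
    have htwo : (2 : LaurentSeries (ResidueField A)) = 0 := CharTwo.two_eq_zero
    rw [add_pow_char]
    linear_combination -h2 + (- h - algebraMap (ResidueField A) _ r' - F z - F z ^ 2) * htwo
  -- absorb
  obtain ⟨f, hf, hfr⟩ := E.lift fun _ => (⟨_, hzG⟩ : E.G)
  obtain ⟨s, hsr, hsfix⟩ := exists_lift_fixed hA r'
  set d := 1 + (4 : Ω) * (s : Ω) with hd
  set g := 1 + (2 : Ω) • f with hgdef
  have hg2 : Cong (4 : Ω) (E.side () (g ^ 2)) ((h + F z) + (h + F z) ^ 2) := by
    rw [map_pow]
    refine cong_four_sq ?_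
    rw [Cong, hgdef, map_add, map_one, add_sub_cancel_left, algHom_smul,
      inv_smul_smul₀ (by norm_num : (2 : Ω) ≠ 0)]
    exact hfr ()
  have hdmem : (4 : Ω)⁻¹ * (d - 1) ∈ A := by
    rw [hd, add_sub_cancel_left, inv_mul_cancel_left₀ h40]; exact s.2
  have hdc := Cong.const (A := A) (c := (4 : Ω)) hdmem
  rw [show (⟨_, hdmem⟩ : A) = s from Subtype.ext (by
    show (4 : Ω)⁻¹ * (d - 1) = (s : Ω)
    rw [hd, add_sub_cancel_left, inv_mul_cancel_left₀ h40]), hsr] at hdc
  have hd0 : d ≠ 0 := fun h0 => by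
    have h1 := hdc.srep_one hcA hcr h40
    rw [h0, map_zero] at h1
    exact one_ne_zero (h1.unique SRep.zero)
  have hg0 : g ≠ 0 := fun h0 => by
    have h1 := hg2.srep_one hcA hcr h40
    rw [h0, zero_pow two_ne_zero, map_zero] at h1
    exact one_ne_zero (h1.unique SRep.zero)
  have hgf : Φ.FFixed g := Fixer.FFixed.add Φ (Fixer.ffixed_one Φ)
    (Fixer.FFixed.smul Φ (by exact_mod_cast natCast_mem Φ.field 2) fun σ hσ => hf σ (Φ.le_inertia hσ))
  set u₃ := d⁻¹ • (uy * g⁻¹ ^ 2) with hu₃
  have hu₃c : InClass Φ 2 (φ • x - x) u₃ :=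
    (huyc.mul_pow (hgf.inv Φ) (inv_ne_zero hg0)).smul_const
      (inv_mem (add_mem (one_mem _) (mul_mem (by exact_mod_cast natCast_mem Φ.field 4)
        fun σ hσ => hsfix σ (Φ.le_inertia hσ)))) (inv_ne_zero hd0)
  have hu₃4 : Cong (A := A) (4 : Ω) (E.side () u₃) 0 := by
    have h1 := Cong.mul hcA hcr h40 (Cong.inv hcA hcr h40 hdc)
      (Cong.mul hcA hcr h40 huy4 (Cong.inv hcA hcr h40 hg2))
    rw [hu₃, algHom_smul, smul_eq_algebraMap_mul, map_mul, map_pow, map_inv₀, map_inv₀, inv_pow]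
    rw [map_pow] at h1
    rwa [hFh, show ∀ p q : LaurentSeries (ResidueField A), -p + (p + q + -q) = 0 from
      fun p q => by abel] at h1
  refine sub_eq_zero.mp ?_
  by_cases h31 : u₃ = 1
  · exact eq_zero_of_const_mul_pow two_ne_zero hu₃c.2 (g := 1) (a := 1) one_ne_zero (by simp [h31])
  obtain ⟨c', -, hc'0, hlt, v', hv', -, -⟩ := E.exists_deeper Φ hA hu₃c.1 h31 h40 fun _ => hu₃4
  rw [ord_four hA] at hlt
  obtain ⟨-, hu30, D, hD, hD'⟩ := hu₃c
  obtain ⟨cst, f', hf'0, hf'⟩ := exists_alpha_eq_const_mul_sq S hu30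
    (D := (D : Divisor Ω (modularFunctionFieldBar M))) hD' hc'0 hlt (hv' ())
  have hdeg := Congruence.finrankAlong_heckeAlphaBar (N := M) qbarToComplex S.prime S.not_dvd
  have hN : u₃ ^ 3 = algebraMap Ω (modularFunctionFieldBar M) (cst ^ 3) *
      normAlong (heckeAlphaBar Ω M 2) f' ^ 2 := by
    let := algebraAlong (heckeAlphaBar Ω M 2)
    have h1 : Algebra.norm (modularFunctionFieldBar M) (heckeAlphaBar Ω M 2 u₃) = u₃ ^ 3 := by
      rw [show (3 : ℕ) = 2 + 1 from rfl, ← hdeg]; exact Algebra.norm_algebraMap u₃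
    have h2 : Algebra.norm (modularFunctionFieldBar M)
        (algebraMap Ω (modularFunctionFieldBar (M * 2)) cst) =
          algebraMap Ω (modularFunctionFieldBar M) (cst ^ 3) := by
      rw [map_pow, show (3 : ℕ) = 2 + 1 from rfl, ← hdeg, ← (heckeAlphaBar Ω M 2).commutes cst]
      exact Algebra.norm_algebraMap _
    rw [← h1, hf', map_mul, map_pow, h2]
    rfl
  refine eq_zero_of_const_mul_pow two_ne_zero (g := normAlong (heckeAlphaBar Ω M 2) f' * u₃⁻¹)
    (a := cst ^ 3) (⟨hu30, D, hD, hD'⟩ : IsFunctionOf 2 (φ • x - x) u₃)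
    (mul_ne_zero (HeckeJ0.normAlong_ne_zero (HeckeJ0.alphaFinite M 2) hf'0) (inv_ne_zero hu30)) ?_
  rw [mul_pow, ← mul_assoc, ← hN, inv_pow, pow_succ', mul_inv_cancel_right₀ (pow_ne_zero _ hu30)]

end Fermat.Agent.OrdinaryT

end
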