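import Fermat.Agent.OrdinaryT.CoreTools
import Fermat.Agent.OrdinaryT.HeckeSide

/-!
# The kernel of reduction at level `M p`, and its core on the new part

`newKilled S n` consists of the classes of `J₀(M p)` whose functions reduce on both components to
constants times `n`-th powers. A `p`-torsion class in it which is killed by both norms, fixed by an
inertia element moving `p`-th roots of unity and periodic under `T_ℓ - (ℓ + 1)` vanishes.
-/

set_option linter.unusedSectionVars false

noncomputable section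

open IsLocalRing ModularCurve AlgebraicCurve HahnSeries
open Fermat.Agent.Reduction Fermat.Agent.FunctionFieldRR Fermat.Agent.SemistableRed

namespace Fermat.Agent.OrdinaryT

open FlatJ0

local notation "Ω" => AlgebraicClosure ℚ

variable {A : ValuationSubring Ω} {M p : ℕ} [NeZero M] [NeZero p] [Fact p.Prime]
  [CharP (ResidueField A) p] [IsAlgClosed (ResidueField A)] (S : Setting A M p)

/-- The classes whose functions reduce to constants times `n`-th powers on both components. -/
def newKilled (n : ℕ) : AddSubgroup (JZero (M * p)) where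
  carrier := {x | ∃ u, IsFunctionOf n x u ∧ ∀ i, PowRed S.splitModel i n u}
  zero_mem' := by
    have := isFunctionField_level (M * p)
    have := S.isFunctionField_C
    exact ⟨1, isFunctionOf_one, fun _ => powRed_one⟩
  add_mem' := by
    have := isFunctionField_level (M * p)
    have := S.isFunctionField_C
    rintro x y ⟨u, hu, hu'⟩ ⟨v, hv, hv'⟩
    exact ⟨u * v, hu.mul hv, fun i => (hu' i).mul (hv' i)⟩
  neg_mem' := by
    have := isFunctionField_level (M * p)
    have := S.isFunctionField_C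
    rintro x ⟨u, hu, hu'⟩
    exact ⟨u⁻¹, hu.inv, fun i => (hu' i).inv⟩

theorem mem_newKilled_iff {n : ℕ} {x : JZero (M * p)} {u : modularFunctionFieldBar (M * p)}
    (hu : IsFunctionOf n x u) :
    x ∈ newKilled S n ↔ ∀ i, PowRed S.splitModel i n u := by
  have := isFunctionField_level (M * p)
  have := S.isFunctionField_C
  refine ⟨fun ⟨v, hv, hv'⟩ i => ?_, fun h => ⟨u, hu, h⟩⟩
  obtain ⟨a, g, ha, hg, he⟩ := hu.exists_eq hv
  exact (powRed_iff_of_eq (S := S.splitModel) ha hg he).mp (hv' i)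

/-- A fixed representative of a class in the kernel reduces to `1` after `T_ℓ - (ℓ + 1)`. -/
theorem exists_srep_one_new {ℓ : ℕ} [Fact ℓ.Prime] (hℓ : ¬ ℓ ∣ M * p) (Φ : Fixer A)
    {x : JZero (M * p)} (hx : x ∈ newKilled S p) (hfixer : ∀ σ ∈ Φ.H, σ • x = x) :
    ∃ u, InClass Φ p (heckeOperatorAlong Ω (M * p) ℓ x - (ℓ + 1) • x) u ∧
      ∀ i, SRep (A := A) (S.side i u) 1 := by
  have hA := isOver_of_setting S
  have hp := hA.prime
  have := isFunctionField_level (M * p)
  have := HeckeJ0.hasPrincipalDivisors_bar (M * p)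
  have := S.isFunctionField_C
  have hpx : p • x = 0 := by
    obtain ⟨w, ⟨hw0, D, rfl, hD⟩, -⟩ := hx
    refine (QuotientAddGroup.eq_zero_iff (p • D)).mpr ?_
    rw [AddSubgroup.mem_addSubgroupOf]
    exact ⟨w, hw0, fun P => by rw [hD]; simp⟩
  obtain ⟨u₀, hu₀f, hu₀⟩ := exists_fixed_function Φ hp.ne_zero x hpx hfixer
  set E := pairExp S
  have hkill := (mem_newKilled_iff S hu₀).mp hx
  have hside : ∀ i, ∃ (a : Ω) (y : E.G), a ≠ 0 ∧ y ≠ 0 ∧
      SRep (a • E.side i u₀) ((y : LaurentSeries (ResidueField A)) ^ p) := fun i => by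
    obtain ⟨-, c, y, hy0, hint, hred⟩ := hkill i
    refine ⟨c, y, fun hc => ?_, hy0, ?_⟩
    · rw [hc, zero_smul] at hred
      have : S.splitModel.red i (0 : modularFunctionFieldBar (M * p)) = 0 := S.splitModel.red_zero i
      exact pow_ne_zero p hy0 (hred.symm.trans this)
    · have h1 := S.srep_red hint
      rw [S.side_smul] at h1
      have h2 : (S.gauss.red i (c • u₀) : LaurentSeries (ResidueField A)) =
          (y : LaurentSeries (ResidueField A)) ^ p := congrArg Subtype.val hred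
      rwa [h2] at h1
  choose a y ha hy hay using hside
  obtain ⟨f, hf, hfr⟩ := E.lift y
  have hy' : ∀ i, (y i : LaurentSeries (ResidueField A)) ≠ 0 := fun i h0 => hy i (Subtype.ext h0)
  have hf0 : f ≠ 0 := fun h0 => by
    have h1 := hfr 0
    rw [h0, map_zero] at h1
    exact hy' 0 (h1.unique SRep.zero)
  have hu₁ : InClass Φ p x (u₀ * f⁻¹ ^ p) :=
    InClass.mul_pow ⟨hu₀f, hu₀⟩ (Fixer.FFixed.inv Φ fun σ hσ => hf σ (Φ.le_inertia hσ))
      (inv_ne_zero hf0)
  refine ⟨heckeNorm (M * p) ℓ (u₀ * f⁻¹ ^ p), ⟨fun σ hσ => ?_, isFunctionOf_heckeNorm hu₁.2⟩,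
    fun i => srep_one_heckeNorm S hℓ (ha i) ?_⟩
  · rw [heckeNorm_galois, hu₁.1 σ hσ]
  · have h1 := (hay i).mul (((hfr i).inv (hy' i)).pow p)
    rw [← map_inv₀, ← map_pow (E.side i), smul_eq_algebraMap_mul, mul_assoc, ← map_mul (E.side i),
      ← smul_eq_algebraMap_mul,
      inv_pow (y i : LaurentSeries (ResidueField A)),
      mul_inv_cancel₀ (pow_ne_zero _ (hy' i))] at h1
    exact h1

theorem inClass_iterate {ℓ : ℕ} [Fact ℓ.Prime] (Φ : Fixer A) {z : JZero (M * p)}
    {u : modularFunctionFieldBar (M * p)} (hu : InClass Φ p z u) (i : ℕ) :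
    InClass Φ p ((fun y => heckeOperatorAlong Ω (M * p) ℓ y - (ℓ + 1) • y)^[i] z)
      ((heckeNorm (M * p) ℓ)^[i] u) := by
  induction i with
  | zero => rw [Function.iterate_zero_apply, Function.iterate_zero_apply]; exact hu
  | succ i ih =>
    rw [Function.iterate_succ_apply', Function.iterate_succ_apply']
    refine And.intro (fun σ hσ => ?_) (isFunctionOf_heckeNorm ih.2)
    rw [heckeNorm_galois, ih.1 σ hσ]

theorem srep_one_iterate {ℓ : ℕ} [Fact ℓ.Prime] (hℓ : ¬ ℓ ∣ M * p)
    {u : modularFunctionFieldBar (M * p)} {k : Fin 2} (h : SRep (A := A) (S.side k u) 1) (i : ℕ) :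
    SRep (A := A) (S.side k ((heckeNorm (M * p) ℓ)^[i] u)) 1 := by
  induction i with
  | zero => rw [Function.iterate_zero_apply]; exact h
  | succ i ih =>
    rw [Function.iterate_succ_apply']
    refine srep_one_heckeNorm S hℓ one_ne_zero ?_
    rw [one_smul]; exact ih

theorem cong_zero_iterate {ℓ : ℕ} [Fact ℓ.Prime] (hℓ : ¬ ℓ ∣ M * p)
    {u : modularFunctionFieldBar (M * p)} {k : Fin 2} {c : Ω} (hcA : c ∈ A)
    (hcr : residue A ⟨c, hcA⟩ = 0) (hc0 : c ≠ 0) (h : Cong (A := A) c (S.side k u) 0) (i : ℕ) :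
    Cong (A := A) c (S.side k ((heckeNorm (M * p) ℓ)^[i] u)) 0 := by
  induction i with
  | zero => rw [Function.iterate_zero_apply]; exact h
  | succ i ih =>
    rw [Function.iterate_succ_apply']
    refine cong_heckeNorm_const S hℓ hcA hcr hc0 (r := 0) ?_
    rw [map_zero]; exact ih

/-- The core at level `M p`. -/
theorem eq_zero_of_mem_newKilled {x : JZero (M * p)} (hx : x ∈ newKilled S p) {σ₀ : Ω ≃ₐ[ℚ] Ω}
    (hσ₀ : σ₀ ∈ A.inertiaSubgroupIn ℚ) (hfix : σ₀ • x = x)
    (hω : ∃ ζ : Ω, ζ ^ p = 1 ∧ σ₀ ζ ≠ ζ) (hnorm : ∀ b, normMaps M p b x = 0)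
    {ℓ : ℕ} [Fact ℓ.Prime] (hℓ : ¬ ℓ ∣ M * p) {m : ℕ} (hm : m ≠ 0)
    (hT : (fun z => heckeOperatorAlong Ω (M * p) ℓ z - (ℓ + 1) • z)^[m] x = x) : x = 0 := by
  classical
  have hA := isOver_of_setting S
  have hp := hA.prime
  have := isFunctionField_level M
  have := isFunctionField_level (M * p)
  have := HeckeJ0.hasPrincipalDivisors_bar (M * p)
  have := S.isFunctionField_C
  obtain ⟨ζ, hζ1, hσζ⟩ := hω
  have hζ := isPrimitiveRoot_of_ne hp hζ1 hσζ
  set Φ := stabFixer A x
  have hσH : σ₀ ∈ Φ.H := ⟨hσ₀, MulAction.mem_stabilizer_iff.mpr hfix⟩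
  set E := pairExp S
  obtain ⟨u₁, hu₁, hu₁s⟩ := exists_srep_one_new S hℓ Φ hx fun σ hσ =>
    MulAction.mem_stabilizer_iff.mp hσ.2
  obtain ⟨j, rfl⟩ : ∃ j, m = j + 1 := ⟨m - 1, by omega⟩
  have hu₂ := inClass_iterate (ℓ := ℓ) Φ hu₁ j
  have hu₂s := fun k => srep_one_iterate S hℓ (hu₁s k) j
  rw [Function.iterate_succ_apply] at hT
  rw [hT] at hu₂
  -- climbing
  obtain ⟨u, c, w, hu, hc0, hc, hw⟩ := exists_beyond E Φ hA
    (fun c hc hc0 => ord_ne_critical hA hσ₀ hζ hσζ hc0 (hc σ₀ hσH))
    (fun u c v hu hcF hc0 hc hcrit hv => by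
      have hcA := mem_of_ord hA (Or.inr hc.le)
      have hcr := residue_eq_zero_of_pos hA hcA (Or.inr hc)
      -- the two norms
      have hnorms : ∀ (b : Bool) (N : modularFunctionFieldBar M), Φ.FFixed N →
          IsFunctionOf p (normMaps M p b x) N → ∀ r : LaurentSeries (ResidueField A),
          Cong c (N : LaurentSeries Ω) r →
            Shape Φ p (levelExp S).G c r := by
        intro b N hN hNc r hr
        rw [hnorm b] at hNc
        obtain ⟨a, g, -, hg, he⟩ :=
          (isFunctionOf_one (L := Ω) (F := modularFunctionFieldBar M) (n := p)).exists_eq hNc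
        obtain ⟨a', g', hg', hg'0, he'⟩ := exists_fixed_root Φ hp.ne_zero hN hNc.1
          ⟨a, g, hg, by rw [he, mul_one]⟩
        exact shape_of_const_mul_pow (levelExp S) Φ hA hg' hg'0 hc0 hc hcrit (by
          show Cong c ((a' • g' ^ p : modularFunctionFieldBar M) : LaurentSeries Ω) r
          rwa [← he'])
      have hα : Shape Φ p (levelExp S).G c (v 0) := hnorms false
        (normAlong (heckeAlphaBar Ω M p) u)
        (fun σ hσ => by rw [← normAlong_galois_alpha, hu.1 σ hσ])
        (isFunctionOf_normMap _ hu.2) _ (cong_normAlpha S hcA hcr hc0 hv)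
      have hβ : Shape Φ p (levelExp S).G c (v 1) := hnorms true
        (normAlong (heckeAlphaBar Ω M p) (S.w u))
        (fun σ hσ => by rw [← normAlong_galois_alpha, galois_w S, hu.1 σ hσ])
        (by
          rw [← normAlong_comp (heckeBetaBar Ω M p) S.w (fun z => wq_heckeBetaBar _ _ z)]
          exact isFunctionOf_normMap _ hu.2) _
        (cong_normAlpha S hcA hcr hc0 (v := fun i => (v (1 - i) : LaurentSeries (ResidueField A)))
          fun i => by rw [S.side_w]; exact hv (1 - i))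
      have hshape : ∀ i, Shape Φ p (levelExp S).G c (v i) := fun i => by
        obtain rfl | rfl : i = 0 ∨ i = 1 := by omega
        · exact hα
        · exact hβ
      by_cases hb : ∃ b ∈ Φ.field, b ≠ 0 ∧ (p : ℚ) * ord A p b = ord A p c
      · obtain ⟨b, hb, hb0, hbc⟩ := hb
        have hy : ∀ i, ∃ y : E.G, (v i : LaurentSeries (ResidueField A)) =
            (y : LaurentSeries (ResidueField A)) ^ p := fun i => by
          rcases hshape i with ⟨r, hr⟩ | ⟨-, z, hz, hze⟩
          · obtain ⟨r', hr'⟩ := IsAlgClosed.exists_pow_nat_eq r hp.pos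
            exact ⟨⟨algebraMap _ _ r', E.G.algebraMap_mem _⟩, by rw [hr, ← hr', map_pow]⟩
          · exact ⟨⟨z, hz⟩, hze⟩
        choose y hy using hy
        exact absorb_pow E Φ hA hu hb hb0 hbc hc0 hc hcrit y fun i => hy i ▸ hv i
      · have hr : ∀ i, ∃ r, (v i : LaurentSeries (ResidueField A)) = algebraMap (ResidueField A) _ r :=
          fun i => (hshape i).resolve_right fun h => hb h.1
        choose r hr using hr
        have hu' : InClass Φ p x ((heckeNorm (M * p) ℓ)^[j] (heckeNorm (M * p) ℓ u)) := by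
          have h1 : InClass Φ p (heckeOperatorAlong Ω (M * p) ℓ x - (ℓ + 1) • x)
              (heckeNorm (M * p) ℓ u) :=
            And.intro (fun σ hσ => by rw [heckeNorm_galois, hu.1 σ hσ]) (isFunctionOf_heckeNorm hu.2)
          have h2 := inClass_iterate (ℓ := ℓ) Φ h1 j
          rwa [hT] at h2
        exact ⟨_, hu', fun k => cong_zero_iterate S hℓ hcA hcr hc0
          (cong_heckeNorm_const S hℓ hcA hcr hc0 (hr k ▸ hv k)) j⟩)
    hu₂ hu₂s
  -- Newton on the split model
  obtain ⟨huf, hu0, D, hD, hD'⟩ := hu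
  obtain ⟨cst, f, hf0, hf⟩ := eq_const_mul_pow_of_beyond S hσ₀ hζ hσζ (huf σ₀ hσH) hu0 hD' hc0 hc hw
  exact eq_zero_of_const_mul_pow hp.ne_zero ⟨hu0, D, hD, hD'⟩ hf0 hf

end Fermat.Agent.OrdinaryT

end
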