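import Fermat.Agent.OrdinaryT.NewtonMain
import Fermat.Agent.SemistableRed.Swap

/-!
# The swap on classes congruent to `1` beyond `4`

In residue characteristic `2` a representative congruent to `1` beyond `4` has at each glued pair
a jump `δ` with `δ ^ 2 = δ`. An automorphism exchanging the components through Frobenius keeps
it, so its product with the identity has no jump: `s x + x = 0`.
-/

set_option linter.unusedSectionVars false

noncomputable section

open AlgebraicCurve Fermat.Agent.FunctionFieldRR Fermat.Agent.SemistableRed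

namespace Fermat.Agent.OrdinaryT

variable {L : Type*} [Field L] [IsAlgClosed L] {A : ValuationSubring L} {k : Type*} [Field k]
  [IsAlgClosed k] {π : A →+* k} {F : Type*} [Field F] [Algebra L F] [IsFunctionField L F]
  {G : Type*} [Field G] [Algebra k G] [IsFunctionField k G]
variable (S : SplitModel A π F G)

/-- A representative that is a constant times a power has class zero. -/
theorem cls_eq_zero_of_eq {n : ℕ} (hn : n ≠ 0) {R : S.Rep n}
    (h : ∃ (c : L) (f : F), f ≠ 0 ∧ R.u = algebraMap L F c * f ^ n) :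
    SplitModel.Rep.cls S R = 0 := by
  obtain ⟨c, f, hf, he⟩ := h
  have hc : c ≠ 0 := fun h0 => R.u_ne (by rw [he, h0, map_zero, zero_mul])
  refine (QuotientAddGroup.eq_zero_iff _).mpr ?_
  simp only [AddSubgroup.mem_addSubgroupOf]
  refine ⟨f, hf, fun P => ?_⟩
  have h1 := R.ord_u P
  rw [he, P.ord_mul ((map_ne_zero _).mpr hc) (pow_ne_zero _ hf), ord_pow, ord_algebraMap,
    zero_add] at h1
  exact (mul_left_cancel₀ (by exact_mod_cast hn) h1).symm

/-- The class vanishes when no jump occurs. -/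
theorem cls_eq_zero_of_jump {p : ℕ} (hp : p.Prime) [CharP k p] (hpL : (p : L) ≠ 0) (R : S.Rep p)
    {M : ℕ} (hM : S.evalLevel ≤ M) {c : L} (hc : Deep π p c)
    (hu : S.DivBy ((p : L) * c) (R.u - 1))
    (hjump : ∀ (a : A) (E : F) (hr : (p : L) / (a : L) ^ (p - 1) ∈ A), (a : L) ≠ 0 →
      π ⟨_, hr⟩ ≠ 0 → S.Int2 E → 1 + (a : L) • E ∈ S.twist R M →
      S.red2 E ∈ S.pairSpace M → S.red2 E ∈ S.imgSpace (S.twist R M)) :
    SplitModel.Rep.cls S R = 0 := by
  have hone : (1 : F) ∈ riemannRochSpace ((M : ℤ) • S.H) :=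
    mem_rrs_iff.mpr (Or.inr fun P => by
      simpa using mul_nonneg (Nat.cast_nonneg M) (S.H_nonneg P))
  obtain ⟨φ, hφ, b, hb, hφi, hφr, hφ1, hφd⟩ :=
    exists_deep_approx S hp hpL R hM S.int_one hone hc hu hjump
  exact cls_eq_zero_of_eq S hp.ne_zero (eq_const_mul_pow_of_approx S hp hpL R hc hu hM hφ hφi
    (fun i => (congrFun hφr i).trans (S.red_one i)) hb hφ1 (by simpa using hφd))

theorem vanishesTo_smul {t : SemilinearAut k G} {P : Place k G} {f : G} (h : VanishesTo P 0 f) :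
    VanishesTo (t • P) 0 (t • f) := by
  rcases h with h0 | h0
  · exact Or.inl (by rw [h0, smul_zero])
  · exact Or.inr (by rw [SemilinearAut.ord_smul]; exact h0)

include S in
theorem half_mem [CharP k 2] {a : L} (hr : (2 : L) / a ∈ A) (hr0 : π ⟨_, hr⟩ ≠ 0) :
    a / 2 ∈ A := by
  have := isUnit_of_residue S hr hr0
  rwa [inv_div] at this

/-- A jump at `2`. -/
theorem exists_jump [CharP k 2] (h2 : (2 : L) ≠ 0) (R : S.Rep 2) {M : ℕ} {a : A} {E : F}
    (hr : (2 : L) / (a : L) ∈ A) (ha : (a : L) ≠ 0) (hr0 : π ⟨_, hr⟩ ≠ 0) (hE : S.Int2 E)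
    (hφ : 1 + (a : L) • E ∈ S.twist R M) (hEp : S.red2 E ∈ S.pairSpace M) :
    ∃ E₁ : F, S.Int2 E₁ ∧ 1 + 2 * E₁ ∈ S.twist R M ∧ S.red2 E₁ ∈ S.pairSpace M ∧
      S.red2 E = π ⟨_, hr⟩ • S.red2 E₁ := by
  have h2a := half_mem S hr hr0
  refine ⟨((a : L) / 2) • E, fun i => S.int_smul i _ _ h2a (hE i), ?_, ?_, ?_⟩
  · rwa [← map_ofNat (algebraMap L F) 2, ← Algebra.smul_def, smul_smul, mul_div_cancel₀ _ h2]
  · rw [show S.red2 (((a : L) / 2) • E) = π ⟨_, h2a⟩ • S.red2 E from
      funext fun i => S.red_smul i _ _ h2a (hE i)]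
    exact Submodule.smul_mem _ _ hEp
  · funext i
    show S.red i E = π ⟨_, hr⟩ • S.red i (((a : L) / 2) • E)
    rw [S.red_smul i _ _ h2a (hE i), smul_smul, ← map_mul,
      show (⟨_, hr⟩ : A) * ⟨_, h2a⟩ = 1 from Subtype.ext (by
        show (2 : L) / (a : L) * ((a : L) / 2) = 1
        field_simp), map_one, one_smul]

/-- The jump at a glued pair is `0` or `1`. -/
theorem jump_sq [CharP k 2] (h2 : (2 : L) ≠ 0) (R : S.Rep 2) {M : ℕ} {c : L} (hc : Deep π 2 c)
    (hu : S.DivBy (((2 : ℕ) : L) * c) (R.u - 1)) {E : F} (hE : S.Int2 E)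
    (hφ : 1 + 2 * E ∈ S.twist R M) (hEp : S.red2 E ∈ S.pairSpace M)
    {x : Place k G × Place k G} (hx : x ∈ S.pairs) :
    (residueConst x.1 (S.red 0 E) + residueConst x.2 (S.red 1 E)) ^ 2 =
      residueConst x.1 (S.red 0 E) + residueConst x.2 (S.red 1 E) := by
  obtain ⟨hc0, hcA, d, hd0, hcd⟩ := hc
  rw [show 2 - 1 = 1 from rfl, pow_one] at hcd
  obtain ⟨y, hy, hye⟩ := exists_of_divBy (mul_ne_zero (by exact_mod_cast h2) hc0) hu
  have hRi : R.u ∈ intRing S := R.int
  set W := (E + E ^ 2) * R.u + (d : L) • y with hW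
  have hE2 : ∀ i, S.Int i (E + E ^ 2) := fun i => S.int_add i _ _ (hE i) (S.int_pow (hE i) 2)
  have h1 : ∀ i, S.Int i ((E + E ^ 2) * R.u) := fun i => S.int_mul i _ _ (hE2 i) (R.int i)
  have hWi : S.Int2 W := fun i => S.int_add i _ _ (h1 i) (S.int_smul i _ _ d.2 (hy i))
  have hWr : ∀ i, S.red i W = S.red i E + S.red i E ^ 2 := fun i => by
    rw [hW, S.red_add i _ _ (h1 i) (S.int_smul i _ _ d.2 (hy i)),
      S.smul_mem_zero d.2 hd0 (hy i), add_zero, S.red_mul i _ _ (hE2 i) (R.int i), R.red_u, mul_one,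
      S.red_add i _ _ (hE i) (S.int_pow (hE i) 2), S.red_pow (hE i)]
  have hWe : (4 : L) • W = (1 + 2 * E) ^ 2 * R.u - 1 := by
    have h4 : ((2 : ℕ) : L) * c = 4 * d := by rw [hcd]; push_cast; ring
    rw [h4] at hye
    rw [hW, smul_add, smul_smul, ← hye, Algebra.smul_def, map_ofNat]
    ring
  have h4L : (4 : L) ≠ 0 := by
    rw [show (4 : L) = 2 * 2 by norm_num]; exact mul_ne_zero h2 h2
  have hWH : W ∈ riemannRochSpace (((2 * M : ℕ) : ℤ) • S.H) := by
    rw [← inv_smul_smul₀ h4L W, hWe]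
    refine Submodule.smul_mem _ _ (Submodule.sub_mem _ ?_ ?_)
    · rw [mem_rrs_iff]
      rcases eq_or_ne (1 + 2 * E) 0 with h0 | h0
      · exact Or.inl (by rw [h0, zero_pow two_ne_zero, zero_mul])
      refine Or.inr fun P => ?_
      rw [P.ord_mul (pow_ne_zero _ h0) R.u_ne, ord_pow, R.ord_u]
      have h := (mem_rrs_iff.mp hφ).resolve_left h0 P
      simp only [Finsupp.add_apply, Finsupp.smul_apply, smul_eq_mul] at h ⊢
      push_cast
      linarith
    · rw [mem_rrs_iff]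
      exact Or.inr fun P => by
        simpa using mul_nonneg (by positivity : (0 : ℤ) ≤ ((2 * M : ℕ) : ℤ)) (S.H_nonneg P)
  have hz : S.red2 W ∈ S.glueSpace (2 * M) := S.imgSpace_le_glueSpace _ ⟨W, hWH, hWi, rfl⟩
  obtain ⟨hP, hQ, -⟩ := S.mem_pairs.mp hx
  have r0 : VanishesTo x.1 0 (S.red 0 E) := S.regular_of_mem_pairSpace hEp 0 hP
  have r1 : VanishesTo x.2 0 (S.red 1 E) := S.regular_of_mem_pairSpace hEp 1 hQ
  have r0' : VanishesTo x.1 0 (S.red 0 E ^ 2) := (vanishesTo_zero_iff _).mpr (pow_mem ((vanishesTo_zero_iff _).mp r0) 2)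
  have r1' : VanishesTo x.2 0 (S.red 1 E ^ 2) := (vanishesTo_zero_iff _).mpr (pow_mem ((vanishesTo_zero_iff _).mp r1) 2)
  have h := hz.2 x hx
  simp only [SplitModel.ev, SplitModel.red2] at h
  rw [hWr, hWr, residueConst_add r0 r0', residueConst_add r1 r1', residueConst_pow r0,
    residueConst_pow r1] at h
  have htwo : (2 : k) = 0 := CharTwo.two_eq_zero
  linear_combination h +
    (residueConst x.1 (S.red 0 E) * residueConst x.2 (S.red 1 E) + residueConst x.2 (S.red 1 E) ^ 2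
      - residueConst x.1 (S.red 0 E)) * htwo

/-- **`s x + x = 0`.** -/
theorem smul_cls_add_of_deep [CharP k 2] (h2 : (2 : L) ≠ 0) {s : SemilinearAut L F}
    {t : SemilinearAut k G} (h : S.SwapCompatible s t 2) (hpf : ∀ z, t • S.pf z = z ^ 2)
    (R : S.Rep 2) {c : L} (hc : Deep π 2 c) (hsc : Deep π 2 (SemilinearAut.baseAut s c))
    (hu : S.DivBy (((2 : ℕ) : L) * c) (R.u - 1)) :
    s • SplitModel.Rep.cls S R + SplitModel.Rep.cls S R = 0 := by
  have h2L : ((2 : ℕ) : L) ≠ 0 := by exact_mod_cast h2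
  by_cases hj : ∀ (a : A) (E : F) (hr : ((2 : ℕ) : L) / (a : L) ^ (2 - 1) ∈ A), (a : L) ≠ 0 →
      π ⟨_, hr⟩ ≠ 0 → S.Int2 E → 1 + (a : L) • E ∈ S.twist R S.evalLevel →
      S.red2 E ∈ S.pairSpace S.evalLevel → S.red2 E ∈ S.imgSpace (S.twist R S.evalLevel)
  · rw [cls_eq_zero_of_jump S Nat.prime_two h2L R le_rfl hc hu hj, add_zero]
    exact (SemilinearAut.pic0_smul_mk s 0).trans (congrArg Pic0.mk (map_zero _))
  push Not at hj
  obtain ⟨a, E₀, hr, ha, hr0, hE₀, hφ₀, hEp₀, -⟩ := hj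
  simp only [show 2 - 1 = 1 from rfl, pow_one, Nat.cast_ofNat] at hr hr0
  obtain ⟨E, hE, hφ, hEp, -⟩ := exists_jump S h2 R hr ha hr0 hE₀ hφ₀ hEp₀
  rw [← SplitModel.SwapCompatible.cls_mapRep h R, ← SplitModel.Rep.cls_mul]
  set R' := (h.mapRep R).mul R with hR'
  -- deepness of the product
  obtain ⟨b, hb, hb1, hb2⟩ := Deep.exists_common S hsc hc
  have hu' : S.DivBy (((2 : ℕ) : L) * b) (R'.u - 1) := by
    have e : R'.u - 1 = (s • R.u - 1) * R.u + (R.u - 1) := by
      show s • R.u * R.u - 1 = _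
      ring
    rw [e]
    refine SplitModel.DivBy.add (SplitModel.DivBy.mul_int ?_ R.int) ?_
    · refine divBy_of_mul_dvd (mul_ne_zero h2L hsc.ne_zero) (mul_ne_zero h2L hb.ne_zero)
        (by rwa [mul_div_mul_left _ _ h2L]) fun i => ?_
      have h1 := h.int i _ (hu (1 - i))
      rwa [Algebra.smul_def, smul_mul', SemilinearAut.smul_algebraMap, map_inv₀, map_mul,
        map_natCast, ← Algebra.smul_def, smul_sub, smul_one] at h1
    · exact divBy_of_mul_dvd (mul_ne_zero h2L hc.ne_zero) (mul_ne_zero h2L hb.ne_zero)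
        (by rwa [mul_div_mul_left _ _ h2L]) hu
  -- the product of the approximate roots
  set N := S.evalLevel + S.evalLevel with hN
  set e := s • E + E + 2 * (s • E * E) with he
  have hsE : ∀ i, S.Int i (s • E) := fun i => h.int i E (hE _)
  have h2i : ∀ i, S.Int i (2 : F) := fun i => by
    rw [← one_add_one_eq_two]; exact S.int_add i _ _ (S.int_one i) (S.int_one i)
  have hr2 : ∀ i, S.red i (2 : F) = 0 := fun i => by
    rw [← one_add_one_eq_two, S.red_add i _ _ (S.int_one i) (S.int_one i), S.red_one,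
      ← map_one (algebraMap k G), ← map_add, one_add_one_eq_two, CharTwo.two_eq_zero, map_zero]
  have hei : S.Int2 e := fun i => S.int_add i _ _ (S.int_add i _ _ (hsE i) (hE i))
    (S.int_mul i _ _ (h2i i) (S.int_mul i _ _ (hsE i) (hE i)))
  have her : ∀ i, S.red i e = t • S.red (1 - i) E + S.red i E := fun i => by
    rw [he, S.red_add i _ _ (S.int_add i _ _ (hsE i) (hE i))
        (S.int_mul i _ _ (h2i i) (S.int_mul i _ _ (hsE i) (hE i))),
      S.red_mul i _ _ (h2i i) (S.int_mul i _ _ (hsE i) (hE i)), hr2, zero_mul, add_zero,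
      S.red_add i _ _ (hsE i) (hE i), h.red i E (hE _)]
  have hφ' : 1 + 2 * e ∈ S.twist R' N := by
    have h1 := S.mul_mem_twist (h.mem_twist hφ) hφ
    convert h1 using 1
    rw [he, smul_add, smul_one, smul_mul',
      show s • (2 : F) = 2 by rw [← one_add_one_eq_two, smul_add, smul_one]]
    ring
  refine cls_eq_zero_of_jump S Nat.prime_two h2L R' (M := N) (by omega) hb hu'
    fun a' E' hr' ha' hr0' hE' hφE' hEp' => ?_
  simp only [show 2 - 1 = 1 from rfl, pow_one, Nat.cast_ofNat] at hr' hr0'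
  obtain ⟨E₁, hE₁, hφ₁, hE₁p, hE₁r⟩ := exists_jump S h2 R' hr' ha' hr0' hE' hφE' hEp'
  rw [hE₁r]
  refine Submodule.smul_mem _ _ ?_
  have hdiff : E₁ - e ∈ S.twist R' N := by
    have h1 := Submodule.sub_mem _ hφ₁ hφ'
    rw [show (1 + 2 * E₁) - (1 + 2 * e) = (2 : L) • (E₁ - e) by
      rw [Algebra.smul_def, map_ofNat]; ring] at h1
    have h2' := Submodule.smul_mem _ (2 : L)⁻¹ h1
    rwa [inv_smul_smul₀ h2] at h2'
  have hdi : S.red2 (E₁ - e) ∈ S.imgSpace (S.twist R' N) :=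
    ⟨E₁ - e, hdiff, fun i => S.int_sub (hE₁ i) (hei i), rfl⟩
  have hsplit : S.red2 E₁ = S.red2 (E₁ - e) + S.red2 e := funext fun i => by
    show S.red i E₁ = S.red i (E₁ - e) + S.red i e
    rw [S.red_sub (hE₁ i) (hei i), sub_add_cancel]
  have hle : S.evalLevel ≤ N := by omega
  rw [imgSpace_twist_eq_glue S Nat.prime_two R' hle] at hdi ⊢
  rw [hsplit] at hE₁p ⊢
  refine add_mem hdi ⟨?_, fun x hx => ?_⟩
  · have h1 := sub_mem hE₁p hdi.1
    rwa [add_sub_cancel_left] at h1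
  · obtain ⟨hP, hQ, hrel⟩ := S.mem_pairs.mp hx
    have e1 := SplitModel.smul_of_rel h.base h.C_inv hpf (i := 0) hP hQ hrel
    have e2 := SplitModel.smul_of_rel h.base h.C_inv hpf (i := 1) hQ hP fun w hw => (hrel w hw).symm
    have r0 : VanishesTo x.1 0 (S.red 0 E) := S.regular_of_mem_pairSpace hEp 0 hP
    have r1 : VanishesTo x.2 0 (S.red 1 E) := S.regular_of_mem_pairSpace hEp 1 hQ
    have hj2 := jump_sq S h2 R hc hu hE hφ hEp hx
    have q0 : residueConst x.1 (t • S.red 1 E) = residueConst x.2 (S.red 1 E) ^ 2 := by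
      conv_lhs => rw [← e2]
      exact SplitModel.residueConst_smul_aut h.base r1
    have q1 : residueConst x.2 (t • S.red 0 E) = residueConst x.1 (S.red 0 E) ^ 2 := by
      conv_lhs => rw [← e1]
      exact SplitModel.residueConst_smul_aut h.base r0
    have v0 : VanishesTo x.1 0 (t • S.red 1 E) := e2 ▸ vanishesTo_smul r1
    have v1 : VanishesTo x.2 0 (t • S.red 0 E) := e1 ▸ vanishesTo_smul r0
    simp only [SplitModel.ev, SplitModel.red2, her]
    rw [show (1 - 0 : Fin 2) = 1 from rfl, show (1 - 1 : Fin 2) = 0 from rfl,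
      residueConst_add v0 r0, residueConst_add v1 r1, q0, q1]
    have htwo : (2 : k) = 0 := CharTwo.two_eq_zero
    linear_combination hj2 +
      (residueConst x.1 (S.red 0 E) - residueConst x.1 (S.red 0 E) ^ 2 -
        residueConst x.1 (S.red 0 E) * residueConst x.2 (S.red 1 E)) * htwo

end Fermat.Agent.OrdinaryT

end
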