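import Fermat.Agent.OrdinaryT.CoreTwo
import Fermat.Agent.OrdinaryT.NewCore
import Fermat.Agent.OrdinaryT.NewtonSwap

/-!
# The core at `2`, level `2 M`

A `2`-torsion class in the kernel of reduction, killed by both norms, fixed by inertia and
periodic under `T_ℓ - (ℓ + 1)`, has a representative congruent to `1` beyond `4`; so a Frobenius
acts on it as `w_2`.
-/

noncomputable section

open IsLocalRing ModularCurve AlgebraicCurve HahnSeries
open Fermat.Agent.Reduction Fermat.Agent.FunctionFieldRR Fermat.Agent.SemistableRed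

namespace Fermat.Agent.OrdinaryT

open FlatJ0

local notation "Ω" => AlgebraicClosure ℚ

variable {A : ValuationSubring Ω} {M : ℕ} [NeZero M] [Fact (2 : ℕ).Prime]
  [CharP (ResidueField A) 2] [IsAlgClosed (ResidueField A)] (S : Setting A M 2)

include S in
/-- Such a class has a representative congruent to `1` beyond `4`, or vanishes. -/
theorem exists_beyond_four {x : JZero (M * 2)} (hx : x ∈ newKilled S 2)
    (hnorm : ∀ b, normMaps M 2 b x = 0)
    {ℓ : ℕ} [Fact ℓ.Prime] (hℓ : ¬ ℓ ∣ M * 2) {m : ℕ} (hm : m ≠ 0)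
    (hT : (fun z => heckeOperatorAlong Ω (M * 2) ℓ z - (ℓ + 1) • z)^[m] x = x) :
    x = 0 ∨ ∃ (u : modularFunctionFieldBar (M * 2)) (c : Ω) (v : Fin 2 → LaurentSeries (ResidueField A)),
      IsFunctionOf 2 x u ∧ c ≠ 0 ∧ (2 : ℚ) < ord A 2 c ∧ ∀ i, Cong c (S.side i u) (v i) := by
  classical
  have hA := isOver_of_setting S
  have := isFunctionField_level M
  have := isFunctionField_level (M * 2)
  have := HeckeJ0.hasPrincipalDivisors_bar (M * 2)
  have := S.isFunctionField_C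
  obtain ⟨h4A, h4r⟩ := four_props hA
  have h40 : (4 : Ω) ≠ 0 := by norm_num
  set Φ := stabFixer A x
  set E := pairExp S
  obtain ⟨u₁, hu₁, hu₁s⟩ := exists_srep_one_new S hℓ Φ hx fun σ hσ =>
    MulAction.mem_stabilizer_iff.mp hσ.2
  obtain ⟨j, rfl⟩ : ∃ j, m = j + 1 := ⟨m - 1, by omega⟩
  have hu₂ := inClass_iterate (ℓ := ℓ) Φ hu₁ j
  have hu₂s := fun k => srep_one_iterate S hℓ (hu₁s k) j
  rw [Function.iterate_succ_apply] at hT
  rw [hT] at hu₂
  -- iterating kills constants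
  have hkill : ∀ {u : modularFunctionFieldBar (M * 2)}, InClass Φ 2 x u → ∀ {c : Ω} (hcA : c ∈ A),
      residue A ⟨c, hcA⟩ = 0 → c ≠ 0 → ∀ r : Fin 2 → ResidueField A,
      (∀ k, Cong c (S.side k u)
        (algebraMap (ResidueField A) (LaurentSeries (ResidueField A)) (r k))) →
      ∃ u', InClass Φ 2 x u' ∧ ∀ k, Cong (A := A) c (S.side k u') 0 := by
    intro u hu c hcA hcr hc0 r hr
    refine ⟨(heckeNorm (M * 2) ℓ)^[j] (heckeNorm (M * 2) ℓ u), ?_, fun k =>
      cong_zero_iterate S hℓ hcA hcr hc0 (cong_heckeNorm_const S hℓ hcA hcr hc0 (hr k)) j⟩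
    have h1 : InClass Φ 2 (heckeOperatorAlong Ω (M * 2) ℓ x - (ℓ + 1) • x)
        (heckeNorm (M * 2) ℓ u) :=
      And.intro (fun σ hσ => by rw [heckeNorm_galois, hu.1 σ hσ]) (isFunctionOf_heckeNorm hu.2)
    have h2 := inClass_iterate (ℓ := ℓ) Φ h1 j
    rwa [hT] at h2
  -- the norms of a representative are constants times squares
  have hroots : ∀ (b : Bool) (N : modularFunctionFieldBar M), Φ.FFixed N →
      IsFunctionOf 2 (normMaps M 2 b x) N →
      ∃ (a : Ω) (g : modularFunctionFieldBar M), Φ.FFixed g ∧ g ≠ 0 ∧ N = a • g ^ 2 := by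
    intro b N hN hNc
    rw [hnorm b] at hNc
    obtain ⟨a, g, -, hg, he⟩ :=
      (isFunctionOf_one (L := Ω) (F := modularFunctionFieldBar M) (n := 2)).exists_eq hNc
    exact exists_fixed_root Φ two_ne_zero hN hNc.1 ⟨a, g, hg, by rw [he, mul_one]⟩
  have hnormCong : ∀ {u : modularFunctionFieldBar (M * 2)}, InClass Φ 2 x u →
      ∀ {c : Ω} (hcA : c ∈ A), residue A ⟨c, hcA⟩ = 0 → c ≠ 0 →
      ∀ {v : Fin 2 → LaurentSeries (ResidueField A)}, (∀ i, Cong c (S.side i u) (v i)) → ∀ i,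
      ∃ (a : Ω) (g : modularFunctionFieldBar M), Φ.FFixed g ∧ g ≠ 0 ∧
        Cong c ((a • g ^ 2 : modularFunctionFieldBar M) : LaurentSeries Ω) (v i) := by
    intro u hu c hcA hcr hc0 v hv i
    obtain rfl | rfl : i = 0 ∨ i = 1 := by omega
    · obtain ⟨a, g, hg, hg0, he⟩ := hroots false (normAlong (heckeAlphaBar Ω M 2) u)
        (fun σ hσ => by rw [← normAlong_galois_alpha, hu.1 σ hσ]) (isFunctionOf_normMap _ hu.2)
      exact ⟨a, g, hg, hg0, he ▸ cong_normAlpha S hcA hcr hc0 hv⟩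
    · obtain ⟨a, g, hg, hg0, he⟩ := hroots true (normAlong (heckeAlphaBar Ω M 2) (S.w u))
        (fun σ hσ => by rw [← normAlong_galois_alpha, galois_w S, hu.1 σ hσ])
        (by
          rw [← normAlong_comp (heckeBetaBar Ω M 2) S.w (fun z => wq_heckeBetaBar _ _ z)]
          exact isFunctionOf_normMap _ hu.2)
      exact ⟨a, g, hg, hg0, he ▸ cong_normAlpha S hcA hcr hc0 (v := fun i => v (1 - i))
        fun i => by rw [S.side_w]; exact hv (1 - i)⟩
  -- climbing up to `4`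
  obtain ⟨u, c, w, hu, -, hc0, hc, hw⟩ := exists_atLeast E Φ hA
    (fun u c v hu hcF hc0 hc hcrit hv => by
      have hcA := mem_of_ord hA (Or.inr hc.le)
      have hcr := residue_eq_zero_of_pos hA hcA (Or.inr hc)
      have hshape : ∀ i, Shape Φ 2 (levelExp S).G c (v i) := fun i => by
        obtain ⟨a, g, hg, hg0, hcg⟩ := hnormCong hu hcA hcr hc0 hv i
        exact shape_of_const_mul_pow (levelExp S) Φ hA hg hg0 hc0 hc hcrit hcg
      by_cases hb : ∃ b ∈ Φ.field, b ≠ 0 ∧ ((2 : ℕ) : ℚ) * ord A 2 b = ord A 2 c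
      · obtain ⟨b, hb, hb0, hbc⟩ := hb
        have hy : ∀ i, ∃ y : E.G, (v i : LaurentSeries (ResidueField A)) =
            (y : LaurentSeries (ResidueField A)) ^ 2 := fun i => by
          rcases hshape i with ⟨r, hr⟩ | ⟨-, z, hz, hze⟩
          · obtain ⟨r', hr'⟩ := IsAlgClosed.exists_pow_nat_eq r two_pos
            exact ⟨⟨algebraMap _ _ r', E.G.algebraMap_mem _⟩, by rw [hr, ← hr', map_pow]⟩
          · exact ⟨⟨z, hz⟩, hze⟩
        choose y hy using hy
        exact absorb_pow E Φ hA hu hb hb0 hbc hc0 hc hcrit y fun i => hy i ▸ hv i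
      · have hr : ∀ i, ∃ r, (v i : LaurentSeries (ResidueField A)) = algebraMap (ResidueField A) _ r :=
          fun i => (hshape i).resolve_right fun h => hb h.1
        choose r hr using hr
        exact hkill hu hcA hcr hc0 r fun k => hr k ▸ hv k)
    hu₂ hu₂s
  push_cast at hc
  -- the first-order terms modulo `4`
  have hc4 : c / 4 ∈ A := mem_of_ord hA (Or.inr (by
    rw [hA.ord_div hc0 h40, ord_four hA]; linarith))
  set h : Fin 2 → LaurentSeries (ResidueField A) := fun i => residue A ⟨_, hc4⟩ • w i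
  have hh : ∀ i, Cong (4 : Ω) (S.side i u) (h i) := fun i => Cong.rescale (A := A) hc0 hc4 (hw i)
  have hshape : ∀ i, ∃ (r : ResidueField A) (z : LaurentSeries (ResidueField A)), z ∈ E.G ∧
      h i = algebraMap (ResidueField A) _ r + (z + z ^ 2) := fun i => by
    obtain ⟨a, g, hg, hg0, hcg⟩ := hnormCong hu h4A h4r h40 hh i
    exact shape_critical_two (levelExp S) Φ hA hg hg0 hcg
  choose r z hz hrz using hshape
  obtain ⟨f, hf, hfr⟩ := E.lift fun i => (⟨z i, hz i⟩ : E.G)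
  set g := 1 + (2 : Ω) • f with hg
  have hg2 : ∀ i, Cong (4 : Ω) (S.side i (g ^ 2)) (z i + z i ^ 2) := fun i => by
    rw [map_pow]
    refine cong_four_sq ?_
    rw [Cong, hg, map_add, map_one, add_sub_cancel_left, S.side_smul,
      inv_smul_smul₀ (by norm_num : (2 : Ω) ≠ 0)]
    exact hfr i
  have hgne : g ≠ 0 := fun h0 => by
    have h1 := (hg2 0).srep_one h4A h4r h40
    rw [h0, zero_pow two_ne_zero, map_zero] at h1
    exact one_ne_zero (h1.unique SRep.zero)
  have hgf : Φ.FFixed g := Fixer.FFixed.add Φ (Fixer.ffixed_one Φ)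
    (Fixer.FFixed.smul Φ (by exact_mod_cast natCast_mem Φ.field 2) fun σ hσ => hf σ (Φ.le_inertia hσ))
  obtain ⟨u₄, hu₄, hu₄c⟩ := hkill (hu.mul_pow (hgf.inv Φ) (inv_ne_zero hgne)) h4A h4r h40 r fun i => by
    have h1 := Cong.mul h4A h4r h40 (hh i) (Cong.inv h4A h4r h40 (hg2 i))
    rw [map_mul, inv_pow, map_inv₀]
    rwa [hrz, add_neg_cancel_right] at h1
  by_cases h41 : u₄ = 1
  · exact Or.inl (eq_zero_of_const_mul_pow two_ne_zero hu₄.2 (g := 1) (a := 1) one_ne_zero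
      (by simp [h41]))
  obtain ⟨c', -, hc'0, hlt, v', hv', -⟩ := E.exists_deeper Φ hA hu₄.1 h41 h40 hu₄c
  rw [ord_four hA] at hlt
  exact Or.inr ⟨u₄, c', fun i => v' i, hu₄.2, hc'0, hlt, hv'⟩

include S in
/-- **The core at `2`, level `2 M`.** -/
theorem frobenius_add_w_eq_zero_of_mem_newKilled {x : JZero (M * 2)} (hx : x ∈ newKilled S 2)
    (hnorm : ∀ b, normMaps M 2 b x = 0) {ℓ : ℕ} [Fact ℓ.Prime] (hℓ : ¬ ℓ ∣ M * 2) {m : ℕ} (hm : m ≠ 0)
    (hT : (fun z => heckeOperatorAlong Ω (M * 2) ℓ z - (ℓ + 1) • z)^[m] x = x)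
    {φ : Ω ≃ₐ[ℚ] Ω} (hφ : A.IsFrobeniusAt φ 2) :
    φ • x + SemilinearAut.ofAlgAut S.w • x = 0 := by
  have hA := isOver_of_setting S
  have := isFunctionField_level (M * 2)
  have := HeckeJ0.hasPrincipalDivisors_bar (M * 2)
  have := S.isFunctionField_C
  rcases exists_beyond_four S hx hnorm hℓ hm hT with rfl | ⟨u, c, v, hu, hc0, hc, hv⟩
  · rw [show φ • (0 : JZero (M * 2)) = 0 from
      map_zero (DistribSMul.toAddMonoidHom (JZero (M * 2)) φ)]
    exact (zero_add _).trans ((SemilinearAut.pic0_smul_mk _ 0).trans (congrArg Pic0.mk (map_zero _)))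
  obtain ⟨hu0, D, rfl, hD⟩ := hu
  have hcA := mem_of_ord hA (Or.inr (le_of_lt (lt_trans two_pos hc)) : c = 0 ∨ 0 ≤ ord A 2 c)
  have hcr := residue_eq_zero_of_pos hA hcA (Or.inr (lt_trans two_pos hc))
  have h1 : ∀ i, S.gauss.Int i u ∧ S.gauss.red i u = 1 := fun i => S.red_eq (by
    rw [OneMemClass.coe_one]; exact (hv i).srep_one hcA hcr hc0)
  let R : S.splitModel.Rep 2 :=
    ⟨u, D, hu0, hD, Divisor.mem_degZero.mp D.2, fun i => (h1 i).1, fun i => (h1 i).2⟩
  have hu' : S.splitModel.DivBy (((2 : ℕ) : Ω) * (c / (2 : ℕ))) (R.u - 1) := fun i => by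
    show ∃ w : LaurentSeries (ResidueField A),
      SRep (S.side i ((((2 : ℕ) : Ω) * (c / (2 : ℕ)))⁻¹ • (u - 1))) w
    refine ⟨v i, ?_⟩
    rw [mul_div_cancel₀ _ hA.natCast_ne_zero, S.side_smul, map_sub, map_one]
    exact hv i
  have hdeep := deep_div_p hA hc0 (show ((2 : ℕ) : ℚ) < (((2 : ℕ) : ℚ) - 1) * ord A 2 c by
    push_cast; linarith)
  obtain ⟨hs, hact⟩ := hφ
  have hcomp := S.compatible hs (frobenius (ResidueField A) 2)
    (fun a => (ResidueField.residue_smul _ (⟨φ, hs⟩ : A.decompositionSubgroup ℚ) a).trans (hact _))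
    (frobG (ResidueField A) M 2) (fun z => coe_frobG_smul _ M 2 z) (e := 2)
    (baseAut_frobG _ M 2)
  set s := SemilinearAut.ofAlgAut S.w * arithmeticGalois (L := Ω) (modularFunctionFieldFull (M * 2)) φ
  have hsA : ∀ a : A, ∃ h : SemilinearAut.baseAut s (a : Ω) ∈ A,
      residue A ⟨_, h⟩ = frobenius (ResidueField A) 2 (residue A a) := fun a => by
    have hb : SemilinearAut.baseAut s (a : Ω) =
        (((⟨φ, hs⟩ : A.decompositionSubgroup ℚ) • a : A) : Ω) := rfl
    refine ⟨hb ▸ ((⟨φ, hs⟩ : A.decompositionSubgroup ℚ) • a).2, ?_⟩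
    rw [show (⟨_, _⟩ : A) = (⟨φ, hs⟩ : A.decompositionSubgroup ℚ) • a from Subtype.ext hb]
    exact (ResidueField.residue_smul _ (⟨φ, hs⟩ : A.decompositionSubgroup ℚ) a).trans (hact _)
  have hsdeep : Deep (residue A) 2 (SemilinearAut.baseAut s (c / (2 : ℕ))) := by
    obtain ⟨hd0, hdA, d, hd, hde⟩ := hdeep
    obtain ⟨hdA', -⟩ := hsA ⟨_, hdA⟩
    obtain ⟨hd', hdr⟩ := hsA d
    refine ⟨(map_ne_zero _).mpr hd0, hdA', ⟨_, hd'⟩, by rw [hdr, hd, map_zero], ?_⟩
    rw [← map_pow, hde, map_mul, map_natCast]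
  have h := smul_cls_add_of_deep S.splitModel (by exact_mod_cast (hA.natCast_ne_zero : ((2 : ℕ) : Ω) ≠ 0))
    (S.swapCompatible hcomp) (fun z => frobG_smul_piG _ M 2 z) R hdeep hsdeep hu'
  -- undo `w`
  have hw : SemilinearAut.ofAlgAut S.w * SemilinearAut.ofAlgAut S.w =
      (1 : SemilinearAut Ω (modularFunctionFieldBar (M * 2))) := by
    rw [← map_mul, ← map_one SemilinearAut.ofAlgAut]
    exact congrArg _ (AlgEquiv.ext S.w_w)
  have h' := congrArg (SemilinearAut.ofAlgAut S.w • ·) h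
  simp only [smul_add, smul_smul, ← mul_assoc, hw, one_mul] at h'
  exact h'.trans ((SemilinearAut.pic0_smul_mk _ 0).trans (congrArg Pic0.mk (map_zero _)))

end Fermat.Agent.OrdinaryT

end
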