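import Fermat.Agent.OrdinaryT.Parts

/-!
# Killing torsion by the relation operators

For inertia elements `σ, τ` and any `g`, the combination
`T(στg) - T(σg) - ε(σ) (T(τg) - T(g))` of approximating operators kills every part on which
`σ (τ x - x) = ε(σ) (τ x - x)`. With a part at level `M` and a part of the norm kernel at level
`M p`, its square times two operators outside the prime kills `J₀(M p)[pⁿ]`.
-/

noncomputable section

open IsLocalRing AlgebraicCurve ModularCurve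
open Fermat.Agent.Reduction Fermat.Agent.SemistableRed Fermat.Agent.EigenRep Fermat.Agent.HeckeModule

namespace Fermat.Agent.OrdinaryT

local notation "Ω" => AlgebraicClosure ℚ
local notation "GQ" => (AlgebraicClosure ℚ) ≃ₐ[ℚ] (AlgebraicClosure ℚ)

variable {p : ℕ} [Fact p.Prime]

/-- The operator relation solved for the operator. -/
theorem act_X_eq {K : ℕ} [NeZero K] {T : Set ℕ} {n : ℕ} {l : AwayIndex T} {g : GQ}
    (hrel : ∀ x : JZero K, p ^ n • x = 0 →
      g • g • x - heckeOperatorBar K l.1 (g • x) + (epsilonNat p n g : ℤ) • x = 0)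
    {x : JZero K} (hx : p ^ n • x = 0) :
    act K T (MvPolynomial.X l) x = g • x + (epsilonNat p n g : ℤ) • (g⁻¹ • x) := by
  have h := hrel (g⁻¹ • x) (by rw [← galois_nsmul, hx, galois_zero])
  rw [smul_inv_smul, sub_add_eq_add_sub, sub_eq_zero] at h
  rw [act_X, h]

/-- The relation operator. -/
def relOp {T : Set ℕ} (c : ℤ) (l₁ l₂ l₃ l₄ : AwayIndex T) : AwayPoly ℤ T :=
  MvPolynomial.X l₁ - MvPolynomial.X l₂ -
    MvPolynomial.C c * (MvPolynomial.X l₃ - MvPolynomial.X l₄)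

/-- The relation operator kills parts where the identity holds. -/
theorem act_relOp_eq_zero {K : ℕ} [NeZero K] {T : Set ℕ} {n : ℕ} {l₁ l₂ l₃ l₄ : AwayIndex T}
    {A : ValuationSubring Ω} {σ τ g : GQ} (hσ : σ ∈ A.inertiaSubgroupIn ℚ)
    (hτ : τ ∈ A.inertiaSubgroupIn ℚ)
    (h₁ : ∀ x : JZero K, p ^ n • x = 0 → (σ * (τ * g)) • (σ * (τ * g)) • x -
      heckeOperatorBar K l₁.1 ((σ * (τ * g)) • x) + (epsilonNat p n (σ * (τ * g)) : ℤ) • x = 0)
    (h₂ : ∀ x : JZero K, p ^ n • x = 0 → (σ * g) • (σ * g) • x -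
      heckeOperatorBar K l₂.1 ((σ * g) • x) + (epsilonNat p n (σ * g) : ℤ) • x = 0)
    (h₃ : ∀ x : JZero K, p ^ n • x = 0 → (τ * g) • (τ * g) • x -
      heckeOperatorBar K l₃.1 ((τ * g) • x) + (epsilonNat p n (τ * g) : ℤ) • x = 0)
    (h₄ : ∀ x : JZero K, p ^ n • x = 0 →
      g • g • x - heckeOperatorBar K l₄.1 (g • x) + (epsilonNat p n g : ℤ) • x = 0)
    (V : AddSubgroup (JZero K)) (htors : ∀ x ∈ V, p ^ n • x = 0)
    (hgal : ∀ (g : GQ), ∀ x ∈ V, g • x ∈ V)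
    (hid : ∀ σ ∈ A.inertiaSubgroupIn ℚ, ∀ τ ∈ A.inertiaSubgroupIn ℚ, ∀ v ∈ V,
      σ • (τ • v - v) = (epsilonNat p n σ : ℤ) • (τ • v - v))
    {x : JZero K} (hx : x ∈ V) :
    act K T (relOp (epsilonNat p n σ) l₁ l₂ l₃ l₄) x = 0 := by
  have hxt := htors x hx
  have ht : ∀ (h : GQ) (y : JZero K), p ^ n • y = 0 → p ^ n • (h • y) = 0 := fun h y hy => by
    rw [← galois_nsmul, hy, galois_zero]
  -- scalars
  have e1 : ∀ y : JZero K, p ^ n • y = 0 → (epsilonNat p n (σ * (τ * g)) : ℤ) • y =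
      ((epsilonNat p n σ : ℤ) * (epsilonNat p n τ : ℤ) * (epsilonNat p n g : ℤ)) • y := fun y hy => by
    rw [epsilonNat_mul_smul hy, mul_zsmul, epsilonNat_mul_smul hy, ← mul_zsmul, mul_assoc]
  -- the two identities
  have k1 := hid σ hσ τ hτ (g • x) (hgal g x hx)
  have k2 : (g⁻¹ • σ⁻¹ • x) - g⁻¹ • x = (epsilonNat p n τ : ℤ) • (g⁻¹ • τ⁻¹ • σ⁻¹ • x) -
      (epsilonNat p n τ : ℤ) • (g⁻¹ • τ⁻¹ • x) := by
    have h := hid τ hτ σ⁻¹ (inv_mem hσ) x hx
    have h' := congrArg (fun z => g⁻¹ • τ⁻¹ • z) h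
    simp only [inv_smul_smul, galois_zsmul, smul_sub] at h'
    exact h'.trans (zsmul_sub _ _ _)
  simp only [smul_sub] at k1
  rw [relOp, act_sub, act_sub, act_mul, act_sub, act_C, act_X_eq h₁ hxt, act_X_eq h₂ hxt,
    act_X_eq h₃ hxt, act_X_eq h₄ hxt, e1 _ (ht _ x hxt), epsilonNat_mul_smul (ht _ x hxt) σ g,
    epsilonNat_mul_smul (ht _ x hxt) τ g]
  simp only [mul_smul (α := GQ), mul_inv_rev]
  generalize σ • τ • g • x = a₁ at *
  generalize σ • g • x = a₂ at *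
  generalize τ • g • x = a₃ at *
  generalize g • x = a₄ at *
  generalize g⁻¹ • τ⁻¹ • σ⁻¹ • x = b₁ at *
  generalize g⁻¹ • σ⁻¹ • x = b₂ at *
  generalize g⁻¹ • τ⁻¹ • x = b₃ at *
  generalize g⁻¹ • x = b₄ at *
  linear_combination (norm := module)
    k1 - ((epsilonNat p n σ : ℤ) * (epsilonNat p n g : ℤ)) • k2

variable {A : ValuationSubring Ω} {M : ℕ} [NeZero M] [NeZero p]
  [CharP (ResidueField A) p] [IsAlgClosed (ResidueField A)] (S : Setting A M p)
  {T : Set ℕ} {k : Type} [Field k] [CharP k p] {κ : AwayPoly ℤ T →+* k}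

include S in
/-- **Two operators outside the prime and two relation operators kill the torsion.** -/
theorem exists_killer (hp2 : p ≠ 2) (hT : ∀ r : ℕ, r.Prime → r ∣ M * p → r ∈ T) {n : ℕ} (hn : n ≠ 0)
    {tbar : GQ → k}
    (happM : ∀ g : GQ, ∃ l : AwayIndex T, κ (MvPolynomial.X l) = tbar g ∧
      ∀ x : JZero M, p ^ n • x = 0 →
        g • g • x - heckeOperatorBar M l.1 (g • x) + (epsilonNat p n g : ℤ) • x = 0)
    (happN : ∀ g : GQ, ∃ l : AwayIndex T, κ (MvPolynomial.X l) = tbar g ∧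
      ∀ x : JZero (M * p), p ^ n • x = 0 →
        g • g • x - heckeOperatorBar (M * p) l.1 (g • x) + (epsilonNat p n g : ℤ) • x = 0)
    (hno : ¬ HasResidualChar p n tbar) {l : AwayIndex T}
    (hl : κ (MvPolynomial.X l) ≠ ((l.1 : ℕ) : k) + 1)
    (htI : ∀ g ∈ A.inertiaSubgroupIn ℚ, tbar g = 1 + ((epsilonNat p n g : ℤ) : k)) :
    ∃ a b, κ a ≠ 0 ∧ κ b ≠ 0 ∧ ∀ {σ τ g : GQ}, σ ∈ A.inertiaSubgroupIn ℚ →
      τ ∈ A.inertiaSubgroupIn ℚ → ∀ {l₁ l₂ l₃ l₄ : AwayIndex T},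
      (∀ x : JZero M, p ^ n • x = 0 → (σ * (τ * g)) • (σ * (τ * g)) • x -
        heckeOperatorBar M l₁.1 ((σ * (τ * g)) • x) +
          (epsilonNat p n (σ * (τ * g)) : ℤ) • x = 0) →
      (∀ x : JZero M, p ^ n • x = 0 → (σ * g) • (σ * g) • x -
        heckeOperatorBar M l₂.1 ((σ * g) • x) + (epsilonNat p n (σ * g) : ℤ) • x = 0) →
      (∀ x : JZero M, p ^ n • x = 0 → (τ * g) • (τ * g) • x -
        heckeOperatorBar M l₃.1 ((τ * g) • x) + (epsilonNat p n (τ * g) : ℤ) • x = 0) →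
      (∀ x : JZero M, p ^ n • x = 0 →
        g • g • x - heckeOperatorBar M l₄.1 (g • x) + (epsilonNat p n g : ℤ) • x = 0) →
      (∀ x : JZero (M * p), p ^ n • x = 0 → (σ * (τ * g)) • (σ * (τ * g)) • x -
        heckeOperatorBar (M * p) l₁.1 ((σ * (τ * g)) • x) +
          (epsilonNat p n (σ * (τ * g)) : ℤ) • x = 0) →
      (∀ x : JZero (M * p), p ^ n • x = 0 → (σ * g) • (σ * g) • x -
        heckeOperatorBar (M * p) l₂.1 ((σ * g) • x) + (epsilonNat p n (σ * g) : ℤ) • x = 0) →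
      (∀ x : JZero (M * p), p ^ n • x = 0 → (τ * g) • (τ * g) • x -
        heckeOperatorBar (M * p) l₃.1 ((τ * g) • x) + (epsilonNat p n (τ * g) : ℤ) • x = 0) →
      (∀ x : JZero (M * p), p ^ n • x = 0 →
        g • g • x - heckeOperatorBar (M * p) l₄.1 (g • x) + (epsilonNat p n g : ℤ) • x = 0) →
      ∀ x : JZero (M * p), p ^ n • x = 0 → act (M * p) T
        (relOp (epsilonNat p n σ) l₁ l₂ l₃ l₄ * b * (relOp (epsilonNat p n σ) l₁ l₂ l₃ l₄ * a)) x
          = 0 := by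
  classical
  have hp := (Fact.out : p.Prime)
  have hpT : p ∈ T := hT p hp (dvd_mul_left p M)
  have hMT : ∀ r : ℕ, r.Prime → r ∣ M → r ∈ T := fun r hr h => hT r hr (dvd_mul_of_dvd_left h p)
  -- the part at level `M`
  obtain ⟨a, ha, hVA, -⟩ := exists_isPart hpT hMT happM (tors M p n) le_rfl
    (fun g x hx => tors_smul_mem g hx)
  have : Finite ↥((tors M p n).map (act M T a).toAddMonoidHom) :=
    Finite.of_injective (fun x => (⟨x.1, hVA.tors x.1 x.2⟩ : tors M p n))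
      fun u v h => Subtype.ext (congrArg (fun t : tors M p n => (t : JZero M)) h)
  have hTV : ∀ v ∈ (tors M p n).map (act M T a).toAddMonoidHom,
      heckeOperatorAlong Ω M p v ∈ (tors M p n).map (act M T a).toAddMonoidHom := by
    rintro _ ⟨y, hy, rfl⟩
    refine ⟨heckeOperatorAlong Ω M p y, by
      show p ^ n • _ = 0
      rw [← map_nsmul, show p ^ n • y = 0 from hy, map_zero], ?_⟩
    exact (act_intertwine hpT hMT hMT (heckeOperatorAlong Ω M p)
      (fun σ z => HeckeJ0.heckeGaloisEquivariant M σ ⟨p, hp⟩ z) a hy).symm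
  -- the part of the norm kernel
  obtain ⟨b, hb, hVB, -⟩ := exists_isPart hpT hT happN (newTors M p n) (fun x hx => hx.1.1)
    (fun g x hx => galois_mem_newTors g hx)
  have : Finite ↥((newTors M p n).map (act (M * p) T b).toAddMonoidHom) :=
    Finite.of_injective (fun x => (⟨x.1, hVB.tors x.1 x.2⟩ : tors (M * p) p n))
      fun u v h => Subtype.ext (congrArg (fun t : tors (M * p) p n => (t : JZero (M * p))) h)
  have hwV : ∀ v ∈ (newTors M p n).map (act (M * p) T b).toAddMonoidHom,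
      wMap S v ∈ (newTors M p n).map (act (M * p) T b).toAddMonoidHom := by
    rintro _ ⟨y, hy, rfl⟩
    exact ⟨wMap S y, wMap_mem_newTors S hy,
      (act_intertwine hpT hT hT (wMap S) (wMap_galois S) b hy.1.1).symm⟩
  have hnew : ∀ v ∈ (newTors M p n).map (act (M * p) T b).toAddMonoidHom,
      ∀ e, normMaps M p e v = 0 := by
    rintro _ ⟨y, hy, rfl⟩ e
    show normMaps M p e (act (M * p) T b y) = 0
    rw [act_intertwine hpT hT hMT (normMaps M p e) (normMaps_equivariant M p e) b hy.1.1,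
      (mem_newTors.mp hy).2 e, map_zero]
  refine ⟨a, b, ha, hb, ?_⟩
  intro σ τ g hσ hτ l₁ l₂ l₃ l₄ h₁ h₂ h₃ h₄ h₁' h₂' h₃' h₄' x hx
  set h := relOp (epsilonNat p n σ) l₁ l₂ l₃ l₄
  -- into the norm kernel
  have hy : act (M * p) T (h * a) x ∈ newTors M p n := by
    refine mem_newTors.mpr ⟨act_torsion hx _, fun e => ?_⟩
    rw [act_intertwine hpT hT hMT (normMaps M p e) (normMaps_equivariant M p e) _ hx, act_mul]
    exact act_relOp_eq_zero hσ hτ h₁ h₂ h₃ h₄ _ hVA.tors hVA.gal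
      (fun σ' hσ' τ' hτ' v hv => ordinary_part S hp2 hpT hMT hn hVA hno htI hTV hσ' hτ' hv)
      ⟨normMaps M p e x, by show p ^ n • _ = 0; rw [← map_nsmul, hx, map_zero], rfl⟩
  rw [act_mul, act_mul]
  exact act_relOp_eq_zero hσ hτ h₁' h₂' h₃' h₄' _ hVB.tors hVB.gal
    (fun σ' hσ' τ' hτ' v hv =>
      steinberg_part S hp2 hpT hT hn hVB hnew hwV hno hl htI hσ' hτ' hv)
    ⟨_, hy, rfl⟩

end Fermat.Agent.OrdinaryT

end
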