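import Fermat.Agent.DefRing.MatrixRep
import Fermat.Agent.TameInertia.Qbar
import Fermat.Prelude.Def_GaloisRep_LocalConditions

/-!
# The ordinary line from the relations on inertia

If `(ρ σ - det ρ σ) (ρ τ - 1) = 0` on inertia and some element of inertia has `det - 1` invertible,
then the image of `ρ σ₀ - 1` is a line with the properties of an ordinary filtration.
-/

noncomputable section

open IsLocalRing

namespace Fermat.Agent.OrdinaryT

local notation "Ω" => AlgebraicClosure ℚ
local notation "GQ" => (AlgebraicClosure ℚ) ≃ₐ[ℚ] (AlgebraicClosure ℚ)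

variable {T V : Type} [CommRing T] [AddCommGroup V] [Module T V]

/-- The image of an idempotent of trace one with a unit corner is spanned by a basis vector. -/
theorem exists_basis_range_aux (b : Module.Basis (Fin 2) T V) (E : Module.End T V)
    (hE : ∀ v, E (E v) = E v) (htr : (LinearMap.toMatrix b b E).trace = 1)
    (h00 : IsUnit (LinearMap.toMatrix b b E 0 0)) :
    ∃ b' : Module.Basis (Fin 2) T V, ∀ v, v ∈ (T ∙ b' 0) ↔ E v = v := by
  set e := LinearMap.toMatrix b b E with he
  have hee : e * e = e := by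
    rw [he, ← LinearMap.toMatrix_mul]
    exact congrArg _ (LinearMap.ext hE)
  rw [Matrix.trace_fin_two] at htr
  have h2 : e 0 0 * e 0 0 + e 0 1 * e 1 0 = e 0 0 := by
    simpa [Matrix.mul_apply, Fin.sum_univ_two] using congrFun (congrFun hee 0) 0
  let v : Fin 2 → V := ![E (b 0), b 1]
  have hdet : IsUnit (b.det v) := by
    rw [Module.Basis.det_apply, Matrix.det_fin_two]
    simpa [Module.Basis.toMatrix_apply, v, he, LinearMap.toMatrix_apply] using h00
  obtain ⟨hli, hsp⟩ := (Module.Basis.is_basis_iff_det b).mpr hdet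
  refine ⟨Module.Basis.mk hli hsp.ge, fun x => ?_⟩
  rw [Module.Basis.mk_apply, show v 0 = E (b 0) from rfl, Submodule.mem_span_singleton]
  constructor
  · rintro ⟨a, rfl⟩
    rw [map_smul, hE]
  · intro hx
    obtain ⟨u, hu⟩ := h00.exists_left_inv
    have h1 : E (b 1) = (e 0 1 * u) • E (b 0) := by
      refine b.ext_elem fun i => ?_
      rw [map_smul, Finsupp.smul_apply, smul_eq_mul]
      rw [show (b.repr (E (b 1))) i = e i 1 by rw [he, LinearMap.toMatrix_apply],
        show (b.repr (E (b 0))) i = e i 0 by rw [he, LinearMap.toMatrix_apply]]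
      fin_cases i
      · simp only [Fin.zero_eta]
        linear_combination -(e 0 1) * hu
      · simp only [Fin.mk_one]
        linear_combination e 0 0 * u * htr - u * h2 - e 1 1 * hu
    refine ⟨b.repr x 0 + b.repr x 1 * (e 0 1 * u), ?_⟩
    conv_rhs => rw [← hx, ← b.sum_repr x, map_sum, Fin.sum_univ_two, map_smul, map_smul, h1]
    module

/-- The image of an idempotent of trace one over a local ring is spanned by a basis vector. -/
theorem exists_basis_range [IsLocalRing T] (b : Module.Basis (Fin 2) T V) (E : Module.End T V)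
    (hE : ∀ v, E (E v) = E v) (htr : (LinearMap.toMatrix b b E).trace = 1) :
    ∃ b' : Module.Basis (Fin 2) T V, ∀ v, v ∈ (T ∙ b' 0) ↔ E v = v := by
  have hs := htr
  rw [Matrix.trace_fin_two] at hs
  rcases IsLocalRing.isUnit_or_isUnit_of_add_one hs with h | h
  · exact exists_basis_range_aux b E hE htr h
  · refine exists_basis_range_aux (b.reindex (Equiv.swap 0 1)) E hE ?_ ?_
    · simp only [Matrix.trace_fin_two, LinearMap.toMatrix_apply, Module.Basis.reindex_apply,
        Module.Basis.repr_reindex_apply, Equiv.symm_swap, Equiv.swap_apply_left,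
        Equiv.swap_apply_right] at hs ⊢
      rw [add_comm]; exact hs
    · simpa [LinearMap.toMatrix_apply, Module.Basis.reindex_apply,
        Module.Basis.repr_reindex_apply] using h

variable [IsLocalRing T]

/-- **The line.** -/
theorem exists_line_of_relations (ρ : GaloisRepAdic T) (A : ValuationSubring Ω)
    (hrel : ∀ σ ∈ A.inertiaSubgroupIn ℚ, ∀ τ ∈ A.inertiaSubgroupIn ℚ, ∀ v : ρ.V,
      ρ.ρ σ (ρ.ρ τ v - v) = LinearMap.det (ρ.ρ σ) • (ρ.ρ τ v - v))
    {σ₀ : GQ} (hσ₀ : σ₀ ∈ A.inertiaSubgroupIn ℚ)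
    (hd : IsUnit (LinearMap.det (ρ.ρ σ₀) - 1)) :
    ∃ L : Submodule T ρ.V,
      (∃ b : Module.Basis (Fin 2) T ρ.V, L = T ∙ b 0) ∧
      (∀ σ ∈ A.decompositionSubgroup ℚ, ∀ v ∈ L, ρ.ρ σ v ∈ L) ∧
      (∀ σ ∈ A.inertiaSubgroupIn ℚ, ∀ v : ρ.V, ρ.ρ σ v - v ∈ L) := by
  set d := LinearMap.det (ρ.ρ σ₀) with hddef
  obtain ⟨u, hu⟩ := hd.exists_left_inv
  let E : Module.End T ρ.V := u • (ρ.ρ σ₀ - 1)
  have hEapp : ∀ v, E v = u • (ρ.ρ σ₀ v - v) := fun v => rfl
  -- eigenvectors of eigenvalue `d` are fixed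
  have hfix : ∀ w, ρ.ρ σ₀ w = d • w → E w = w := fun w hw => by
    rw [hEapp, hw, show d • w - w = (d - 1) • w by rw [sub_smul, one_smul], smul_smul, hu, one_smul]
  have hE : ∀ v, E (E v) = E v := fun v => hfix _ (by
    rw [hEapp, map_smul, hrel σ₀ hσ₀ σ₀ hσ₀ v, smul_comm])
  -- the trace
  let b := DefRing.repBasis ρ
  set P := DefRing.matrixRep ρ b σ₀ with hP
  have hdP : P.det = d := by rw [hP, DefRing.matrixRep_apply, LinearMap.det_toMatrix]
  have hquad : P * P = (1 + d) • P - d • 1 := by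
    have h : ρ.ρ σ₀ * ρ.ρ σ₀ = (1 + d) • ρ.ρ σ₀ - d • 1 := LinearMap.ext fun v => by
      have := hrel σ₀ hσ₀ σ₀ hσ₀ v
      rw [map_sub, sub_eq_iff_eq_add] at this
      rw [Module.End.mul_apply, this, LinearMap.sub_apply, LinearMap.smul_apply,
        LinearMap.smul_apply, Module.End.one_apply]
      module
    have h' := congrArg (LinearMap.toMatrix b b) h
    rwa [LinearMap.toMatrix_mul, map_sub, map_smul, map_smul, LinearMap.toMatrix_one] at h'
  have htrP : P.trace = 1 + d := by
    have hd' : IsUnit d := (Group.isUnit σ₀).map (LinearMap.det.comp ρ.ρ)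
    refine sub_eq_zero.mp ((hd'.mul_left_eq_zero).mp ?_)
    have e := fun i j => congrFun (congrFun hquad i) j
    simp only [Matrix.mul_apply, Fin.sum_univ_two, Matrix.sub_apply, Matrix.smul_apply,
      Matrix.one_apply, smul_eq_mul] at e
    have e00 := e 0 0; have e01 := e 0 1; have e10 := e 1 0; have e11 := e 1 1
    simp only [← hdP, Matrix.det_fin_two, Matrix.trace_fin_two] at e00 e01 e10 e11 ⊢
    norm_num at e00 e01 e10 e11
    linear_combination P 1 1 * e00 - P 1 0 * e01
  have htrE : (LinearMap.toMatrix b b E).trace = 1 := by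
    rw [show LinearMap.toMatrix b b E = u • (P - 1) by
        rw [map_smul, map_sub, LinearMap.toMatrix_one, hP, DefRing.matrixRep_apply],
      Matrix.trace_smul, Matrix.trace_sub, htrP, Matrix.trace_one, Fintype.card_fin, smul_eq_mul]
    push_cast
    linear_combination hu
  obtain ⟨b', hb'⟩ := exists_basis_range b E hE htrE
  have hI : ∀ σ ∈ A.inertiaSubgroupIn ℚ, ∀ v : ρ.V, ρ.ρ σ v - v ∈ T ∙ b' 0 := fun σ hσ v =>
    (hb' _).mpr (hfix _ (hrel σ₀ hσ₀ σ hσ v))
  refine ⟨T ∙ b' 0, ⟨b', rfl⟩, fun s hs v hv => ?_, hI⟩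
  have hconj := hI _ (TameInertia.inertia_normal_in_decomposition hs hσ₀) (ρ.ρ s v)
  have hv' := (hb' v).mp hv
  rw [← hv', hEapp, map_smul, map_sub]
  refine Submodule.smul_mem _ _ ?_
  have e : ρ.ρ s (ρ.ρ σ₀ v) = ρ.ρ (s * σ₀ * s⁻¹) (ρ.ρ s v) := by
    rw [← Module.End.mul_apply, ← Module.End.mul_apply, ← map_mul, ← map_mul, inv_mul_cancel_right]
  rw [e]
  exact hconj

end Fermat.Agent.OrdinaryT

end
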