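import Fermat.Agent.OrdinaryT.Bridge
import Fermat.Agent.OrdinaryT.Killer
import Fermat.Agent.OrdinaryT.Line
import Fermat.Agent.OrdinaryT.ResidualChar
import Fermat.Agent.IgusaGenus.Main
import Fermat.Agent.EllFrobenius.Reduction
import Fermat.Prelude.Def_GaloisRep_LocalConditions

/-!
# Ordinarity of the representation carried by a Hecke ring

For `p` odd dividing the level exactly once, a representation with Hecke traces at Frobenius
elements over a reduced Hecke ring is ordinary at `p` if its reduction is.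
-/

noncomputable section

open IsLocalRing AlgebraicCurve ModularCurve Polynomial
open Fermat.Agent.EigenRep Fermat.Agent.HeckeModule

namespace Fermat.Agent.OrdinaryT

local notation "Ω" => AlgebraicClosure ℚ
local notation "GQ" => (AlgebraicClosure ℚ) ≃ₐ[ℚ] (AlgebraicClosure ℚ)

/-- Ordinary in a basis: trace is one plus determinant. -/
theorem trace_eq_one_add_det {k V : Type} [CommRing k] [AddCommGroup V] [Module k V]
    (b : Module.Basis (Fin 2) k V) (f : Module.End k V) (h : ∀ v, f v - v ∈ k ∙ b 0) :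
    LinearMap.trace k V f = 1 + LinearMap.det f := by
  have := Module.Free.of_basis b
  have key : ∀ j, LinearMap.toMatrix b b f 1 j = (1 : Matrix (Fin 2) (Fin 2) k) 1 j := fun j => by
    obtain ⟨c, hc⟩ := Submodule.mem_span_singleton.mp (h (b j))
    rw [LinearMap.toMatrix_apply, show f (b j) = b j + c • b 0 by rw [hc]; abel, map_add, map_smul]
    fin_cases j <;> simp [Matrix.one_apply]
  rw [LinearMap.trace_eq_matrix_trace k b, ← LinearMap.det_toMatrix b, Matrix.trace_fin_two,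
    Matrix.det_fin_two, key 0, key 1]
  simp
  ring

variable {p : ℕ} [Fact p.Prime] {M : ℕ} [NeZero M] [NeZero (M * p)] {S : Finset ℕ}
  {T : Type} [CommRing T] [IsLocalRing T] [IsNoetherianRing T]

/-- **Ordinarity.** -/
theorem isOrdinaryAt_of_residual (hp2 : p ≠ 2) (hpM : ¬ p ∣ M)
    (hNS : ∀ q : ℕ, q.Prime → q ∣ M * p → q ∈ S) (hred : IsReduced T)
    (hpT : (p : T) ∈ maximalIdeal T) (π : CuspForm.heckeAlgebra (M * p) 2 (↑S : Set ℕ) →+* T)
    (ρ : GaloisRepAdic T)
    (hfrob : ∀ (ℓ : ℕ) (hℓ : ℓ.Prime) (hℓN : ¬ ℓ ∣ M * p) (hℓS : ℓ ∉ (↑S : Set ℕ)),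
      ∀ A : ValuationSubring Ω, A.LiesOverPrime ℓ → ∀ σ, A.IsFrobeniusAt σ ℓ →
        LinearMap.charpoly (ρ.ρ σ) =
          X ^ 2 - C (π (CuspForm.heckeAlgebra.T hℓ hℓN hℓS)) * X + C ((ℓ : T)))
    (hirr : ρ.residual.IsAbsolutelyIrreducible)
    (hres : (GaloisRepAdic.ofResidualGaloisRep ρ.residual).IsOrdinaryAt p) :
    ρ.IsOrdinaryAt p := by
  classical
  intro A hA
  have hp := (Fact.out : p.Prime)
  have : NeZero p := ⟨hp.ne_zero⟩
  have := Frobenius.residueField_charP hp hA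
  have : IsAlgClosed (ResidueField A) := EllFrobenius.Reduction.isAlgClosed_residueField A
  have Sg : SemistableRed.Setting A M p := ⟨hpM, hA, _, IgusaGenus.reductionFacts hpM hA⟩
  -- the residue field
  let k := ResidueField T
  have : CharP k p := by
    refine (CharP.charP_iff_prime_eq_zero hp).mpr ?_
    rw [← map_natCast (residue T), residue_eq_zero_iff]; exact hpT
  have hT : ∀ r : ℕ, r.Prime → r ∣ M * p → r ∈ (↑S : Set ℕ) := hNS
  have hMT : ∀ r : ℕ, r.Prime → r ∣ M → r ∈ (↑S : Set ℕ) := fun r hr h => hT r hr (dvd_mul_of_dvd_left h p)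
  have hS' : (↑S : Set ℕ).Finite := S.finite_toSet
  have hpS : p ∈ (↑S : Set ℕ) := hT p hp (dvd_mul_left p M)
  let κ : AwayPoly ℤ (↑S : Set ℕ) →+* k := (residue T).comp (chi hT π)
  have hnear := fun g n m =>
    exists_operator_near (M := M) hS' hpS hT hMT hpT π ρ hfrob g n m
  let tbar : GQ → k := fun g => residue T (ρ.trace g)
  have hdet : ∀ (g : GQ) {m : ℕ}, m ≠ 0 →
      residue T (LinearMap.det (ρ.ρ g)) = ((epsilonNat p m g : ℤ) : k) := fun g m hm => by
    obtain ⟨l, -, hd, -⟩ := hnear g 1 m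
    have h := hd (Nat.one_le_iff_ne_zero.mpr hm)
    rw [pow_one, ← residue_eq_zero_iff, map_sub, map_intCast, sub_eq_zero] at h
    exact h.symm
  -- residual matrices
  let b := DefRing.repBasis ρ
  let bk : Module.Basis (Fin 2) k ρ.residual.V := Algebra.TensorProduct.basis k b
  let Pb : GQ →* Matrix (Fin 2) (Fin 2) k :=
    (residue T).mapMatrix.toMonoidHom.comp (DefRing.matrixRep ρ b)
  have hPb : ∀ g, LinearMap.toMatrix bk bk (ρ.residual.ρ g) = Pb g := fun g =>
    LinearMap.toMatrix_baseChange k (ρ.ρ g) b b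
  have htrb : ∀ g, tbar g = (Pb g).trace := fun g => by
    show residue T (ρ.trace g) = _
    rw [GaloisRepAdic.trace, LinearMap.trace_eq_matrix_trace T b, AddMonoidHom.map_trace]
    rfl
  have hdetb : ∀ g, residue T (LinearMap.det (ρ.ρ g)) = (Pb g).det := fun g => by
    rw [← LinearMap.det_toMatrix b, RingHom.map_det]
    rfl
  have hspan : Submodule.span k (Set.range Pb) = ⊤ := by
    rw [← DefRing.span_range_eq_top_of_isAbsolutelyIrreducible ρ.residual hirr bk]
    simp only [hPb]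
    rfl
  -- inertia
  have htI : ∀ g ∈ A.inertiaSubgroupIn ℚ, ∀ {m : ℕ}, m ≠ 0 →
      tbar g = 1 + ((epsilonNat p m g : ℤ) : k) := fun g hg m hm => by
    obtain ⟨L, ⟨c, rfl⟩, -, hL⟩ := hres A hA
    have h : LinearMap.trace k ρ.residual.V (ρ.residual.ρ g) =
        1 + LinearMap.det (ρ.residual.ρ g) := trace_eq_one_add_det c _ (hL g hg)
    rw [LinearMap.trace_eq_matrix_trace k bk, ← LinearMap.det_toMatrix bk, hPb] at h
    rw [htrb, h, ← hdetb, hdet g hm]
  -- not Eisenstein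
  obtain ⟨ℓ, hℓ, hℓS, -, P, hP, φ, hφ, hne⟩ := Engine.TRep.exists_prime_trace_ne
    (Field.toIsField k) Pb (by
      obtain ⟨L, hL, hfix⟩ := ρ.residual.factorsThroughFiniteLevel
      exact ⟨L, hL, fun g hg => by rw [← hPb, hfix g hg, LinearMap.toMatrix_one]⟩) hspan S
    (fun ℓ hℓ hℓS P hP φ hφ => by
      have hℓN : ¬ ℓ ∣ M * p := fun h => hℓS (hNS ℓ hℓ h)
      rw [← hdetb, LinearMap.det_eq_sign_charpoly_coeff, ρ.finrank_eq,
        hfrob ℓ hℓ hℓN (fun h => hℓS h) P hP φ hφ]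
      simp) 1 one_pos
  let l : AwayIndex (↑S : Set ℕ) := ⟨⟨ℓ, hℓ⟩, fun h => hℓS h⟩
  have hl : κ (MvPolynomial.X l) ≠ ((l.1 : ℕ) : k) + 1 := by
    have hcp := hfrob ℓ hℓ (not_dvd_of_away hT l) l.2 P hP φ hφ
    rw [RingHom.comp_apply, chi_X, ← Chebotarev.trace_eq_of_charpoly ρ.finrank_eq hcp,
      show residue T (LinearMap.trace T ρ.V (ρ.ρ φ)) = tbar φ from rfl, htrb]
    exact hne
  -- the squares are small
  have key : ∀ σ ∈ A.inertiaSubgroupIn ℚ, ∀ τ ∈ A.inertiaSubgroupIn ℚ, ∀ g : GQ, ∀ n : ℕ,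
      (ρ.trace (σ * (τ * g)) - ρ.trace (σ * g) -
        LinearMap.det (ρ.ρ σ) * (ρ.trace (τ * g) - ρ.trace g)) ^ 2 ∈ maximalIdeal T ^ n := by
    intro σ hσ τ hτ g n
    obtain ⟨M₀, hM₀⟩ := exists_chi_mem_pow (repInputs (N := M * p) (p := p)) hT hpT π n
    set m := max (max M₀ n) 1 with hm
    have hm0 : m ≠ 0 := by omega
    have hnm : n ≤ m := (le_max_right M₀ n).trans (le_max_left _ _)
    have happM : ∀ g : GQ, ∃ l : AwayIndex (↑S : Set ℕ), κ (MvPolynomial.X l) = tbar g ∧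
        ∀ x : JZero M, p ^ m • x = 0 →
          g • g • x - heckeOperatorBar M l.1 (g • x) + (epsilonNat p m g : ℤ) • x = 0 := fun g => by
      obtain ⟨l, hlt, -, -, hrel⟩ := hnear g 1 m
      refine ⟨l, sub_eq_zero.mp ?_, hrel⟩
      show residue T (chi hT π (MvPolynomial.X l)) - residue T (ρ.trace g) = 0
      rw [← map_sub, residue_eq_zero_iff]
      exact pow_one (maximalIdeal T) ▸ hlt
    have happN : ∀ g : GQ, ∃ l : AwayIndex (↑S : Set ℕ), κ (MvPolynomial.X l) = tbar g ∧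
        ∀ x : JZero (M * p), p ^ m • x = 0 → g • g • x - heckeOperatorBar (M * p) l.1 (g • x) +
          (epsilonNat p m g : ℤ) • x = 0 := fun g => by
      obtain ⟨l, hlt, -, hrel, -⟩ := hnear g 1 m
      refine ⟨l, sub_eq_zero.mp ?_, hrel⟩
      show residue T (chi hT π (MvPolynomial.X l)) - residue T (ρ.trace g) = 0
      rw [← map_sub, residue_eq_zero_iff]
      exact pow_one (maximalIdeal T) ▸ hlt
    obtain ⟨σ₀, hσ₀, hc₀⟩ := hasTameGenerator hp2 hA hm0
    have hno : ¬ HasResidualChar p m tbar := no_residual_char Pb hspan htrb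
      (fun g => by rw [← hdetb, hdet g hm0]) hc₀ (htI σ₀ hσ₀ hm0)
    obtain ⟨a, a', ha, ha', hkill⟩ :=
      exists_killer Sg hp2 hT hm0 happM happN hno hl (fun g hg => htI g hg hm0)
    obtain ⟨l₁, t₁, -, n₁, m₁⟩ := hnear (σ * (τ * g)) n m
    obtain ⟨l₂, t₂, -, n₂, m₂⟩ := hnear (σ * g) n m
    obtain ⟨l₃, t₃, -, n₃, m₃⟩ := hnear (τ * g) n m
    obtain ⟨l₄, t₄, -, n₄, m₄⟩ := hnear g n m
    obtain ⟨-, -, hd, -⟩ := hnear σ n m
    have hz := hM₀ _ m ((le_max_left M₀ n).trans (le_max_left _ _))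
      (hkill hσ hτ m₁ m₂ m₃ m₄ n₁ n₂ n₃ n₄)
    have hu : ∀ c : AwayPoly ℤ (↑S : Set ℕ), κ c ≠ 0 → IsUnit (chi hT π c) := fun c hc =>
      (residue_ne_zero_iff_isUnit _).mp hc
    rw [map_mul, map_mul, map_mul,
      show ∀ H u v : T, H * u * (H * v) = H * H * (u * v) from fun _ _ _ => by ring] at hz
    replace hz := (Ideal.mul_unit_mem_iff_mem _ ((hu a' ha').mul (hu a ha))).mp hz
    set H := chi hT π (relOp (epsilonNat p m σ) l₁ l₂ l₃ l₄) with hH
    rw [← Ideal.Quotient.eq_zero_iff_mem, map_mul] at hz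
    rw [← Ideal.Quotient.eq_zero_iff_mem, map_pow, sq]
    suffices e : Ideal.Quotient.mk (maximalIdeal T ^ n) (ρ.trace (σ * (τ * g)) - ρ.trace (σ * g) -
        LinearMap.det (ρ.ρ σ) * (ρ.trace (τ * g) - ρ.trace g)) =
          Ideal.Quotient.mk (maximalIdeal T ^ n) H by rw [e]; exact hz
    have q := fun {x y : T} (h : x - y ∈ maximalIdeal T ^ n) => Ideal.Quotient.eq.mpr h
    simp only [hH, relOp, map_sub, map_mul, chi_C, q t₁, q t₂, q t₃, q t₄, q (hd hnm)]
  -- the relations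
  have hrel : ∀ σ ∈ A.inertiaSubgroupIn ℚ, ∀ τ ∈ A.inertiaSubgroupIn ℚ, ∀ v : ρ.V,
      ρ.ρ σ (ρ.ρ τ v - v) = LinearMap.det (ρ.ρ σ) • (ρ.ρ τ v - v) := by
    intro σ hσ τ hτ
    set d := LinearMap.det (ρ.ρ σ) with hd
    set R := DefRing.matrixRep ρ b with hR
    have h0 : ∀ g, ((R σ * (R τ - 1) - d • (R τ - 1)) * R g).trace = 0 := fun g => by
      have hz : ρ.trace (σ * (τ * g)) - ρ.trace (σ * g) - d * (ρ.trace (τ * g) - ρ.trace g) = 0 := by
        refine eq_zero_of_pow_eq_zero (n := 2) ?_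
        rw [← Submodule.mem_bot T,
          ← Ideal.iInf_pow_eq_bot_of_isLocalRing _ (maximalIdeal.isMaximal T).ne_top,
          Submodule.mem_iInf]
        exact key σ hσ τ hτ g
      have e : ∀ h, ρ.trace h = (R h).trace := fun h => by
        rw [GaloisRepAdic.trace, LinearMap.trace_eq_matrix_trace T b]; rfl
      simp only [e, map_mul] at hz
      simp only [sub_mul, mul_sub, one_mul, mul_one, Matrix.smul_mul, Matrix.trace_sub,
        Matrix.trace_smul, smul_eq_mul, smul_sub, mul_assoc]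
      linear_combination hz
    have hzero : R σ * (R τ - 1) - d • (R τ - 1) = 0 := by
      ext i j
      have hM : Matrix.single j i (1 : T) ∈ Submodule.span T (Set.range R) :=
        Chebotarev.span_matrixRep_eq_top ρ hirr b ▸ Submodule.mem_top
      have key' : ∀ Z ∈ Submodule.span T (Set.range R),
          ((R σ * (R τ - 1) - d • (R τ - 1)) * Z).trace = 0 := fun Z hZ => by
        induction hZ using Submodule.span_induction with
        | mem x hx => obtain ⟨g, rfl⟩ := hx; exact h0 g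
        | zero => simp
        | add x y _ _ hx hy => rw [mul_add, Matrix.trace_add, hx, hy, add_zero]
        | smul c x _ hx => rw [mul_smul_comm, Matrix.trace_smul, hx, smul_zero]
      simpa [Matrix.trace_mul_single] using key' _ hM
    intro v
    have h1 : ρ.ρ σ * (ρ.ρ τ - 1) - d • (ρ.ρ τ - 1) = 0 := by
      apply (LinearMap.toMatrix b b).injective
      rw [map_sub, map_smul, LinearMap.toMatrix_mul, map_sub, LinearMap.toMatrix_one, map_zero]
      exact hzero
    exact sub_eq_zero.mp (LinearMap.congr_fun h1 v)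
  obtain ⟨σ₀, hσ₀, hc₀⟩ := hasTameGenerator hp2 hA one_ne_zero
  refine exists_line_of_relations ρ A hrel hσ₀ ((residue_ne_zero_iff_isUnit _).mp ?_)
  rw [map_sub, map_one, hdet σ₀ one_ne_zero, ← Int.cast_one, ← Int.cast_sub, Ne,
    CharP.intCast_eq_zero_iff k p]
  exact hc₀

end Fermat.Agent.OrdinaryT

end
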