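import Fermat.Agent.OrdinaryT.Fix
import Fermat.Agent.OrdinaryT.Cong
import Fermat.Agent.Congruence.Reduction
import Fermat.Agent.EigenRep.Smooth
import Fermat.Agent.Reduction.Rank
import Fermat.Agent.SemistableRed.Toric
import Fermat.Agent.Reduction.Lattice
import Fermat.Agent.SemistableRed.GaussSplit

/-!
# Galois-fixed functions in a family of expansions

For a function fixed by a `Fixer`, the scalings giving nonzero reductions can be chosen fixed, so
their values are discrete.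
-/

noncomputable section

open IsLocalRing ModularCurve AlgebraicCurve HahnSeries
open Fermat.Agent.Reduction Fermat.Agent.SemistableRed

namespace Fermat.Agent.OrdinaryT

open FlatJ0

local notation "Ω" => AlgebraicClosure ℚ

/-- A family of expansions of the function field of level `N` over a place. -/
structure Expansion (A : ValuationSubring (AlgebraicClosure ℚ)) (N : ℕ) (ι : Type) where
  /-- the expansions -/
  side : ι → (modularFunctionFieldBar N →ₐ[AlgebraicClosure ℚ] LaurentSeries (AlgebraicClosure ℚ))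
  /-- the reduced field -/
  G : IntermediateField (ResidueField A) (LaurentSeries (ResidueField A))
  side_galois : ∀ (σ : AlgebraicClosure ℚ ≃ₐ[ℚ] AlgebraicClosure ℚ) i f,
    side i (arithmeticGalois (L := Ω) (modularFunctionFieldFull N) σ • f) =
      coeffMap (σ : AlgebraicClosure ℚ →+* AlgebraicClosure ℚ) (side i f)
  srep_mem : ∀ i f v, SRep (side i f) v → v ∈ G
  denom : ∀ i f, ∃ u, Bdd A (side i u) ∧ Bdd A (side i (u * f)) ∧
    ∃ v : LaurentSeries (ResidueField A), v ≠ 0 ∧ SRep (side i u) v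
  lift : ∀ z : ι → G, ∃ f, (∀ σ ∈ A.inertiaSubgroupIn ℚ,
      arithmeticGalois (L := Ω) (modularFunctionFieldFull N) σ • f = f) ∧
    ∀ i, SRep (side i f) (z i : LaurentSeries (ResidueField A))

variable {A : ValuationSubring Ω} {p : ℕ} {N : ℕ} {ι : Type}

/-- Fixed functions. -/
def Fixer.FFixed (Φ : Fixer A) (f : modularFunctionFieldBar N) : Prop :=
  ∀ σ ∈ Φ.H, arithmeticGalois (L := Ω) (modularFunctionFieldFull N) σ • f = f

theorem galois_smul_smul (σ : Ω ≃ₐ[ℚ] Ω) (a : Ω) (f : modularFunctionFieldBar N) :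
    arithmeticGalois (L := Ω) (modularFunctionFieldFull N) σ • (a • f) =
      σ a • (arithmeticGalois (L := Ω) (modularFunctionFieldFull N) σ • f) := by
  refine Subtype.ext ?_
  rw [coe_arithmeticGalois_smul, Algebra.smul_def, Algebra.smul_def, MulMemClass.coe_mul,
    MulMemClass.coe_mul, map_mul, coe_arithmeticGalois_smul,
    IntermediateField.coe_algebraMap_apply, IntermediateField.coe_algebraMap_apply,
    coeffMap_algebraMap]
  rfl

namespace Fixer

variable (Φ : Fixer A) {f g : modularFunctionFieldBar N}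

theorem FFixed.mul (hf : Φ.FFixed f) (hg : Φ.FFixed g) : Φ.FFixed (f * g) := fun σ hσ => by
  rw [smul_mul', hf σ hσ, hg σ hσ]

theorem FFixed.add (hf : Φ.FFixed f) (hg : Φ.FFixed g) : Φ.FFixed (f + g) := fun σ hσ => by
  rw [smul_add, hf σ hσ, hg σ hσ]

theorem FFixed.sub (hf : Φ.FFixed f) (hg : Φ.FFixed g) : Φ.FFixed (f - g) := fun σ hσ => by
  rw [smul_sub, hf σ hσ, hg σ hσ]

theorem FFixed.inv (hf : Φ.FFixed f) : Φ.FFixed f⁻¹ := fun σ hσ => by
  rw [smul_inv'', hf σ hσ]

theorem FFixed.pow (hf : Φ.FFixed f) (m : ℕ) : Φ.FFixed (f ^ m) := fun σ hσ => by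
  rw [smul_pow', hf σ hσ]

theorem ffixed_one : Φ.FFixed (1 : modularFunctionFieldBar N) := fun _ _ => smul_one _

theorem FFixed.smul {a : Ω} (ha : a ∈ Φ.field) (hf : Φ.FFixed f) : Φ.FFixed (a • f) :=
  fun σ hσ => by rw [galois_smul_smul, ha σ hσ, hf σ hσ]

end Fixer

/-- Every function is fixed by some fixer. -/
theorem exists_fixer (A : ValuationSubring Ω) (f : modularFunctionFieldBar N) :
    ∃ Φ : Fixer A, Φ.FFixed f := by
  obtain ⟨E, hE, hfix⟩ := EigenRep.exists_level_element f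
  refine ⟨⟨A.inertiaSubgroupIn ℚ ⊓ E.fixingSubgroup, inf_le_left, E, hE, fun σ hσ h => ⟨hσ, ?_⟩⟩,
    fun σ hσ => ?_⟩
  · exact (IntermediateField.mem_fixingSubgroup_iff E σ).mpr h
  · exact Subtype.ext (hfix σ ((IntermediateField.mem_fixingSubgroup_iff E σ).mp hσ.2))

theorem bdd_mul {x y : LaurentSeries Ω} (hx : Bdd A x) (hy : Bdd A y) : Bdd A (x * y) := by
  obtain ⟨c, hc, z, hz⟩ := hx
  obtain ⟨d, hd, w, hw⟩ := hy
  refine ⟨c * d, mul_ne_zero hc hd, z * w, ?_⟩
  rw [map_mul, hz, hw, MulMemClass.coe_mul, ← zero_add (0 : ℤ), ← HahnSeries.single_mul_single,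
    zero_add]
  ring

theorem bdd_one : Bdd A (1 : LaurentSeries Ω) := Bdd.of_range ⟨1, map_one _⟩

/-- Conjugation by inertia preserves boundedness and reductions. -/
theorem coeffMap_inertia {σ : Ω ≃ₐ[ℚ] Ω} (hσ : σ ∈ A.inertiaSubgroupIn ℚ)
    {x : LaurentSeries Ω} :
    (Bdd A x → Bdd A (coeffMap (σ : Ω →+* Ω) x)) ∧
      ∀ v, SRep (A := A) x v → SRep (A := A) (coeffMap (σ : Ω →+* Ω) x) v := by
  have hd := MultRed.inertia_mem_decomposition hσ
  have hg : ∀ a : A, σ (a : Ω) ∈ A := fun a => (residue_inertia hσ a.2).1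
  let g : A →+* A := ((σ : Ω →+* Ω).comp A.subtype).codRestrict A.toSubring hg
  refine ⟨?_, fun v h => ?_⟩
  · rintro ⟨c, hc, z, hz⟩
    refine ⟨⟨σ (c : Ω), hg c⟩, fun h0 => hc ?_, coeffMap g z, ?_⟩
    · exact Subtype.ext (σ.injective ((congrArg Subtype.val h0).trans (map_zero σ).symm))
    · rw [show ιS A (coeffMap g z) = coeffMap (σ : Ω →+* Ω) (ιS A z) from
        HahnSeries.ext (funext fun n => rfl), hz, map_mul, coeffMap_single]
      rfl
  · have := SRep.map (A := A) (σ : Ω →+* Ω) g (fun a => rfl) (RingHom.id _) (fun a => by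
      exact (residue_inertia hσ a.2).2) h
    rwa [coeffMap_id] at this

namespace Expansion

variable (E : Expansion A N ι) (Φ : Fixer A)

/-- A fixed function has a fixed scaling with nonzero reduction. -/
theorem exists_scale (hA : IsOver A p) {f : modularFunctionFieldBar N} (hf : Φ.FFixed f)
    (hf0 : f ≠ 0) (i : ι) :
    ∃ a ∈ Φ.field, a ≠ 0 ∧ ∃ v ∈ E.G, v ≠ 0 ∧ SRep (a • E.side i f) v := by
  classical
  have : Fact p.Prime := ⟨hA.prime⟩
  obtain ⟨u, hub, hufb, vu, hvu, hur⟩ := E.denom i f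
  obtain ⟨L₀, hL₀, hlev⟩ := EigenRep.exists_level_element u
  set act := arithmeticGalois (L := Ω) (modularFunctionFieldFull N)
  set O : Set (modularFunctionFieldBar N) := {y | ∃ σ ∈ Φ.H, act σ • u = y}
  choose g hg hgu using fun y : O => y.2
  have hinj : Function.Injective fun y : O => (g y).toAlgHom.comp L₀.val := by
    intro y y' h
    have hfix : ∀ b ∈ L₀, ((g y')⁻¹ * g y) b = b := fun b hb => by
      have h1 : g y b = g y' b := DFunLike.congr_fun h ⟨b, hb⟩
      rw [AlgEquiv.mul_apply, h1, ← AlgEquiv.mul_apply, inv_mul_cancel, AlgEquiv.one_apply]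
    have h2 : act ((g y')⁻¹ * g y) • u = u :=
      Subtype.ext ((coe_arithmeticGalois_smul _ _ _).trans (hlev _ hfix))
    apply Subtype.ext
    rw [← hgu y, ← hgu y']
    calc act (g y) • u = act (g y' * ((g y')⁻¹ * g y)) • u := by rw [mul_inv_cancel_left]
      _ = act (g y') • u := by
        rw [map_mul, mul_smul]
        exact congrArg (act (g y') • ·) h2
  have : Finite O := Finite.of_injective _ hinj
  have : Fintype O := Fintype.ofFinite O
  set s := O.toFinset
  have hs : ∀ {y}, y ∈ s ↔ ∃ σ ∈ Φ.H, act σ • u = y := fun {y} => Set.mem_toFinset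
  have hside : ∀ y ∈ s, Bdd A (E.side i y) ∧ SRep (E.side i y) vu := by
    intro y hy
    obtain ⟨σ, hσ, rfl⟩ := hs.mp hy
    obtain ⟨h1, h2⟩ := coeffMap_inertia (Φ.le_inertia hσ) (x := E.side i u)
    rw [E.side_galois]
    exact ⟨h1 hub, h2 _ hur⟩
  set U := ∏ y ∈ s, y
  have hU : Φ.FFixed U := fun τ hτ => by
    rw [Finset.smul_prod']
    refine Finset.prod_bij (fun y _ => act τ • y) ?_
      (fun a _ b _ e => (smul_left_cancel_iff (act τ)).mp e) ?_ fun _ _ => rfl
    · intro y hy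
      obtain ⟨σ, hσ, rfl⟩ := hs.mp hy
      exact hs.mpr ⟨τ * σ, mul_mem hτ hσ, by rw [map_mul, mul_smul]⟩
    · intro y hy
      obtain ⟨σ, hσ, rfl⟩ := hs.mp hy
      refine ⟨act (τ⁻¹ * σ) • u, hs.mpr ⟨τ⁻¹ * σ, mul_mem (inv_mem hτ) hσ, rfl⟩, ?_⟩
      rw [← mul_smul, ← map_mul, mul_inv_cancel_left]
  have hus : u ∈ s := hs.mpr ⟨1, one_mem _, by rw [map_one, one_smul]⟩
  have hUr : SRep (E.side i U) (∏ _y ∈ s, vu) := by
    rw [map_prod]
    exact SRep.prod (A := A) s fun y hy => (hside y hy).2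
  have hUb : Bdd A (E.side i (U * f)) := by
    have he : U * f = (u * f) * ∏ y ∈ s.erase u, y := by
      rw [mul_right_comm, Finset.mul_prod_erase s (fun y => y) hus]
    rw [he, map_mul, map_prod]
    refine bdd_mul hufb (Finset.prod_induction _ (Bdd A) (fun a b => bdd_mul) bdd_one ?_)
    exact fun y hy => (hside y (Finset.mem_of_mem_erase hy)).1
  have hvU : (∏ _y ∈ s, vu) ≠ 0 := Finset.prod_ne_zero_iff.mpr fun _ _ => hvu
  have hU0 : U ≠ 0 := fun h => hvU (hUr.unique (by rw [h, map_zero]; exact SRep.zero))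
  set x := E.side i (U * f) with hx
  have hxfix : ∀ n, x.coeff n ∈ Φ.field := fun n σ hσ => by
    have h := (hU.mul Φ hf) σ hσ
    have h2 := congrArg (fun t => (E.side i t).coeff n) h
    simp only [E.side_galois, coeffMap_coeff] at h2
    exact h2
  have hx0 : x ≠ 0 := (map_ne_zero (E.side i)).mpr (mul_ne_zero hU0 hf0)
  -- the minimal value of a coefficient
  obtain ⟨c₀, hc₀, z₀, hz₀⟩ := hUb
  obtain ⟨d, hd, hden⟩ := Φ.exists_den hA
  have hc₀' : (c₀ : Ω) ≠ 0 := fun h => hc₀ (Subtype.ext h)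
  obtain ⟨b, ⟨n, hn, hb⟩, hmin⟩ := Int.exists_least_of_bdd
    (P := fun z => ∃ n, x.coeff n ≠ 0 ∧ (z : ℚ) = d * ord A p (x.coeff n))
    ⟨⌊(d : ℚ) * -ord A p (c₀ : Ω)⌋, fun z ⟨n, hn, hz⟩ => by
      rw [← Int.cast_le (R := ℚ)]
      refine (Int.floor_le _).trans (hz ▸ mul_le_mul_of_nonneg_left ?_ (Nat.cast_nonneg d))
      have hA' : (c₀ : Ω) * x.coeff n ∈ A := by
        have := congrArg (fun t => t.coeff n) hz₀
        simp only [coeffMap_coeff, Reduction.coeff_single_zero_mul] at this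
        rw [← this]
        exact (z₀.coeff n).2
      have := (hA.mem_iff (mul_ne_zero hc₀' hn)).mp hA'
      rw [hA.ord_mul hc₀' hn] at this
      linarith⟩
    (by
      obtain ⟨n, hn⟩ : ∃ n, x.coeff n ≠ 0 := by
        by_contra h
        push Not at h
        exact hx0 (HahnSeries.ext (funext h))
      obtain ⟨z, hz⟩ := hden _ (hxfix n)
      exact ⟨z, n, hn, hz.symm⟩)
  have hint : ∀ m, (x.coeff n)⁻¹ * x.coeff m ∈ A := fun m => by
    rcases eq_or_ne (x.coeff m) 0 with h0 | h0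
    · rw [h0, mul_zero]; exact A.zero_mem
    refine (hA.mem_iff (mul_ne_zero (inv_ne_zero hn) h0)).mpr ?_
    rw [hA.ord_mul (inv_ne_zero hn) h0, hA.ord_inv hn]
    obtain ⟨z, hz⟩ := hden _ (hxfix m)
    have hle : (b : ℚ) ≤ z := Int.cast_le.mpr (hmin z ⟨m, h0, hz.symm⟩)
    rw [hb, ← hz] at hle
    have := le_of_mul_le_mul_left hle (by exact_mod_cast hd)
    linarith
  obtain ⟨y, hy⟩ := (mem_range_ιS_iff (A := A) (x := (x.coeff n)⁻¹ • x)).mpr fun m => by
    rw [smul_eq_algebraMap_mul, algebraMap_laurentSeries_eq_single, Reduction.coeff_single_zero_mul]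
    exact hint m
  have hyn : redS A y ≠ 0 := by
    intro h
    have h1 := congrArg (fun t => t.coeff n) h
    have h2 := congrArg (fun t => t.coeff n) hy
    simp only [coeffMap_coeff, HahnSeries.coeff_zero] at h1 h2
    rw [smul_eq_algebraMap_mul, algebraMap_laurentSeries_eq_single, Reduction.coeff_single_zero_mul,
      inv_mul_cancel₀ hn] at h2
    rw [show y.coeff n = 1 from Subtype.ext h2, map_one] at h1
    exact one_ne_zero h1
  have hr : SRep ((x.coeff n)⁻¹ • E.side i f) (redS A y * (∏ _y ∈ s, vu)⁻¹) := by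
    have h := (SRep.series y).mul (hUr.inv hvU)
    have he : (x.coeff n)⁻¹ • x * (E.side i U)⁻¹ = (x.coeff n)⁻¹ • E.side i f := by
      rw [smul_eq_algebraMap_mul, smul_eq_algebraMap_mul, hx, map_mul, mul_assoc,
        mul_comm (E.side i U), mul_assoc, mul_inv_cancel₀ ((map_ne_zero _).mpr hU0), mul_one]
    rw [hy, he] at h
    exact h
  refine ⟨_, inv_mem (hxfix n), inv_ne_zero hn, _, ?_, mul_ne_zero hyn (inv_ne_zero hvU), hr⟩
  exact E.srep_mem i ((x.coeff n)⁻¹ • f) _ (by rw [algHom_smul]; exact hr)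

/-- A function whose image under the injective map `qExpand` reduces, reduces. -/
theorem srep_of_qExpand (hA : IsOver A p) {m : ℕ} [NeZero m] {f : modularFunctionFieldBar N}
    {i : ι} {v' : LaurentSeries (ResidueField A)}
    (h : SRep (qExpand Ω m (E.side i f)) v') :
    ∃ w, SRep (E.side i f) w ∧ qExpand (ResidueField A) m w = v' := by
  suffices ∃ w, SRep (E.side i f) w by
    obtain ⟨w, hw⟩ := this
    exact ⟨w, hw, (hw.qExpand m).unique h⟩
  rcases eq_or_ne f 0 with rfl | hf0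
  · exact ⟨0, by rw [map_zero]; exact SRep.zero⟩
  obtain ⟨Φ, hΦ⟩ := exists_fixer A f
  obtain ⟨a, -, ha0, w, -, hw0, hw⟩ := E.exists_scale Φ hA hΦ hf0 i
  by_cases haA : a⁻¹ ∈ A
  · have := hw.smul haA
    rw [smul_smul, inv_mul_cancel₀ ha0, one_smul] at this
    exact ⟨_, this⟩
  · exfalso
    have haA' : a ∈ A := (A.mem_or_inv_mem a).resolve_right haA
    have h1 : SRep (qExpand Ω m (a • E.side i f)) (residue A ⟨a, haA'⟩ • v') := by
      rw [smul_eq_algebraMap_mul, map_mul, algebraMap_laurentSeries_eq_single, qExpand_single,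
        mul_zero, ← algebraMap_laurentSeries_eq_single, ← smul_eq_algebraMap_mul]
      exact h.smul haA'
    have hr : residue A ⟨a, haA'⟩ = 0 := by
      rw [residue_eq_zero_iff, IsLocalRing.mem_maximalIdeal, mem_nonunits_iff]
      rintro ⟨u, hu⟩
      refine haA ?_
      have h2 : ((u : A) : Ω) * ((↑u⁻¹ : A) : Ω) = 1 := congrArg Subtype.val u.mul_inv
      rw [hu] at h2
      rw [← eq_inv_of_mul_eq_one_right h2]
      exact SetLike.coe_mem _
    rw [hr, zero_smul] at h1
    exact hw0 ((map_eq_zero_iff _ (qExpand_injective (R := ResidueField A) m)).mp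
      ((hw.qExpand m).unique h1))

/-- A strictly deeper congruence when the first one vanishes. -/
theorem exists_deeper (hA : IsOver A p) [Fintype ι] [Nonempty ι] {f : modularFunctionFieldBar N}
    (hf : Φ.FFixed f) (hf1 : f ≠ 1) {c : Ω} (hc0 : c ≠ 0) (h : ∀ i, Cong (A := A) c (E.side i f) 0) :
    ∃ c' ∈ Φ.field, c' ≠ 0 ∧ ord A p c < ord A p c' ∧ ∃ v : ι → E.G,
      (∀ i, Cong c' (E.side i f) (v i : LaurentSeries (ResidueField A))) ∧ ∃ i, v i ≠ 0 := by
  classical
  choose a ha ha0 w hw hw0 hwr using fun i =>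
    E.exists_scale Φ hA (hf.sub Φ Φ.ffixed_one) (sub_ne_zero.mpr hf1) i
  have hlt : ∀ i, ord A p c < -ord A p (a i) := fun i => by
    by_contra hcon
    have hmem : a i * c ∈ A := (hA.mem_iff (mul_ne_zero (ha0 i) hc0)).mpr (by
      rw [hA.ord_mul (ha0 i) hc0]; linarith [not_lt.mp hcon])
    have h1 := SRep.smul hmem (h i)
    rw [smul_zero, smul_smul, mul_assoc, mul_inv_cancel₀ hc0, mul_one] at h1
    refine hw0 i ((hwr i).unique ?_)
    rwa [map_sub, map_one]
  obtain ⟨i₀, -, hmax⟩ := Finset.exists_max_image Finset.univ (fun i => ord A p (a i))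
    Finset.univ_nonempty
  have hdiv : ∀ i, a i₀ / a i ∈ A := fun i => (hA.mem_iff (div_ne_zero (ha0 _) (ha0 _))).mpr (by
    rw [hA.ord_div (ha0 _) (ha0 _)]; linarith [hmax i (Finset.mem_univ i)])
  refine ⟨(a i₀)⁻¹, inv_mem (ha i₀), inv_ne_zero (ha0 i₀), by rw [hA.ord_inv (ha0 _)]; exact hlt i₀,
    fun i => residue A ⟨_, hdiv i⟩ • ⟨w i, hw i⟩, fun i => ?_, i₀, ?_⟩
  · have h1 := SRep.smul (hdiv i) (hwr i)
    rw [smul_smul, div_mul_cancel₀ _ (ha0 i)] at h1
    rw [Cong, inv_inv, ← map_one (E.side i), ← map_sub]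
    show SRep (a i₀ • E.side i (f - 1)) ((residue A ⟨_, hdiv i⟩ • (⟨w i, hw i⟩ : E.G) : E.G) :
      LaurentSeries (ResidueField A))
    rw [Algebra.smul_def, MulMemClass.coe_mul, IntermediateField.coe_algebraMap_apply,
      ← smul_eq_algebraMap_mul]
    exact h1
  · show residue A ⟨_, hdiv i₀⟩ • (⟨w i₀, hw i₀⟩ : E.G) ≠ 0
    rw [show (⟨_, hdiv i₀⟩ : A) = 1 from Subtype.ext (div_self (ha0 i₀)), map_one, one_smul]
    exact fun h0 => hw0 i₀ (congrArg Subtype.val h0)

end Expansion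

end Fermat.Agent.OrdinaryT

end
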