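import Fermat.Agent.FlatJ0.Ord
import Fermat.Agent.BigImage.RootsOfUnity
import Fermat.Agent.Frobenius.Exists
import Mathlib.RingTheory.RootsOfUnity.CyclotomicUnits
import Mathlib.RingTheory.RootsOfUnity.AlgebraicallyClosed

/-!
# Constants fixed by a subgroup of finite index of inertia

Their values lie in a discrete subgroup of `ℚ`, which drives every successive approximation, and
residues lift to constants fixed by the whole inertia group.
-/

open scoped Pointwise
open IsLocalRing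

noncomputable section

namespace Fermat.Agent.OrdinaryT

open FlatJ0

local notation "Ω" => AlgebraicClosure ℚ
local notation "G_ℚ" => (AlgebraicClosure ℚ) ≃ₐ[ℚ] (AlgebraicClosure ℚ)

local instance isAlgebraicQbarOrdT : Algebra.IsAlgebraic ℚ (AlgebraicClosure ℚ) :=
  AlgebraicClosure.isAlgebraic ℚ

/-- A subgroup of inertia containing the fixer of some number field. -/
structure Fixer (A : ValuationSubring Ω) where
  /-- the subgroup -/
  H : Subgroup G_ℚ
  le_inertia : H ≤ A.inertiaSubgroupIn ℚ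
  exists_level : ∃ E : IntermediateField ℚ Ω, FiniteDimensional ℚ E ∧
    ∀ σ ∈ A.inertiaSubgroupIn ℚ, (∀ a ∈ E, σ a = a) → σ ∈ H

variable {A : ValuationSubring Ω} {p : ℕ}

namespace Fixer

variable (Φ : Fixer A)

/-- The constants fixed by the subgroup. -/
def field : Subfield Ω where
  carrier := {a | ∀ σ ∈ Φ.H, σ a = a}
  mul_mem' ha hb σ hσ := by rw [map_mul, ha σ hσ, hb σ hσ]
  one_mem' σ _ := map_one σ
  add_mem' ha hb σ hσ := by rw [map_add, ha σ hσ, hb σ hσ]
  zero_mem' σ _ := map_zero σ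
  neg_mem' ha σ hσ := by rw [map_neg, ha σ hσ]
  inv_mem' a ha σ hσ := by rw [map_inv₀, ha σ hσ]

/-- The values of fixed constants have bounded denominators. -/
theorem exists_den (hA : IsOver A p) :
    ∃ d : ℕ, 0 < d ∧ ∀ a ∈ Φ.field, ∃ z : ℤ, (d : ℚ) * ord A p a = z := by
  classical
  obtain ⟨E, hE, hmem⟩ := Φ.exists_level
  set e := Fintype.card (E →ₐ[ℚ] Ω)
  refine ⟨e.factorial, e.factorial_pos, fun a ha => ?_⟩
  rcases eq_or_ne a 0 with rfl | ha0
  · obtain ⟨z, hz⟩ := hA.exists_ord_eq_int (x := (0 : Ω)) fun σ _ => map_zero σ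
    exact ⟨e.factorial * z, by rw [hz]; push_cast; rfl⟩
  set O : Set Ω := {y | ∃ σ ∈ A.inertiaSubgroupIn ℚ, σ a = y}
  choose g hg hga using fun y : O => y.2
  have hinj : Function.Injective fun y : O => (g y).toAlgHom.comp E.val := by
    intro y y' h
    have hEfix : ∀ b ∈ E, ((g y')⁻¹ * g y) b = b := fun b hb => by
      have h1 : g y b = g y' b := DFunLike.congr_fun h ⟨b, hb⟩
      rw [AlgEquiv.mul_apply, h1, ← AlgEquiv.mul_apply, inv_mul_cancel, AlgEquiv.one_apply]
    have h2 := ha _ (hmem _ (mul_mem (inv_mem (hg y')) (hg y)) hEfix)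
    apply Subtype.ext
    rw [← hga y, ← hga y']
    exact (g y').symm.injective (by rw [AlgEquiv.symm_apply_apply]; exact h2)
  have : Finite O := Finite.of_injective _ hinj
  have : Fintype O := Fintype.ofFinite O
  set s : Finset Ω := O.toFinset
  have hs : ∀ {y}, y ∈ s ↔ ∃ σ ∈ A.inertiaSubgroupIn ℚ, σ a = y := fun {y} => Set.mem_toFinset
  have hfix : ∀ τ ∈ A.inertiaSubgroupIn ℚ, τ (∏ y ∈ s, y) = ∏ y ∈ s, y := by
    intro τ hτ
    rw [map_prod]
    refine Finset.prod_bij (fun y _ => τ y) ?_ (fun a _ b _ e => τ.injective e) ?_ fun _ _ => rfl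
    · intro y hy
      obtain ⟨σ, hσ, rfl⟩ := hs.mp hy
      exact hs.mpr ⟨τ * σ, mul_mem hτ hσ, rfl⟩
    · intro y hy
      obtain ⟨σ, hσ, rfl⟩ := hs.mp hy
      refine ⟨τ⁻¹ (σ a), hs.mpr ⟨τ⁻¹ * σ, mul_mem (inv_mem hτ) hσ, rfl⟩, ?_⟩
      rw [← AlgEquiv.mul_apply, mul_inv_cancel, AlgEquiv.one_apply]
  obtain ⟨z, hz⟩ := hA.exists_ord_eq_int hfix
  have hne : ∀ y ∈ s, y ≠ 0 := fun y hy => by
    obtain ⟨σ, -, rfl⟩ := hs.mp hy; simpa using ha0
  have hsum : ord A p (∏ y ∈ s, y) = s.card * ord A p a := by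
    rw [hA.ord_prod s _ hne, Finset.sum_congr rfl (g := fun _ => ord A p a), Finset.sum_const,
      nsmul_eq_mul]
    intro y hy
    obtain ⟨σ, hσ, rfl⟩ := hs.mp hy
    exact hA.ord_apply (MultRed.inertia_mem_decomposition hσ) a
  have hcard : s.card ≤ e := by
    rw [Set.toFinset_card]; exact Fintype.card_le_of_injective _ hinj
  have hpos : 0 < s.card := Finset.card_pos.mpr ⟨a, hs.mpr ⟨1, one_mem _, rfl⟩⟩
  obtain ⟨m, hm⟩ := Nat.dvd_factorial hpos hcard
  refine ⟨m * z, ?_⟩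
  rw [hm, Nat.cast_mul, Int.cast_mul, Int.cast_natCast, ← hz, hsum]
  ring

/-- A property of fixed constants which can always be strengthened below a bound holds beyond
it. -/
theorem climb (hA : IsOver A p) (P : Ω → Prop) (B : ℚ)
    (step : ∀ c ∈ Φ.field, c ≠ 0 → P c → ord A p c < B →
      ∃ c' ∈ Φ.field, c' ≠ 0 ∧ P c' ∧ ord A p c < ord A p c')
    {c : Ω} (hc : c ∈ Φ.field) (hc0 : c ≠ 0) (hPc : P c) :
    ∃ c' ∈ Φ.field, c' ≠ 0 ∧ P c' ∧ B ≤ ord A p c' := by
  obtain ⟨d, hd, hden⟩ := Φ.exists_den hA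
  have key : ∀ n : ℕ, ∃ c' ∈ Φ.field, c' ≠ 0 ∧ P c' ∧
      (B ≤ ord A p c' ∨ (d : ℚ) * ord A p c + n ≤ d * ord A p c') := by
    intro n
    induction n with
    | zero => exact ⟨c, hc, hc0, hPc, Or.inr (by simp)⟩
    | succ n ih =>
      obtain ⟨c', hc', hc'0, hP', h⟩ := ih
      by_cases hB : B ≤ ord A p c'
      · exact ⟨c', hc', hc'0, hP', Or.inl hB⟩
      obtain ⟨c'', hc'', hc''0, hP'', hlt⟩ := step c' hc' hc'0 hP' (not_le.mp hB)
      obtain ⟨z', hz'⟩ := hden c' hc'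
      obtain ⟨z'', hz''⟩ := hden c'' hc''
      have h1 : z' + 1 ≤ z'' := by
        have : (z' : ℚ) < z'' := by
          rw [← hz', ← hz'']; exact mul_lt_mul_of_pos_left hlt (by exact_mod_cast hd)
        exact_mod_cast this
      refine ⟨c'', hc'', hc''0, hP'', Or.inr ?_⟩
      have h2 : (z' : ℚ) + 1 ≤ z'' := by exact_mod_cast h1
      have h3 := h.resolve_left hB
      rw [hz'] at h3
      rw [hz'']
      push_cast
      linarith
  obtain ⟨n, hn⟩ := exists_nat_ge ((d : ℚ) * B - d * ord A p c)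
  obtain ⟨c', hc', hc'0, hP', h⟩ := key n
  refine ⟨c', hc', hc'0, hP', h.elim id fun h => ?_⟩
  exact le_of_mul_le_mul_left (a := (d : ℚ)) (by linarith) (by exact_mod_cast hd)

end Fixer

/-! ## Residues -/

theorem residue_eq_iff {x y : Ω} (hx : x ∈ A) (hy : y ∈ A) :
    residue A ⟨x, hx⟩ = residue A ⟨y, hy⟩ ↔ x - y ∈ A.nonunits := by
  rw [← sub_eq_zero, ← map_sub, residue_eq_zero_iff, ← ValuationSubring.coe_mem_nonunits_iff]
  rfl

/-- Inertia does not change residues. -/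
theorem residue_inertia {σ : G_ℚ} (hσ : σ ∈ A.inertiaSubgroupIn ℚ) {x : Ω}
    (hx : x ∈ A) :
    ∃ h : σ x ∈ A, residue A ⟨σ x, h⟩ = residue A ⟨x, hx⟩ := by
  have h : σ x ∈ A := (A.valuation_le_one_iff _).mp (by
    rw [MultRed.decomp_isometry (MultRed.inertia_mem_decomposition hσ)]
    exact (A.valuation_le_one_iff x).mpr hx)
  refine ⟨h, (residue_eq_iff h hx).mpr ?_⟩
  rw [ValuationSubring.mem_nonunits_iff]
  exact MultRed.inertia_residue hσ x ((A.valuation_le_one_iff x).mpr hx)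

/-- Every residue lifts to a constant fixed by inertia. -/
theorem exists_lift_fixed (hA : IsOver A p) (r : ResidueField A) :
    ∃ a : A, residue A a = r ∧ ∀ σ ∈ A.inertiaSubgroupIn ℚ, σ (a : Ω) = a := by
  have : Fact p.Prime := ⟨hA.prime⟩
  rcases eq_or_ne r 0 with rfl | hr
  · exact ⟨0, map_zero _, fun σ _ => map_zero σ⟩
  have := Frobenius.residueField_charP hA.prime hA.liesOver
  let := ZMod.algebra (ResidueField A) p
  have hint : IsIntegral (ZMod p) r := by
    obtain ⟨f, hf, hfr⟩ := Frobenius.residueField_isIntegral hA.prime hA.liesOver r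
    refine ⟨f.map (Int.castRingHom (ZMod p)), hf.map _, ?_⟩
    rw [Polynomial.eval₂_map, RingHom.ext_int ((algebraMap (ZMod p) (ResidueField A)).comp
      (Int.castRingHom (ZMod p))) (algebraMap ℤ (ResidueField A))]
    exact hfr
  set E := IntermediateField.adjoin (ZMod p) ({r} : Set (ResidueField A))
  have := IntermediateField.adjoin.finiteDimensional hint
  have : Finite E := Module.finite_of_finite (ZMod p)
  have : Fintype E := Fintype.ofFinite E
  set m := Fintype.card E - 1 with hm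
  have hE2 : 1 < Fintype.card E := Fintype.one_lt_card
  have hm0 : m ≠ 0 := by omega
  have hrm : r ^ m = 1 := by
    have h := FiniteField.pow_card_sub_one_eq_one
      (⟨r, IntermediateField.mem_adjoin_simple_self _ r⟩ : E)
      fun h => hr (congrArg Subtype.val h)
    exact congrArg Subtype.val h
  have hpm : ¬ p ∣ m := by
    intro hdvd
    have h1 : p ∣ Fintype.card E := by
      have := (FiniteField.card E p)
      obtain ⟨f, -, hf⟩ := this
      rw [hf]; exact dvd_pow_self p f.ne_zero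
    have h2 := Nat.dvd_sub h1 hdvd
    rw [hm, Nat.sub_sub_self hE2.le] at h2
    exact hA.prime.not_dvd_one h2
  have : NeZero m := ⟨hm0⟩
  obtain ⟨ζ, hζ⟩ := HasEnoughRootsOfUnity.exists_primitiveRoot Ω m
  have hζA : ζ ∈ A :=
    FreyReducible.mem_of_isIntegral_int A (hζ.isIntegral (Nat.pos_of_ne_zero hm0))
  have hζ' : IsPrimitiveRoot (⟨ζ, hζA⟩ : A) m :=
    IsPrimitiveRoot.of_map_of_injective (f := A.subtype) hζ Subtype.coe_injective
  have hprod := Polynomial.X_pow_sub_one_eq_prod (R := A) (Nat.pos_of_ne_zero hm0) hζ'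
  have h0 := congrArg (Polynomial.eval₂ (residue A) r) hprod
  rw [Polynomial.eval₂_sub, Polynomial.eval₂_pow, Polynomial.eval₂_X, Polynomial.eval₂_one, hrm,
    sub_self, Polynomial.eval₂_finsetProd] at h0
  obtain ⟨a, ha, ha0⟩ := Finset.prod_eq_zero_iff.mp h0.symm
  rw [Polynomial.eval₂_sub, Polynomial.eval₂_X, Polynomial.eval₂_C, sub_eq_zero] at ha0
  refine ⟨a, ha0.symm, fun σ hσ => ?_⟩
  rw [Polynomial.mem_nthRootsFinset (Nat.pos_of_ne_zero hm0)] at ha
  exact BigImage.inertia_root_of_unity hA.prime hA.liesOver hσ hpm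
    (by rw [← SubmonoidClass.coe_pow, ha]; rfl)

/-- The value and the inertia character of `ζ - 1`. -/
theorem exists_zeta (hA : IsOver A p) {ζ : Ω} (hζ : IsPrimitiveRoot ζ p) :
    ((p : ℚ) - 1) * ord A p (ζ - 1) = 1 ∧ ∀ σ ∈ A.inertiaSubgroupIn ℚ, ∀ j : ℕ, σ ζ = ζ ^ j →
      ∃ h : σ (ζ - 1) / (ζ - 1) ∈ A, residue A ⟨_, h⟩ = (j : ResidueField A) := by
  have hp := hA.prime
  have hne : ζ - 1 ≠ 0 := sub_ne_zero.mpr (hζ.ne_one hp.one_lt)
  have hζA : ζ ∈ A := FreyReducible.mem_of_isIntegral_int A (hζ.isIntegral hp.pos)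
  have hζ' : IsPrimitiveRoot (⟨ζ, hζA⟩ : A) p :=
    IsPrimitiveRoot.of_map_of_injective (f := A.subtype) hζ Subtype.coe_injective
  constructor
  · have hord : ∀ i ∈ Finset.range (p - 1), ord A p (1 - ζ ^ (i + 1)) = ord A p (ζ - 1) := by
      intro i hi
      have hcop : (i + 1).Coprime p := ((Nat.Prime.coprime_iff_not_dvd hp).2 fun hd => by
        have := Nat.le_of_dvd (by omega) hd
        simp only [Finset.mem_range] at hi
        omega).symm
      obtain ⟨u, hu⟩ := hζ'.associated_sub_one_pow_sub_one_of_coprime hcop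
      have hu' := congrArg (fun t : A => (t : Ω)) hu
      push_cast at hu'
      have hu0 : ((u : A) : Ω) ≠ 0 := by simp
      have huv : ord A p ((u : A) : Ω) = 0 := by
        refine le_antisymm ?_ ((hA.mem_iff hu0).mp (u : A).2)
        have h1 : ((u⁻¹ : Aˣ) : A).1 = ((u : A) : Ω)⁻¹ :=
          eq_inv_of_mul_eq_one_right (congrArg Subtype.val u.mul_inv)
        have h2 := (hA.mem_iff (inv_ne_zero hu0)).mp (h1 ▸ ((u⁻¹ : Aˣ) : A).2)
        rw [hA.ord_inv hu0] at h2
        linarith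
      rw [← neg_sub, hA.ord_neg, ← hu', hA.ord_mul hne hu0, huv, add_zero]
    have hprod : ∏ i ∈ Finset.range (p - 1), (1 - ζ ^ (i + 1)) = (p : Ω) := by
      have := IsPrimitiveRoot.prod_one_sub_pow_eq_order (n := p - 1) (μ := ζ)
        (by rwa [Nat.sub_add_cancel hp.pos])
      rw [Nat.cast_sub hp.one_le, Nat.cast_one, sub_add_cancel] at this
      exact this
    have h1 := congrArg (ord A p) hprod
    have hne' := Finset.prod_ne_zero_iff.mp (ne_of_eq_of_ne hprod hA.natCast_ne_zero)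
    rw [hA.ord_prod _ (fun i => 1 - ζ ^ (i + 1)) hne', Finset.sum_congr rfl hord, Finset.sum_const,
      Finset.card_range, nsmul_eq_mul, hA.ord_p, Nat.cast_sub hp.one_le, Nat.cast_one] at h1
    exact h1
  · intro σ hσ j hj
    have he : σ (ζ - 1) / (ζ - 1) = ∑ i ∈ Finset.range j, ζ ^ i := by
      rw [map_sub, map_one, hj, ← geom_sum_mul, mul_div_cancel_right₀ _ hne]
    have hsum : (∑ i ∈ Finset.range j, ζ ^ i) ∈ A := sum_mem fun i _ => pow_mem hζA i
    refine ⟨he ▸ hsum, ?_⟩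
    have : Fact p.Prime := ⟨hp⟩
    have := Frobenius.residueField_charP hp hA.liesOver
    have h1 : residue A (⟨ζ, hζA⟩ : A) = 1 := by
      have h := congrArg (residue A) hζ'.pow_eq_one
      rw [map_pow, map_one] at h
      have h2 : (residue A (⟨ζ, hζA⟩ : A) - 1) ^ p = 0 := by rw [sub_pow_char, h, one_pow, sub_self]
      exact sub_eq_zero.mp (pow_eq_zero_iff hp.ne_zero |>.mp h2)
    rw [show (⟨_, he ▸ hsum⟩ : A) = ∑ i ∈ Finset.range j, (⟨ζ, hζA⟩ : A) ^ i from
      Subtype.ext (he.trans (by push_cast; rfl)), map_sum]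
    rw [Finset.sum_congr rfl (g := fun _ => (1 : ResidueField A)) fun i _ => by
      rw [map_pow, h1, one_pow], Finset.sum_const, Finset.card_range, nsmul_eq_mul, mul_one]

/-- A fixed element has no value `1 / (p - 1) + z` when some element of the subgroup moves the
`p`-th roots of unity; more precisely the quotient at such a value is not congruent to `1`. -/
theorem ratio_ne_one (hA : IsOver A p) {σ : G_ℚ} (hσ : σ ∈ A.inertiaSubgroupIn ℚ) {ζ : Ω}
    (hζ : IsPrimitiveRoot ζ p) (hσζ : σ ζ ≠ ζ) {a : Ω} (ha : a ≠ 0)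
    (hord : ((p : ℚ) - 1) * ord A p a = 1) :
    ∃ h : σ a / a ∈ A, residue A ⟨_, h⟩ ≠ 1 := by
  have hp := hA.prime
  have : NeZero p := ⟨hp.ne_zero⟩
  obtain ⟨hv, hχ⟩ := exists_zeta hA hζ
  obtain ⟨j, hj, hje⟩ := hζ.eq_pow_of_pow_eq_one
    (show σ ζ ^ p = 1 by rw [← map_pow, hζ.pow_eq_one, map_one])
  obtain ⟨hπ, hπr⟩ := hχ σ hσ j hje.symm
  set z := ζ - 1 with hz
  have hz0 : z ≠ 0 := sub_ne_zero.mpr (hζ.ne_one hp.one_lt)
  have hp1 : ((p : ℚ) - 1) ≠ 0 := by
    have : (2 : ℚ) ≤ p := by exact_mod_cast hp.two_le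
    linarith
  have heq : ord A p (a / z) = 0 := by
    rw [hA.ord_div ha hz0, sub_eq_zero]
    exact mul_left_cancel₀ hp1 (hord.trans hv.symm)
  have hu0 : a / z ≠ 0 := div_ne_zero ha hz0
  have huA : a / z ∈ A := (hA.mem_iff hu0).mpr heq.ge
  have huA' : (a / z)⁻¹ ∈ A := (hA.mem_iff (inv_ne_zero hu0)).mpr (by rw [hA.ord_inv hu0, heq]; simp)
  obtain ⟨hσu, hσur⟩ := residue_inertia hσ huA
  have he : σ a / a = σ (a / z) * (a / z)⁻¹ * (σ z / z) := by
    have : σ z ≠ 0 := by simpa using hz0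
    rw [map_div₀]; field_simp
  have hmem : σ a / a ∈ A := he ▸ A.mul_mem _ _ (A.mul_mem _ _ hσu huA') hπ
  refine ⟨hmem, ?_⟩
  rw [show (⟨_, hmem⟩ : A) = ⟨_, hσu⟩ * ⟨_, huA'⟩ * ⟨_, hπ⟩ from Subtype.ext he, map_mul, map_mul,
    hσur, ← map_mul, show (⟨_, huA⟩ : A) * ⟨_, huA'⟩ = 1 from
      Subtype.ext (mul_inv_cancel₀ hu0), map_one, one_mul, hπr]
  intro h1
  have : Fact p.Prime := ⟨hp⟩
  have := Frobenius.residueField_charP hp hA.liesOver
  have h2 : (j : ZMod p) = 1 := by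
    refine (ZMod.castHom dvd_rfl (ResidueField A)).injective ?_
    rw [map_natCast, map_one, h1]
  have h3 : j = 1 := by
    have := congrArg ZMod.val h2
    rwa [ZMod.val_natCast, Nat.mod_eq_of_lt hj, ZMod.val_one] at this
  exact hσζ (by rw [← hje, h3, pow_one])

end Fermat.Agent.OrdinaryT

end
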