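import Fermat.Agent.SemistableRed.AllFacts
import Fermat.Agent.HeckeModule.Away
import Fermat.Agent.HeckeJ0.TorsionModel

/-!
# Hecke polynomials on the torsion of the Jacobians

`act` is the action of polynomials in the operators `T_ℓ`, `ℓ ∉ T`. On `p`-power torsion
`T_ℓ = φ + ℓ φ⁻¹`, so it commutes with every Galois equivariant map of Jacobians and preserves
every Galois stable subgroup. `exists_core` is the part of a stable subgroup on which the elements
outside a prime act injectively.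
-/

set_option linter.unusedSectionVars false

noncomputable section

open AlgebraicCurve ModularCurve
open Fermat.Agent.EigenRep Fermat.Agent.HeckeModule

namespace Fermat.Agent.OrdinaryT

local notation "Ω" => AlgebraicClosure ℚ

theorem galois_nsmul {K : ℕ} [NeZero K] (σ : Ω ≃ₐ[ℚ] Ω) (n : ℕ) (x : JZero K) :
    σ • (n • x) = n • (σ • x) :=
  map_nsmul (DistribSMul.toAddMonoidHom (JZero K) σ) n x

theorem galois_zsmul {K : ℕ} [NeZero K] (σ : Ω ≃ₐ[ℚ] Ω) (n : ℤ) (x : JZero K) :
    σ • (n • x) = n • (σ • x) :=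
  map_zsmul (DistribSMul.toAddMonoidHom (JZero K) σ) n x

theorem galois_zero {K : ℕ} [NeZero K] (σ : Ω ≃ₐ[ℚ] Ω) : σ • (0 : JZero K) = 0 :=
  map_zero (DistribSMul.toAddMonoidHom (JZero K) σ)

variable (K : ℕ) [NeZero K] (T : Set ℕ)

/-- The operator of a generator. -/
def actGen (l : AwayIndex T) : Module.End ℤ (JZero K) := heckeOperatorBar K l.1

/-- The algebra the generators span. -/
def actAlg : Subalgebra ℤ (Module.End ℤ (JZero K)) := Algebra.adjoin ℤ (Set.range (actGen K T))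

theorem actAlg_comm (a b : actAlg K T) : a * b = b * a := by
  have : IsMulCommutative (actAlg K T) := Algebra.isMulCommutative_adjoin ℤ fun x hx y hy => by
    obtain ⟨l, rfl⟩ := hx
    obtain ⟨l', rfl⟩ := hy
    exact HeckeJ0.heckeOperatorsCommuteBar K l.1 l'.1
  exact IsMulCommutative.is_comm.comm a b

instance actAlgCommRing : CommRing (actAlg K T) :=
  { (inferInstance : Ring (actAlg K T)) with mul_comm := actAlg_comm K T }

/-- The action of Hecke polynomials on `J₀(K)`. -/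
def act : AwayPoly ℤ T →+* Module.End ℤ (JZero K) :=
  (actAlg K T).val.toRingHom.comp
    (MvPolynomial.eval₂Hom (algebraMap ℤ (actAlg K T))
      (fun l => ⟨actGen K T l, Algebra.subset_adjoin ⟨l, rfl⟩⟩))

theorem act_X (l : AwayIndex T) (x : JZero K) :
    act K T (MvPolynomial.X l) x = heckeOperatorBar K l.1 x := by
  rw [act, RingHom.comp_apply, MvPolynomial.eval₂Hom_X']
  rfl

theorem act_C (n : ℤ) (x : JZero K) : act K T (MvPolynomial.C n) x = n • x := by
  rw [show (MvPolynomial.C n : AwayPoly ℤ T) = (n : AwayPoly ℤ T) from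
    eq_intCast MvPolynomial.C n, map_intCast]
  exact Module.End.intCast_apply n x

theorem act_mul (a b : AwayPoly ℤ T) (x : JZero K) :
    act K T (a * b) x = act K T a (act K T b x) := by
  rw [map_mul]; rfl

theorem act_add (a b : AwayPoly ℤ T) (x : JZero K) :
    act K T (a + b) x = act K T a x + act K T b x := by
  rw [map_add]; rfl

theorem act_sub (a b : AwayPoly ℤ T) (x : JZero K) :
    act K T (a - b) x = act K T a x - act K T b x := by
  rw [map_sub]; rfl

theorem act_comm (a b : AwayPoly ℤ T) (x : JZero K) :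
    act K T a (act K T b x) = act K T b (act K T a x) := by
  rw [← act_mul, ← act_mul, mul_comm]

/-- An induction principle for the action. -/
theorem act_induction {P : Module.End ℤ (JZero K) → Prop} (hC : ∀ n : ℤ, P (n • 1))
    (hX : ∀ l : AwayIndex T, P (heckeOperatorBar K l.1))
    (hadd : ∀ f g, P f → P g → P (f + g)) (hmul : ∀ f g, P f → P g → P (f * g))
    (a : AwayPoly ℤ T) : P (act K T a) := by
  induction a using MvPolynomial.induction_on with
  | C n =>
    have : act K T (MvPolynomial.C n) = n • 1 := LinearMap.ext fun x => act_C K T n x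
    rw [this]; exact hC n
  | add a b ha hb => rw [map_add]; exact hadd _ _ ha hb
  | mul_X a l ha =>
    rw [map_mul]
    refine hmul _ _ ha ?_
    rw [show act K T (MvPolynomial.X l) = heckeOperatorBar K l.1 from
      LinearMap.ext (act_X K T l)]
    exact hX l

theorem act_galois (σ : Ω ≃ₐ[ℚ] Ω) (a : AwayPoly ℤ T) (x : JZero K) :
    act K T a (σ • x) = σ • act K T a x := by
  revert x
  refine act_induction K T (P := fun f => ∀ x : JZero K, f (σ • x) = σ • f x) ?_ ?_ ?_ ?_ a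
  · intro n x
    show n • (σ • x) = σ • (n • x)
    exact (galois_zsmul σ n x).symm
  · exact fun l x => HeckeJ0.heckeGaloisEquivariant K σ l.1 x
  · intro f g hf hg x
    show f (σ • x) + g (σ • x) = σ • (f x + g x)
    rw [hf, hg, smul_add]
  · intro f g hf hg x
    show f (g (σ • x)) = σ • f (g x)
    rw [hg, hf]

variable {K T} {p : ℕ} [Fact p.Prime]

theorem act_torsion {k : ℕ} {x : JZero K} (hx : p ^ k • x = 0) (a : AwayPoly ℤ T) :
    p ^ k • act K T a x = 0 := by
  rw [← map_nsmul, hx, map_zero]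

/-- A common Frobenius for two levels. -/
theorem exists_frobenius_pair {K' : ℕ} [NeZero K'] (hpT : p ∈ T)
    (hKT : ∀ r : ℕ, r.Prime → r ∣ K → r ∈ T) (hKT' : ∀ r : ℕ, r.Prime → r ∣ K' → r ∈ T)
    (l : AwayIndex T) : ∃ φ : Ω ≃ₐ[ℚ] Ω,
      (∀ x : JZero K, (∃ n, p ^ n • x = 0) →
        heckeOperatorBar K l.1 x = φ • x + (l.1 : ℕ) • (φ⁻¹ • x)) ∧
      ∀ x : JZero K', (∃ n, p ^ n • x = 0) →
        heckeOperatorBar K' l.1 x = φ • x + (l.1 : ℕ) • (φ⁻¹ • x) := by
  obtain ⟨A, hA⟩ := Frobenius.exists_liesOverPrime Ω l.1.2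
  obtain ⟨φ, hφ⟩ := Frobenius.exists_isFrobeniusAt_qbar l.1.2 hA
  have hnd : ∀ {L : ℕ}, (∀ r : ℕ, r.Prime → r ∣ L → r ∈ T) → ¬ (l.1 : ℕ) ∣ L * p :=
    fun hL h => by
      rcases l.1.2.dvd_mul.mp h with h | h
      · exact l.2 (hL _ l.1.2 h)
      · exact l.2 ((Nat.prime_dvd_prime_iff_eq l.1.2 Fact.out).mp h ▸ hpT)
  refine ⟨φ, fun x ⟨n, hn⟩ => ?_, fun x ⟨n, hn⟩ => ?_⟩
  · have h := (SemistableRed.allRelations K p).frobenius _ l.1.2 (hnd hKT) A hA φ hφ (φ⁻¹ • x)
      ⟨n, by rw [← galois_nsmul, hn, galois_zero]⟩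
    rw [smul_inv_smul, sub_add_eq_add_sub, sub_eq_zero] at h
    exact h.symm
  · have h := (SemistableRed.allRelations K' p).frobenius _ l.1.2 (hnd hKT') A hA φ hφ (φ⁻¹ • x)
      ⟨n, by rw [← galois_nsmul, hn, galois_zero]⟩
    rw [smul_inv_smul, sub_add_eq_add_sub, sub_eq_zero] at h
    exact h.symm

/-- The action commutes with Galois equivariant maps on `p`-power torsion. -/
theorem act_intertwine {K' : ℕ} [NeZero K'] (hpT : p ∈ T)
    (hKT : ∀ r : ℕ, r.Prime → r ∣ K → r ∈ T) (hKT' : ∀ r : ℕ, r.Prime → r ∣ K' → r ∈ T)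
    (ν : JZero K →+ JZero K') (hν : ∀ (σ : Ω ≃ₐ[ℚ] Ω) x, ν (σ • x) = σ • ν x)
    (a : AwayPoly ℤ T) {x : JZero K} {k : ℕ} (hx : p ^ k • x = 0) :
    ν (act K T a x) = act K' T a (ν x) := by
  induction a using MvPolynomial.induction_on generalizing x with
  | C n => rw [act_C, act_C, map_zsmul]
  | add a b ha hb => rw [act_add, act_add, map_add, ha hx, hb hx]
  | mul_X a l ha =>
    obtain ⟨φ, h1, h2⟩ := exists_frobenius_pair hpT hKT hKT' l
    rw [act_mul, act_mul, ha (act_torsion hx _), act_X, act_X, h1 x ⟨k, hx⟩,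
      h2 (ν x) ⟨k, by rw [← map_nsmul, hx, map_zero]⟩, map_add, map_nsmul, hν, hν]

/-- A Galois stable subgroup of the `p`-power torsion is stable under the action. -/
theorem act_mem (hpT : p ∈ T) (hKT : ∀ r : ℕ, r.Prime → r ∣ K → r ∈ T)
    (W : AddSubgroup (JZero K)) {k : ℕ} (htors : ∀ x ∈ W, p ^ k • x = 0)
    (hW : ∀ (σ : Ω ≃ₐ[ℚ] Ω), ∀ x ∈ W, σ • x ∈ W) (a : AwayPoly ℤ T) {x : JZero K} (hx : x ∈ W) :
    act K T a x ∈ W := by
  induction a using MvPolynomial.induction_on generalizing x with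
  | C n => rw [act_C]; exact zsmul_mem hx n
  | add a b ha hb => rw [act_add]; exact add_mem (ha hx) (hb hx)
  | mul_X a l ha =>
    obtain ⟨φ, h1, -⟩ := exists_frobenius_pair hpT hKT hKT l
    rw [act_mul, act_X, h1 x ⟨k, htors x hx⟩]
    exact ha (add_mem (hW φ x hx) (nsmul_mem (hW _ x hx) _))

variable (K p) in
/-- The `pᵏ`-torsion. -/
def tors (k : ℕ) : AddSubgroup (JZero K) where
  carrier := {x | p ^ k • x = 0}
  zero_mem' := nsmul_zero _
  add_mem' := fun {x y} hx hy => by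
    show p ^ k • (x + y) = 0
    rw [nsmul_add, show p ^ k • x = 0 from hx, show p ^ k • y = 0 from hy, add_zero]
  neg_mem' := fun {x} hx => by
    show p ^ k • -x = 0
    rw [neg_nsmul, show p ^ k • x = 0 from hx, neg_zero]

theorem mem_tors {k : ℕ} {x : JZero K} : x ∈ tors K p k ↔ p ^ k • x = 0 := Iff.rfl

instance finite_tors (k : ℕ) : Finite (tors K p k) := by
  have : NeZero (p ^ k) := ⟨pow_ne_zero _ (Fact.out : p.Prime).ne_zero⟩
  let e := (HeckeJ0.torsionHeckeModel K p).e k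
  let f : tors K p k → Pic0.torsion Ω (modularFunctionFieldBar K) (p ^ k) := fun x =>
    ⟨(x : JZero K), by rw [Pic0.mem_torsion, natCast_zsmul]; exact x.2⟩
  exact Finite.of_injective (fun x => e (f x))
    fun a b h => Subtype.ext (congrArg Subtype.val (e.injective h))

theorem tors_smul_mem {k : ℕ} (σ : Ω ≃ₐ[ℚ] Ω) {x : JZero K} (hx : x ∈ tors K p k) :
    σ • x ∈ tors K p k := by
  rw [mem_tors, ← galois_nsmul, mem_tors.mp hx]
  exact galois_zero σ

/-- The part of a stable subgroup on which elements outside a prime act injectively. -/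
theorem exists_core (V : AddSubgroup (JZero K)) [Finite V] (m : Ideal (AwayPoly ℤ T)) [m.IsPrime] :
    ∃ a, a ∉ m ∧ ∀ b, b ∉ m → ∀ x ∈ V.map (act K T a).toAddMonoidHom,
      act K T b x = 0 → x = 0 := by
  classical
  let im : AwayPoly ℤ T → AddSubgroup (JZero K) := fun a => V.map (act K T a).toAddMonoidHom
  have hfin : ∀ a, Finite (im a) := fun a =>
    Finite.of_surjective (fun x : V => (⟨_, x, x.2, rfl⟩ : im a))
      (fun ⟨y, x, hx, e⟩ => ⟨⟨x, hx⟩, Subtype.ext e⟩)
  obtain ⟨a, ha, hmin⟩ : ∃ a, a ∉ m ∧ ∀ b, b ∉ m → Nat.card (im a) ≤ Nat.card (im b) := by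
    have hne : ∃ n, ∃ a, a ∉ m ∧ Nat.card (im a) = n :=
      ⟨_, 1, fun h => Ideal.IsPrime.ne_top ‹_› (m.eq_top_iff_one.mpr h), rfl⟩
    obtain ⟨a, ha, hc⟩ := Nat.find_spec hne
    exact ⟨a, ha, fun b hb => hc ▸ Nat.find_min' hne ⟨b, hb, rfl⟩⟩
  refine ⟨a, ha, fun b hb x hx hbx => ?_⟩
  have := hfin a
  have := hfin (b * a)
  let f : im a → im (b * a) := fun y => ⟨act K T b y, by
    obtain ⟨z, hz, e⟩ := y.2
    exact ⟨z, hz, (act_mul K T b a z).trans (congrArg _ e)⟩⟩
  have hf : Function.Surjective f := fun ⟨y, z, hz, e⟩ =>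
    ⟨⟨act K T a z, z, hz, rfl⟩, Subtype.ext ((act_mul K T b a z).symm.trans e)⟩
  have hinj : Function.Injective f := by
    have hle := hmin (b * a) (fun h => ((Ideal.IsPrime.mem_or_mem ‹_› h).elim hb ha))
    have hge : Nat.card (im (b * a)) ≤ Nat.card (im a) := Nat.card_le_card_of_surjective f hf
    exact ((Nat.bijective_iff_surjective_and_card f).mpr ⟨hf, le_antisymm hle hge⟩).1
  have h0 : (⟨x, hx⟩ : im a) = ⟨0, zero_mem _⟩ := hinj (Subtype.ext (by
    show act K T b x = act K T b 0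
    rw [hbx, map_zero]))
  exact congrArg Subtype.val h0

/-- Elements of the prime act nilpotently where the others act injectively. -/
theorem exists_pow_eq_zero (V : AddSubgroup (JZero K)) [Finite V]
    (hV : ∀ (a : AwayPoly ℤ T), ∀ x ∈ V, act K T a x ∈ V) (m : Ideal (AwayPoly ℤ T)) [m.IsPrime]
    (hinj : ∀ b, b ∉ m → ∀ x ∈ V, act K T b x = 0 → x = 0) {a : AwayPoly ℤ T} (ha : a ∈ m)
    {x : JZero K} (hx : x ∈ V) : ∃ i, act K T (a ^ i) x = 0 := by
  obtain ⟨i, j, hij, h⟩ := Finite.exists_ne_map_eq_of_infinite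
    (fun i : ℕ => (⟨act K T (a ^ i) x, hV _ x hx⟩ : V))
  have hv := congrArg Subtype.val h
  simp only at hv
  wlog hlt : i < j generalizing i j
  · exact this j i hij.symm h.symm hv.symm (lt_of_le_of_ne (not_lt.mp hlt) hij.symm)
  obtain ⟨d, hd, rfl⟩ : ∃ d, d ≠ 0 ∧ j = d + i := ⟨j - i, by omega, by omega⟩
  refine ⟨i, hinj (1 - a ^ d) (fun hmem => ?_) _ (hV _ x hx) ?_⟩
  · have hd' : a ^ d ∈ m := Ideal.pow_mem_of_mem m ha d (Nat.pos_of_ne_zero hd)
    exact Ideal.IsPrime.ne_top ‹_› (m.eq_top_iff_one.mpr (by simpa using add_mem hmem hd'))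
  · rw [act_sub, ← act_mul K T (a ^ d), ← pow_add, ← hv, map_one, Module.End.one_apply]
    exact sub_self _

end Fermat.Agent.OrdinaryT

end
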