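import Fermat.Agent.OrdinaryT.HeckeAct
import Fermat.Agent.OrdinaryT.Torsion
import Fermat.Agent.OrdinaryT.Supersingular

/-!
# Consequences of an irreducible residual system

On a part where the polynomials outside `ker κ` act injectively, a stable subgroup without vectors
fixed by an element of nontrivial character gives a character `θ` with `θ² - t θ + ε = 0`; at good
level `T_p` is injective when the residual traces on inertia are `1 + ω`.
-/

set_option linter.unusedSectionVars false

noncomputable section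

open IsLocalRing AlgebraicCurve ModularCurve
open Fermat.Agent.Reduction Fermat.Agent.SemistableRed Fermat.Agent.EigenRep Fermat.Agent.HeckeModule

namespace Fermat.Agent.OrdinaryT

local notation "Ω" => AlgebraicClosure ℚ
local notation "GQ" => (AlgebraicClosure ℚ) ≃ₐ[ℚ] (AlgebraicClosure ℚ)

/-- A multiplicative root of the residual polynomials. -/
def HasResidualChar (p n : ℕ) [Fact p.Prime] {k : Type*} [Field k]
    (tbar : GQ → k) : Prop :=
  ∃ θ : GQ → k, (∀ g h, θ (g * h) = θ g * θ h) ∧ ∀ g, θ g ≠ 0 ∧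
    θ g * θ g - tbar g * θ g + ((epsilonNat p n g : ℤ) : k) = 0

/-- The hypotheses on a part. -/
structure IsPart (p : ℕ) [Fact p.Prime] {T : Set ℕ} {k : Type*} [Field k] {K : ℕ} [NeZero K]
    (κ : AwayPoly ℤ T →+* k) (n : ℕ) (tbar : GQ → k) (V : AddSubgroup (JZero K)) : Prop where
  tors : ∀ x ∈ V, p ^ n • x = 0
  gal : ∀ (g : GQ), ∀ x ∈ V, g • x ∈ V
  inj : ∀ b, κ b ≠ 0 → ∀ x ∈ V, act K T b x = 0 → x = 0
  hecke : ∀ (a : AwayPoly ℤ T), ∀ x ∈ V, act K T a x ∈ V
  quad : ∀ g : GQ, ∃ a, κ a = tbar g ∧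
    ∀ x ∈ V, g • g • x - act K T a (g • x) + (epsilonNat p n g : ℤ) • x = 0

variable {p : ℕ} [Fact p.Prime] {K : ℕ} [NeZero K] {T : Set ℕ}
  {k : Type*} [Field k] [CharP k p] {κ : AwayPoly ℤ T →+* k}

/-- Some nonzero vector is killed by the kernel. -/
theorem exists_killed {n : ℕ} {tbar : GQ → k} {V : AddSubgroup (JZero K)} [Finite V]
    (hV : IsPart p κ n tbar V) (W : AddSubgroup (JZero K)) (hWV : W ≤ V)
    (hW : ∀ (a : AwayPoly ℤ T), ∀ x ∈ W, act K T a x ∈ W) (hne : W ≠ ⊥) :
    ∃ x ∈ W, x ≠ 0 ∧ ∀ a, κ a = 0 → act K T a x = 0 := by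
  classical
  let orb : JZero K → Set (JZero K) := fun x => Set.range fun a => act K T a x
  have hfin : ∀ x ∈ W, (orb x).Finite := fun x hx =>
    (Set.toFinite (V : Set (JZero K))).subset fun y hy => by
      obtain ⟨a, rfl⟩ := hy
      exact hWV (hW a x hx)
  obtain ⟨x₀, hx₀, hx₀0⟩ : ∃ x ∈ W, x ≠ 0 := by
    by_contra h
    push Not at h
    exact hne ((AddSubgroup.eq_bot_iff_forall W).mpr h)
  have hex : ∃ m, ∃ x ∈ W, x ≠ 0 ∧ (orb x).ncard = m := ⟨_, x₀, hx₀, hx₀0, rfl⟩
  obtain ⟨x, hx, hx0, hm⟩ := Nat.find_spec hex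
  refine ⟨x, hx, hx0, fun a ha => ?_⟩
  by_contra hax
  have hsub : orb (act K T a x) ⊆ orb x := by
    rintro y ⟨b, rfl⟩
    exact ⟨b * a, act_mul K T b a x⟩
  have hle : (orb x).ncard ≤ (orb (act K T a x)).ncard :=
    hm ▸ Nat.find_min' hex ⟨_, hW a x hx, hax, rfl⟩
  have heq := Set.eq_of_subset_of_ncard_le hsub hle (hfin x hx)
  obtain ⟨b, hb⟩ : x ∈ orb (act K T a x) := by
    rw [heq]; exact ⟨1, by show act K T 1 x = x; rw [map_one]; rfl⟩
  refine hx0 (hV.inj (1 - b * a) (by rw [map_sub, map_one, map_mul, ha, mul_zero, sub_zero]; exact one_ne_zero)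
    x (hWV hx) ?_)
  rw [act_sub, act_mul, map_one]
  exact sub_eq_zero.mpr hb.symm

theorem intCast_act (a : AwayPoly ℤ T) (m : ℤ) (x : JZero K) :
    act K T (a * MvPolynomial.C m) x = m • act K T a x := by
  rw [act_mul, act_C, map_zsmul]

theorem residual_C (m : ℤ) : κ (MvPolynomial.C m) = (m : k) := by
  rw [show (MvPolynomial.C m : AwayPoly ℤ T) = (m : AwayPoly ℤ T) from eq_intCast MvPolynomial.C m,
    map_intCast]

/-- **Irreducibility**: no stable subgroup is free of vectors fixed by `σ`. -/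
theorem eq_bot_of_no_fixed (hpT : p ∈ T) (hKT : ∀ r : ℕ, r.Prime → r ∣ K → r ∈ T) {n : ℕ}
    (hn : n ≠ 0) {tbar : GQ → k} {V : AddSubgroup (JZero K)} [Finite V] (hV : IsPart p κ n tbar V)
    (hno : ¬ HasResidualChar p n tbar) {σ : GQ}
    (hc : ¬ (p : ℤ) ∣ (epsilonNat p n σ : ℤ) - 1)
    (htσ : tbar σ = 1 + ((epsilonNat p n σ : ℤ) : k))
    (W : AddSubgroup (JZero K)) (hWV : W ≤ V) (hW : ∀ (g : GQ), ∀ x ∈ W, g • x ∈ W)
    (hfree : ∀ x ∈ W, σ • x = x → x = 0) : W = ⊥ := by
  by_contra hne
  have hWact : ∀ (a : AwayPoly ℤ T), ∀ x ∈ W, act K T a x ∈ W := fun a x hx =>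
    act_mem hpT hKT W (fun y hy => hV.tors y (hWV hy)) hW a hx
  obtain ⟨x, hxW, hx0, hxm⟩ := exists_killed hV W hWV hWact hne
  set c : ℤ := (epsilonNat p n σ : ℤ) with hcdef
  -- killed vectors
  have hkill : ∀ (g : GQ) {y : JZero K}, (∀ a, κ a = 0 → act K T a y = 0) →
      ∀ a, κ a = 0 → act K T a (g • y) = 0 := fun g y hy a ha => by
    rw [act_galois, hy a ha, galois_zero]
  have hσ : ∀ y ∈ W, (∀ a, κ a = 0 → act K T a y = 0) → σ • y = c • y := by
    intro y hy hym
    obtain ⟨a, ha, h⟩ := hV.quad σ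
    have h1 := h y (hWV hy)
    have h2 : act K T a (σ • y) = (1 + c) • (σ • y) := by
      have := hkill σ hym (a - MvPolynomial.C (1 + c)) (by
        rw [map_sub, ha, htσ, residual_C]; push_cast; ring)
      rwa [act_sub, act_C, sub_eq_zero] at this
    rw [h2, add_zsmul, one_zsmul] at h1
    have hz : σ • (σ • y - c • y) = σ • y - c • y := by
      rw [smul_sub, galois_zsmul]
      rw [← sub_eq_zero]
      rw [← h1]
      abel
    exact sub_eq_zero.mp (hfree _ (sub_mem (hW σ y hy) (zsmul_mem hy c)) hz)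
  -- every element is a scalar
  have hscal : ∀ h : GQ, ∃ (a : AwayPoly ℤ T) (b : ℤ), κ a ≠ 0 ∧ (b : k) ≠ 0 ∧
      act K T a (h • x) + b • x = 0 := by
    intro h
    obtain ⟨t, ht, hth⟩ := hV.quad h
    obtain ⟨t', ht', hth'⟩ := hV.quad (σ * h)
    set e : ℤ := (epsilonNat p n h : ℤ)
    have hb : (((e * (c * (1 - c))) : ℤ) : k) ≠ 0 := by
      rw [ne_eq, CharP.intCast_eq_zero_iff k p]
      intro hd
      have hp : Prime (p : ℤ) := Nat.prime_iff_prime_int.mp Fact.out
      rcases hp.dvd_or_dvd hd with hd | hd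
      · exact epsilonNat_not_dvd hn h hd
      · rcases hp.dvd_or_dvd hd with hd | hd
        · exact epsilonNat_not_dvd hn σ hd
        · exact hc (by rw [← neg_sub]; exact (dvd_neg).mpr hd)
    set a := MvPolynomial.C (c * c) * t - MvPolynomial.C c * t' with hadef
    have hxV := hWV hxW
    have e1 := hth x hxV
    have e2 := hth' x hxV
    have hσhx := hσ (h • x) (hW h x hxW) (hkill h hxm)
    rw [mul_smul, mul_smul, hσhx, epsilonNat_mul_smul (hV.tors x hxV), map_zsmul] at e2
    simp only [galois_zsmul] at e2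
    rw [hσ (h • h • x) (hW h _ (hW h x hxW)) (hkill h (hkill h hxm))] at e2
    have key : act K T a (h • x) + (e * (c * (1 - c))) • x = 0 := by
      rw [hadef, act_sub, act_mul, act_mul, act_C, act_C]
      generalize h • h • x = P at e1 e2
      generalize h • x = Q at e1 e2 ⊢
      linear_combination (norm := module) e2 - (c * c) • e1
    refine ⟨a, e * (c * (1 - c)), fun ha => hb ?_, hb, key⟩
    rw [hkill h hxm a ha, zero_add] at key
    by_contra hbne
    exact hx0 (hV.inj (MvPolynomial.C (e * (c * (1 - c)))) (by rwa [residual_C]) x hxV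
      (by rw [act_C]; exact key))
  choose A B hA hB hAB using hscal
  have hzero : ∀ a : AwayPoly ℤ T, act K T a x = 0 → κ a = 0 := fun a ha => by
    by_contra h
    exact hx0 (hV.inj a h x (hWV hxW) ha)
  refine hno ⟨fun g => -(B g : k) / κ (A g), fun g g' => ?_, fun g => ⟨?_, ?_⟩⟩
  · have h1 : act K T (A g * A g') ((g * g') • x) = (B g * B g') • x := by
      rw [mul_smul, act_mul, act_galois, show act K T (A g') (g' • x) = -(B g' • x) from
        eq_neg_of_add_eq_zero_left (hAB g'), smul_neg, galois_zsmul, map_neg, map_zsmul,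
        show act K T (A g) (g • x) = -(B g • x) from eq_neg_of_add_eq_zero_left (hAB g),
        zsmul_neg, neg_neg, smul_smul, mul_comm]
    have h2 := hzero (A (g * g') * MvPolynomial.C (B g * B g') +
      A g * A g' * MvPolynomial.C (B (g * g'))) (by
        rw [act_add, intCast_act, intCast_act, ← map_zsmul, ← h1, act_comm, ← map_zsmul,
          ← map_add, show act K T (A (g * g')) ((g * g') • x) = -(B (g * g') • x) from
            eq_neg_of_add_eq_zero_left (hAB (g * g')), neg_add_cancel, map_zero])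
    simp only [map_add, map_mul, residual_C] at h2
    field_simp [hA g, hA g', hA (g * g')]
    linear_combination -h2
  · exact div_ne_zero (neg_ne_zero.mpr (hB g)) (hA g)
  · obtain ⟨t, ht, htg⟩ := hV.quad g
    have h1 : act K T (A g) (g • x) = -(B g • x) := eq_neg_of_add_eq_zero_left (hAB g)
    have h2 : act K T (A g * A g) (g • g • x) = (B g * B g) • x := by
      rw [act_mul, act_galois, h1, smul_neg, galois_zsmul, map_neg, map_zsmul, h1, zsmul_neg,
        neg_neg, smul_smul]
    have h3 := hzero (MvPolynomial.C (B g * B g) + t * A g * MvPolynomial.C (B g) +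
      A g * A g * MvPolynomial.C (epsilonNat p n g : ℤ)) (by
        have h4 := congrArg (act K T (A g * A g)) (htg x (hWV hxW))
        rw [map_zero, map_add, map_sub, h2, act_comm K T (A g * A g) t, act_mul K T (A g) (A g) (g • x),
          h1, map_zsmul, map_neg, map_zsmul, map_neg, map_zsmul, sub_neg_eq_add] at h4
        rw [act_add, act_add, act_C, intCast_act, intCast_act, act_mul K T t]
        exact h4)
    simp only [map_add, map_mul, residual_C, ht] at h3
    field_simp [hA g]
    linear_combination h3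

variable {A : ValuationSubring Ω} {M : ℕ} [NeZero M] [NeZero p]
  [CharP (ResidueField A) p] [IsAlgClosed (ResidueField A)] (S : Setting A M p)

include S in
/-- `T_p` is injective at good level when the residual traces on inertia are `1 + ω`. -/
theorem hecke_injective {n : ℕ} (hn : n ≠ 0) {tbar : GQ → k} {κ : AwayPoly ℤ T →+* k}
    {V : AddSubgroup (JZero M)} [Finite V] (hV : IsPart p κ n tbar V)
    (htI : ∀ g ∈ A.inertiaSubgroupIn ℚ, tbar g = 1 + ((epsilonNat p n g : ℤ) : k))
    {v : JZero M} (hv : v ∈ V)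
    (hv0 : heckeOperatorAlong Ω M p v = 0) : v = 0 := by
  classical
  have hp := (Fact.out : p.Prime)
  by_contra hne
  obtain ⟨j, -, hy0, hpy⟩ := exists_multiple_order hne n (hV.tors v hv)
  set TP : Nat.Primes := ⟨p, hp⟩
  have hTP : ∀ z : JZero M, heckeOperatorBar M TP z = heckeOperatorAlong Ω M p z := fun z => rfl
  -- the `p`-torsion killed by `T_p`
  let W : AddSubgroup (JZero M) :=
    { carrier := {z | z ∈ V ∧ p • z = 0 ∧ heckeOperatorAlong Ω M p z = 0}
      zero_mem' := ⟨zero_mem _, nsmul_zero _, map_zero _⟩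
      add_mem' := fun {a b} ha hb => ⟨add_mem ha.1 hb.1, by rw [nsmul_add, ha.2.1, hb.2.1, add_zero],
        by rw [map_add, ha.2.2, hb.2.2, add_zero]⟩
      neg_mem' := fun {a} ha => ⟨neg_mem ha.1, by rw [neg_nsmul, ha.2.1, neg_zero],
        by rw [map_neg, ha.2.2, neg_zero]⟩ }
  have hWmem : ∀ z, z ∈ W ↔ z ∈ V ∧ p • z = 0 ∧ heckeOperatorAlong Ω M p z = 0 := fun z => Iff.rfl
  have hyW : p ^ j • v ∈ W := ⟨nsmul_mem hv _, hpy, by rw [map_nsmul, hv0, nsmul_zero]⟩
  have hWgal : ∀ (g : GQ), ∀ z ∈ W, g • z ∈ W := fun g z hz => ⟨hV.gal g z hz.1,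
    by rw [← galois_nsmul, hz.2.1, galois_zero], by
      rw [← hTP, HeckeJ0.heckeGaloisEquivariant M g TP z, hTP, hz.2.2, galois_zero]⟩
  have : Finite W := Finite.of_injective (fun z : W => (⟨z, z.2.1⟩ : V))
    fun a b h => Subtype.ext (congrArg (fun t : V => (t : JZero M)) h)
  -- it lies in the kernel of reduction
  obtain ⟨φ, hφ⟩ := Frobenius.exists_isFrobeniusAt_qbar hp S.above
  have hφD := hφ.mem_decompositionSubgroup
  have hker : ∀ z ∈ W, z ∈ goodKilled S p := fun z hz => by
    have h := frobenius_relation_good S hφ hz.2.1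
    rw [hz.2.2, galois_zero, zero_sub, hz.2.1, sub_zero, neg_mem_iff] at h
    have h2 := smul_mem_goodKilled S (inv_mem (mul_mem hφD hφD)) h
    rwa [← mul_smul φ φ, inv_smul_smul] at h2
  -- a fixed vector
  obtain ⟨ζ, hζ⟩ := exists_primitiveRoot (p := p) 1
  rw [pow_one] at hζ
  set H : Subgroup GQ := (pointFixer A ζ).H
  have hunip : ∀ g ∈ H, ∀ z ∈ W, ∃ i : ℕ, g ^ (p ^ i) • z = z := by
    intro g hg z hz
    obtain ⟨hgI, hgζ⟩ := mem_pointFixer.mp hg
    have he : (p : ℤ) ∣ (epsilonNat p n g : ℤ) - 1 := by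
      by_contra hnd
      obtain ⟨ζ', hζ', hne'⟩ := exists_moves_root hn hnd
      obtain ⟨i, -, hi⟩ := hζ.eq_pow_of_pow_eq_one hζ'
      exact hne' (by rw [← hi, map_pow, hgζ])
    obtain ⟨d, hd⟩ := he
    obtain ⟨a, ha, hag⟩ := hV.quad g
    have hd' : ((epsilonNat p n g : ℤ) : k) = 1 := by
      rw [show (epsilonNat p n g : ℤ) = (p : ℤ) * d + 1 by linarith]
      push_cast
      rw [CharP.cast_eq_zero, zero_mul, zero_add]
    set b := a - MvPolynomial.C (2 : ℤ) with hb
    have hbκ : κ b = 0 := by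
      rw [hb, map_sub, ha, residual_C, htI g hgI, hd']
      push_cast; ring
    have hd1 : ∀ w ∈ W, g • (g • w - w) - (g • w - w) = act M T b (g • w) := by
      intro w hw
      have h := hag w hw.1
      have hεw : (epsilonNat p n g : ℤ) • w = w := by
        rw [show (epsilonNat p n g : ℤ) = d * (p : ℤ) + 1 by linarith, add_zsmul, mul_zsmul,
          natCast_zsmul, hw.2.1, zsmul_zero, zero_add, one_zsmul]
      rw [hεw] at h
      rw [hb, act_sub, act_C, smul_sub, ← sub_eq_zero]
      rw [← h]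
      generalize g • g • w = P at *
      generalize g • w = Q at *
      module
    -- nilpotence
    have hstep : ∀ i : ℕ, ∀ w ∈ W, ((fun y => g • y - y)^[2 * i]) w =
        g ^ i • act M T (b ^ i) w := by
      intro i
      induction i with
      | zero => intro w hw; rw [pow_zero, pow_zero, map_one, one_smul]; rfl
      | succ i ih =>
        intro w hw
        have hw' : g • (g • w - w) - (g • w - w) ∈ W :=
          sub_mem (hWgal g _ (sub_mem (hWgal g w hw) hw)) (sub_mem (hWgal g w hw) hw)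
        rw [show 2 * (i + 1) = 2 * i + 2 by ring, Function.iterate_add_apply]
        show ((fun y => g • y - y)^[2 * i]) (g • (g • w - w) - (g • w - w)) = _
        rw [ih _ hw', hd1 w hw, ← act_mul, ← pow_succ, act_galois, smul_smul, ← pow_succ]
    have : (RingHom.ker κ).IsPrime := RingHom.ker_isPrime κ
    obtain ⟨i, hi⟩ := exists_pow_eq_zero V hV.hecke (RingHom.ker κ)
      (fun c hc => hV.inj c hc) (show b ∈ RingHom.ker κ from hbκ) hz.1
    have hnil : ((fun y => g • y - y)^[2 * i]) z = 0 := by rw [hstep i z hz, hi, galois_zero]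
    refine ⟨2 * i, ?_⟩
    let D : Module.End ℤ (JZero M) := (DistribSMul.toAddMonoidHom (JZero M) g).toIntLinearMap - 1
    have hD : ∀ l w, (D ^ l) w = ((fun y => g • y - y)^[l]) w := by
      intro l
      induction l with
      | zero => exact fun w => rfl
      | succ l ih =>
        intro w
        rw [pow_succ, Module.End.mul_apply, Function.iterate_succ_apply, ih]
        rfl
    have hpow : ∀ l w, ((1 + D) ^ l) w = g ^ l • w := by
      intro l
      induction l with
      | zero => intro w; rw [pow_zero, pow_zero, one_smul]; rfl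
      | succ l ih =>
        intro w
        rw [pow_succ, Module.End.mul_apply, ih, pow_succ, mul_smul]
        congr 1
        show w + (g • w - w) = g • w
        abel
    have hzero : ∀ r, (D ^ r) (0 : JZero M) = 0 := fun r => map_zero _
    obtain ⟨r, hr⟩ := (Commute.one_left D).exists_add_pow_prime_pow_eq hp (2 * i)
    have hle : 2 * i ≤ p ^ (2 * i) := (Nat.lt_pow_self hp.one_lt).le
    rw [← hpow, hr, one_pow, LinearMap.add_apply, LinearMap.add_apply, Module.End.one_apply,
      show p ^ (2 * i) = (p ^ (2 * i) - 2 * i) + 2 * i by omega, pow_add, Module.End.mul_apply,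
      hD (2 * i), hnil, hzero, add_zero, Module.End.mul_apply, Module.End.mul_apply,
      Module.End.mul_apply, Module.End.natCast_apply, ← map_nsmul, ← map_nsmul, ← map_nsmul]
    simp [hz.2.1]
  -- `H` acts on `W` through a `p`-group
  let ψ : H →* Equiv.Perm W :=
    { toFun := fun g =>
        { toFun := fun z => ⟨(g : GQ) • (z : JZero M), hWgal g z z.2⟩
          invFun := fun z => ⟨(g : GQ)⁻¹ • (z : JZero M), hWgal _ z z.2⟩
          left_inv := fun z => Subtype.ext (inv_smul_smul _ _)
          right_inv := fun z => Subtype.ext (smul_inv_smul _ _) }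
      map_one' := Equiv.ext fun z => Subtype.ext (one_smul _ _)
      map_mul' := fun g g' => Equiv.ext fun z => Subtype.ext (mul_smul _ _ _) }
  have hψ : IsPGroup p ψ.range := by
    rintro ⟨_, g, rfl⟩
    have : Fintype W := Fintype.ofFinite W
    choose I hI using fun z : W => hunip g g.2 z z.2
    refine ⟨Finset.univ.sup I, Subtype.ext ?_⟩
    rw [SubmonoidClass.coe_pow, ← map_pow]
    refine Equiv.ext fun z => Subtype.ext ?_
    show ((g ^ p ^ Finset.univ.sup I : H) : GQ) • (z : JZero M) = z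
    obtain ⟨r, hr⟩ := Nat.exists_eq_add_of_le (Finset.le_sup (f := I) (Finset.mem_univ z))
    rw [SubmonoidClass.coe_pow, hr, pow_add, pow_mul]
    generalize p ^ r = e
    induction e with
    | zero => rw [pow_zero, one_smul]
    | succ e ih => rw [pow_succ, mul_smul, hI z, ih]
  have hcard : p ∣ Nat.card W := by
    have hy : addOrderOf (⟨p ^ j • v, hyW⟩ : W) = p :=
      addOrderOf_eq_prime (Subtype.ext hpy) (fun h => hy0 (congrArg Subtype.val h))
    rw [← hy]; exact addOrderOf_dvd_natCard _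
  obtain ⟨z, hzfix, hz0⟩ := hψ.exists_fixed_point_of_prime_dvd_card_of_fixed_point W hcard
    (a := 0) (fun g => by
      obtain ⟨g', hg'⟩ := g.2
      show (g : Equiv.Perm W) 0 = 0
      rw [← hg']
      exact Subtype.ext (galois_zero _))
  refine hz0 (Subtype.ext (eq_zero_of_hecke_eq_zero S (hker z z.2) z.2.2.2 hζ fun g hgI hgζ => ?_).symm)
  have h := hzfix ⟨ψ ⟨g, mem_pointFixer.mpr ⟨hgI, hgζ⟩⟩, ⟨_, rfl⟩⟩
  exact congrArg Subtype.val h

end Fermat.Agent.OrdinaryT

end
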