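import Fermat.Agent.OrdinaryT.GoodCore
import Fermat.Agent.OrdinaryT.NewCore
import Fermat.Agent.SemistableRed.Swap

/-!
# The kernels of reduction under the decomposition group

Inertia moves every class inside the kernel, the decomposition group stabilises it, and a
Frobenius satisfies `φ (T_p - φ) x ≡ p x` at level `M` and `φ x ≡ - w_p x` on classes killed by
both norms at level `M p`. Kernels at the levels `n` and `n p ^ r` agree on `n`-torsion.
-/

set_option linter.unusedSectionVars false

noncomputable section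

open IsLocalRing ModularCurve AlgebraicCurve HahnSeries
open Fermat.Agent.Reduction Fermat.Agent.FunctionFieldRR Fermat.Agent.SemistableRed

namespace Fermat.Agent.OrdinaryT

open FlatJ0

local notation "Ω" => AlgebraicClosure ℚ

variable {A : ValuationSubring Ω} {M p : ℕ} [NeZero M] [NeZero p] [Fact p.Prime]
  [CharP (ResidueField A) p] [IsAlgClosed (ResidueField A)] (S : Setting A M p)

/-- Power reduction from the expansion. -/
theorem powRed_of_srep {i : Fin 2} {n : ℕ} {f : modularFunctionFieldBar (M * p)} (hf : f ≠ 0)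
    {c : Ω} {y : modularFunctionFieldFullC (ResidueField A) M} (hy : y ≠ 0)
    (h : SRep (c • S.side i f) ((y : LaurentSeries (ResidueField A)) ^ n)) :
    PowRed S.splitModel i n f := by
  obtain ⟨h1, h2⟩ := S.red_eq (i := i) (f := c • f) (v := y ^ n) (by
    rw [S.side_smul, SubmonoidClass.coe_pow]; exact h)
  exact ⟨hf, c, y, hy, h1, h2⟩

/-- The expansion of a power reduction. -/
theorem exists_srep_of_powRed {i : Fin 2} {n : ℕ} {f : modularFunctionFieldBar (M * p)}
    (h : PowRed S.splitModel i n f) :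
    ∃ (c : Ω) (y : modularFunctionFieldFullC (ResidueField A) M), y ≠ 0 ∧
      SRep (c • S.side i f) ((y : LaurentSeries (ResidueField A)) ^ n) := by
  obtain ⟨-, c, y, hy, hint, hred⟩ := h
  refine ⟨c, y, hy, ?_⟩
  have h1 := S.srep_red hint
  rw [S.side_smul] at h1
  have h2 : (S.gauss.red i (c • f) : LaurentSeries (ResidueField A)) =
      (y : LaurentSeries (ResidueField A)) ^ n :=
    (congrArg Subtype.val hred).trans (SubmonoidClass.coe_pow y n)
  rwa [h2] at h1

/-- An element of the decomposition group preserves power reductions. -/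
theorem powRed_galois {σ : Ω ≃ₐ[ℚ] Ω} (hσ : σ ∈ A.decompositionSubgroup ℚ) {i : Fin 2} {n : ℕ}
    {f : modularFunctionFieldBar (M * p)} (h : PowRed S.splitModel i n f) :
    PowRed S.splitModel i n (arithmeticGalois (L := Ω) (modularFunctionFieldFull (M * p)) σ • f) := by
  obtain ⟨c, y, hy, hc⟩ := exists_srep_of_powRed S h
  set g : ResidueField A →+* ResidueField A :=
    MulSemiringAction.toRingHom _ _ (⟨σ, hσ⟩ : A.decompositionSubgroup ℚ)
  have hm := hc.map (σ : Ω →+* Ω) (Congruence.actRingHom A hσ) (fun a => rfl) g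
    (fun a => (ResidueField.residue_smul _ (⟨σ, hσ⟩ : A.decompositionSubgroup ℚ) a).symm ▸ rfl)
  rw [smul_eq_algebraMap_mul, map_mul, coeffMap_algebraMap, ← S.side_galois, map_pow,
    ← smul_eq_algebraMap_mul] at hm
  refine powRed_of_srep S ((smul_ne_zero_iff_ne _).mpr h.1) (c := σ c)
    (y := ⟨coeffMap g (y : LaurentSeries (ResidueField A)),
      Congruence.coeffMap_mem_fullC g y.2⟩) (fun h0 => hy ?_) hm
  have h1 : coeffMap g (y : LaurentSeries (ResidueField A)) = 0 := congrArg Subtype.val h0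
  refine Subtype.ext (HahnSeries.ext (funext fun j => ?_))
  have h2 := congrArg (fun s : LaurentSeries (ResidueField A) => s.coeff j) h1
  simp only [coeffMap_coeff, HahnSeries.coeff_zero] at h2
  exact g.injective (h2.trans (map_zero g).symm)

theorem compatible_inertia {σ : Ω ≃ₐ[ℚ] Ω} (hσ : σ ∈ A.inertiaSubgroupIn ℚ) :
    S.splitModel.Compatible (arithmeticGalois (L := Ω) (modularFunctionFieldFull (M * p)) σ) 1 1 := by
  obtain ⟨⟨s, hs⟩, hker, rfl⟩ := hσ
  exact S.compatible (σ := s) hs (RingHom.id _)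
    (fun a => (ResidueField.residue_smul _ (⟨s, hs⟩ : A.decompositionSubgroup ℚ) a).trans
      (RingEquiv.congr_fun (MonoidHom.mem_ker.1 hker) _))
    1 (fun z => by rw [one_smul, coeffMap_id]) (e := 1)
    (fun c => by rw [SemilinearAut.baseAut_one, pow_one]; rfl)

/-! ### Level `M` -/

theorem smul_mem_goodKilled {σ : Ω ≃ₐ[ℚ] Ω} (hσ : σ ∈ A.decompositionSubgroup ℚ) {n : ℕ}
    {x : JZero M} (hx : x ∈ goodKilled S n) : σ • x ∈ goodKilled S n := by
  obtain ⟨u, hu, hu'⟩ := hx
  refine ⟨arithmeticGalois (L := Ω) (modularFunctionFieldFull M) σ • u, hu.smul, ?_⟩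
  rw [← galois_alpha]
  exact powRed_galois S hσ hu'

/-- Inertia moves every torsion class inside the kernel. -/
theorem smul_sub_mem_goodKilled {σ : Ω ≃ₐ[ℚ] Ω} (hσ : σ ∈ A.inertiaSubgroupIn ℚ) {n : ℕ}
    {x : JZero M} (hx : n • x = 0) : σ • x - x ∈ goodKilled S n := by
  have := isFunctionField_level M
  have := isFunctionField_level (M * p)
  have := S.isFunctionField_C
  obtain ⟨u, hu⟩ := exists_isFunctionOf hx
  have hau : heckeAlphaBar Ω M p u ≠ 0 := (map_ne_zero _).mpr hu.1
  obtain ⟨c, hc, hcr⟩ := S.splitModel.normalise 0 (heckeAlphaBar Ω M p u) hau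
  have hs := compatible_inertia S hσ
  obtain ⟨h1, h2⟩ := smul_red hs hc
  obtain ⟨h3, h4⟩ := S.splitModel.int_inv hc hcr
  refine ⟨(arithmeticGalois (L := Ω) (modularFunctionFieldFull M) σ • u) * u⁻¹,
    by rw [sub_eq_add_neg]; exact hu.smul.mul hu.inv, ?_⟩
  rw [map_mul, map_inv₀, ← galois_alpha]
  refine ⟨mul_ne_zero ((smul_ne_zero_iff_ne _).mpr hau) (inv_ne_zero hau),
    SemilinearAut.baseAut (arithmeticGalois (L := Ω) (modularFunctionFieldFull (M * p)) σ) c * c⁻¹, 1,
    one_ne_zero, ?_⟩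
  have he : (c • heckeAlphaBar Ω M p u)⁻¹ = c⁻¹ • (heckeAlphaBar Ω M p u)⁻¹ := by
    rw [Algebra.smul_def, Algebra.smul_def, mul_inv, map_inv₀]
  rw [he] at h3 h4
  obtain ⟨h5, h6⟩ := S.splitModel.mul_int_smul h1 h3
  exact ⟨h5, by rw [h6, h2, h4, one_smul, mul_inv_cancel₀ hcr, one_pow]⟩

/-- The relation of a Frobenius with `T_p` on the reductions. -/
theorem frobenius_relation_good {φ : Ω ≃ₐ[ℚ] Ω} (hφ : A.IsFrobeniusAt φ p) {n : ℕ}
    {x : JZero M} (hx : n • x = 0) :
    φ • heckeOperatorAlong Ω M p x - φ • φ • x - p • x ∈ goodKilled S n := by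
  have := isFunctionField_level M
  have := isFunctionField_level (M * p)
  have := S.isFunctionField_C
  have hA := isOver_of_setting S
  obtain ⟨u, hu⟩ := exists_isFunctionOf hx
  obtain ⟨a, ha, hai, har⟩ := S.model.exists_scale hu.1
  set v := S.model.red (a • u) with hv
  set r : LaurentSeries (ResidueField A) := (v : LaurentSeries (ResidueField A)) with hr
  have hru : SRep (a • (u : LaurentSeries Ω)) r := by
    have := S.srep_level _ hai
    rwa [Algebra.smul_def, MulMemClass.coe_mul, IntermediateField.coe_algebraMap_apply,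
      ← smul_eq_algebraMap_mul] at this
  -- the function of the image under `T_p`
  have hT0 := S.srep_norm (f := heckeBetaBar Ω M p u) (c := fun _ => a)
    (v := ![piG (ResidueField A) M p v, v]) fun i => by
    obtain rfl | rfl : i = 0 ∨ i = 1 := by omega
    · rw [S.side_smul, (S.side_beta u).1]
      have h := hru.qExpand p
      rw [smul_eq_algebraMap_mul, map_mul, qExpand_algebraMap, ← smul_eq_algebraMap_mul] at h
      exact h
    · rw [S.side_smul, (S.side_beta u).2]; exact hru
  set z := heckeFun M p u with hz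
  set b := a * a ^ p with hb
  obtain ⟨w, hw, hwe⟩ := (levelExp S).srep_of_qExpand hA (i := ()) (f := b • z) (m := p)
    (v' := qExpand (ResidueField A) p
      ((piG (ResidueField A) M p v * frobG (ResidueField A) M p • v : _) :
        LaurentSeries (ResidueField A))) (by
      rw [algHom_smul, smul_eq_algebraMap_mul, map_mul, qExpand_algebraMap, ← smul_eq_algebraMap_mul]
      exact hT0)
  rw [qExpand_injective (R := ResidueField A) p hwe] at hw
  rw [algHom_smul, levelExp_side] at hw
  -- Galois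
  obtain ⟨hs, hact⟩ := hφ
  have hgal : ∀ {f : modularFunctionFieldBar M} {c : Ω} {t : LaurentSeries (ResidueField A)},
      SRep (c • (f : LaurentSeries Ω)) t → SRep (φ c •
        ((arithmeticGalois (L := Ω) (modularFunctionFieldFull M) φ • f : modularFunctionFieldBar M) :
          LaurentSeries Ω)) (coeffMap (frobenius (ResidueField A) p) t) := by
    intro f c t h
    have hm := h.map (φ : Ω →+* Ω) (Congruence.actRingHom A hs) (fun a => rfl)
      (frobenius (ResidueField A) p)
      (fun a => (ResidueField.residue_smul _ (⟨φ, hs⟩ : A.decompositionSubgroup ℚ) a).trans (hact _))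
    rwa [smul_eq_algebraMap_mul, map_mul, coeffMap_algebraMap, ← smul_eq_algebraMap_mul,
      ← coe_arithmeticGalois_smul] at hm
  set g := arithmeticGalois (L := Ω) (modularFunctionFieldFull M) φ
  have hu2 := ((hu.smul (s := g)).smul (s := g)).inv
  have hfun := (((isFunctionOf_heckeFun (ℓ := p) hu).smul (s := g)).mul hu2).mul
    (isFunctionOf_pow hu p).inv
  rw [← sub_eq_add_neg, ← sub_eq_add_neg] at hfun
  refine ⟨_, hfun, powRed_of_srep S ((map_ne_zero _).mpr hfun.1)
    (c := φ b * (φ (φ a))⁻¹ * (a ^ p)⁻¹) (y := 1) one_ne_zero ?_⟩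
  rw [(S.side_alpha _).1]
  have hr0 : r ≠ 0 := fun h => har (Subtype.ext h)
  have hF0 : ∀ {t : LaurentSeries (ResidueField A)}, t ≠ 0 →
      coeffMap (frobenius (ResidueField A) p) t ≠ 0 := fun {t} ht h => ht (HahnSeries.ext (funext fun j =>
    (frobenius_inj (ResidueField A) p) (by
      have h2 := congrArg (fun z : LaurentSeries (ResidueField A) => z.coeff j) h
      simp only [coeffMap_coeff, HahnSeries.coeff_zero] at h2
      rw [h2, HahnSeries.coeff_zero, map_zero])))
  have h1 := ((hgal hw).mul ((hgal (hgal hru)).inv (hF0 (hF0 hr0)))).mul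
    ((hru.pow p).inv (pow_ne_zero _ hr0))
  have he : coeffMap (frobenius (ResidueField A) p)
      ((piG (ResidueField A) M p v * frobG (ResidueField A) M p • v : _) :
        LaurentSeries (ResidueField A)) *
      (coeffMap (frobenius (ResidueField A) p) (coeffMap (frobenius (ResidueField A) p) r))⁻¹ *
      (r ^ p)⁻¹ = 1 := by
    rw [MulMemClass.coe_mul, map_mul, coe_frobG_smul, coe_piG, ← hr,
      Congruence.laurent_pow_char p r]
    have hqc : coeffMap (frobenius (ResidueField A) p) (qExpand (ResidueField A) p r) =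
        qExpand (ResidueField A) p (coeffMap (frobenius (ResidueField A) p) r) :=
      coeffMap_qExpand _ _ _
    rw [hqc]
    have hne := hF0 hr0
    have hne2 : qExpand (ResidueField A) p (coeffMap (frobenius (ResidueField A) p) r) ≠ 0 :=
      (map_ne_zero_iff _ (qExpand_injective (R := ResidueField A) p)).mpr hne
    field_simp [hF0 hne]
  rw [he] at h1
  rw [OneMemClass.coe_one, one_pow]
  convert h1 using 1
  simp only [MulMemClass.coe_mul, IntermediateField.coe_inv, SubmonoidClass.coe_pow,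
    smul_eq_algebraMap_mul, map_mul, map_inv₀, map_pow, mul_inv, mul_pow]
  ring

/-! ### Level `M p` -/

theorem smul_mem_newKilled {σ : Ω ≃ₐ[ℚ] Ω} (hσ : σ ∈ A.decompositionSubgroup ℚ) {n : ℕ}
    {x : JZero (M * p)} (hx : x ∈ newKilled S n) : σ • x ∈ newKilled S n := by
  obtain ⟨u, hu, hu'⟩ := hx
  exact ⟨_, hu.smul, fun i => powRed_galois S hσ (hu' i)⟩

theorem smul_sub_mem_newKilled {σ : Ω ≃ₐ[ℚ] Ω} (hσ : σ ∈ A.inertiaSubgroupIn ℚ) {n : ℕ}
    {x : JZero (M * p)} (hx : n • x = 0) : σ • x - x ∈ newKilled S n := by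
  have := isFunctionField_level (M * p)
  have := S.isFunctionField_C
  obtain ⟨u, hu⟩ := exists_isFunctionOf hx
  refine ⟨(arithmeticGalois (L := Ω) (modularFunctionFieldFull (M * p)) σ • u) * u⁻¹,
    by rw [sub_eq_add_neg]; exact hu.smul.mul hu.inv, fun i => ?_⟩
  have h := smul_sub_mem_killed (i := i) (compatible_inertia S hσ) (fun g => one_smul _ g) hx
  exact (mem_killed_iff (by rw [sub_eq_add_neg]; exact hu.smul.mul hu.inv)).mp h

/-- A Frobenius acts as `- w_p` modulo the kernel on classes killed by both norms. -/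
theorem frobenius_add_w_mem_newKilled {φ : Ω ≃ₐ[ℚ] Ω} (hφ : A.IsFrobeniusAt φ p) {n : ℕ}
    (hn : n ≠ 0) {x : JZero (M * p)} (hx : n • x = 0) (hnorm : ∀ b, normMaps M p b x = 0) :
    φ • x + SemilinearAut.ofAlgAut S.w • x ∈ newKilled S n := by
  have := isFunctionField_level M
  have := isFunctionField_level (M * p)
  have := HeckeJ0.hasPrincipalDivisors_bar M
  have := S.isFunctionField_C
  obtain ⟨hs, hact⟩ := hφ
  have hc := S.compatible hs (frobenius (ResidueField A) p)
    (fun a => (ResidueField.residue_smul _ (⟨φ, hs⟩ : A.decompositionSubgroup ℚ) a).trans (hact _))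
    (frobG (ResidueField A) M p) (fun z => coe_frobG_smul _ M p z) (e := p)
    (baseAut_frobG _ M p)
  obtain ⟨u, hu⟩ := exists_isFunctionOf hx
  choose c hc' hcr using fun i => S.normalise i u hu.1
  have hwu : ∀ i, S.gauss.Int i (c (1 - i) • S.w u) ∧
      S.gauss.red i (c (1 - i) • S.w u) = S.gauss.red (1 - i) (c (1 - i) • u) := fun i => by
    rw [← S.w_smul]; exact S.red_w (hc' _)
  have hroot : ∀ b : Bool, ∀ f : modularFunctionFieldBar M,
      IsFunctionOf n (normMaps M p b x) f →
        ∃ (a : Ω) (g : modularFunctionFieldBar M), g ≠ 0 ∧ f = algebraMap Ω _ a * g ^ n := by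
    intro b f hf
    rw [hnorm b] at hf
    obtain ⟨a, g, -, hg, he⟩ :=
      (isFunctionOf_one (L := Ω) (F := modularFunctionFieldBar M) (n := n)).exists_eq hf
    exact ⟨a, g, hg, by rw [he, mul_one]⟩
  obtain ⟨aα, gα, hgα, hNα⟩ := hroot false _ (isFunctionOf_normMap (heckeAlphaBar Ω M p) hu)
  obtain ⟨aβ, gβ, hgβ, hNβ⟩ := hroot true _ (isFunctionOf_normMap (heckeBetaBar Ω M p) hu)
  rw [normAlong_comp (heckeBetaBar Ω M p) S.w (φ := heckeAlphaBar Ω M p)
    (fun z => wq_heckeBetaBar _ _ z)] at hNβ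
  obtain ⟨y0, hy0, hy0'⟩ := S.exists_root hn hgα hNα (c := c) fun i => ⟨hc' i, hcr i⟩
  obtain ⟨y1, hy1, hy1'⟩ := S.exists_root hn hgβ hNβ (c := fun i => c (1 - i))
    fun i => ⟨(hwu i).1, by rw [(hwu i).2]; exact hcr _⟩
  rw [(hwu 0).2, (hwu 1).2] at hy1'
  refine ⟨(arithmeticGalois (L := Ω) (modularFunctionFieldFull (M * p)) φ • u) *
    (SemilinearAut.ofAlgAut S.w • u), hu.smul.mul hu.smul, fun i => ?_⟩
  have hwu' : SemilinearAut.ofAlgAut S.w • u = S.w u := rfl
  rw [hwu']
  obtain ⟨h1, h2⟩ := smul_red (S := S.splitModel) hc (hc' i)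
  obtain ⟨h3, h4⟩ := hwu i
  obtain ⟨h5, h6⟩ := S.splitModel.mul_int_smul h1 h3
  obtain rfl | rfl : i = 0 ∨ i = 1 := by omega
  · exact ⟨mul_ne_zero ((smul_ne_zero_iff_ne _).mpr hu.1) ((map_ne_zero _).mpr hu.1), _, y1, hy1, h5,
      by rw [h6, h2, show S.splitModel.red 0 (c (1 - 0) • S.w u) =
          S.gauss.red (1 - 0) (c (1 - 0) • u) from h4, mul_comm]
         exact hy1'⟩
  · exact ⟨mul_ne_zero ((smul_ne_zero_iff_ne _).mpr hu.1) ((map_ne_zero _).mpr hu.1), _, y0, hy0, h5,
      by rw [h6, h2, show S.splitModel.red 1 (c (1 - 1) • S.w u) =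
          S.gauss.red (1 - 1) (c (1 - 1) • u) from h4, mul_comm]
         exact hy0'⟩

/-! ### Compatibility in `n` -/

theorem pow_prime_pow_injective (r : ℕ) :
    ∀ y z : modularFunctionFieldFullC (ResidueField A) M, y ^ p ^ r = z ^ p ^ r → y = z := by
  have := charP_of_injective_algebraMap
    (algebraMap (ResidueField A) (modularFunctionFieldFullC (ResidueField A) M)).injective p
  intro y z h
  exact iterateFrobenius_inj _ p r h

theorem mem_goodKilled_mul_iff {n : ℕ} (hn : n ≠ 0) (r : ℕ) {x : JZero M} (hx : n • x = 0) :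
    x ∈ goodKilled S (n * p ^ r) ↔ x ∈ goodKilled S n := by
  have := isFunctionField_level M
  have := isFunctionField_level (M * p)
  have := S.isFunctionField_C
  obtain ⟨u, hu⟩ := exists_isFunctionOf hx
  obtain ⟨hu0, D, hD, hD'⟩ := hu
  have hum : IsFunctionOf (n * p ^ r) x (u ^ p ^ r) := ⟨pow_ne_zero _ hu0, D, hD, fun P => by
    rw [ord_pow, hD']; push_cast; ring⟩
  rw [mem_goodKilled_iff S hum, mem_goodKilled_iff S ⟨hu0, D, hD, hD'⟩, map_pow]
  exact powRed_pow_mul_iff (pow_ne_zero _ (NeZero.ne p)) hn ((map_ne_zero _).mpr hu0)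
    (pow_prime_pow_injective r)

theorem mem_newKilled_mul_iff {n : ℕ} (hn : n ≠ 0) (r : ℕ) {x : JZero (M * p)} (hx : n • x = 0) :
    x ∈ newKilled S (n * p ^ r) ↔ x ∈ newKilled S n := by
  have := isFunctionField_level (M * p)
  have := S.isFunctionField_C
  obtain ⟨u, hu⟩ := exists_isFunctionOf hx
  obtain ⟨hu0, D, hD, hD'⟩ := hu
  have hum : IsFunctionOf (n * p ^ r) x (u ^ p ^ r) := ⟨pow_ne_zero _ hu0, D, hD, fun P => by
    rw [ord_pow, hD']; push_cast; ring⟩
  rw [mem_newKilled_iff S hum, mem_newKilled_iff S ⟨hu0, D, hD, hD'⟩]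
  exact forall_congr' fun i => powRed_pow_mul_iff (pow_ne_zero _ (NeZero.ne p)) hn hu0
    (pow_prime_pow_injective r)

end Fermat.Agent.OrdinaryT

end
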