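import Fermat.Agent.OrdinaryT.NormCong
import Fermat.Agent.OrdinaryT.CoreTools

/-!
# The Newton step on a pullback, without an inertia hypothesis

The graph of `piG` glues the pullback of a norm, so a class of level `M` congruent to `1` beyond
`p / (p - 1)` pulls back to a constant times a `p`-th power.
-/

noncomputable section

open IsLocalRing ModularCurve AlgebraicCurve HahnSeries
open Fermat.Agent.Reduction Fermat.Agent.FunctionFieldRR Fermat.Agent.SemistableRed

namespace Fermat.Agent.OrdinaryT

open FlatJ0

local notation "Ω" => AlgebraicClosure ℚ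

variable {A : ValuationSubring Ω} {M p : ℕ} [NeZero M] [NeZero p] [Fact p.Prime]
  [CharP (ResidueField A) p] [IsAlgClosed (ResidueField A)] (S : Setting A M p)

include S in
/-- A norm of a function regular over the finite part is regular there. -/
theorem alpha_norm_ord_nonneg {z : modularFunctionFieldBar (M * p)} (hz : z ≠ 0)
    (hreg : ∀ Q, S.polesH Q = 0 → 0 ≤ Q.ord z)
    {P : Place Ω (modularFunctionFieldBar (M * p))} (hP : S.polesH P = 0) :
    0 ≤ P.ord (heckeAlphaBar Ω M p (normAlong (heckeAlphaBar Ω M p) z)) := by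
  classical
  have := isFunctionField_level M
  have := isFunctionField_level (M * p)
  have := HeckeJ0.hasPrincipalDivisors_bar (M * p)
  set α := heckeAlphaBar Ω M p
  have hint := HeckeJ0.isIntegral_of_isFunctionField α
  rw [Place.ord_restrictAlong α hint P]
  refine mul_nonneg (Int.natCast_nonneg _) ?_
  have h := Congruence.pushforwardAlong_eq_ord α hint (FunctionFieldRR.finiteAlong α)
    (FunctionFieldRR.normFormulaAlong α _) hz (E := dvs (K := Ω) z) (fun w => dvs_apply z w)
    (P.restrictAlong α hint)
  rw [show normAlong α z = (letI := algebraAlong α; Algebra.norm _ z) from rfl, ← h]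
  let := algebraAlong α
  have := isScalarTower_along α
  have := isIntegral_along α hint
  show 0 ≤ Divisor.pushforward (modularFunctionFieldBar M) (dvs (K := Ω) z) _
  rw [Divisor.pushforward_apply]
  refine Finset.sum_nonneg fun Q _ => ?_
  split_ifs with hQ
  · refine mul_nonneg ?_ (Int.natCast_nonneg _)
    rw [dvs_apply]
    refine hreg Q ((S.polesH_eq_zero_iff Q).mpr ?_)
    have hj : 0 ≤ Q.ord S.jF := by
      have h0 := ((S.polesH_eq_zero_iff P).mp hP).1
      rw [Setting.jF, Place.ord_restrictAlong α hint] at h0 ⊢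
      rw [show Q.restrictAlong α hint = P.restrictAlong α hint from hQ]
      refine mul_nonneg (Int.natCast_nonneg _) ?_
      by_contra hneg
      have hpos : (0 : ℤ) < (Place.ramificationIndexAlong α P : ℤ) := by
        have := P.ramificationIndex_pos (F := modularFunctionFieldBar M)
        exact Int.natCast_pos.mpr this
      nlinarith
    exact ⟨hj, by
      by_contra hneg
      exact absurd ((S.ord_jF_neg_iff Q).mpr (not_le.mp hneg)) (not_lt.mpr hj)⟩
  · exact le_rfl

include S in
/-- A class of level `M` pulled back, congruent to `1` beyond `4`, is trivial. -/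
theorem exists_alpha_eq_const_mul_pow {u : modularFunctionFieldBar M} (hu0 : u ≠ 0)
    {D : Divisor Ω (modularFunctionFieldBar M)} (hD : ∀ v, v.ord u = (p : ℤ) * D v)
    {c : Ω} (hc0 : c ≠ 0) (hc : (p : ℚ) < ((p : ℚ) - 1) * ord A p c) {v : LaurentSeries (ResidueField A)}
    (h : Cong c (u : LaurentSeries Ω) v) :
    ∃ (cst : Ω) (f : modularFunctionFieldBar (M * p)), f ≠ 0 ∧
      heckeAlphaBar Ω M p u = algebraMap Ω (modularFunctionFieldBar (M * p)) cst * f ^ p := by
  have hA := isOver_of_setting S
  have := isFunctionField_level M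
  have := isFunctionField_level (M * p)
  have := HeckeJ0.hasPrincipalDivisors_bar (M * p)
  have := S.isFunctionField_C
  set α := heckeAlphaBar Ω M p
  set F := α u with hF
  have hF0 : F ≠ 0 := (map_ne_zero α).mpr hu0
  set D' := Divisor.pullbackAlong α (HeckeJ0.alphaIntegral M p) D
  have hp := hA.prime
  have hp2 : (2 : ℚ) ≤ p := by exact_mod_cast hp.two_le
  have hcpos : 0 < ord A p c := by
    by_contra hcon
    rw [not_lt] at hcon
    nlinarith
  have hpL : (p : Ω) ≠ 0 := hA.natCast_ne_zero
  have hD' : ∀ P, P.ord F = (p : ℤ) * D' P := fun P => by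
    have h1 := Congruence.pullbackAlong_eq_ord α (HeckeJ0.alphaIntegral M p)
      (D := (p : ℤ) • D) (fun v => by rw [Finsupp.smul_apply, smul_eq_mul, hD]) P
    rw [map_zsmul, Finsupp.smul_apply, smul_eq_mul] at h1
    exact h1.symm
  have hcA := mem_of_ord hA (Or.inr hcpos.le)
  have hcr := residue_eq_zero_of_pos hA hcA (Or.inr hcpos)
  have hside : ∀ i, Cong c (S.side i F)
      ((![v, qExpand (ResidueField A) p v] : Fin 2 → LaurentSeries (ResidueField A)) i) := fun i => by
    obtain rfl | rfl : i = 0 ∨ i = 1 := by omega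
    · rw [(S.side_alpha u).1]; exact h
    · rw [(S.side_alpha u).2]; exact h.qExpand p
  have h1 : ∀ i, S.gauss.Int i F ∧ S.gauss.red i F = 1 := fun i => S.red_eq (by
    rw [OneMemClass.coe_one]; exact (hside i).srep_one hcA hcr hc0)
  have hdeg : Divisor.degree D' = 0 := by
    have hz : Divisor.degree ((p : ℤ) • D') = 0 := by
      rw [show (p : ℤ) • D' = dvs (K := Ω) F from eq_dvs fun P => by
        rw [Finsupp.smul_apply, smul_eq_mul, hD'], degree_dvs]
    rw [map_zsmul, smul_eq_mul] at hz
    exact (mul_eq_zero.mp hz).resolve_left (by exact_mod_cast hp.ne_zero)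
  let R : S.splitModel.Rep p :=
    ⟨F, D', hF0, hD', hdeg, fun i => (h1 i).1, fun i => (h1 i).2⟩
  have hdu : S.splitModel.DivBy ((p : Ω) * (c / p)) (R.u - 1) := fun i => by
    show ∃ w : LaurentSeries (ResidueField A), SRep (S.side i (((p : Ω) * (c / p))⁻¹ • (F - 1))) w
    refine ⟨(![v, qExpand (ResidueField A) p v] : Fin 2 → LaurentSeries (ResidueField A)) i, ?_⟩
    rw [mul_div_cancel₀ _ hpL, S.side_smul, map_sub, map_one]
    exact hside i
  have hdeep := deep_div_p hA hc0 hc
  have hM := le_refl S.splitModel.evalLevel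
  have hone : (1 : modularFunctionFieldBar (M * p)) ∈
      riemannRochSpace ((S.splitModel.evalLevel : ℤ) • S.splitModel.H) :=
    mem_rrs_iff.mpr (Or.inr fun P => by
      simpa using mul_nonneg (Nat.cast_nonneg S.splitModel.evalLevel) (S.splitModel.H_nonneg P))
  obtain ⟨φ, hφ, b, hb, hφi, hφr, hφ1, hφd⟩ := exists_deep_approx S.splitModel hp hpL R
    hM S.splitModel.int_one hone hdeep hdu (by
    intro a E hr ha hr0 hE hmem hEp
    rw [imgSpace_twist_eq_glue S.splitModel hp R hM]
    refine ⟨hEp, fun x hx => ?_⟩
    set ψ₀ := normAlong α (1 + (a : Ω) • E) with hψ₀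
    set ψ := α ψ₀ with hψ
    have hord : ((p : ℚ) - 1) * ord A p (a : Ω) = 1 := by
      have hne : (p : Ω) / (a : Ω) ^ (p - 1) ≠ 0 := div_ne_zero hpL (pow_ne_zero _ ha)
      have h0 : ord A p ((p : Ω) / (a : Ω) ^ (p - 1)) = 0 :=
        le_antisymm (not_lt.mp fun hpos => hr0 (residue_eq_zero_of_pos hA hr (Or.inr hpos)))
          ((hA.mem_iff hne).mp hr)
      rw [hA.ord_div hpL (pow_ne_zero _ ha), hA.ord_pow ha, hA.ord_p,
        Nat.cast_sub hp.one_le, Nat.cast_one] at h0
      linarith
    have har := residue_eq_zero_of_pos hA a.2 (Or.inr (by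
      by_contra hcon
      nlinarith [not_lt.mp hcon]))
    -- reductions of `E`
    have hEs : ∀ i, Cong (a : Ω) (S.side i (1 + (a : Ω) • E))
        ((S.gauss.red i E : modularFunctionFieldFullC (ResidueField A) M) :
          LaurentSeries (ResidueField A)) := fun i => by
      rw [Cong, map_add, map_one, add_sub_cancel_left, S.side_smul, inv_smul_smul₀ ha]
      exact S.srep_red (hE i)
    set E0 : modularFunctionFieldFullC (ResidueField A) M := S.gauss.red 0 E
    have hψ0 := cong_normAlpha S a.2 har ha hEs
    have hψs : ∀ i, Cong (a : Ω) (S.side i ψ)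
        ((Setting.alphaVal E0 i : modularFunctionFieldFullC (ResidueField A) M) :
          LaurentSeries (ResidueField A)) := fun i => by
      obtain rfl | rfl : i = 0 ∨ i = 1 := by omega
      · rw [(S.side_alpha ψ₀).1]; exact hψ0
      · rw [(S.side_alpha ψ₀).2]; exact hψ0.qExpand p
    -- the difference in the cube of the twist
    set φ := 1 + (a : Ω) • E
    set δ := (a : Ω)⁻¹ • (φ ^ (p + 1) - ψ) with hδ
    have hδr : ∀ i, S.gauss.Int i δ ∧ S.gauss.red i δ =
        (p + 1) • S.gauss.red i E - Setting.alphaVal E0 i := fun i => S.red_eq (by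
      rw [hδ, S.side_smul, map_sub, map_pow, AddSubgroupClass.coe_sub, AddSubmonoidClass.coe_nsmul,
        show S.side i φ ^ (p + 1) - S.side i ψ = (S.side i φ ^ (p + 1) - 1) - (S.side i ψ - 1) by abel, smul_sub]
      exact (Cong.pow a.2 har ha (hEs i) (p + 1)).sub (hψs i))
    have hz0 : φ ≠ 0 := fun h0 => by
      have := (hEs 0).srep_one a.2 har ha
      rw [h0, map_zero] at this
      exact one_ne_zero (this.unique SRep.zero)
    have hψ00 : ψ₀ ≠ 0 := HeckeJ0.normAlong_ne_zero (HeckeJ0.alphaFinite M p) hz0
    have hψne : ψ ≠ 0 := (map_ne_zero α).mpr hψ00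
    have hpowR : ∀ j : ℕ, ∃ R' : S.splitModel.Rep p,
        (∀ P, R'.D P = ((j + 1 : ℕ) : ℤ) * D' P) ∧
          φ ^ (j + 1) ∈ S.splitModel.twist R' ((j + 1) * S.splitModel.evalLevel) := by
      intro j
      induction j with
      | zero => exact ⟨R, fun P => by simp [R], by simpa using hmem⟩
      | succ j ih =>
        obtain ⟨R', hR', hm'⟩ := ih
        refine ⟨R'.mul R, fun P => ?_, ?_⟩
        · show R'.D P + R.D P = _
          rw [hR']; push_cast; show _ + D' P = _; ring
        · rw [pow_succ, Nat.succ_mul]
          exact S.splitModel.mul_mem_twist hm' hmem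
    obtain ⟨R3, hR3, hmp⟩ := hpowR p
    set K := (p + 1) * S.splitModel.evalLevel +
      ((dvs (K := Ω) ψ + R3.D).support.sum fun P => ((dvs (K := Ω) ψ + R3.D) P).natAbs) with hK
    have hKge : S.splitModel.evalLevel ≤ K :=
      le_trans (Nat.le_mul_of_pos_left _ p.succ_pos) (Nat.le_add_right _ _)
    have hφ3 : φ ^ (p + 1) ∈ S.splitModel.twist R3 K :=
      S.splitModel.twist_mono R3 (by omega) hmp
    have hψK : ψ ∈ S.splitModel.twist R3 K := by
      refine mem_rrs_iff.mpr (Or.inr fun P => ?_)
      simp only [Finsupp.add_apply, Finsupp.smul_apply, smul_eq_mul]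
      rcases (S.splitModel.H_nonneg P).eq_or_lt with h0 | hpos
      · rw [← h0, mul_zero, add_zero]
        have hzreg : ∀ Q, S.polesH Q = 0 → 0 ≤ Q.ord (φ ^ p * F) := fun Q hQ => by
          have h3 := (mem_rrs_iff.mp hmem).resolve_left hz0 Q
          simp only [Finsupp.add_apply, Finsupp.smul_apply, smul_eq_mul] at h3
          rw [show S.splitModel.H Q = 0 from hQ, mul_zero, add_zero] at h3
          rw [Q.ord_mul (pow_ne_zero _ hz0) hF0, ord_pow, hD']
          change 0 ≤ (p : ℤ) * Q.ord φ + (p : ℤ) * R.D Q
          rw [← mul_add]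
          exact mul_nonneg (Int.natCast_nonneg p) (by linarith)
        have hN := alpha_norm_ord_nonneg S (mul_ne_zero (pow_ne_zero p hz0) hF0) hzreg
          (P := P) h0.symm
        have hNF : normAlong α (φ ^ p * F) = ψ₀ ^ p * u ^ (p + 1) := by
          have hdeg' := Congruence.finrankAlong_heckeAlphaBar (N := M) qbarToComplex S.prime S.not_dvd
          let := algebraAlong α
          show Algebra.norm _ (φ ^ p * α u) = _
          rw [map_mul, map_pow,
            show Algebra.norm (modularFunctionFieldBar M) (α u) = u ^ (p + 1) by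
              rw [← hdeg']; exact Algebra.norm_algebraMap u]
          rfl
        rw [hNF, map_mul, map_pow, map_pow, ← hF, ← hψ,
          P.ord_mul (pow_ne_zero _ hψne) (pow_ne_zero _ hF0), ord_pow, ord_pow, hD'] at hN
        rw [hR3 P]
        push_cast at hN ⊢
        have h0p : (0 : ℤ) < p := by exact_mod_cast hp.pos
        have h7 := nonneg_of_mul_nonneg_right (a := (p : ℤ)) (b := P.ord ψ + ((p : ℤ) + 1) * D' P)
          (by linarith) h0p
        linarith
      · set G := dvs (K := Ω) ψ + R3.D with hG
        have hle : -(G P) ≤ (K : ℤ) := by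
          by_cases hP : P ∈ G.support
          · have h4 := Finset.single_le_sum (f := fun P => (G P).natAbs)
              (fun _ _ => Nat.zero_le _) hP
            have h4' : (G P).natAbs ≤ K := le_trans h4 (by rw [hK]; exact Nat.le_add_left _ _)
            omega
          · rw [Finsupp.notMem_support_iff.mp hP, neg_zero]; exact Int.natCast_nonneg _
        have h5 : (K : ℤ) ≤ (K : ℤ) * S.splitModel.H P :=
          le_mul_of_one_le_right (Int.natCast_nonneg _) (by omega)
        rw [hG, Finsupp.add_apply, dvs_apply] at hle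
        linarith
    have himg : S.splitModel.red2 δ ∈ S.splitModel.imgSpace (S.splitModel.twist R3 K) :=
      ⟨δ, Submodule.smul_mem _ _ (sub_mem hφ3 hψK), fun i => (hδr i).1, rfl⟩
    rw [imgSpace_twist_eq_glue S.splitModel hp R3 hKge] at himg
    -- the graph of `piG` is glued
    obtain ⟨m, hm⟩ := Submodule.mem_pi.mp hEp 0 trivial |> fun h => (⟨_, h⟩ :
      ∃ m : ℕ, E0 ∈ riemannRochSpace ((m : ℤ) • S.splitModel.C))
    have hgr := (S.splitModel.mem_pairs.mp hx).2.2 _ (S.splitModel.reach_graph hm 0)
    have hpair : (fun j : Fin 2 => if j = 0 then E0 else S.splitModel.pf E0) =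
        fun j => Setting.alphaVal E0 j := funext fun j => by
      obtain rfl | rfl : j = 0 ∨ j = 1 := by omega
      · simp [Setting.alphaVal]
      · simp [Setting.alphaVal]; rfl
    rw [hpair] at hgr
    have hδe : S.splitModel.red2 δ = S.splitModel.red2 E - fun j => Setting.alphaVal E0 j := by
      have := charP_of_injective_algebraMap (algebraMap (ResidueField A)
        (modularFunctionFieldFullC (ResidueField A) M)).injective p
      funext i
      refine (hδr i).2.trans ?_
      rw [show (p + 1 : ℕ) • S.gauss.red i E = S.gauss.red i E by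
        rw [nsmul_eq_mul, Nat.cast_add, CharP.cast_eq_zero, zero_add, Nat.cast_one, one_mul]]
      rfl
    have hreach : ∀ z : Fin 2 → modularFunctionFieldFullC (ResidueField A) M,
        z ∈ S.splitModel.pairSpace K → ∀ i : Fin 2, VanishesTo (![x.1, x.2] i) 0 (z i) := fun z hz i => by
      obtain rfl | rfl : i = 0 ∨ i = 1 := by omega
      · exact S.splitModel.regular_of_mem_pairSpace hz 0 (S.splitModel.mem_pairs.mp hx).1
      · exact S.splitModel.regular_of_mem_pairSpace hz 1 (S.splitModel.mem_pairs.mp hx).2.1
    have hev := himg.2 x hx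
    simp only [SplitModel.ev, hδe, Pi.sub_apply] at hev hgr ⊢
    have hsub : ∀ (P : Place (ResidueField A) (modularFunctionFieldFullC (ResidueField A) M))
        (f g : modularFunctionFieldFullC (ResidueField A) M), VanishesTo P 0 f → VanishesTo P 0 g →
          residueConst P (f - g) = residueConst P f - residueConst P g := fun P f g hf hg => by
      have h6 := residueConst_add (hf.sub hg) hg
      rw [sub_add_cancel] at h6
      exact eq_sub_of_add_eq h6.symm
    have hgl : (fun j => Setting.alphaVal E0 j) ∈ S.splitModel.pairSpace K := by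
      have h7 : S.splitModel.red2 E - S.splitModel.red2 δ ∈
          S.splitModel.pairSpace K := sub_mem (S.splitModel.pairSpace_mono hKge hEp) himg.1
      rwa [hδe, sub_sub_cancel] at h7
    have hEK := S.splitModel.pairSpace_mono hKge hEp
    rw [hsub x.1 _ _ (hreach _ hEK 0) (hreach _ hgl 0), hsub x.2 _ _ (hreach _ hEK 1) (hreach _ hgl 1),
      hgr, sub_left_inj] at hev
    exact hev)
  refine eq_const_mul_pow_of_approx S.splitModel hp hpL R hdeep hdu hM hφ hφi
    (fun i => (congrFun hφr i).trans (S.splitModel.red_one i)) hb hφ1 ?_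
  simpa using hφd

end Fermat.Agent.OrdinaryT

end
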