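import Fermat.Agent.OrdinaryT.NewtonStart

/-!
# Approximate `p`-th roots beyond `1 / (p - 1)`
-/

set_option linter.unusedSectionVars false

noncomputable section

open AlgebraicCurve Fermat.Agent.FunctionFieldRR Fermat.Agent.SemistableRed

namespace Fermat.Agent.OrdinaryT

variable {L : Type*} [Field L] {A : ValuationSubring L} {k : Type*} [Field k] [IsAlgClosed k]
  {π : A →+* k} {F : Type*} [Field F] [Algebra L F] {G : Type*} [Field G] [Algebra k G]
  [IsFunctionField k G]
variable (S : SplitModel A π F G)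

/-- In characteristic `p` the only `p`-th root of unity is `1`, so every gluing datum is trivial. -/
theorem hasZeta_one_of_charP {p : ℕ} (hp : p.Prime) [CharP k p] (R : S.Rep p) :
    S.HasZeta R 1 := by
  have : Fact p.Prime := ⟨hp⟩
  obtain ⟨ζ, hζ, h⟩ := S.exists_hasZeta hp.ne_zero R
  have : ζ = 1 := funext fun x => by
    have h1 : (ζ x - 1) ^ p = 0 := by rw [sub_pow_char, hζ x, one_pow, sub_self]
    simpa [sub_eq_zero] using pow_eq_zero_iff hp.ne_zero |>.mp h1
  rwa [← this]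

theorem imgSpace_twist_eq_glue {p : ℕ} (hp : p.Prime) [CharP k p] (R : S.Rep p) {M : ℕ}
    (hM : S.evalLevel ≤ M) : S.imgSpace (S.twist R M) = S.glueSpace M := by
  rw [hasZeta_one_of_charP S hp R M hM, S.zetaSpace_one]

omit [IsFunctionField k G] in
theorem ord_lt_of_large (P : Place k G) {p : ℕ} (hp : 1 < p) {M : ℤ} {e c z : G}
    (hz : z = e ^ p + c * e) (hc : c = 0 ∨ -(M * ((p - 1 : ℕ) : ℤ)) ≤ P.ord c)
    (hzb : z = 0 ∨ -(M * (p : ℤ)) ≤ P.ord z) : e = 0 ∨ -M ≤ P.ord e := by
  refine or_iff_not_imp_left.mpr fun he => ?_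
  by_contra hlt
  push Not at hlt
  have hp1 : ((p - 1 : ℕ) : ℤ) = (p : ℤ) - 1 := by omega
  have hpow : P.ord (e ^ p) = (p : ℤ) * P.ord e := ord_pow P e p
  have hne : e ^ p ≠ 0 := pow_ne_zero _ he
  rcases eq_or_ne c 0 with hc0 | hc0
  · rw [hc0, zero_mul, add_zero] at hz
    rcases hzb with h | h
    · exact hne (hz ▸ h)
    · rw [hz, hpow] at h
      nlinarith
  have hcb := hc.resolve_left hc0
  have hce : P.ord (e ^ p) < P.ord (c * e) := by
    rw [hpow, P.ord_mul hc0 he]
    rw [hp1] at hcb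
    nlinarith
  have hsum : z ≠ 0 ∧ P.ord z = P.ord (e ^ p) := by
    rw [hz]
    refine ⟨fun h0 => ?_, ord_add_eq_of_lt hne hce⟩
    rw [eq_neg_of_add_eq_zero_left h0, ← neg_one_mul, P.ord_mul (by norm_num)
      (mul_ne_zero hc0 he)] at hce
    have : P.ord (-1 : G) = 0 := by
      rw [← map_one (algebraMap k G), ← map_neg, ord_algebraMap]
    omega
  rcases hzb with h | h
  · exact hsum.1 h
  · rw [hsum.2, hpow] at h
    nlinarith

/-- The basic dichotomy. -/
theorem exists_deep_approx {p : ℕ} (hp : p.Prime) [CharP k p] (hpL : (p : L) ≠ 0) (R : S.Rep p)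
    {M : ℕ} (hM : S.evalLevel ≤ M) {τ : F} (hτi : S.Int2 τ)
    (hτH : τ ∈ riemannRochSpace ((M : ℤ) • S.H)) {c : L} (hc : Deep π p c)
    (hu : S.DivBy ((p : L) * c) (R.u - 1))
    (hjump : ∀ (a : A) (E : F) (hr : (p : L) / (a : L) ^ (p - 1) ∈ A), (a : L) ≠ 0 →
      π ⟨_, hr⟩ ≠ 0 → S.Int2 E → τ + (a : L) • E ∈ S.twist R M →
      S.red2 E ∈ S.pairSpace M → S.red2 E ∈ S.imgSpace (S.twist R M)) :
    ∃ φ ∈ S.twist R M, ∃ b, Deep π p b ∧ S.Int2 φ ∧ S.red2 φ = S.red2 τ ∧
      S.DivBy b (φ - τ) ∧ S.DivBy ((p : L) * b) (φ ^ p * R.u - τ ^ p) := by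
  have : Fact p.Prime := ⟨hp⟩
  have h2 := hp.two_le
  have himg := imgSpace_twist_eq_glue S hp R hM
  have hτg : S.red2 τ ∈ S.glueSpace M := S.imgSpace_le_glueSpace M ⟨τ, hτH, hτi, rfl⟩
  obtain ⟨y, hy, hye⟩ := exists_of_divBy (mul_ne_zero hpL hc.ne_zero) hu
  have hfd := (S.finrank_twist R (le_trans S.baseLevel_le_evalLevel hM)).1
  have hRi : R.u ∈ intRing S := R.int
  rcases exists_closest S (S.twist R M) hτi (himg ▸ hτg) with hmem |
    ⟨a, E, ha, haπ, hE, hφ, hEn⟩
  · refine ⟨τ, hmem, c, hc, hτi, rfl, ?_, ?_⟩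
    · simpa using divBy_smul (S := S) hc.ne_zero (y := (0 : F)) S.int_zero
    · rw [show τ ^ p * R.u - τ ^ p = ((p : L) * c) • (τ ^ p * y) by
        rw [← mul_smul_comm, ← hye]; ring]
      exact divBy_smul (mul_ne_zero hpL hc.ne_zero)
        (mul_mem (S := Subring F) (s := intRing S) (pow_mem (show τ ∈ intRing S from hτi) p) hy)
  set φ := τ + (a : L) • E with hφdef
  have hφi : S.Int2 φ := fun i => S.int_add i _ _ (hτi i) (S.int_smul i _ _ a.2 (hE i))
  have hφr : S.red2 φ = S.red2 τ := funext fun i => by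
    show S.red i _ = S.red i τ
    rw [S.red_add i _ _ (hτi i) (S.int_smul i _ _ a.2 (hE i)),
      S.smul_mem_zero a.2 haπ (hE i), add_zero]
  obtain ⟨r, hr⟩ := exists_add_pow_prime hp (⟨τ, hτi⟩ : intRing S)
    ⟨(a : L) • E, fun i => S.int_smul i _ _ a.2 (hE i)⟩
  have hr' := congrArg Subtype.val hr
  push_cast at hr'
  rw [← hφdef] at hr'
  simp only [smul_pow] at hr'
  -- the two regimes
  by_cases hdeep : ∃ d : A, π d = 0 ∧ (a : L) ^ (p - 1) = (p : L) * (d : L)
  · have hda : Deep π p (a : L) := ⟨ha, a.2, hdeep⟩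
    -- a common bound for `a` and `c`
    obtain ⟨b, hb, hba, hbc⟩ : ∃ b, Deep π p b ∧ (a : L) / b ∈ A ∧ c / b ∈ A := by
      rcases A.mem_or_inv_mem ((a : L) / c) with h | h
      · exact ⟨c, hc, h, by rw [div_self hc.ne_zero]; exact A.one_mem⟩
      · rw [inv_div] at h
        exact ⟨a, hda, by rw [div_self ha]; exact A.one_mem, h⟩
    have hpb : (p : L) * b ≠ 0 := mul_ne_zero hpL hb.ne_zero
    refine ⟨φ, hφ, b, hb, hφi, hφr, ?_, ?_⟩
    · rw [add_sub_cancel_left]
      exact divBy_of_mul_dvd ha hb.ne_zero hba (divBy_smul ha hE)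
    · obtain ⟨d, -, hd⟩ := hdeep
      have hap : (a : L) ^ p = (p : L) * ((a : L) * d) := by
        rw [show (a : L) ^ p = (a : L) * (a : L) ^ (p - 1) by
          rw [← pow_succ', Nat.sub_add_cancel hp.one_le], hd]
        ring
      have e : φ ^ p * R.u - τ ^ p = ((p : L) * (a : L)) • ((τ ^ (p - 1) * E +
          ((a : L) • (E ^ 2 * r.1)) + ((d : L) • E ^ p)) * R.u) +
          ((p : L) * c) • (τ ^ p * y) := by
        rw [show R.u = 1 + ((p : L) * c) • y by rw [← hye]; ring, hr', hap]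
        simp only [Algebra.smul_def, map_mul, map_pow, map_natCast]
        ring
      rw [e]
      refine SplitModel.DivBy.add ?_ ?_
      · refine divBy_of_mul_dvd (mul_ne_zero hpL ha) hpb ?_ (divBy_smul (mul_ne_zero hpL ha) ?_)
        · rwa [mul_div_mul_left _ _ hpL]
        · refine mul_mem (S := Subring F) (s := intRing S) (add_mem (add_mem (mul_mem
            (pow_mem (show τ ∈ intRing S from hτi) _) hE) ?_) ?_) hRi
          · exact int_smul' S a.2 (mul_mem (S := Subring F) (s := intRing S) (pow_mem hE 2) r.2)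
          · exact int_smul' S d.2 (pow_mem (show E ∈ intRing S from hE) p)
      · refine divBy_of_mul_dvd (mul_ne_zero hpL hc.ne_zero) hpb ?_
          (divBy_smul (mul_ne_zero hpL hc.ne_zero) ?_)
        · rwa [mul_div_mul_left _ _ hpL]
        · exact mul_mem (S := Subring F) (s := intRing S)
            (pow_mem (show τ ∈ intRing S from hτi) p) hy
  exfalso
  have hrA : (p : L) / (a : L) ^ (p - 1) ∈ A := by
    rcases A.mem_or_inv_mem ((p : L) / (a : L) ^ (p - 1)) with h | h
    · exact h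
    rw [inv_div] at h
    by_contra hn
    obtain ⟨h1, h2⟩ := S.inv_mem_max hn
    refine hdeep ⟨⟨_, h⟩, ?_, ?_⟩
    · rwa [show (⟨_, h⟩ : A) = ⟨_, h1⟩ from Subtype.ext (inv_div _ _).symm]
    · rw [mul_div_cancel₀ _ hpL]
  set ρ : A := ⟨_, hrA⟩ with hρ
  obtain ⟨hca, hca0⟩ := Deep.div_mem S hp hc hrA
  -- the scaled defect
  set W := ((a : L) ^ p)⁻¹ • (φ ^ p * R.u - τ ^ p) with hW
  set X : F := E ^ p + (ρ : L) • (τ ^ (p - 1) * E) with hX
  have hap : (a : L) ^ p = (a : L) * (a : L) ^ (p - 1) := by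
    rw [← pow_succ', Nat.sub_add_cancel hp.one_le]
  have hρe : (p : L) = (ρ : L) * (a : L) ^ (p - 1) := by
    rw [hρ]; exact (div_mul_cancel₀ _ (pow_ne_zero _ ha)).symm
  have hWe : W = (X + (a : L) • ((ρ : L) • (E ^ 2 * r.1))) * R.u +
      (c / (a : L)) • ((ρ : L) • (τ ^ p * y)) := by
    have hcast : (p : F) = algebraMap L F (p : L) := (map_natCast _ p).symm
    rw [hW, inv_smul_eq_iff₀ (pow_ne_zero _ ha), hr', hX]
    rw [show R.u = 1 + ((p : L) * c) • y by rw [← hye]; ring]
    have hane : algebraMap L F (a : L) ≠ 0 := (map_ne_zero _).mpr ha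
    have hρe' := congrArg (algebraMap L F) hρe
    simp only [Algebra.smul_def, map_mul, map_pow, map_div₀, map_natCast, hap]
    simp only [map_mul, map_pow, map_natCast] at hρe'
    rw [hρe']
    field_simp
    ring
  have hXi : S.Int2 X := add_mem (pow_mem (show E ∈ intRing S from hE) p)
    (int_smul' S ρ.2 (mul_mem (S := Subring F) (s := intRing S)
      (pow_mem (show τ ∈ intRing S from hτi) _) hE))
  have h1i : S.Int2 ((X + (a : L) • ((ρ : L) • (E ^ 2 * r.1))) * R.u) :=
    mul_mem (S := Subring F) (s := intRing S) (add_mem hXi (int_smul' S a.2 (int_smul' S ρ.2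
      (mul_mem (S := Subring F) (s := intRing S) (pow_mem hE 2) r.2)))) hRi
  have h2i : S.Int2 ((c / (a : L)) • ((ρ : L) • (τ ^ p * y))) :=
    int_smul' S hca (int_smul' S ρ.2 (mul_mem (S := Subring F) (s := intRing S)
      (pow_mem (show τ ∈ intRing S from hτi) p) hy))
  have hWi : S.Int2 W := hWe ▸ add_mem (S := Subring F) (s := intRing S) h1i h2i
  have hEp := fun i => S.int_pow (hE i) p
  have hτp := fun i => S.int_pow (hτi i) (p - 1)
  have hWr : ∀ i, S.red i W = S.red i E ^ p + π ρ • (S.red i τ ^ (p - 1) * S.red i E) := by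
    intro i
    have hi2 : S.Int i (E ^ 2 * r.1) := S.int_mul i _ _ (S.int_pow (hE i) 2) (r.2 i)
    rw [hWe, S.red_add i _ _ (h1i i) (h2i i),
      S.red_mul i _ _ (S.int_add i _ _ (hXi i) (S.int_smul i _ _ a.2 (S.int_smul i _ _ ρ.2 hi2)))
        (R.int i), R.red_u, mul_one,
      S.red_add i _ _ (hXi i) (S.int_smul i _ _ a.2 (S.int_smul i _ _ ρ.2 hi2)),
      S.smul_mem_zero a.2 haπ (S.int_smul i _ _ ρ.2 hi2),
      S.smul_mem_zero hca hca0 (S.int_smul i _ _ ρ.2
        (S.int_mul i _ _ (S.int_pow (hτi i) p) (hy i))), add_zero, add_zero, hX,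
      S.red_add i _ _ (hEp i) (S.int_smul i _ _ ρ.2 (S.int_mul i _ _ (hτp i) (hE i))),
      S.red_pow (hE i), S.red_smul i _ _ ρ.2 (S.int_mul i _ _ (hτp i) (hE i)),
      S.red_mul i _ _ (hτp i) (hE i), S.red_pow (hτi i)]
  have hWH : W ∈ riemannRochSpace (((p * M : ℕ) : ℤ) • S.H) := by
    refine Submodule.smul_mem _ _ (Submodule.sub_mem _ ?_ ?_)
    · rw [mem_rrs_iff]
      rcases eq_or_ne φ 0 with h0 | h0
      · exact Or.inl (by rw [h0, zero_pow hp.ne_zero, zero_mul])
      refine Or.inr fun P => ?_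
      rw [P.ord_mul (pow_ne_zero _ h0) R.u_ne, ord_pow, R.ord_u]
      have h := (mem_rrs_iff.mp hφ).resolve_left h0 P
      simp only [Finsupp.add_apply, Finsupp.smul_apply, smul_eq_mul] at h ⊢
      push_cast
      nlinarith
    · rw [mem_rrs_iff]
      rcases eq_or_ne τ 0 with h0 | h0
      · exact Or.inl (by rw [h0, zero_pow hp.ne_zero])
      refine Or.inr fun P => ?_
      rw [ord_pow]
      have h := (mem_rrs_iff.mp hτH).resolve_left h0 P
      simp only [Finsupp.smul_apply, smul_eq_mul] at h ⊢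
      push_cast
      nlinarith
  have hz : S.red2 W ∈ S.glueSpace (p * M) := S.imgSpace_le_glueSpace _ ⟨W, hWH, hWi, rfl⟩
  -- regularity
  have hEpair : S.red2 E ∈ S.pairSpace M := S.mem_pairSpace.mpr fun i => by
    rw [mem_rrs_iff]
    have hzi := S.mem_pairSpace.mp hz.1 i
    have hτb := S.mem_pairSpace.mp hτg.1 i
    rcases eq_or_ne (S.red i E) 0 with h0 | h0
    · exact Or.inl h0
    refine Or.inr fun P => ?_
    have key := ord_lt_of_large P hp.one_lt (M := (M : ℤ) * S.C P) (e := S.red i E)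
      (c := π ρ • S.red i τ ^ (p - 1)) (z := S.red i W)
      (by rw [hWr, smul_mul_assoc])
      (by
        rcases eq_or_ne (π ρ • S.red i τ ^ (p - 1)) 0 with h1 | h1
        · exact Or.inl h1
        refine Or.inr ?_
        obtain ⟨hρ0, hτ0⟩ := smul_ne_zero_iff.mp h1
        rw [Algebra.smul_def, P.ord_mul ((map_ne_zero _).mpr hρ0) hτ0, ord_algebraMap, zero_add,
          ord_pow]
        have h := (mem_rrs_iff.mp hτb).resolve_left (fun h2 => hτ0 (by
          rw [show S.red i τ = 0 from h2, zero_pow (by omega : p - 1 ≠ 0)])) P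
        simp only [Finsupp.smul_apply, smul_eq_mul] at h ⊢
        show _ ≤ ((p - 1 : ℕ) : ℤ) * P.ord (S.red i τ)
        have hnn : (0 : ℤ) ≤ ((p - 1 : ℕ) : ℤ) := Nat.cast_nonneg _
        have h' := mul_le_mul_of_nonneg_left h hnn
        simp only [SplitModel.red2] at h'
        linarith)
      (by
        refine (mem_rrs_iff.mp hzi).imp id fun h => ?_
        have := h P
        simp only [Finsupp.smul_apply, smul_eq_mul, SplitModel.red2] at this
        push_cast at this
        show _ ≤ P.ord (S.red i W)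
        linarith)
    simpa [SplitModel.red2] using key.resolve_left h0
  -- the values at the glued pairs
  by_cases hρ0 : π ρ = 0
  · refine hEn (himg ▸ ⟨hEpair, fun x hx => ?_⟩)
    have hp' := S.mem_pairs.mp hx
    have h := hz.2 x hx
    simp only [SplitModel.ev, SplitModel.red2] at h ⊢
    have r0 := S.regular_of_mem_pairSpace hEpair 0 hp'.1
    have r1 := S.regular_of_mem_pairSpace hEpair 1 hp'.2.1
    simp only [SplitModel.red2] at r0 r1
    rw [hWr, hWr, hρ0, zero_smul, zero_smul, add_zero, add_zero, residueConst_pow r0,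
      residueConst_pow r1] at h
    exact frobenius_inj k p h
  · exact hEn (hjump a E hrA ha hρ0 hE hφ hEpair)

end Fermat.Agent.OrdinaryT

end
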