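import Fermat.Agent.OrdinaryT.NewtonApprox
import Fermat.Agent.SemistableRed.Representatives

/-!
# `u` congruent to `1` beyond `p / (p - 1)` is a constant times a `p`-th power

Starting from one approximate root of high accuracy in `L(D + MH)`, two Newton iterations give
roots on the two charts, congruent to high order; the bounded level argument of the prime-to-`p`
theory then shows that the class is zero.
-/

set_option linter.unusedSectionVars false

noncomputable section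

open AlgebraicCurve Fermat.Agent.FunctionFieldRR Fermat.Agent.SemistableRed

namespace Fermat.Agent.OrdinaryT

variable {L : Type*} [Field L] {A : ValuationSubring L} {k : Type*} [Field k] [IsAlgClosed k]
  {π : A →+* k} {F : Type*} [Field F] [Algebra L F] {G : Type*} [Field G] [Algebra k G]
  [IsFunctionField k G]
variable (S : SplitModel A π F G)

include S in
/-- Two deep elements have a common deep bound. -/
theorem Deep.exists_common {p : ℕ} {a c : L} (ha : Deep π p a) (hc : Deep π p c) :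
    ∃ b, Deep π p b ∧ a / b ∈ A ∧ c / b ∈ A := by
  rcases A.mem_or_inv_mem (a / c) with h | h
  · exact ⟨c, hc, h, by rw [div_self hc.ne_zero]; exact A.one_mem⟩
  · rw [inv_div] at h
    exact ⟨a, ha, by rw [div_self ha.ne_zero]; exact A.one_mem, h⟩

/-- One Newton step. -/
theorem newton_step_p {p : ℕ} (hp : p.Prime) (hpL : (p : L) ≠ 0) (R : S.Rep p) {φ : F}
    (hφ : S.Int2 φ) {b g : L} (hb0 : b ≠ 0) (hg0 : g ≠ 0) (hgA : g ∈ A) {d : L}
    (hd : b ^ (p - 1) = (p : L) * d) (hbA : b ∈ A) (hbg : b / g ∈ A) (hdg : d / g ∈ A) (l : ℕ)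
    (hφ1 : S.DivBy b (φ - 1)) (h : S.DivBy ((p : L) * (b * g ^ l)) (φ ^ p * R.u - 1)) :
    S.Int2 (φ * (1 - (p : L)⁻¹ • (φ ^ p * R.u - 1))) ∧
      S.DivBy b (φ * (1 - (p : L)⁻¹ • (φ ^ p * R.u - 1)) - 1) ∧
      S.DivBy ((p : L) * (b * g ^ (l + 1)))
        ((φ * (1 - (p : L)⁻¹ • (φ ^ p * R.u - 1))) ^ p * R.u - 1) := by
  have hβ0 : b * g ^ l ≠ 0 := mul_ne_zero hb0 (pow_ne_zero _ hg0)
  obtain ⟨y, hy, hye⟩ := exists_of_divBy (mul_ne_zero hpL hβ0) h
  obtain ⟨w, hw, hwe⟩ := exists_of_divBy hb0 hφ1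
  have hβA : b * g ^ l ∈ A := mul_mem hbA (pow_mem hgA l)
  have hη : (p : L)⁻¹ • (φ ^ p * R.u - 1) = (b * g ^ l) • y := by
    rw [hye, smul_smul, inv_mul_cancel_left₀ hpL]
  rw [hη]
  have hηi : S.Int2 ((b * g ^ l) • y) := int_smul' S hβA hy
  have hone : (1 : F) ∈ intRing S := one_mem _
  refine ⟨mul_mem (S := Subring F) (s := intRing S) hφ (sub_mem hone hηi), ?_, ?_⟩
  · rw [show φ * (1 - (b * g ^ l) • y) - 1 = b • (w - φ * (g ^ l • y)) by
      rw [smul_sub, ← hwe]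
      simp only [Algebra.smul_def, map_mul]
      ring]
    exact divBy_smul hb0 (sub_mem (show w ∈ intRing S from hw)
      (mul_mem (show φ ∈ intRing S from hφ) (int_smul' S (pow_mem hgA l) hy)))
  obtain ⟨r, hr⟩ := exists_one_add_pow_prime hp (⟨-((b * g ^ l) • y), neg_mem
    (show (b * g ^ l) • y ∈ intRing S from hηi)⟩ : intRing S)
  have hr' := congrArg Subtype.val hr
  push_cast at hr'
  rw [← sub_eq_add_neg] at hr'
  set q : F := 1 + (p : F) * ((b * g ^ l) • y) with hq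
  have hqi : q ∈ intRing S :=
    add_mem hone (mul_mem (natCast_mem _ p) hηi)
  have hbp : b ^ p = (p : L) * (b * d) := by
    rw [show b ^ p = b * b ^ (p - 1) by rw [← pow_succ', Nat.sub_add_cancel hp.one_le], hd]
    ring
  have e : (φ * (1 - (b * g ^ l) • y)) ^ p * R.u - 1 =
      ((p : L) * (b * g ^ (l + 1))) • ((b / g * g ^ l) • ((q * r.1 - (p : F)) * y ^ 2) +
        (d / g * g ^ ((p - 1) * l)) • (q * (-y) ^ p)) := by
    have hu : φ ^ p * R.u = q := by
      rw [hq, ← natCast_smul' (L := L), smul_smul, ← hye]; ring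
    have hbp' := congrArg (algebraMap L F) hbp
    have hg' : algebraMap L F g ≠ 0 := (map_ne_zero _).mpr hg0
    simp only [map_mul, map_pow, map_natCast] at hbp'
    rw [mul_pow, mul_right_comm, hu, hr', hq]
    simp only [Algebra.smul_def, map_mul, map_pow, map_div₀, map_natCast]
    rw [neg_eq_neg_one_mul (algebraMap L F b * algebraMap L F g ^ l * y), neg_eq_neg_one_mul y]
    simp only [mul_pow]
    rw [hbp', ← pow_mul (algebraMap L F g) l p,
      show l * p = (p - 1) * l + l by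
        obtain ⟨p', rfl⟩ := Nat.exists_eq_succ_of_ne_zero hp.ne_zero
        simp only [Nat.succ_sub_one, Nat.succ_eq_add_one]; ring]
    simp only [pow_add, pow_one]
    field_simp
    ring
  rw [e]
  refine divBy_smul (mul_ne_zero hpL (mul_ne_zero hb0 (pow_ne_zero _ hg0))) ?_
  refine add_mem (S := Subring F) (s := intRing S) (int_smul' S (mul_mem hbg (pow_mem hgA _))
    (mul_mem (sub_mem (mul_mem hqi r.2) (natCast_mem _ p)) (pow_mem hy 2)))
    (int_smul' S (mul_mem hdg (pow_mem hgA _)) (mul_mem hqi (pow_mem (neg_mem hy) p)))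

/-- Congruences of `p`-th powers descend to the roots. -/
theorem root_congr_p {p : ℕ} (hp : p.Prime) (hpL : (p : L) ≠ 0) (R : S.Rep p) {φ ψ : F}
    (hψ : S.Int2 ψ) (hψr : ∀ i, S.red i ψ = 1) {b β : L} (hb : Deep π p b)
    (hβ : β ≠ 0) (hφ1 : S.DivBy b (φ - 1)) (hψ1 : S.DivBy b (ψ - 1))
    (h : S.DivBy ((p : L) * β) (φ ^ p * R.u - 1))
    (h' : S.DivBy ((p : L) * β) (ψ ^ p * R.u - 1)) : S.DivBy β (φ - ψ) := by
  obtain ⟨d, hd0, hd⟩ := hb.exists_eq
  have hpβ := mul_ne_zero hpL hβ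
  obtain ⟨x1, hx1, hx1e⟩ := exists_of_divBy hb.ne_zero (hφ1.sub hψ1)
  rw [sub_sub_sub_cancel_right] at hx1e
  obtain ⟨y1, hy1, hy1e⟩ := exists_of_divBy hpβ (h.sub h')
  rw [sub_sub_sub_cancel_right] at hy1e
  have hψ0 : ψ ≠ 0 := S.ne_zero_of_red_ne (i := 0) (by rw [hψr]; exact one_ne_zero)
  have hψinv : S.Int2 ψ⁻¹ := fun i => (S.int_inv (hψ i) (by rw [hψr]; exact one_ne_zero)).1
  set X := x1 * ψ⁻¹ with hX
  have hXi : S.Int2 X := mul_mem (S := Subring F) (s := intRing S) hx1 hψinv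
  have hrat : φ / ψ = 1 + b • X := by
    rw [hX, ← smul_mul_assoc, ← hx1e]
    field_simp
    ring
  obtain ⟨r, hr⟩ := exists_one_add_pow_prime hp
    (⟨b • X, int_smul' S hb.mem hXi⟩ : intRing S)
  have hr' := congrArg Subtype.val hr
  push_cast at hr'
  set V : F := 1 + b • (X * r.1) + (d : L) • X ^ (p - 1) with hV
  have hVi : ∀ i, S.Int i V ∧ S.red i V = 1 := fun i => by
    have i1 : S.Int i (b • (X * r.1)) := S.int_smul i _ _ hb.mem (S.int_mul i _ _ (hXi i) (r.2 i))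
    have i2 : S.Int i ((d : L) • X ^ (p - 1)) := S.int_smul i _ _ d.2 (S.int_pow (hXi i) _)
    refine ⟨S.int_add i _ _ (S.int_add i _ _ (S.int_one i) i1) i2, ?_⟩
    rw [hV, S.red_add i _ _ (S.int_add i _ _ (S.int_one i) i1) i2,
      S.red_add i _ _ (S.int_one i) i1, S.red_one,
      S.smul_mem_zero hb.mem (Deep.residue_eq_zero S hb) (S.int_mul i _ _ (hXi i) (r.2 i)),
      S.smul_mem_zero d.2 hd0 (S.int_pow (hXi i) _), add_zero, add_zero]
  have hV0 : V ≠ 0 := S.ne_zero_of_red_ne (i := 0) (by rw [(hVi 0).2]; exact one_ne_zero)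
  have hVinv : S.Int2 V⁻¹ := fun i =>
    (S.int_inv (hVi i).1 (by rw [(hVi i).2]; exact one_ne_zero)).1
  -- the inverse of `ψ ^ p u`
  have hden : ∀ i, S.Int i (ψ ^ p * R.u) ∧ S.red i (ψ ^ p * R.u) = 1 := fun i => by
    refine ⟨S.int_mul i _ _ (S.int_pow (hψ i) p) (R.int i), ?_⟩
    rw [S.red_mul i _ _ (S.int_pow (hψ i) p) (R.int i), S.red_pow (hψ i), hψr, R.red_u, one_pow,
      mul_one]
  have hdinv : S.Int2 (ψ ^ p * R.u)⁻¹ := fun i =>
    (S.int_inv (hden i).1 (by rw [(hden i).2]; exact one_ne_zero)).1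
  have hpow : ((p : L) * b) • (X * V) = ((p : L) * β) • (y1 * (ψ ^ p * R.u)⁻¹) := by
    have h1 : (φ / ψ) ^ p - 1 = ((p : L) * b) • (X * V) := by
      have hbp : b ^ p = b * ((p : L) * d) := by
        rw [← hd, ← pow_succ', Nat.sub_add_cancel hp.one_le]
      have hbp' := congrArg (algebraMap L F) hbp
      simp only [map_mul, map_pow, map_natCast] at hbp'
      rw [hrat, hr', hV]
      simp only [Algebra.smul_def, map_mul, map_natCast, mul_pow]
      rw [hbp', show X ^ p = X * X ^ (p - 1) by rw [← pow_succ', Nat.sub_add_cancel hp.one_le]]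
      ring
    rw [← h1, ← smul_mul_assoc, ← hy1e, div_pow]
    have := R.u_ne
    have := pow_ne_zero p hψ0
    field_simp
  have hbX : b • X = β • (y1 * (ψ ^ p * R.u)⁻¹ * V⁻¹) := by
    rw [mul_smul, mul_smul] at hpow
    have h2 := smul_right_injective F hpL hpow
    rw [← smul_mul_assoc β _ V⁻¹, ← h2, smul_mul_assoc, mul_inv_cancel_right₀ hV0]
  rw [show φ - ψ = (b • X) * ψ by rw [hX, smul_mul_assoc, inv_mul_cancel_right₀ hψ0, hx1e],
    hbX, smul_mul_assoc]
  exact divBy_smul hβ (mul_mem (S := Subring F) (s := intRing S)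
    (mul_mem (mul_mem hy1 hdinv) hVinv) hψ)

/-- Roots on the two charts, congruent to high order. -/
theorem exists_roots_p {p : ℕ} (hp : p.Prime) (hpL : (p : L) ≠ 0) (R : S.Rep p) {M : ℕ}
    (hM : S.evalLevel ≤ M) {f0 ψ0 : F} (hf0 : f0 ∈ S.twist R M)
    (hψ0 : S.T ^ M * ψ0 ∈ S.twist R M) (hf0i : S.Int2 f0) (hψ0i : S.Int2 ψ0)
    {b : L} (hb : Deep π p b)
    (hf1 : S.DivBy b (f0 - 1)) (hψ1 : S.DivBy b (ψ0 - 1))
    (hfd : S.DivBy ((p : L) * b) (f0 ^ p * R.u - 1))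
    (hψd : S.DivBy ((p : L) * b) (ψ0 ^ p * R.u - 1)) :
    ∃ g : A, (g : L) ≠ 0 ∧ π g = 0 ∧ ∀ l : ℕ, ∃ (N : ℕ) (f h : F), S.evalLevel ≤ N ∧
      f ∈ S.twist R N ∧ h ∈ S.twist R N ∧ S.Int2 f ∧ S.Int2 h ∧ (∀ i, S.red i f = 1) ∧
        S.DivBy ((g : L) ^ (l + 1)) (S.T ^ N * f - h) := by
  obtain ⟨d, hd0, hd⟩ := hb.exists_eq
  have hdne : (d : L) ≠ 0 := fun h => pow_ne_zero (p - 1) hb.ne_zero (by rw [hd, h, mul_zero])
  obtain ⟨g, hg0, hgπ, hbg, hdg⟩ : ∃ g : A, (g : L) ≠ 0 ∧ π g = 0 ∧ b / (g : L) ∈ A ∧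
      (d : L) / (g : L) ∈ A := by
    rcases A.mem_or_inv_mem (b / (d : L)) with h | h
    · exact ⟨d, hdne, hd0, h, by rw [div_self hdne]; exact A.one_mem⟩
    · rw [inv_div] at h
      exact ⟨⟨b, hb.mem⟩, hb.ne_zero, Deep.residue_eq_zero S hb,
        by rw [div_self hb.ne_zero]; exact A.one_mem, h⟩
  have hred : ∀ θ : F, S.Int2 θ → S.DivBy b (θ - 1) → ∀ i, S.red i θ = 1 := fun θ hθ h i => by
    obtain ⟨w, hw, hwe⟩ := exists_of_divBy hb.ne_zero h
    rw [show θ = 1 + b • w by rw [← hwe, add_sub_cancel], S.red_add i _ _ (S.int_one i)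
      (S.int_smul i _ _ hb.mem (hw i)), S.red_one,
      S.smul_mem_zero hb.mem (Deep.residue_eq_zero S hb) (hw i), add_zero]
  have key : ∀ l : ℕ, ∃ (N : ℕ) (φ ψ : F), M ≤ N ∧ φ ∈ S.twist R N ∧ S.T ^ N * ψ ∈ S.twist R N ∧
      S.Int2 φ ∧ S.Int2 ψ ∧ S.DivBy b (φ - 1) ∧ S.DivBy b (ψ - 1) ∧
        S.DivBy ((p : L) * (b * (g : L) ^ l)) (φ ^ p * R.u - 1) ∧
        S.DivBy ((p : L) * (b * (g : L) ^ l)) (ψ ^ p * R.u - 1) := by
    intro l
    induction l with
    | zero =>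
      exact ⟨M, f0, ψ0, le_rfl, hf0, hψ0, hf0i, hψ0i, hf1, hψ1,
        by rwa [pow_zero, mul_one], by rwa [pow_zero, mul_one]⟩
    | succ l ih =>
      obtain ⟨N, φ, ψ, hN, hφ, hψ, hφi, hψi, hφ1, hψ1', hφd, hψd'⟩ := ih
      have hone : ∀ m : ℕ, (1 : F) ∈ riemannRochSpace ((m : ℤ) • S.H) := fun m =>
        mem_rrs_iff.mpr (Or.inr fun P => by simpa using mul_nonneg (Nat.cast_nonneg m) (S.H_nonneg P))
      have hpowmem : ∀ {f : F}, f ∈ S.twist R N →
          f ^ p * R.u ∈ riemannRochSpace (((p * N : ℕ) : ℤ) • S.H) := fun {f} hf => by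
        rw [mem_rrs_iff]
        rcases eq_or_ne f 0 with h0 | h0
        · exact Or.inl (by rw [h0, zero_pow hp.ne_zero, zero_mul])
        refine Or.inr fun P => ?_
        rw [P.ord_mul (pow_ne_zero _ h0) R.u_ne, ord_pow, R.ord_u]
        have h := (mem_rrs_iff.mp hf).resolve_left h0 P
        simp only [Finsupp.add_apply, Finsupp.smul_apply, smul_eq_mul] at h ⊢
        push_cast
        nlinarith
      have hmul : ∀ {f e : F}, f ∈ S.twist R N →
          e ∈ riemannRochSpace (((p * N : ℕ) : ℤ) • S.H) → f * e ∈ S.twist R (N + p * N) :=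
        fun {f e} hf he => by
          have := mul_mem_rrs hf he
          rw [add_assoc, ← add_smul, ← Nat.cast_add] at this
          exact this
      obtain ⟨d1, -, hd1⟩ := hb.exists_eq
      obtain ⟨h1i, h11, h1d⟩ := newton_step_p S hp hpL R hφi hb.ne_zero hg0 g.2 hd hb.mem hbg hdg l
        hφ1 hφd
      obtain ⟨h2i, h21, h2d⟩ := newton_step_p S hp hpL R hψi hb.ne_zero hg0 g.2 hd hb.mem hbg hdg l
        hψ1' hψd'
      refine ⟨N + p * N, _, _, le_trans hN (Nat.le_add_right _ _), ?_, ?_, h1i, h2i, h11, h21,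
        h1d, h2d⟩
      · exact hmul hφ (Submodule.sub_mem _ (hone _) (Submodule.smul_mem _ _
          (Submodule.sub_mem _ (hpowmem hφ) (hone _))))
      · have e : S.T ^ (N + p * N) * (ψ * (1 - (p : L)⁻¹ • (ψ ^ p * R.u - 1))) =
            (S.T ^ N * ψ) * ((1 + (p : L)⁻¹) • S.T ^ (p * N) -
              (p : L)⁻¹ • ((S.T ^ N * ψ) ^ p * R.u)) := by
          rw [pow_add, pow_mul' S.T p N, mul_pow]
          simp only [Algebra.smul_def, map_add, map_one]
          ring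
        rw [e]
        refine hmul hψ (Submodule.sub_mem _ (Submodule.smul_mem _ _ ?_)
          (Submodule.smul_mem _ _ (hpowmem hψ)))
        have := S.mul_T_mem_twist (R := SplitModel.Rep.one S p) (m := 0) (f := 1)
          (by rw [S.twist_one]; exact hone 0) (p * N)
        rwa [S.twist_one, mul_one, zero_add] at this
  refine ⟨g, hg0, hgπ, fun l => ?_⟩
  obtain ⟨N, φ, ψ, hN, hφ, hψ, hφi, hψi, hφ1, hψ1', hφd, hψd'⟩ := key l
  refine ⟨N, φ, S.T ^ N * ψ, le_trans hM hN, hφ, hψ, hφi,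
    fun i => S.int_mul i _ _ (S.int_pow (S.int_T i) N) (hψi i), hred φ hφi hφ1, ?_⟩
  rw [← mul_sub, mul_comm]
  refine (divBy_of_mul_dvd (mul_ne_zero hb.ne_zero (pow_ne_zero _ hg0)) (pow_ne_zero _ hg0) ?_
    (root_congr_p S hp hpL R hψi (hred ψ hψi hψ1') hb
      (mul_ne_zero hb.ne_zero (pow_ne_zero _ hg0)) hφ1 hψ1' hφd hψd')).mul_int
    fun i => S.int_pow (S.int_T i) N
  rw [show b * (g : L) ^ l / (g : L) ^ (l + 1) = b / (g : L) by rw [pow_succ]; field_simp]
  exact hbg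

end Fermat.Agent.OrdinaryT

end
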