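import Fermat.Agent.SemistableRed.Injective
import Mathlib.Algebra.CharP.Frobenius
import Mathlib.Data.Nat.Choose.Sum
import Mathlib.Data.Nat.Choose.Dvd

/-!
# Starting approximations of `p`-th roots in residue characteristic `p`

On a split model in residue characteristic `p` every representative of a `p`-torsion class has
trivial gluing datum. If `u` is congruent to `1` beyond `p / (p - 1)`, the element of `L(D + MH)`
closest to a target `τ` is congruent to it beyond `1 / (p - 1)`, unless a jump at exactly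
`1 / (p - 1)` occurs.
-/

set_option linter.unusedSectionVars false

noncomputable section

open AlgebraicCurve Fermat.Agent.FunctionFieldRR Fermat.Agent.SemistableRed

namespace Fermat.Agent.OrdinaryT

/-- The binomial expansion with exponent a prime `p`. -/
theorem exists_one_add_pow_prime {R : Type*} [CommRing R] {p : ℕ} (hp : p.Prime) (x : R) :
    ∃ r, (1 + x) ^ p = 1 + (p : R) * x + (p : R) * x ^ 2 * r + x ^ p := by
  have h2 := hp.two_le
  refine ⟨∑ i ∈ Finset.Ico 2 p, ((p.choose i / p : ℕ) : R) * x ^ (i - 2), ?_⟩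
  rw [add_comm (1 : R) x, add_pow, Finset.sum_range_succ, Finset.range_eq_Ico,
    ← Finset.sum_Ico_consecutive _ (Nat.zero_le 2) h2]
  simp only [one_pow, mul_one, Nat.choose_self, Nat.cast_one]
  rw [show Finset.Ico 0 2 = {0, 1} from rfl, Finset.sum_pair (by norm_num), Finset.mul_sum]
  simp only [pow_zero, Nat.choose_zero_right, Nat.cast_one, one_mul, pow_one, Nat.choose_one_right]
  congr 1
  congr 1
  · ring
  · refine Finset.sum_congr rfl fun i hi => ?_
    obtain ⟨h1, h3⟩ := Finset.mem_Ico.mp hi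
    obtain ⟨c, hc⟩ := hp.dvd_choose_self (k := i) (by omega) h3
    rw [hc, Nat.mul_div_cancel_left c hp.pos, Nat.cast_mul,
      show x ^ i = x ^ 2 * x ^ (i - 2) by rw [← pow_add, Nat.add_sub_cancel' h1]]
    ring

/-- The same expansion around any element. -/
theorem exists_add_pow_prime {R : Type*} [CommRing R] {p : ℕ} (hp : p.Prime) (t x : R) :
    ∃ r, (t + x) ^ p = t ^ p + (p : R) * t ^ (p - 1) * x + (p : R) * x ^ 2 * r + x ^ p := by
  have h2 := hp.two_le
  refine ⟨∑ i ∈ Finset.Ico 2 p, ((p.choose i / p : ℕ) : R) * x ^ (i - 2) * t ^ (p - i), ?_⟩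
  rw [add_comm t x, add_pow, Finset.sum_range_succ, Finset.range_eq_Ico,
    ← Finset.sum_Ico_consecutive _ (Nat.zero_le 2) h2]
  rw [show Finset.Ico 0 2 = {0, 1} from rfl, Finset.sum_pair (by norm_num), Finset.mul_sum]
  simp only [pow_zero, Nat.choose_zero_right, Nat.cast_one, pow_one, Nat.choose_one_right,
    Nat.sub_self, Nat.choose_self, Nat.sub_zero, one_mul, mul_one]
  congr 1
  congr 1
  · ring
  · refine Finset.sum_congr rfl fun i hi => ?_
    obtain ⟨h1, h3⟩ := Finset.mem_Ico.mp hi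
    obtain ⟨c, hc⟩ := hp.dvd_choose_self (k := i) (by omega) h3
    rw [hc, Nat.mul_div_cancel_left c hp.pos, Nat.cast_mul,
      show x ^ i = x ^ 2 * x ^ (i - 2) by rw [← pow_add, Nat.add_sub_cancel' h1]]
    ring

variable {L : Type*} [Field L] {A : ValuationSubring L} {k : Type*} [Field k] [IsAlgClosed k]
  {π : A →+* k} {F : Type*} [Field F] [Algebra L F] {G : Type*} [Field G] [Algebra k G]
  [IsFunctionField k G]

/-- `b` is divisible beyond `1 / (p - 1)`: `b ^ (p - 1)` is `p` times an element of the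
maximal ideal. -/
structure Deep (π : A →+* k) (p : ℕ) (b : L) : Prop where
  ne_zero : b ≠ 0
  mem : b ∈ A
  exists_eq : ∃ d : A, π d = 0 ∧ b ^ (p - 1) = (p : L) * (d : L)

omit [IsAlgClosed k] [IsFunctionField k G] in
/-- Scale finitely many constants so that all are integral and one is `1`. -/
theorem exists_scale_family {J : Type*} [Fintype J] (c : J → L) (hc : ∃ j, c j ≠ 0) :
    ∃ (a : L) (b : J → A), a ≠ 0 ∧ (∀ j, c j = a * (b j : L)) ∧ ∃ j0, b j0 = 1 := by
  classical
  obtain ⟨j1, hj1⟩ := hc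
  obtain ⟨i0, hi0, hmin⟩ := exists_forall_div_mem (A := A) (Finset.univ.filter fun j => c j ≠ 0)
    ⟨j1, by simp [hj1]⟩ (fun j => (c j)⁻¹) fun j hj => inv_ne_zero (Finset.mem_filter.mp hj).2
  have hci : c i0 ≠ 0 := (Finset.mem_filter.mp hi0).2
  refine ⟨c i0, fun j => ⟨c j / c i0, ?_⟩, hci, fun j => by rw [mul_div_cancel₀ _ hci], i0,
    Subtype.ext (div_self hci)⟩
  by_cases hj : c j = 0
  · rw [hj, zero_div]; exact A.zero_mem
  · have := hmin j (by simp [hj])
    rwa [inv_div_inv] at this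

variable (S : SplitModel A π F G)

/-- The functions integral on both components. -/
def intRing : Subring F where
  carrier := {f | S.Int2 f}
  zero_mem' := S.int_zero
  one_mem' := S.int_one
  add_mem' hf hg i := S.int_add i _ _ (hf i) (hg i)
  mul_mem' hf hg i := S.int_mul i _ _ (hf i) (hg i)
  neg_mem' hf i := S.int_neg (hf i)

theorem int_smul' {c : L} (hc : c ∈ A) {f : F} (hf : S.Int2 f) : S.Int2 (c • f) :=
  fun i => S.int_smul i c f hc (hf i)

theorem natCast_smul' (m : ℕ) (f : F) : (m : L) • f = (m : F) * f := by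
  rw [Algebra.smul_def, map_natCast]

variable {S}

theorem divBy_smul {b : L} (hb : b ≠ 0) {y : F} (hy : S.Int2 y) : S.DivBy b (b • y) := by
  intro i
  rw [inv_smul_smul₀ hb]
  exact hy i

theorem exists_of_divBy {b : L} (hb : b ≠ 0) {x : F} (h : S.DivBy b x) :
    ∃ y, S.Int2 y ∧ x = b • y :=
  ⟨b⁻¹ • x, h, (smul_inv_smul₀ hb x).symm⟩

theorem divBy_of_mul_dvd {b c : L} (hb : b ≠ 0) (hc : c ≠ 0) (hbc : b / c ∈ A) {x : F}
    (h : S.DivBy b x) : S.DivBy c x := by
  obtain ⟨y, hy, rfl⟩ := exists_of_divBy hb h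
  rw [show b • y = c • ((b / c) • y) by rw [smul_smul, mul_div_cancel₀ _ hc]]
  exact divBy_smul hc (int_smul' S hbc hy)

variable (S)

include S in
theorem isUnit_of_residue {x : L} (hx : x ∈ A) (h : π ⟨x, hx⟩ ≠ 0) : x⁻¹ ∈ A := by
  have hu : IsUnit (⟨x, hx⟩ : A) := by
    by_contra hn
    exact h ((S.isResidueMap _).mpr hn)
  obtain ⟨u, hu⟩ := hu
  have h1 : x * ((↑u⁻¹ : A) : L) = 1 := by
    rw [← show ((u : A) : L) = x from congrArg Subtype.val hu]
    exact congrArg Subtype.val u.mul_inv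
  rw [← eq_inv_of_mul_eq_one_right h1]
  exact SetLike.coe_mem _

include S in
/-- A nonzero element of the valuation ring some positive power of which is in the maximal
ideal is itself there. -/
theorem residue_eq_zero_of_pow {x : A} {m : ℕ} (h : π x ^ m = 0) : π x = 0 :=
  eq_zero_of_pow_eq_zero h

include S in
/-- A quotient of a deep element by a non-deep one is in the maximal ideal. -/
theorem Deep.div_mem {p : ℕ} (hp : p.Prime) {b a : L} (hb : Deep π p b)
    (hr : (p : L) / a ^ (p - 1) ∈ A) : ∃ h : b / a ∈ A, π ⟨b / a, h⟩ = 0 := by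
  obtain ⟨d, hd, hbd⟩ := hb.exists_eq
  have hp1 : p - 1 ≠ 0 := by have := hp.two_le; omega
  have hkey : (b / a) ^ (p - 1) = ((d * ⟨_, hr⟩ : A) : L) := by
    rw [MulMemClass.coe_mul, div_pow, hbd]
    ring
  have hmem : b / a ∈ A := by
    by_contra hn
    obtain ⟨h1, h2⟩ := S.inv_mem_max hn
    have h3 : ((⟨(b / a)⁻¹, h1⟩ : A) ^ (p - 1) * (d * ⟨_, hr⟩)) = 1 := Subtype.ext (by
      rw [MulMemClass.coe_mul, SubmonoidClass.coe_pow, ← hkey]
      show ((b / a)⁻¹) ^ (p - 1) * (b / a) ^ (p - 1) = 1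
      rw [← mul_pow, inv_mul_cancel₀ fun h0 => hn (by rw [h0]; exact A.zero_mem), one_pow])
    have h4 := congrArg π h3
    rw [map_mul, map_pow, h2, zero_pow hp1, zero_mul, map_one] at h4
    exact zero_ne_one h4
  refine ⟨hmem, residue_eq_zero_of_pow S (m := p - 1) ?_⟩
  rw [← map_pow, show (⟨b / a, hmem⟩ : A) ^ (p - 1) = d * ⟨_, hr⟩ from
    Subtype.ext (by rw [SubmonoidClass.coe_pow]; exact hkey), map_mul, hd, zero_mul]

include S in
theorem Deep.residue_eq_zero {p : ℕ} {b : L} (hb : Deep π p b) :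
    π ⟨b, hb.mem⟩ = 0 := by
  obtain ⟨d, hd, hbd⟩ := hb.exists_eq
  refine residue_eq_zero_of_pow S (m := p - 1) ?_
  rw [← map_pow, show (⟨b, hb.mem⟩ : A) ^ (p - 1) = (p : A) * d from
    Subtype.ext (by simpa using hbd), map_mul, hd, mul_zero]

/-- The closest element of a space to a function with reachable reduction. -/
theorem exists_closest (V : Submodule L F) [FiniteDimensional L V] {τ : F} (hτ : S.Int2 τ)
    (hτV : S.red2 τ ∈ S.imgSpace V) :
    τ ∈ V ∨ ∃ (a : A) (E : F), (a : L) ≠ 0 ∧ π a = 0 ∧ S.Int2 E ∧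
      τ + (a : L) • E ∈ V ∧ S.red2 E ∉ S.imgSpace V := by
  classical
  obtain ⟨eM, hspan, heMi, heMind⟩ := S.reduced_basis _ V inferInstance rfl
  have heM : ∀ j, eM j ∈ V := fun j => hspan ▸ Submodule.subset_span ⟨j, rfl⟩
  have himg : Submodule.span k (Set.range fun j => S.red2 (eM j)) = S.imgSpace V := by
    have := (S.finrank_imgSpace V).1
    refine Submodule.eq_of_le_of_finrank_le (Submodule.span_le.mpr (by
      rintro _ ⟨j, rfl⟩; exact ⟨eM j, heM j, heMi j, rfl⟩)) ?_
    rw [(S.finrank_imgSpace V).2]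
    exact ((finrank_span_eq_card (b := fun j => S.red2 (eM j)) heMind).trans
      (Fintype.card_fin _)).ge
  set W : Submodule L F := V ⊔ Submodule.span L {τ}
  obtain ⟨c, eA, heA, heAi, hsep, hdec⟩ :=
    S.exists_completion W eM (fun j => le_sup_left (a := V) (heM j)) heMi heMind
  obtain ⟨co, hco, hτeq⟩ :=
    hdec τ (le_sup_right (a := V) (Submodule.subset_span rfl)) hτ
  set φ := ∑ j, co (Sum.inl j) • eM j with hφ
  have hφV : φ ∈ V := Submodule.sum_mem _ fun j _ => Submodule.smul_mem _ _ (heM j)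
  have hred : ∀ (J : Type) [Fintype J] (e : J → F) (r : J → L) (hr : ∀ j, r j ∈ A),
      (∀ j, S.Int2 (e j)) →
        S.Int2 (∑ j, r j • e j) ∧
          S.red2 (∑ j, r j • e j) = ∑ j, π ⟨r j, hr j⟩ • S.red2 (e j) := by
    intro J _ e r hr he
    refine ⟨fun i => (S.int_sum _ fun j _ => S.int_smul i _ _ (hr j) (he j i)).1, ?_⟩
    funext i
    rw [Finset.sum_apply]
    show S.red i _ = _
    rw [(S.int_sum _ fun j _ => S.int_smul i _ _ (hr j) (he j i)).2]
    exact Finset.sum_congr rfl fun j _ => S.red_smul i _ _ (hr j) (he j i)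
  obtain ⟨hφi, hφr⟩ := hred _ eM (fun j => co (Sum.inl j)) (fun j => hco _) heMi
  obtain ⟨hAi, hAr⟩ := hred _ eA (fun j => co (Sum.inr j)) (fun j => hco _) heAi
  have hco0 : ∀ j, π ⟨co (Sum.inr j), hco _⟩ = 0 := by
    have h1 : S.red2 τ = S.red2 φ + S.red2 (∑ j, co (Sum.inr j) • eA j) := by
      funext i
      show S.red i τ = _
      rw [hτeq, S.red_add i _ _ (hφi i) (hAi i)]
      rfl
    refine congrFun (hsep (fun j => π ⟨co (Sum.inr j), hco _⟩) ?_)
    rw [himg, ← hAr, eq_sub_of_add_eq' h1.symm]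
    refine sub_mem hτV ⟨φ, hφV, hφi, rfl⟩
  by_cases hall : ∀ j, co (Sum.inr j) = 0
  · refine Or.inl ?_
    rw [hτeq]
    simpa [hall] using hφV
  push Not at hall
  obtain ⟨j1, hj1⟩ := hall
  obtain ⟨a, b, ha, hab, j0, hj0⟩ := exists_scale_family (A := A)
    (fun j => co (Sum.inr j)) ⟨j1, hj1⟩
  have haA : a ∈ A := by
    have := hco (Sum.inr j0)
    rwa [hab j0, hj0, OneMemClass.coe_one, mul_one] at this
  have ha0 : π ⟨a, haA⟩ = 0 := by
    have := hco0 j0
    rwa [show (⟨co (Sum.inr j0), hco _⟩ : A) = ⟨a, haA⟩ from Subtype.ext (by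
      show co (Sum.inr j0) = a
      rw [hab j0, hj0, OneMemClass.coe_one, mul_one])] at this
  obtain ⟨hEi, hEr⟩ := hred _ eA (fun j => -(b j : L)) (fun j => A.neg_mem _ (b j).2) heAi
  refine Or.inr ⟨⟨a, haA⟩, ∑ j, (-(b j : L)) • eA j, ha, ha0, hEi, ?_, fun hmem => ?_⟩
  · have : τ + a • ∑ j, (-(b j : L)) • eA j = φ := by
      rw [Finset.smul_sum]
      conv_lhs => arg 1; rw [hτeq]
      rw [add_assoc, ← Finset.sum_add_distrib, Finset.sum_eq_zero, add_zero]
      intro j _
      rw [smul_smul, ← add_smul, hab j, mul_neg, add_neg_cancel, zero_smul]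
    rwa [this]
  · rw [hEr, ← himg] at hmem
    have := congrFun (hsep _ hmem) j0
    rw [show (⟨-(b j0 : L), A.neg_mem _ (b j0).2⟩ : A) = -1 from Subtype.ext (by
      show -(b j0 : L) = _
      rw [hj0]; simp), map_neg, map_one, Pi.zero_apply, neg_eq_zero] at this
    exact one_ne_zero this

end Fermat.Agent.OrdinaryT

end
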