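import Fermat.Agent.OrdinaryT.Expansion
import Fermat.Agent.OrdinaryT.NewtonStart

/-!
# The first-order term of a constant times a `p`-th power

Below `p / (p - 1)`, a fixed function `a · g ^ p ≡ 1` has first-order term a constant, or a `p`-th
power, the latter only at scales which are `p`-th powers among the fixed values.
-/

noncomputable section

open IsLocalRing ModularCurve AlgebraicCurve HahnSeries
open Fermat.Agent.Reduction Fermat.Agent.SemistableRed

namespace Fermat.Agent.OrdinaryT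

open FlatJ0

local notation "Ω" => AlgebraicClosure ℚ

variable {A : ValuationSubring Ω} {p : ℕ} {N : ℕ}

/-- A first-order term at scale `c`: constant, or a `p`-th power at a `p`-divisible scale. -/
def Shape (Φ : Fixer A) (p : ℕ)
    (G : IntermediateField (ResidueField A) (LaurentSeries (ResidueField A))) (c : Ω)
    (v : LaurentSeries (ResidueField A)) : Prop :=
  (∃ r, v = algebraMap (ResidueField A) (LaurentSeries (ResidueField A)) r) ∨
    ((∃ b ∈ Φ.field, b ≠ 0 ∧ (p : ℚ) * ord A p b = ord A p c) ∧ ∃ y ∈ G, v = y ^ p)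

theorem residue_eq_zero_of_pos (hA : IsOver A p) {x : Ω} (hx : x ∈ A) (h0 : x = 0 ∨ 0 < ord A p x) :
    residue A ⟨x, hx⟩ = 0 := by
  have hn : x ∈ A.nonunits := by
    rcases eq_or_ne x 0 with rfl | hne
    · rw [ValuationSubring.mem_nonunits_iff, map_zero]; exact zero_lt_one
    · exact (hA.nonunit_iff hne).mpr (h0.resolve_left hne)
  rw [residue_eq_zero_iff, ← ValuationSubring.coe_mem_nonunits_iff]
  exact hn

theorem mem_of_ord (hA : IsOver A p) {x : Ω} (h : x = 0 ∨ 0 ≤ ord A p x) : x ∈ A := by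
  rcases eq_or_ne x 0 with rfl | hne
  · exact A.zero_mem
  · exact (hA.mem_iff hne).mpr (h.resolve_left hne)

/-- A `p`-th power is constant only if its root is. -/
theorem const_of_pow_const {k : Type*} [Field k] [IsAlgClosed k] {p : ℕ} [Fact p.Prime] [CharP k p]
    {w : LaurentSeries k} {r : k} (h : w ^ p = algebraMap k (LaurentSeries k) r) :
    ∃ s, w = algebraMap k (LaurentSeries k) s := by
  have := charP_of_injective_algebraMap (algebraMap k (LaurentSeries k)).injective p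
  obtain ⟨s, hs⟩ := IsAlgClosed.exists_pow_nat_eq r (Fact.out : p.Prime).pos
  refine ⟨s, frobenius_inj (LaurentSeries k) p ?_⟩
  rw [frobenius_def, frobenius_def, ← map_pow, hs, h]

/-- The `p`-th power of a congruence. -/
theorem Cong.pow_prime (hA : IsOver A p) {b c : Ω} {x : LaurentSeries Ω}
    {w : LaurentSeries (ResidueField A)} (hb0 : b ≠ 0) (hc0 : c ≠ 0) (hb : 0 < ord A p b)
    (hc1 : ord A p c < 1 + ord A p b) (hcp : ord A p c ≤ p * ord A p b) (h : Cong b x w) :
    ∃ hη : b ^ p / c ∈ A, Cong c (x ^ p) (residue A ⟨_, hη⟩ • w ^ p) := by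
  have hp := hA.prime
  have hη : b ^ p / c ∈ A := mem_of_ord hA (Or.inr (by
    rw [hA.ord_div (pow_ne_zero _ hb0) hc0, hA.ord_pow hb0]; linarith))
  refine ⟨hη, ?_⟩
  have hpc : (p : Ω) * b / c ∈ A := mem_of_ord hA (Or.inr (by
    rw [hA.ord_div (mul_ne_zero hA.natCast_ne_zero hb0) hc0,
      hA.ord_mul hA.natCast_ne_zero hb0, hA.ord_p]; linarith))
  have hpc0 : residue A ⟨_, hpc⟩ = 0 := residue_eq_zero_of_pos hA hpc (Or.inr (by
    rw [hA.ord_div (mul_ne_zero hA.natCast_ne_zero hb0) hc0,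
      hA.ord_mul hA.natCast_ne_zero hb0, hA.ord_p]; linarith))
  -- the remainder is an integral polynomial in `X`
  obtain ⟨r, hr⟩ := exists_one_add_pow_prime (R := Polynomial A) hp
    (Polynomial.C (⟨b, mem_of_ord hA (Or.inr hb.le)⟩ : A) * Polynomial.X)
  set X : LaurentSeries Ω := b⁻¹ • (x - 1) with hX
  have hev : ∀ q : Polynomial A, ∃ v : LaurentSeries (ResidueField A), SRep
      (q.eval₂ ((algebraMap Ω (LaurentSeries Ω)).comp A.subtype) X) v := by
    intro q
    induction q using Polynomial.induction_on' with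
    | add q₁ q₂ h₁ h₂ =>
      obtain ⟨v₁, h₁⟩ := h₁
      obtain ⟨v₂, h₂⟩ := h₂
      exact ⟨_, by rw [Polynomial.eval₂_add]; exact h₁.add h₂⟩
    | monomial m a =>
      exact ⟨_, by rw [Polynomial.eval₂_monomial]; exact (SRep.const a).mul (SRep.pow h m)⟩
  obtain ⟨vr, hvr⟩ := hev r
  have hXw : SRep X w := h
  have hb' : SRep (algebraMap Ω (LaurentSeries Ω) b * X * X *
      r.eval₂ ((algebraMap Ω (LaurentSeries Ω)).comp A.subtype) X + X)
      (algebraMap (ResidueField A) _ (residue A ⟨b, mem_of_ord hA (Or.inr hb.le)⟩) * w * w * vr + w) :=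
    (((SRep.const ⟨b, mem_of_ord hA (Or.inr hb.le)⟩).mul hXw).mul hXw |>.mul hvr).add hXw
  have hsum := (SRep.smul hpc hb').add (SRep.smul hη (hXw.pow p))
  rw [hpc0, zero_smul, zero_add] at hsum
  have hx : x = 1 + algebraMap Ω (LaurentSeries Ω) b * X := by
    rw [hX, smul_eq_algebraMap_mul, map_inv₀, ← mul_assoc,
      mul_inv_cancel₀ ((map_ne_zero _).mpr hb0), one_mul, add_sub_cancel]
  have hr' := congrArg (Polynomial.eval₂ ((algebraMap Ω (LaurentSeries Ω)).comp A.subtype) X) hr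
  simp only [Polynomial.eval₂_add, Polynomial.eval₂_mul, Polynomial.eval₂_pow, Polynomial.eval₂_one,
    Polynomial.eval₂_C, Polynomial.eval₂_X, Polynomial.eval₂_natCast, RingHom.comp_apply,
    ValuationSubring.subtype_apply] at hr'
  rw [Cong]
  convert hsum using 1
  clear_value X
  rw [hx, hr']
  simp only [smul_eq_algebraMap_mul, map_mul, map_div₀, map_pow, map_natCast, map_inv₀]
  show _ = _
  field_simp
  ring

variable (E : Expansion A N Unit) (Φ : Fixer A)

/-- The normal forms of a fixed function. -/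
theorem exists_nonconst (hA : IsOver A p) {g : modularFunctionFieldBar N} (hg : Φ.FFixed g)
    (hg0 : g ≠ 0) {B : ℚ} :
    ∃ a ∈ Φ.field, a ≠ 0 ∧
      ((∃ w ∈ E.G, (∀ r, w ≠ algebraMap (ResidueField A) _ r) ∧ SRep (a • E.side () g) w) ∨
      (∃ b ∈ Φ.field, b ≠ 0 ∧ 0 < ord A p b ∧ ord A p b < B ∧ ∃ w ∈ E.G,
        (∀ r, w ≠ algebraMap (ResidueField A) _ r) ∧ Cong b (E.side () (a • g)) w) ∨
      ∃ b, b ≠ 0 ∧ B ≤ ord A p b ∧ ∃ w : LaurentSeries (ResidueField A),
        Cong b (E.side () (a • g)) w) := by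
  classical
  obtain ⟨a₀, ha₀, ha₀0, w₀, hw₀, hw₀0, hw₀r⟩ := E.exists_scale Φ hA hg hg0 ()
  by_cases hnc : ∀ r, w₀ ≠ algebraMap (ResidueField A) _ r
  · exact ⟨a₀, ha₀, ha₀0, Or.inl ⟨w₀, hw₀, hnc, hw₀r⟩⟩
  push Not at hnc
  obtain ⟨r₀, hr₀⟩ := hnc
  have hr₀0 : r₀ ≠ 0 := fun h => hw₀0 (by rw [hr₀, h, map_zero])
  obtain ⟨t, ht, htfix⟩ := exists_lift_fixed hA r₀⁻¹
  set a₁ := (t : Ω) * a₀
  have ha₁ : a₁ ∈ Φ.field := mul_mem (fun σ hσ => htfix σ (Φ.le_inertia hσ)) ha₀
  have ht0 : (t : Ω) ≠ 0 := fun h => inv_ne_zero hr₀0 (by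
    rw [← ht, show t = 0 from Subtype.ext h, map_zero])
  set Found : Prop := ∃ a ∈ Φ.field, a ≠ 0 ∧ ∃ b ∈ Φ.field, b ≠ 0 ∧ 0 < ord A p b ∧ ord A p b < B ∧
    ∃ w ∈ E.G, (∀ r, w ≠ algebraMap (ResidueField A) _ r) ∧ Cong b (E.side () (a • g)) w
  let P : Ω → Prop := fun c => Found ∨ (0 ≤ ord A p c ∧ ∃ a ∈ Φ.field, a ≠ 0 ∧
    ∃ w : LaurentSeries (ResidueField A), Cong c (E.side () (a • g)) w ∧ (ord A p c < B → w = 0))
  have hstart : P 1 := by
    refine Or.inr ⟨by rw [hA.ord_one], a₁, ha₁, mul_ne_zero ht0 ha₀0, 0, ?_, fun _ => rfl⟩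
    have h := SRep.sub (SRep.smul t.2 hw₀r) (SRep.one (A := A))
    rw [hr₀, smul_eq_algebraMap_mul (residue A _), ← map_mul, Subtype.coe_eta, ht,
      inv_mul_cancel₀ hr₀0, map_one, sub_self, smul_smul] at h
    rw [Cong, inv_one, one_smul, algHom_smul]
    exact h
  obtain ⟨c, -, hc0, hP, hBc⟩ := Φ.climb hA P B (fun c hc hc0 hP hcB => by
    have hpfix : c * (p : Ω) ∈ Φ.field := mul_mem hc (natCast_mem _ p)
    have hup : ord A p c < ord A p (c * p) := by
      rw [hA.ord_mul hc0 hA.natCast_ne_zero, hA.ord_p]; linarith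
    rcases hP with hF | ⟨hc1, a, ha, ha0, w, hw, hw0⟩
    · exact ⟨_, hpfix, mul_ne_zero hc0 hA.natCast_ne_zero, Or.inl hF, hup⟩
    obtain rfl := hw0 hcB
    by_cases hf1 : a • g = 1
    · refine ⟨_, hpfix, mul_ne_zero hc0 hA.natCast_ne_zero,
        Or.inr ⟨by linarith, a, ha, ha0, 0, ?_, fun _ => rfl⟩, hup⟩
      rw [hf1, map_one]; exact Cong.one
    obtain ⟨c', hc', hc'0, hlt, v, hv, i, hvi⟩ :=
      E.exists_deeper Φ hA (hg.smul Φ ha) hf1 hc0 fun _ => hw
    by_cases hB' : ord A p c' < B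
    · by_cases hnc' : ∀ r, (v () : LaurentSeries (ResidueField A)) ≠ algebraMap (ResidueField A) _ r
      · exact ⟨c', hc', hc'0, Or.inl ⟨a, ha, ha0, c', hc', hc'0, lt_of_le_of_lt hc1 hlt, hB', _,
          (v ()).2, hnc', hv ()⟩, hlt⟩
      · push Not at hnc'
        obtain ⟨r, hr⟩ := hnc'
        obtain ⟨s, hs, hsfix⟩ := exists_lift_fixed hA r
        set d := 1 + c' * (s : Ω) with hd
        have hc'A : c' ∈ A := mem_of_ord hA (Or.inr (hc1.trans hlt.le))
        have hc'r : residue A ⟨c', hc'A⟩ = 0 :=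
          residue_eq_zero_of_pos hA hc'A (Or.inr (lt_of_le_of_lt hc1 hlt))
        have hsF : (s : Ω) ∈ Φ.field := fun σ hσ => hsfix σ (Φ.le_inertia hσ)
        have hdmem : c'⁻¹ * (d - 1) ∈ A := by
          rw [hd, add_sub_cancel_left, ← mul_assoc, inv_mul_cancel₀ hc'0, one_mul]; exact s.2
        have hdc := Cong.const (A := A) (c := c') hdmem
        have hdr : residue A ⟨_, hdmem⟩ = r := by
          rw [show (⟨_, hdmem⟩ : A) = s from Subtype.ext (by
            show c'⁻¹ * (d - 1) = (s : Ω)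
            rw [hd, add_sub_cancel_left, ← mul_assoc, inv_mul_cancel₀ hc'0, one_mul]), hs]
        have hd0 : d ≠ 0 := fun h => by
          have h1 : (⟨c', hc'A⟩ : A) * s + 1 = 0 := Subtype.ext (by
            push_cast; rw [add_comm, ← hd]; exact h)
          have h2 := congrArg (residue A) h1
          rw [map_add, map_mul, hc'r, zero_mul, zero_add, map_one, map_zero] at h2
          exact one_ne_zero h2
        refine ⟨c', hc', hc'0, Or.inr ⟨hc1.trans hlt.le, d⁻¹ * a,
          mul_mem (inv_mem (add_mem (one_mem _) (mul_mem hc' hsF))) ha,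
          mul_ne_zero (inv_ne_zero hd0) ha0, 0, ?_, fun _ => rfl⟩, hlt⟩
        have h := Cong.mul hc'A hc'r hc'0 (hv ()) (Cong.inv hc'A hc'r hc'0 hdc)
        rw [hdr, hr, add_neg_cancel] at h
        rw [mul_smul, algHom_smul, smul_eq_algebraMap_mul, map_inv₀, mul_comm]
        exact h
    · exact ⟨c', hc', hc'0, Or.inr ⟨hc1.trans hlt.le, a, ha, ha0, _, hv (),
        fun h => absurd h hB'⟩, hlt⟩) (one_mem _) one_ne_zero hstart
  rcases hP with ⟨a, ha, ha0, h⟩ | ⟨-, a, ha, ha0, w, hw, -⟩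
  · exact ⟨a, ha, ha0, Or.inr (Or.inl h)⟩
  · exact ⟨a, ha, ha0, Or.inr (Or.inr ⟨c, hc0, hBc, w, hw⟩)⟩

/-- The shape of the first-order term of a constant times the `p`-th power of a fixed function. -/
theorem shape_of_const_mul_pow (hA : IsOver A p) [IsAlgClosed (ResidueField A)]
    {g : modularFunctionFieldBar N} (hg : Φ.FFixed g) (hg0 : g ≠ 0) {a c : Ω} (hc0 : c ≠ 0)
    (hc : 0 < ord A p c) (hcrit : ((p : ℚ) - 1) * ord A p c < p)
    {v : LaurentSeries (ResidueField A)} (h : Cong c (E.side () (a • g ^ p)) v) :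
    Shape Φ p E.G c v := by
  have hp := hA.prime
  have : Fact p.Prime := ⟨hp⟩
  have := Frobenius.residueField_charP hp hA.liesOver
  have hp1 : (1 : ℚ) < p := by exact_mod_cast hp.one_lt
  have hB : (0 : ℚ) < 1 / ((p : ℚ) - 1) := by
    apply div_pos one_pos; linarith
  have hcA : c ∈ A := mem_of_ord hA (Or.inr hc.le)
  have hcr := residue_eq_zero_of_pos hA hcA (Or.inr hc)
  have hx1 := h.srep_one hcA hcr hc0
  obtain ⟨a₀, -, ha₀0, hcases⟩ := exists_nonconst E Φ hA hg hg0 (B := 1 / ((p : ℚ) - 1))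
  -- rewrite in terms of the normalised function
  set a' := a / a₀ ^ p with ha'
  have he : E.side () (a • g ^ p) =
      algebraMap Ω (LaurentSeries Ω) a' * (E.side () (a₀ • g)) ^ p := by
    rw [algHom_smul, algHom_smul, map_pow (E.side ()), smul_eq_algebraMap_mul, smul_eq_algebraMap_mul,
      mul_pow, ← mul_assoc, ← map_pow (algebraMap Ω (LaurentSeries Ω)), ← map_mul, ha',
      div_mul_cancel₀ _ (pow_ne_zero _ ha₀0)]
  rcases hcases with ⟨w, hw, hnc, hwr⟩ | hcong
  · exfalso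
    rw [← algHom_smul] at hwr
    have hw0 : w ≠ 0 := fun h0 => hnc 0 (by rw [h0, map_zero])
    have h1 := hx1.mul ((hwr.pow p).inv (pow_ne_zero _ hw0))
    have hne : E.side () (a₀ • g) ≠ 0 := fun h0 => by
      rw [h0] at hwr
      exact hw0 (hwr.unique SRep.zero)
    rw [he, mul_assoc, mul_inv_cancel₀ (pow_ne_zero _ hne), mul_one, one_mul] at h1
    obtain ⟨hmem, hconst⟩ := srep_const_iff h1
    obtain ⟨s, hs⟩ := const_of_pow_const (p := p)
      (show (w⁻¹) ^ p = _ from (inv_pow w p).trans hconst)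
    exact hnc s⁻¹ (by rw [map_inv₀, ← hs, inv_inv])
  -- the common computation
  have main : ∀ b : Ω, b ≠ 0 → 0 < ord A p b → ord A p c < 1 + ord A p b →
      ord A p c ≤ p * ord A p b → ∀ w : LaurentSeries (ResidueField A),
        Cong b (E.side () (a₀ • g)) w → ∃ (hη : b ^ p / c ∈ A) (r : ResidueField A),
          v = algebraMap (ResidueField A) _ r + residue A ⟨_, hη⟩ • w ^ p := by
    intro b hb0 hb hb1 hbp w hw
    obtain ⟨hη, hy⟩ := hw.pow_prime hA hb0 hc0 hb hb1 hbp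
    have h1 := h.mul hcA hcr hc0 (Cong.inv hcA hcr hc0 hy)
    have hne : (E.side () (a₀ • g)) ^ p ≠ 0 := fun h0 =>
      one_ne_zero ((hy.srep_one hcA hcr hc0).unique (h0 ▸ SRep.zero))
    rw [he, mul_assoc, mul_inv_cancel₀ hne, mul_one, Cong, smul_eq_algebraMap_mul,
      ← map_one (algebraMap Ω (LaurentSeries Ω)), ← map_sub, ← map_mul] at h1
    obtain ⟨hr, hr'⟩ := srep_const_iff h1
    exact ⟨hη, residue A ⟨_, hr⟩, by rw [← hr']; abel⟩
  have hcB : ord A p c < 1 + 1 / ((p : ℚ) - 1) := by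
    rw [one_add_div (by linarith), lt_div_iff₀ (by linarith)]; linarith
  rcases hcong with ⟨b, hb, hb0, hbpos, hbB, w, hwG, hnc, hw⟩ | ⟨b, hb0, hbB, w, hw⟩
  · have hbB' : ((p : ℚ) - 1) * ord A p b < 1 := by
      rwa [mul_comm, ← lt_div_iff₀ (by linarith)]
    by_cases hlt : (p : ℚ) * ord A p b < ord A p c
    · exfalso
      -- the power dominates
      have hbp0 : b ^ p ≠ 0 := pow_ne_zero _ hb0
      have hbpA : b ^ p ∈ A := mem_of_ord hA (Or.inr (by rw [hA.ord_pow hb0]; positivity))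
      have hbpr := residue_eq_zero_of_pos hA hbpA (Or.inr (by rw [hA.ord_pow hb0]; positivity))
      obtain ⟨hη, hy⟩ := hw.pow_prime hA hb0 hbp0 hbpos (by
        rw [hA.ord_pow hb0]; linarith) (by rw [hA.ord_pow hb0])
      have hcb : c / b ^ p ∈ A := mem_of_ord hA (Or.inr (by
        rw [hA.ord_div hc0 hbp0, hA.ord_pow hb0]; linarith))
      have hcbr := residue_eq_zero_of_pos hA hcb (Or.inr (by
        rw [hA.ord_div hc0 hbp0, hA.ord_pow hb0]; linarith))
      have hx := Cong.rescale (A := A) hc0 hcb h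
      rw [hcbr, zero_smul] at hx
      have h1 := Cong.mul hbpA hbpr hbp0 hx (Cong.inv hbpA hbpr hbp0 hy)
      have hne : (E.side () (a₀ • g)) ^ p ≠ 0 := fun h0 =>
        one_ne_zero ((hy.srep_one hbpA hbpr hbp0).unique (h0 ▸ SRep.zero))
      rw [he, mul_assoc, mul_inv_cancel₀ hne, mul_one, Cong, smul_eq_algebraMap_mul,
        ← map_one (algebraMap Ω (LaurentSeries Ω)), ← map_sub, ← map_mul, zero_add] at h1
      obtain ⟨hr, hr'⟩ := srep_const_iff h1
      rw [show (⟨_, hη⟩ : A) = 1 from Subtype.ext (div_self hbp0), map_one, one_smul,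
        neg_eq_iff_eq_neg, ← map_neg] at hr'
      obtain ⟨s, hs⟩ := const_of_pow_const hr'
      exact hnc s hs
    · obtain ⟨hη, r, hv⟩ := main b hb0 hbpos (by linarith) (not_lt.mp hlt) w hw
      rcases (not_lt.mp hlt).lt_or_eq with hgt | heq
      · refine Or.inl ⟨r, ?_⟩
        rw [hv, residue_eq_zero_of_pos hA hη (Or.inr (by
          rw [hA.ord_div (pow_ne_zero _ hb0) hc0, hA.ord_pow hb0]; linarith)), zero_smul, add_zero]
      · refine Or.inr ⟨⟨b, hb, hb0, heq.symm⟩, ?_⟩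
        obtain ⟨r', hr'⟩ := IsAlgClosed.exists_pow_nat_eq r hp.pos
        obtain ⟨η', hη'⟩ := IsAlgClosed.exists_pow_nat_eq (residue A ⟨_, hη⟩) hp.pos
        refine ⟨algebraMap (ResidueField A) _ r' + algebraMap (ResidueField A) _ η' * w,
          add_mem (E.G.algebraMap_mem _) (mul_mem (E.G.algebraMap_mem _) hwG), ?_⟩
        have := charP_of_injective_algebraMap
          (algebraMap (ResidueField A) (LaurentSeries (ResidueField A))).injective p
        rw [hv, add_pow_char, mul_pow, ← map_pow, ← map_pow, hr', hη', smul_eq_algebraMap_mul]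
  · have h1 : 1 / ((p : ℚ) - 1) * p = 1 + 1 / ((p : ℚ) - 1) := by
      rw [one_add_div (by linarith), div_mul_eq_mul_div]; ring
    have hpb : ord A p c < p * ord A p b := by
      calc ord A p c < 1 + 1 / ((p : ℚ) - 1) := hcB
        _ ≤ p * ord A p b := by
          rw [← h1, mul_comm]; exact mul_le_mul_of_nonneg_left hbB (Nat.cast_nonneg p)
    obtain ⟨hη, r, hv⟩ := main b hb0 (lt_of_lt_of_le hB hbB) (by linarith) hpb.le w hw
    refine Or.inl ⟨r, ?_⟩
    rw [hv, residue_eq_zero_of_pos hA hη (Or.inr (by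
      rw [hA.ord_div (pow_ne_zero _ hb0) hc0, hA.ord_pow hb0]; linarith)), zero_smul, add_zero]

end Fermat.Agent.OrdinaryT

end
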